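import Mathlib

/-!
# S14T / [An2] : shared definitions (helper3)

Smooth ("tent") unfolding of the partial zeta functions of a number field `K`.

* `tent t = max 0 (1 - |t|)`
* `logBasis K` : the real basis of `logSpace K` coming from `basisUnitLattice K`
* `psi K y = ∏ i, tent (coordinate i of y)` : partition of unity for the unit lattice
* `ell K a = logMap (mixedEmbedding K a)` : the log vector of `a : K`
* `G K s a = psi (ell a) * |N a| ^ (-s)` for `a : 𝓞 K`, `a ≠ 0` (and `0` at `a = 0`)
* `S K J s = ∑' a : J, G K s a`
-/

set_option autoImplicit false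

open NumberField NumberField.InfinitePlace NumberField.Units
  NumberField.Units.dirichletUnitTheorem NumberField.mixedEmbedding Module

namespace Fermat.Agent.S14T.An2

/-- The tent function. -/
noncomputable def tent (t : ℝ) : ℝ := max 0 (1 - |t|)

variable (K : Type*) [Field K] [NumberField K]

open scoped Classical in
/-- The real basis of `logSpace K` given by (Mathlib's chosen) basis of the unit lattice. -/
noncomputable def logBasis : Basis (Fin (rank K)) ℝ (logSpace K) :=
  (basisUnitLattice K).ofZLatticeBasis ℝ (unitLattice K)

/-- Tent partition of unity on `logSpace K` for the unit lattice. -/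
noncomputable def psi (y : logSpace K) : ℝ := ∏ i, tent ((logBasis K).repr y i)

/-- The log vector of `a : K`. -/
noncomputable def ell (a : K) : logSpace K := logMap (mixedEmbedding K a)

open scoped Classical in
/-- The smoothed weight `G_s(a) = psi (ell a) * |N a| ^ (-s)` on `𝓞 K` (zero at `0`). -/
noncomputable def G (s : ℝ) (a : 𝓞 K) : ℝ :=
  if a = 0 then 0 else psi K (ell K (a : K)) * ((Algebra.norm ℤ a).natAbs : ℝ) ^ (-s)

/-- `S(J, s) = ∑_{a ∈ J} G_s(a)`. -/
noncomputable def S (J : Ideal (𝓞 K)) (s : ℝ) : ℝ := ∑' a : J, G K s (a : 𝓞 K)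

end Fermat.Agent.S14T.An2
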