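import Mathlib
import Fermat.Agent.S14T.An2Defs

/-!
# S14T / [An2] : scaling of the smoothed weight (helper59)

`G_s (m * a) = m ^ (-(n * s)) * G_s a` for a nonzero natural number `m`, where
`n = [K : ℚ]`: the log vector `ell` is invariant under scaling by a nonzero rational integer
and the norm is multiplied by `m ^ n`.  Consequently
`S K (span {m}) s = m ^ (-(n * s)) * S K ⊤ s`.
-/

set_option autoImplicit false

open NumberField NumberField.InfinitePlace NumberField.Units
  NumberField.Units.dirichletUnitTheorem NumberField.mixedEmbedding Module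

namespace Fermat.Agent.S14T.An2

variable (K : Type*) [Field K] [NumberField K]

/-- The mixed embedding of a nonzero element has nonzero norm. -/
theorem norm_mixedEmbedding_ne_zero {a : K} (ha : a ≠ 0) :
    mixedEmbedding.norm (mixedEmbedding K a) ≠ 0 := by
  rw [mixedEmbedding.norm_eq_norm]
  simpa using (Algebra.norm_ne_zero_iff (R := ℚ)).mpr ha

/-- The log vector is invariant under multiplication by a nonzero natural number. -/
theorem ell_natCast_mul {m : ℕ} (hm : m ≠ 0) {a : K} (ha : a ≠ 0) :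
    ell K ((m : K) * a) = ell K a := by
  unfold ell
  have h1 : mixedEmbedding K ((m : K) * a) = (m : ℝ) • mixedEmbedding K a := by
    rw [map_mul, map_natCast, Nat.cast_smul_eq_nsmul, nsmul_eq_mul]
  rw [h1]
  exact logMap_real_smul (norm_mixedEmbedding_ne_zero K ha) (Nat.cast_ne_zero.mpr hm)

/-- The absolute norm of `m * a` for a natural number `m`. -/
theorem natAbs_norm_natCast_mul (m : ℕ) (a : 𝓞 K) :
    (Algebra.norm ℤ ((m : 𝓞 K) * a)).natAbs =
      m ^ (finrank ℚ K) * (Algebra.norm ℤ a).natAbs := by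
  have h : (m : 𝓞 K) = algebraMap ℤ (𝓞 K) (m : ℤ) := by simp
  rw [map_mul, Int.natAbs_mul, h, Algebra.norm_algebraMap, RingOfIntegers.rank, Int.natAbs_pow,
    Int.natAbs_natCast]

/-- Scaling of the smoothed weight by a nonzero natural number. -/
theorem G_natCast_mul {m : ℕ} (hm : m ≠ 0) (s : ℝ) (a : 𝓞 K) :
    G K s ((m : 𝓞 K) * a) = (m : ℝ) ^ (-((finrank ℚ K : ℝ) * s)) * G K s a := by
  classical
  unfold G
  by_cases ha : a = 0
  · simp [ha]
  have hm' : (m : 𝓞 K) ≠ 0 := Nat.cast_ne_zero.mpr hm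
  have hma : (m : 𝓞 K) * a ≠ 0 := mul_ne_zero hm' ha
  rw [if_neg hma, if_neg ha]
  have haK : (a : K) ≠ 0 := by
    simpa using (RingOfIntegers.coe_ne_zero_iff (K := K)).mpr ha
  have hell : ell K ((((m : 𝓞 K) * a : 𝓞 K)) : K) = ell K (a : K) := by
    have : ((((m : 𝓞 K) * a : 𝓞 K)) : K) = (m : K) * (a : K) := by simp
    rw [this]
    exact ell_natCast_mul K hm haK
  rw [hell, natAbs_norm_natCast_mul]
  have h0 : (0 : ℝ) ≤ (m : ℝ) ^ (finrank ℚ K) := by positivity
  have h1 : (0 : ℝ) ≤ ((Algebra.norm ℤ a).natAbs : ℝ) := by positivity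
  have h2 : ((m : ℝ) ^ (finrank ℚ K)) ^ (-s) = (m : ℝ) ^ (-((finrank ℚ K : ℝ) * s)) := by
    rw [← Real.rpow_natCast, ← Real.rpow_mul (Nat.cast_nonneg m)]
    congr 1
    ring
  push_cast
  rw [Real.mul_rpow h0 h1, h2]
  ring

/-- Scaling by `2` (the form used for the pole bound). -/
theorem G_two_mul (s : ℝ) (a : 𝓞 K) :
    G K s (2 * a) = (2 : ℝ) ^ (-((finrank ℚ K : ℝ) * s)) * G K s a := by
  have := G_natCast_mul K (m := 2) two_ne_zero s a
  simpa using this

/-- The sum over the principal ideal `(m)` is the scaled sum over the whole ring. -/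
theorem S_span_natCast {m : ℕ} (hm : m ≠ 0) (s : ℝ) :
    S K (Ideal.span {(m : 𝓞 K)}) s = (m : ℝ) ^ (-((finrank ℚ K : ℝ) * s)) * S K ⊤ s := by
  classical
  unfold S
  have hm' : (m : 𝓞 K) ≠ 0 := Nat.cast_ne_zero.mpr hm
  -- the bijection `⊤ ≃ span {m}`, `a ↦ m * a`
  let e : (⊤ : Ideal (𝓞 K)) ≃ (Ideal.span {(m : 𝓞 K)} : Ideal (𝓞 K)) :=
    Equiv.ofBijective
      (fun a => ⟨(m : 𝓞 K) * (a : 𝓞 K), Ideal.mem_span_singleton.mpr (dvd_mul_right _ _)⟩)
      ⟨fun a b hab => by
          have h := congrArg Subtype.val hab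
          exact Subtype.ext (mul_left_cancel₀ hm' h),
        fun b => by
          obtain ⟨c, hc⟩ := Ideal.mem_span_singleton.mp b.2
          exact ⟨⟨c, Submodule.mem_top⟩, Subtype.ext hc.symm⟩⟩
  rw [← e.tsum_eq, ← tsum_mul_left]
  refine tsum_congr fun a => ?_
  exact G_natCast_mul K hm s (a : 𝓞 K)

/-- `S K ⊤ s` is the sum of `G K s` over the whole ring of integers. -/
theorem S_top (s : ℝ) : S K ⊤ s = ∑' a : 𝓞 K, G K s a := by
  unfold S
  let e : (⊤ : Ideal (𝓞 K)) ≃ 𝓞 K :=
    ⟨fun a => a.1, fun a => ⟨a, Submodule.mem_top⟩, fun _ => rfl, fun _ => rfl⟩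
  exact e.tsum_eq (fun a : 𝓞 K => G K s a)

/-- The sum over the principal ideal `(m)`, with the right-hand side a sum over `𝓞 K`. -/
theorem S_span_natCast' {m : ℕ} (hm : m ≠ 0) (s : ℝ) :
    S K (Ideal.span {(m : 𝓞 K)}) s =
      (m : ℝ) ^ (-((finrank ℚ K : ℝ) * s)) * ∑' a : 𝓞 K, G K s a := by
  rw [S_span_natCast K hm s, S_top]

/-- The case `m = 2` (no summability hypothesis). -/
theorem S_span_two (s : ℝ) :
    S K (Ideal.span {(2 : 𝓞 K)}) s =
      (2 : ℝ) ^ (-((finrank ℚ K : ℝ) * s)) * ∑' a : 𝓞 K, G K s a := by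
  have := S_span_natCast' K (m := 2) two_ne_zero s
  simpa using this

/-- The absolute norm of the principal ideal `(m)`. -/
theorem absNorm_span_natCast (m : ℕ) :
    Ideal.absNorm (Ideal.span {(m : 𝓞 K)}) = m ^ finrank ℚ K := by
  rw [Ideal.absNorm_span_singleton]
  have := natAbs_norm_natCast_mul K m 1
  simpa using this

/-- The absolute norm of the principal ideal `(2)`. -/
theorem absNorm_span_two :
    Ideal.absNorm (Ideal.span {(2 : 𝓞 K)}) = 2 ^ finrank ℚ K := by
  have := absNorm_span_natCast K 2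
  simpa using this

end Fermat.Agent.S14T.An2
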