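import Fermat.Agent.S14T.An2Coset
import Fermat.Agent.S14T.An2Scale

/-!
# S14T / [An2] (P5) (P4') : pole bound and the asymptotic comparison (helper3)

* `pole_bound` : `(s - 1) * ∑' a : 𝓞 K, G K s a ≤ A` for `s ∈ (1, 2]`.
* `S_asymp` : for a nonzero ideal `J`, `|N(J) ^ s * S K J s - S K ⊤ s| ≤ B` for `s ∈ (1, 2]`.
-/

set_option autoImplicit false

open NumberField NumberField.InfinitePlace NumberField.Units
  NumberField.Units.dirichletUnitTheorem NumberField.mixedEmbedding Module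

namespace Fermat.Agent.S14T.An2

open scoped Classical

variable (K : Type*) [Field K] [NumberField K]

theorem tsum_G_nonneg (s : ℝ) : 0 ≤ ∑' a : 𝓞 K, G K s a :=
  tsum_nonneg fun a => G_nonneg s a

/-- elementary: `1 - 2 ^ (n - n s) ≥ (s - 1) * (log 2 / 2)` for `n ≥ 1`, `s ∈ [1, 2]`. -/
theorem one_sub_two_rpow_ge {n : ℕ} (hn : 1 ≤ n) {s : ℝ} (hs1 : 1 ≤ s) (hs2 : s ≤ 2) :
    (s - 1) * (Real.log 2 / 2) ≤ 1 - (2 : ℝ) ^ n * (2 : ℝ) ^ (-((n : ℝ) * s)) := by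
  have hlog2 : 0 < Real.log 2 := Real.log_pos (by norm_num)
  have hlog2' : Real.log 2 ≤ 1 := by
    have := Real.log_le_sub_one_of_pos (by norm_num : (0 : ℝ) < 2)
    linarith
  have hn' : (1 : ℝ) ≤ n := by exact_mod_cast hn
  set y : ℝ := (s - 1) * Real.log 2 with hy
  have hy0 : 0 ≤ y := mul_nonneg (by linarith) hlog2.le
  have hy1 : y ≤ 1 := by nlinarith
  have hθ : (2 : ℝ) ^ n * (2 : ℝ) ^ (-((n : ℝ) * s)) = Real.exp (-(n * y)) := by
    rw [← Real.rpow_natCast, ← Real.rpow_add (by norm_num : (0 : ℝ) < 2),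
      Real.rpow_def_of_pos (by norm_num : (0 : ℝ) < 2)]
    congr 1
    rw [hy]; ring
  have h1 : Real.exp (-(n * y)) ≤ Real.exp (-y) := by
    apply Real.exp_le_exp.mpr
    nlinarith
  have h2 : Real.exp (-y) * (1 + y) ≤ 1 := by
    have h3 : y + 1 ≤ Real.exp y := Real.add_one_le_exp y
    have h4 : Real.exp (-y) * Real.exp y = 1 := by rw [← Real.exp_add]; simp
    have h5 : 0 < Real.exp (-y) := Real.exp_pos _
    nlinarith
  have h5 : 0 < Real.exp (-y) := Real.exp_pos _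
  rw [hθ]
  have h6 : (s - 1) * (Real.log 2 / 2) = y / 2 := by rw [hy]; ring
  rw [h6]
  nlinarith

/-- **(P5) Pole bound**, from the scaling relation for the sublattice `2 𝓞 K`. -/
theorem pole_bound_of
    (h2 : ∀ s : ℝ, S K (Ideal.span {(2 : 𝓞 K)}) s =
      (2 : ℝ) ^ (-((finrank ℚ K : ℝ) * s)) * ∑' a : 𝓞 K, G K s a)
    (hN : Ideal.absNorm (Ideal.span {(2 : 𝓞 K)}) = 2 ^ finrank ℚ K) :
    ∃ A : ℝ, ∀ s : ℝ, 1 < s → s ≤ 2 → (s - 1) * ∑' a : 𝓞 K, G K s a ≤ A := by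
  have h2ne : Ideal.span {(2 : 𝓞 K)} ≠ ⊥ := by
    rw [Ne, Ideal.span_singleton_eq_bot]
    exact two_ne_zero
  obtain ⟨B, hB⟩ := coset_bound K _ h2ne
  have hlog2 : 0 < Real.log 2 := Real.log_pos (by norm_num)
  refine ⟨2 * B / Real.log 2, fun s hs1 hs2 => ?_⟩
  have hT := tsum_G_nonneg K s
  have hb := hB s hs1 hs2
  rw [h2 s, hN] at hb
  push_cast at hb
  have hge := one_sub_two_rpow_ge (n := finrank ℚ K) finrank_pos hs1.le hs2
  have hb' := (abs_le.mp hb).2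
  have h3 : (∑' a : 𝓞 K, G K s a) * ((s - 1) * (Real.log 2 / 2)) ≤ B := by
    have := mul_le_mul_of_nonneg_left hge hT
    nlinarith
  rw [le_div_iff₀ hlog2]
  nlinarith

/-- **(P4')** from the pole bound. -/
theorem S_asymp_of
    (hpole : ∃ A : ℝ, ∀ s : ℝ, 1 < s → s ≤ 2 → (s - 1) * ∑' a : 𝓞 K, G K s a ≤ A)
    (J : Ideal (𝓞 K)) (hJ : J ≠ ⊥) :
    ∃ B : ℝ, ∀ s : ℝ, 1 < s → s ≤ 2 →
      |(Ideal.absNorm J : ℝ) ^ s * S K J s - S K ⊤ s| ≤ B := by
  obtain ⟨A, hA⟩ := hpole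
  obtain ⟨B, hB⟩ := coset_bound K J hJ
  obtain ⟨N, hNdef⟩ : ∃ N : ℝ, N = (Ideal.absNorm J : ℝ) := ⟨_, rfl⟩
  have hN1 : 1 ≤ N := by
    rw [hNdef]
    have : Ideal.absNorm J ≠ 0 := by
      rw [Ne, Ideal.absNorm_eq_zero_iff]; exact hJ
    exact_mod_cast Nat.one_le_iff_ne_zero.mpr this
  have hN0 : 0 < N := by linarith
  have hlogN : 0 ≤ Real.log N := Real.log_nonneg hN1
  refine ⟨N * B + N * Real.log N * A, fun s hs1 hs2 => ?_⟩
  rw [S_top, ← hNdef]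
  have hb := hB s hs1 hs2
  rw [← hNdef] at hb
  have hT := tsum_G_nonneg K s
  have ha := hA s hs1 hs2
  obtain ⟨T, hTdef⟩ : ∃ T : ℝ, T = ∑' a : 𝓞 K, G K s a := ⟨_, rfl⟩
  rw [← hTdef] at hb hT ha ⊢
  obtain ⟨P, hPdef⟩ : ∃ P : ℝ, P = N ^ (s - 1) := ⟨_, rfl⟩
  have hNs : N ^ s = P * N := by
    rw [hPdef]
    have : s = (s - 1) + 1 := by ring
    conv_lhs => rw [this]
    rw [Real.rpow_add hN0, Real.rpow_one]
  have hP1 : 1 ≤ P := by
    rw [hPdef]; exact Real.one_le_rpow hN1 (by linarith)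
  have hPN : P ≤ N := by
    rw [hPdef]
    calc N ^ (s - 1) ≤ N ^ (1 : ℝ) := Real.rpow_le_rpow_of_exponent_le hN1 (by linarith)
      _ = N := Real.rpow_one N
  have hPx : P - 1 ≤ (s - 1) * Real.log N * N := by
    have hdef : P = Real.exp (Real.log N * (s - 1)) := by
      rw [hPdef, Real.rpow_def_of_pos hN0]
    have hx0 : 0 ≤ Real.log N * (s - 1) := mul_nonneg hlogN (by linarith)
    have h1 : -(Real.log N * (s - 1)) + 1 ≤ Real.exp (-(Real.log N * (s - 1))) :=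
      Real.add_one_le_exp _
    have h2 : Real.exp (-(Real.log N * (s - 1))) * P = 1 := by
      rw [hdef, ← Real.exp_add]; simp
    have h3 : 0 < P := by linarith
    -- P - 1 ≤ x * P ≤ x * N
    have h4 : P - 1 ≤ Real.log N * (s - 1) * P := by nlinarith
    have h5 : Real.log N * (s - 1) * P ≤ Real.log N * (s - 1) * N :=
      mul_le_mul_of_nonneg_left hPN hx0
    linarith
  rw [hNs]
  have e : P * N * S K J s - T = P * (N * S K J s - T) + (P - 1) * T := by ring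
  rw [e]
  refine (abs_add_le _ _).trans ?_
  rw [abs_mul, abs_mul, abs_of_nonneg (by linarith : (0 : ℝ) ≤ P),
    abs_of_nonneg (by linarith : (0 : ℝ) ≤ P - 1), abs_of_nonneg hT, abs_sub_comm]
  have hB0 : 0 ≤ B := (abs_nonneg _).trans hb
  have t1 : P * |T - N * S K J s| ≤ N * B := mul_le_mul hPN hb (abs_nonneg _) hN0.le
  have t2 : (P - 1) * T ≤ N * Real.log N * A := by
    calc (P - 1) * T ≤ (s - 1) * Real.log N * N * T := mul_le_mul_of_nonneg_right hPx hT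
      _ = N * Real.log N * ((s - 1) * T) := by ring
      _ ≤ N * Real.log N * A := mul_le_mul_of_nonneg_left ha (mul_nonneg hN0.le hlogN)
  linarith

/-- **(P5) Pole bound** : `(s - 1) * ∑' a : 𝓞 K, G K s a` is bounded on `(1, 2]`. -/
theorem pole_bound :
    ∃ A : ℝ, ∀ s : ℝ, 1 < s → s ≤ 2 → (s - 1) * ∑' a : 𝓞 K, G K s a ≤ A :=
  pole_bound_of K (S_span_two K) (absNorm_span_two K)

/-- The pole bound in terms of `S K ⊤ s`. -/
theorem pole_bound_S_top :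
    ∃ A : ℝ, ∀ s : ℝ, 1 < s → s ≤ 2 → (s - 1) * S K ⊤ s ≤ A := by
  obtain ⟨A, hA⟩ := pole_bound K
  exact ⟨A, fun s hs1 hs2 => by rw [S_top]; exact hA s hs1 hs2⟩

/-- **(P4') Output of the analysis** : for every nonzero ideal `J`,
`N(J) ^ s * S K J s = S K ⊤ s + O(1)` uniformly for `s ∈ (1, 2]`. -/
theorem S_asymp (J : Ideal (𝓞 K)) (hJ : J ≠ ⊥) :
    ∃ B : ℝ, ∀ s : ℝ, 1 < s → s ≤ 2 →
      |(Ideal.absNorm J : ℝ) ^ s * S K J s - S K ⊤ s| ≤ B :=
  S_asymp_of K (pole_bound K) J hJ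

end Fermat.Agent.S14T.An2
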