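/-
S14T — Plan.lean (architect: helper63).  BINDING block interfaces of team T1
(S14 via Thaine relation + generation statement (G)).

Every block is a `Prop`-valued `def`.  The owner of a block proves
`theorem <name> : <BlockStatement>` in a NEW file importing this one.  This file has no
open proof obligations.

Chain:  [T] (helper14, `KummerVanishing p → ExtVanishingCts p`)  ←  `NFCore p`
        `NFCore p` (p ≥ 5)  ←  [Fin] ( [Th] `ThaineStatement p`, (G) `GStatement p`,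
                                      [Un] `UnitStatement p` )
        `NFCore 3`          ←  [P3]
        (G) `GStatement p`  ←  `GenStatement` (analytic or algebraic closer) + [Un-a] `EtaNotPow p`
-/
import Mathlib

set_option autoImplicit false

namespace Fermat.Agent.S14T

open NumberField
open scoped Pointwise nonZeroDivisors

/-! ## 1. The K-only interface with the translation block [T] -/

/-- The four hypotheses on the (integral) Kummer generator `α`; field-by-field identical to the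
hypotheses of helper14's `Fermat.Agent.S14Tr.KummerVanishing`.  `K = ℚ(ζ_p)`, `ζ : 𝓞 K` a
primitive `p`-th root of unity, `λ = (ζ - 1)`. -/
structure KVHyp (p : ℕ) (K : Type) [Field K] [NumberField K] (ζ : 𝓞 K) (α : 𝓞 K) : Prop where
  ne_zero : α ≠ 0
  /-- `(α) = 𝔞^p`. -/
  ideal : ∃ 𝔞 : Ideal (𝓞 K), Ideal.span {α} = 𝔞 ^ p
  /-- `α` lies in the `ω²`-eigenspace of `Kˣ/Kˣᵖ`. -/
  eigen : ∀ (σ : K ≃ₐ[ℚ] K) (n : ℕ), σ (ζ : K) = (ζ : K) ^ n →
    ∃ y : K, σ (α : K) = (α : K) ^ (n ^ 2) * y ^ p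
  /-- every integral representative of `α·Kˣᵖ` is a `p`-th power modulo every power of `λ`. -/
  loc : ∀ x : 𝓞 K, (∃ y : K, y ≠ 0 ∧ (x : K) = (α : K) * y ^ p) →
    ∀ m : ℕ, ∃ c : 𝓞 K, x - c ^ p ∈ Ideal.span {ζ - 1} ^ m

/-- The number-field core = what T1 proves for every prime `p ≥ 3`. -/
def NFCore (p : ℕ) : Prop :=
  ∀ (K : Type) [Field K] [NumberField K] [IsCyclotomicExtension {p} ℚ K] (ζ : 𝓞 K),
    IsPrimitiveRoot ζ p → ∀ α : 𝓞 K, KVHyp p K ζ α → ∃ β : K, (α : K) = β ^ p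

/-- `NFCore p` in the literal shape of helper14's `KummerVanishing p`. -/
theorem kummerVanishing_shape {p : ℕ} (h : NFCore p) :
    ∀ (K : Type) [Field K] [NumberField K] [IsCyclotomicExtension {p} ℚ K] (ζ : 𝓞 K),
      IsPrimitiveRoot ζ p → ∀ α : 𝓞 K, α ≠ 0 →
      (∃ 𝔞 : Ideal (𝓞 K), Ideal.span {α} = 𝔞 ^ p) →
      (∀ (σ : K ≃ₐ[ℚ] K) (n : ℕ), σ (ζ : K) = (ζ : K) ^ n →
        ∃ y : K, σ (α : K) = (α : K) ^ (n ^ 2) * y ^ p) →
      (∀ x : 𝓞 K, (∃ y : K, y ≠ 0 ∧ (x : K) = (α : K) * y ^ p) →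
        ∀ m : ℕ, ∃ c : 𝓞 K, x - c ^ p ∈ Ideal.span {ζ - 1} ^ m) →
      ∃ β : K, (α : K) = β ^ p :=
  fun K _ _ _ ζ hζ α h1 h2 h3 h4 => h K ζ hζ α ⟨h1, h2, h3, h4⟩

/-! ## 2. Objects used by the core blocks -/

/-- A family of natural exponents `a σ ≡ ω(σ)⁻²  (mod p)` (`ω(σ) = n` iff `σ ζ = ζ^n`). -/
def IsInvSqFamily (p : ℕ) (K : Type) [Field K] [NumberField K] (ζ : 𝓞 K)
    (a : (K ≃ₐ[ℚ] K) → ℕ) : Prop :=
  ∀ (σ : K ≃ₐ[ℚ] K) (n : ℕ), σ (ζ : K) = (ζ : K) ^ n → (a σ : ZMod p) * (n : ZMod p) ^ 2 = 1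

/-- `η_a = ∏_σ σ(ζ - 1)^(a σ)`: a `p`-th power times the `ω²`-cyclotomic unit (for `p ≥ 5`). -/
noncomputable def etaElt (K : Type) [Field K] [NumberField K] (ζ : 𝓞 K)
    (a : (K ≃ₐ[ℚ] K) → ℕ) : 𝓞 K :=
  ∏ σ : K ≃ₐ[ℚ] K, (σ • (ζ - 1)) ^ a σ

/-- The classes of the good primes for `η`: degree one, not over `p`,
`η` NOT a `p`-th power residue. -/
def goodClasses (p : ℕ) (K : Type) [Field K] [NumberField K] (η : 𝓞 K) :
    Set (ClassGroup (𝓞 K)) :=
  {c | ∃ Q : (Ideal (𝓞 K))⁰, (Q : Ideal (𝓞 K)).IsPrime ∧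
    (Ideal.absNorm (Q : Ideal (𝓞 K))).Prime ∧ Ideal.absNorm (Q : Ideal (𝓞 K)) ≠ p ∧
    (¬ ∃ x : 𝓞 K, x ^ p - η ∈ (Q : Ideal (𝓞 K))) ∧ ClassGroup.mk0 Q = c}

/-! ## 3. Core block statements -/

/-- [Th] Thaine relation + eigen-projection (K-only; `F = K(ζ_q)` is internal to the proof):
for a good prime `Q`, the ideal `∏_σ (σQ)^(a σ)` is principal times a `p`-th power. -/
def ThaineStatement (p : ℕ) : Prop :=
  ∀ (K : Type) [Field K] [NumberField K] [IsCyclotomicExtension {p} ℚ K] (ζ : 𝓞 K),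
    IsPrimitiveRoot ζ p → ∀ a : (K ≃ₐ[ℚ] K) → ℕ, IsInvSqFamily p K ζ a →
    ∀ Q : Ideal (𝓞 K), Q.IsPrime → (Ideal.absNorm Q).Prime → Ideal.absNorm Q ≠ p →
      (¬ ∃ x : 𝓞 K, x ^ p - etaElt K ζ a ∈ Q) →
      ∃ (x y : 𝓞 K) (J : Ideal (𝓞 K)), x ≠ 0 ∧ y ≠ 0 ∧ J ≠ ⊥ ∧
        Ideal.span {x} * ∏ σ : K ≃ₐ[ℚ] K, (σ • Q) ^ a σ = Ideal.span {y} * J ^ p

/-- [Un-a] `η_a` is not a `p`-th power in `K` (for `5 ≤ p`). -/
def EtaNotPow (p : ℕ) : Prop :=
  ∀ (K : Type) [Field K] [NumberField K] [IsCyclotomicExtension {p} ℚ K] (ζ : 𝓞 K),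
    IsPrimitiveRoot ζ p → ∀ a : (K ≃ₐ[ℚ] K) → ℕ, IsInvSqFamily p K ζ a →
    ¬ ∃ x : K, x ^ p = (etaElt K ζ a : K)

/-- [Un-b] the unit case of `NFCore` (for `5 ≤ p`): an `ω²`-eigen unit that is a `p`-th power
at `λ` is a `p`-th power. -/
def UnitStatement (p : ℕ) : Prop :=
  ∀ (K : Type) [Field K] [NumberField K] [IsCyclotomicExtension {p} ℚ K] (ζ : 𝓞 K),
    IsPrimitiveRoot ζ p → ∀ ε : (𝓞 K)ˣ, KVHyp p K ζ (ε : 𝓞 K) →
    ∃ β : K, ((ε : 𝓞 K) : K) = β ^ p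

/-- (G) — the generation statement consumed by the core: the classes of the good primes for
`η_a` generate `Cl(K)/Cl(K)^p`.  Two closers: analytic (S14A) and algebraic (T2). -/
def GStatement (p : ℕ) : Prop :=
  ∀ (K : Type) [Field K] [NumberField K] [IsCyclotomicExtension {p} ℚ K] (ζ : 𝓞 K),
    IsPrimitiveRoot ζ p → ∀ a : (K ≃ₐ[ℚ] K) → ℕ, IsInvSqFamily p K ζ a →
    Subgroup.closure (goodClasses p K (etaElt K ζ a)) ⊔
      (powMonoidHom p : ClassGroup (𝓞 K) →* ClassGroup (𝓞 K)).range = ⊤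

/-- [Fin] algebraic assembly for `p ≥ 5`: class descent `c = (-e)^N c`, then the unit case. -/
def FinStatement (p : ℕ) : Prop :=
  p.Prime → 5 ≤ p → ThaineStatement p → GStatement p → UnitStatement p → NFCore p

/-- [P3] the case `p = 3` (`ℤ[ζ₃]` is a PID, units `±ζ^j`, `loc` with `m = 3`). -/
def P3Statement : Prop := NFCore 3

/-! ## 4. The generation statement for a general number field (target of the closers) -/

/-- (G) for an ARBITRARY number field `K ∋ ζ_p` and an arbitrary `η ∈ 𝓞 K` that is not a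
`p`-th power in `K`. -/
def GenStatement : Prop :=
  ∀ (K : Type) [Field K] [NumberField K] (p : ℕ), p.Prime → 3 ≤ p →
    (∃ ζ : K, IsPrimitiveRoot ζ p) → ∀ η : 𝓞 K, (¬ ∃ x : K, x ^ p = (η : K)) →
    Subgroup.closure (goodClasses p K η) ⊔
      (powMonoidHom p : ClassGroup (𝓞 K) →* ClassGroup (𝓞 K)).range = ⊤

theorem gStatement_of_gen {p : ℕ} (hp : p.Prime) (h3 : 3 ≤ p) (hG : GenStatement)
    (hη : EtaNotPow p) : GStatement p := by
  intro K _ _ _ ζ hζ a ha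
  refine hG K p hp h3 ⟨(ζ : K), ?_⟩ (etaElt K ζ a) (hη K ζ hζ a ha)
  exact hζ.map_of_injective (FaithfulSMul.algebraMap_injective (𝓞 K) K)

/-! ## 5. Top-level assembly of the core -/

theorem nfcore_of_blocks {p : ℕ} (hp : p.Prime) (h3 : 3 ≤ p) (hP3 : P3Statement)
    (hFin : FinStatement p) (hTh : ThaineStatement p) (hG : GStatement p)
    (hUn : UnitStatement p) : NFCore p := by
  rcases Nat.lt_or_ge p 5 with h | h
  · have h34 : p = 3 ∨ p = 4 := by omega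
    rcases h34 with rfl | rfl
    · exact hP3
    · exact absurd hp (by decide)
  · exact hFin hp h hTh hG hUn

end Fermat.Agent.S14T
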