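/-
S14T — Leaves.lean (captain: helper85).  Leaf interfaces INSIDE the blocks of `Plan.lean`
(`Prop`-valued defs only; no proofs here).  The owner of a leaf proves
`theorem <name> … : <LeafStatement> p` in a NEW file importing this one; the consumer of a leaf
takes it as a hypothesis.  Never edit this file; additions go to new files.
-/
import Fermat.Agent.S14T.Plan

set_option autoImplicit false

namespace Fermat.Agent.S14T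

open NumberField
open scoped Pointwise nonZeroDivisors

/-- `ε` lies in the `ω²`-eigenspace of `E/E^p` (unit form of `KVHyp.eigen`). -/
def UnitEigen2 (p : ℕ) (K : Type) [Field K] [NumberField K] (ζ : 𝓞 K) (ε : (𝓞 K)ˣ) : Prop :=
  ∀ (σ : K ≃ₐ[ℚ] K) (n : ℕ), σ (ζ : K) = (ζ : K) ^ n →
    ∃ δ : (𝓞 K)ˣ, σ ((ε : 𝓞 K) : K) = ((ε : 𝓞 K) : K) ^ (n ^ 2) * ((δ : 𝓞 K) : K) ^ p

/-- [Th-core] K-only Thaine relation (`F = K(ζ_q)` is internal to the proof): for a rational prime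
`q ≡ 1 (mod p)` there are `g` prime to `q` and `0 ≠ x ∈ 𝓞 K` with `(q - 1) ∣ ord_v x` for `v ∤ q`
and `(ζ - 1)·g^(ord_v x) ≡ 1 (mod v)` for `v ∣ q`. -/
def ThaineRel (p : ℕ) : Prop :=
  ∀ (K : Type) [Field K] [NumberField K] [IsCyclotomicExtension {p} ℚ K] (ζ : 𝓞 K),
    IsPrimitiveRoot ζ p → ∀ q : ℕ, q.Prime → q % p = 1 →
    ∃ (g : ℕ) (x : 𝓞 K), g.Coprime q ∧ x ≠ 0 ∧
      ∀ v : Ideal (𝓞 K), v.IsPrime → v ≠ ⊥ → ∀ r : ℕ, x ∈ v ^ r → x ∉ v ^ (r + 1) →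
        ((q : 𝓞 K) ∉ v → (q - 1) ∣ r) ∧
        ((q : 𝓞 K) ∈ v → (ζ - 1) * (g : 𝓞 K) ^ r - 1 ∈ v)

/-- [Un-D] two `ω²`-eigen units are dependent modulo `p`-th powers
(`dim (E/E^p)(ω²) ≤ 1`, Galois-equivariant Dirichlet unit theorem; for `5 ≤ p`). -/
def UnitRel (p : ℕ) : Prop :=
  ∀ (K : Type) [Field K] [NumberField K] [IsCyclotomicExtension {p} ℚ K] (ζ : 𝓞 K),
    IsPrimitiveRoot ζ p → ∀ ε₁ ε₂ : (𝓞 K)ˣ, UnitEigen2 p K ζ ε₁ → UnitEigen2 p K ζ ε₂ →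
    ∃ (a b : ℤ) (δ : (𝓞 K)ˣ), ¬ ((p : ℤ) ∣ a ∧ (p : ℤ) ∣ b) ∧ ε₁ ^ a * ε₂ ^ b = δ ^ p

/-- [Un-L] the `ω²`-cyclotomic unit modulo `λ³` (for `5 ≤ p`): `η_a = ((ζ-1)^k)^p · u` with `u` an
`ω²`-eigen unit none of whose powers `u^j`, `p ∤ j`, is a rational integer modulo `λ³`. -/
def EtaCube (p : ℕ) : Prop :=
  ∀ (K : Type) [Field K] [NumberField K] [IsCyclotomicExtension {p} ℚ K] (ζ : 𝓞 K),
    IsPrimitiveRoot ζ p → ∀ a : (K ≃ₐ[ℚ] K) → ℕ, IsInvSqFamily p K ζ a →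
    ∃ (k : ℕ) (u : (𝓞 K)ˣ),
      etaElt K ζ a = ((ζ - 1) ^ k) ^ p * (u : 𝓞 K) ∧ UnitEigen2 p K ζ u ∧
      ∀ (j : ℕ) (m : ℤ), (u : 𝓞 K) ^ j - (m : 𝓞 K) ∈ Ideal.span {ζ - 1} ^ 3 → p ∣ j

/-- [Un-P] `p`-th powers are rational integers modulo `λ³` (for `3 ≤ p`; true modulo `λ^p`). -/
def PowInt (p : ℕ) : Prop :=
  ∀ (K : Type) [Field K] [NumberField K] [IsCyclotomicExtension {p} ℚ K] (ζ : 𝓞 K),
    IsPrimitiveRoot ζ p → ∀ w : 𝓞 K, ∃ m : ℤ, w ^ p - (m : 𝓞 K) ∈ Ideal.span {ζ - 1} ^ 3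

end Fermat.Agent.S14T
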