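/-
S14T — EtaCore.lean (owner: helper27).

The `ω²`-cyclotomic unit modulo `λ³` (helper74's (S2), board #733), for `K = ℚ(ζ_p)`, `p ≥ 5`:

* `etaElt K ζ a = u * ((ζ - 1) ^ s) ^ p` with `u` a unit (`eta_split`);
* `u` lies in the `ω²`-eigenspace of `E / E^p` (`eta_unit_eigen`);
* if `ε ^ A * u ^ B = δ ^ p` with `ε ≡ c ^ p (mod λ³)` then `p ∣ B` (`dvd_of_rel`);
* hence `EtaNotPow p` (`etaNotPow`).

Method: elements of `𝓞 K` congruent to `x₀ + x₁ π + x₂ π²  (mod π³)` with integers `x_i`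
(`π = ζ - 1`), and the additive invariant `ℓ₂ = x₂/x₀ - (x₁/x₀)²/2 ∈ ZMod p`.
-/
import Fermat.Agent.S14T.Leaves

set_option autoImplicit false

namespace Fermat.Agent.S14T.EtaCore

open NumberField Finset
open scoped Pointwise nonZeroDivisors

/-! ## 1. Integer triples modulo `π³` in a commutative ring -/

section Triple

variable {R : Type*} [CommRing R]

/-- `z ≡ x₀ + x₁ π + x₂ π²  (mod π³)`. -/
def Approx (π z : R) (x₀ x₁ x₂ : ℤ) : Prop :=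
  π ^ 3 ∣ z - ((x₀ : R) + (x₁ : R) * π + (x₂ : R) * π ^ 2)

theorem Approx.mul {π z w : R} {x₀ x₁ x₂ y₀ y₁ y₂ : ℤ} (hz : Approx π z x₀ x₁ x₂)
    (hw : Approx π w y₀ y₁ y₂) :
    Approx π (z * w) (x₀ * y₀) (x₀ * y₁ + x₁ * y₀) (x₀ * y₂ + x₁ * y₁ + x₂ * y₀) := by
  obtain ⟨s, hs⟩ := hz
  obtain ⟨t, ht⟩ := hw
  have hz' : z = ((x₀ : R) + (x₁ : R) * π + (x₂ : R) * π ^ 2) + π ^ 3 * s := by
    rw [← hs]; ring
  have hw' : w = ((y₀ : R) + (y₁ : R) * π + (y₂ : R) * π ^ 2) + π ^ 3 * t := by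
    rw [← ht]; ring
  refine ⟨((x₀ : R) + (x₁ : R) * π + (x₂ : R) * π ^ 2) * t
    + s * ((y₀ : R) + (y₁ : R) * π + (y₂ : R) * π ^ 2) + π ^ 3 * s * t
    + ((x₁ : R) * y₂ + x₂ * y₁) + x₂ * y₂ * π, ?_⟩
  rw [hz', hw']
  push_cast
  ring

theorem Approx.add {π z w : R} {x₀ x₁ x₂ y₀ y₁ y₂ : ℤ} (hz : Approx π z x₀ x₁ x₂)
    (hw : Approx π w y₀ y₁ y₂) :
    Approx π (z + w) (x₀ + y₀) (x₁ + y₁) (x₂ + y₂) := by
  obtain ⟨s, hs⟩ := hz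
  obtain ⟨t, ht⟩ := hw
  refine ⟨s + t, ?_⟩
  rw [mul_add, ← hs, ← ht]
  push_cast
  ring

theorem Approx.of_eq {π z : R} {x₀ x₁ x₂ y₀ y₁ y₂ : ℤ} (hz : Approx π z x₀ x₁ x₂)
    (h0 : x₀ = y₀) (h1 : x₁ = y₁) (h2 : x₂ = y₂) : Approx π z y₀ y₁ y₂ := by
  subst h0 h1 h2
  exact hz

theorem approx_one (π : R) : Approx π 1 1 0 0 := ⟨0, by push_cast; ring⟩

theorem approx_one_add (π : R) : Approx π (1 + π) 1 1 0 := ⟨0, by push_cast; ring⟩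

/-- If `z ≡ w (mod π³)` then approximations transfer. -/
theorem Approx.congr {π z w : R} {x₀ x₁ x₂ : ℤ} (hz : Approx π z x₀ x₁ x₂)
    (h : π ^ 3 ∣ w - z) : Approx π w x₀ x₁ x₂ := by
  have : w - ((x₀ : R) + (x₁ : R) * π + (x₂ : R) * π ^ 2)
      = (w - z) + (z - ((x₀ : R) + (x₁ : R) * π + (x₂ : R) * π ^ 2)) := by ring
  unfold Approx
  rw [this]
  exact dvd_add h hz

/-- `(1 + π)^n ≡ 1 + nπ + b π²` and `∑_{i<n} (1 + π)^i ≡ n + bπ + cπ²` with `2b = n(n-1)`,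
`6c = n(n-1)(n-2)`. -/
theorem approx_geom (π : R) (n : ℕ) :
    ∃ b c : ℤ, 2 * b = n * (n - 1) ∧ 6 * c = n * (n - 1) * (n - 2) ∧
      Approx π ((1 + π) ^ n) 1 n b ∧ Approx π (∑ i ∈ range n, (1 + π) ^ i) n b c := by
  induction n with
  | zero =>
    refine ⟨0, 0, by simp, by simp, ?_, ?_⟩
    · simpa using approx_one π
    · exact ⟨0, by simp⟩
  | succ n ih =>
    obtain ⟨b, c, hb, hc, h1, h2⟩ := ih
    refine ⟨b + n, c + b, ?_, ?_, ?_, ?_⟩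
    · push_cast; linear_combination hb
    · push_cast; linear_combination hc + 3 * hb
    · rw [pow_succ]
      refine (h1.mul (approx_one_add π)).of_eq ?_ ?_ ?_ <;> push_cast <;> ring
    · rw [Finset.sum_range_succ]
      refine (h2.add h1).of_eq ?_ ?_ ?_ <;> push_cast <;> ring

end Triple

/-! ## 2. The prime `π = ζ - 1` of `𝓞 K`, `K = ℚ(ζ_p)` -/

section Pi

variable {p : ℕ} [Fact p.Prime] {K : Type} [Field K] [NumberField K]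
  [IsCyclotomicExtension {p} ℚ K] {ζ : 𝓞 K}

theorem coe_primitive (hζ : IsPrimitiveRoot ζ p) : IsPrimitiveRoot (ζ : K) p :=
  hζ.map_of_injective (FaithfulSMul.algebraMap_injective (𝓞 K) K)

theorem toInteger_eq (hζ : IsPrimitiveRoot ζ p) : (coe_primitive hζ).toInteger = ζ := rfl

theorem prime_pi (hζ : IsPrimitiveRoot ζ p) : Prime (ζ - 1) := by
  have := (coe_primitive hζ).zeta_sub_one_prime'
  rwa [toInteger_eq hζ] at this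

theorem pi_dvd_intCast_iff (hζ : IsPrimitiveRoot ζ p) {n : ℤ} :
    (ζ - 1) ∣ (n : 𝓞 K) ↔ (p : ℤ) ∣ n := by
  have := IsCyclotomicExtension.Rat.zeta_sub_one_dvd_intCast_iff' p (coe_primitive hζ) (n := n)
  rwa [toInteger_eq hζ] at this

theorem assoc_pi_pow (hζ : IsPrimitiveRoot ζ p) : Associated ((ζ - 1) ^ (p - 1)) (p : 𝓞 K) := by
  have := IsCyclotomicExtension.Rat.associated_zeta_sub_one_pow_prime p (coe_primitive hζ)
  rwa [toInteger_eq hζ] at this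

theorem pi_pow_dvd_p (hζ : IsPrimitiveRoot ζ p) : (ζ - 1) ^ (p - 1) ∣ (p : 𝓞 K) :=
  (assoc_pi_pow hζ).dvd

theorem pi_cube_dvd_p (hζ : IsPrimitiveRoot ζ p) (h5 : 5 ≤ p) : (ζ - 1) ^ 3 ∣ (p : 𝓞 K) :=
  (pow_dvd_pow _ (by omega)).trans (pi_pow_dvd_p hζ)

/-- Every element of `𝓞 K` is congruent to a rational integer modulo `ζ - 1`. -/
theorem exists_int_sub_dvd (hζ : IsPrimitiveRoot ζ p) (x : 𝓞 K) :
    ∃ n : ℤ, (ζ - 1) ∣ x - (n : 𝓞 K) := by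
  have hx : x ∈ Algebra.adjoin ℤ {ζ} := by
    have h := (coe_primitive hζ).integralPowerBasis.adjoin_gen_eq_top
    rw [(coe_primitive hζ).integralPowerBasis_gen, toInteger_eq hζ] at h
    rw [h]
    exact Algebra.mem_top
  induction hx using Algebra.adjoin_induction with
  | mem y hy =>
    rw [Set.mem_singleton_iff] at hy
    exact ⟨1, by rw [hy, Int.cast_one]⟩
  | algebraMap r => exact ⟨r, by simp⟩
  | add y z _ _ hy hz =>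
    obtain ⟨n, hn⟩ := hy
    obtain ⟨m, hm⟩ := hz
    refine ⟨n + m, ?_⟩
    have : y + z - ((n + m : ℤ) : 𝓞 K) = (y - n) + (z - m) := by push_cast; ring
    rw [this]
    exact dvd_add hn hm
  | mul y z _ _ hy hz =>
    obtain ⟨n, hn⟩ := hy
    obtain ⟨m, hm⟩ := hz
    refine ⟨n * m, ?_⟩
    have : y * z - ((n * m : ℤ) : 𝓞 K) = (y - n) * z + n * (z - m) := by push_cast; ring
    rw [this]
    exact dvd_add (Dvd.dvd.mul_right hn _) (Dvd.dvd.mul_left hm _)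

/-- Every `p`-th power in `𝓞 K` is congruent to a rational integer modulo `p`. -/
theorem exists_int_dvd_pow_sub (hζ : IsPrimitiveRoot ζ p) (x : 𝓞 K) :
    ∃ n : ℤ, (p : 𝓞 K) ∣ x ^ p - (n : 𝓞 K) := by
  have hp : p.Prime := Fact.out
  obtain ⟨n, y, hy⟩ := exists_int_sub_dvd hζ x
  have hx : x = (n : 𝓞 K) + (ζ - 1) * y := by rw [← hy]; ring
  obtain ⟨r, hr⟩ := exists_add_pow_prime_eq hp (n : 𝓞 K) ((ζ - 1) * y)
  obtain ⟨t, ht⟩ := (assoc_pi_pow hζ).symm.dvd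
  refine ⟨n ^ p, ?_⟩
  have hpow : (ζ - 1) ^ p = (ζ - 1) ^ (p - 1) * (ζ - 1) := by
    rw [← pow_succ, Nat.sub_add_cancel hp.one_le]
  refine ⟨t * (ζ - 1) * y ^ p + (n : 𝓞 K) * ((ζ - 1) * y) * r, ?_⟩
  rw [hx, hr, mul_pow, hpow, ht]
  push_cast
  ring

end Pi

/-! ## 3. The invariant `ℓ₂` -/

section L2

/-- The additive invariant `ℓ₂ = x₂/x₀ - (x₁/x₀)²/2` of a triple. -/
noncomputable def ell2 (p : ℕ) [Fact p.Prime] (x₀ x₁ x₂ : ℤ) : ZMod p :=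
  (x₂ : ZMod p) / (x₀ : ZMod p) - ((x₁ : ZMod p) / (x₀ : ZMod p)) ^ 2 / 2

/-- `z` is congruent modulo `π³` to an integer triple with invertible leading term and
invariant `t`. -/
def HasL2 (p : ℕ) [Fact p.Prime] {R : Type*} [CommRing R] (π z : R) (t : ZMod p) : Prop :=
  ∃ x₀ x₁ x₂ : ℤ, Approx π z x₀ x₁ x₂ ∧ (x₀ : ZMod p) ≠ 0 ∧ ell2 p x₀ x₁ x₂ = t

variable {p : ℕ} [Fact p.Prime]

theorem natCast_ne_zero_of_lt {k : ℕ} (hk : 0 < k) (hkp : k < p) : (k : ZMod p) ≠ 0 := by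
  rw [Ne, ZMod.natCast_eq_zero_iff]
  exact fun h => absurd (Nat.le_of_dvd hk h) (by omega)

theorem two_ne_zero' (h5 : 5 ≤ p) : (2 : ZMod p) ≠ 0 := by
  have := natCast_ne_zero_of_lt (p := p) (k := 2) (by norm_num) (by omega)
  exact_mod_cast this

theorem three_ne_zero' (h5 : 5 ≤ p) : (3 : ZMod p) ≠ 0 := by
  have := natCast_ne_zero_of_lt (p := p) (k := 3) (by norm_num) (by omega)
  exact_mod_cast this

section Ring

variable {R : Type*} [CommRing R] {π : R}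

theorem HasL2.one (π : R) : HasL2 p π 1 0 :=
  ⟨1, 0, 0, approx_one π, by simp, by simp [ell2]⟩

theorem HasL2.mul (h5 : 5 ≤ p) {z w : R} {s t : ZMod p} (hz : HasL2 p π z s)
    (hw : HasL2 p π w t) : HasL2 p π (z * w) (s + t) := by
  obtain ⟨x₀, x₁, x₂, hx, hx0, rfl⟩ := hz
  obtain ⟨y₀, y₁, y₂, hy, hy0, rfl⟩ := hw
  refine ⟨_, _, _, hx.mul hy, ?_, ?_⟩
  · push_cast
    exact mul_ne_zero hx0 hy0
  · have h2 := two_ne_zero' h5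
    unfold ell2
    push_cast
    field_simp
    ring

theorem HasL2.pow (h5 : 5 ≤ p) {z : R} {s : ZMod p} (hz : HasL2 p π z s) (n : ℕ) :
    HasL2 p π (z ^ n) (n * s) := by
  induction n with
  | zero => simpa using HasL2.one π
  | succ n ih =>
    rw [pow_succ]
    have := ih.mul h5 hz
    convert this using 1
    push_cast; ring

theorem HasL2.prod_pow (h5 : 5 ≤ p) {ι : Type*} (S : Finset ι) (f : ι → R) (e : ι → ℕ)
    (t : ι → ZMod p) (h : ∀ i ∈ S, HasL2 p π (f i) (t i)) :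
    HasL2 p π (∏ i ∈ S, f i ^ e i) (∑ i ∈ S, (e i : ZMod p) * t i) := by
  classical
  induction S using Finset.induction_on with
  | empty => simpa using HasL2.one π
  | insert i S hi ih =>
    rw [Finset.prod_insert hi, Finset.sum_insert hi]
    exact ((h i (Finset.mem_insert_self i S)).pow h5 (e i)).mul h5
      (ih fun j hj => h j (Finset.mem_insert_of_mem hj))

/-- `∑_{i<n} (1+π)^i` has `ℓ₂ = (n-1)(n-5)/24` when `p ∤ n`. -/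
theorem hasL2_geom (h5 : 5 ≤ p) (π : R) (n : ℕ) (hn : (n : ZMod p) ≠ 0) :
    HasL2 p π (∑ i ∈ range n, (1 + π) ^ i) (((n : ZMod p) - 1) * ((n : ZMod p) - 5) / 24) := by
  obtain ⟨b, c, hb, hc, -, h⟩ := approx_geom π n
  refine ⟨n, b, c, h, by simpa using hn, ?_⟩
  have h2 := two_ne_zero' h5
  have h3 := three_ne_zero' h5
  have hb' : (b : ZMod p) = (n : ZMod p) * ((n : ZMod p) - 1) / 2 := by
    rw [eq_div_iff h2]
    have := congrArg (Int.cast : ℤ → ZMod p) hb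
    push_cast at this
    rw [← this]; ring
  have h6 : (6 : ZMod p) ≠ 0 := by
    have : (6 : ZMod p) = 2 * 3 := by norm_num
    rw [this]; exact mul_ne_zero h2 h3
  have hc' : (c : ZMod p) = (n : ZMod p) * ((n : ZMod p) - 1) * ((n : ZMod p) - 2) / 6 := by
    rw [eq_div_iff h6]
    have := congrArg (Int.cast : ℤ → ZMod p) hc
    push_cast at this
    rw [← this]; ring
  have h24 : (24 : ZMod p) ≠ 0 := by
    have : (24 : ZMod p) = 2 * 2 * 2 * 3 := by norm_num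
    rw [this]; exact mul_ne_zero (mul_ne_zero (mul_ne_zero h2 h2) h2) h3
  unfold ell2
  rw [hb', hc']
  push_cast
  field_simp
  ring

end Ring

variable {K : Type} [Field K] [NumberField K] [IsCyclotomicExtension {p} ℚ K] {ζ : 𝓞 K}

/-- Integer triples are unique modulo `p`. -/
theorem approx_unique (hζ : IsPrimitiveRoot ζ p) (h5 : 5 ≤ p) {z : 𝓞 K}
    {x₀ x₁ x₂ y₀ y₁ y₂ : ℤ} (hx : Approx (ζ - 1) z x₀ x₁ x₂) (hy : Approx (ζ - 1) z y₀ y₁ y₂) :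
    (p : ℤ) ∣ x₀ - y₀ ∧ (p : ℤ) ∣ x₁ - y₁ ∧ (p : ℤ) ∣ x₂ - y₂ := by
  set π := ζ - 1 with hπ
  have hπp : Prime π := prime_pi hζ
  have hπ0 : π ≠ 0 := hπp.ne_zero
  have hD : π ^ 3 ∣ ((x₀ - y₀ : ℤ) : 𝓞 K) + ((x₁ - y₁ : ℤ) : 𝓞 K) * π
      + ((x₂ - y₂ : ℤ) : 𝓞 K) * π ^ 2 := by
    have := dvd_sub hy hx
    convert this using 1
    push_cast; ring
  have hcube : ∀ d : ℤ, (p : ℤ) ∣ d → π ^ 3 ∣ (d : 𝓞 K) := by
    intro d hd
    obtain ⟨e, rfl⟩ := hd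
    push_cast
    exact Dvd.dvd.mul_right (pi_cube_dvd_p hζ h5) _
  have h0 : (p : ℤ) ∣ x₀ - y₀ := by
    rw [← pi_dvd_intCast_iff hζ]
    have h1 : π ∣ ((x₀ - y₀ : ℤ) : 𝓞 K) + ((x₁ - y₁ : ℤ) : 𝓞 K) * π
        + ((x₂ - y₂ : ℤ) : 𝓞 K) * π ^ 2 := (dvd_pow_self π (by norm_num)).trans hD
    have h2 : π ∣ ((x₁ - y₁ : ℤ) : 𝓞 K) * π + ((x₂ - y₂ : ℤ) : 𝓞 K) * π ^ 2 :=
      ⟨((x₁ - y₁ : ℤ) : 𝓞 K) + ((x₂ - y₂ : ℤ) : 𝓞 K) * π, by ring⟩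
    have := dvd_sub h1 h2
    convert this using 1; ring
  have hD1 : π * π ^ 2 ∣ π * (((x₁ - y₁ : ℤ) : 𝓞 K) + ((x₂ - y₂ : ℤ) : 𝓞 K) * π) := by
    have := dvd_sub hD (hcube _ h0)
    convert this using 1 <;> ring
  have hD1' : π ^ 2 ∣ ((x₁ - y₁ : ℤ) : 𝓞 K) + ((x₂ - y₂ : ℤ) : 𝓞 K) * π :=
    (mul_dvd_mul_iff_left hπ0).mp hD1
  have h1 : (p : ℤ) ∣ x₁ - y₁ := by
    rw [← pi_dvd_intCast_iff hζ]
    have h1 : π ∣ ((x₁ - y₁ : ℤ) : 𝓞 K) + ((x₂ - y₂ : ℤ) : 𝓞 K) * π :=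
      (dvd_pow_self π (by norm_num)).trans hD1'
    have := dvd_sub h1 (Dvd.intro_left _ rfl : π ∣ ((x₂ - y₂ : ℤ) : 𝓞 K) * π)
    convert this using 1; ring
  have hD2 : π * π ∣ π * ((x₂ - y₂ : ℤ) : 𝓞 K) := by
    have := dvd_sub hD1' ((pow_dvd_pow π (by norm_num : 2 ≤ 3)).trans (hcube _ h1))
    convert this using 1 <;> ring
  have h2 : (p : ℤ) ∣ x₂ - y₂ := by
    rw [← pi_dvd_intCast_iff hζ]
    exact (mul_dvd_mul_iff_left hπ0).mp hD2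
  exact ⟨h0, h1, h2⟩

theorem HasL2.unique (hζ : IsPrimitiveRoot ζ p) (h5 : 5 ≤ p) {z : 𝓞 K} {s t : ZMod p}
    (hs : HasL2 p (ζ - 1) z s) (ht : HasL2 p (ζ - 1) z t) : s = t := by
  obtain ⟨x₀, x₁, x₂, hx, -, rfl⟩ := hs
  obtain ⟨y₀, y₁, y₂, hy, -, rfl⟩ := ht
  obtain ⟨h0, h1, h2⟩ := approx_unique hζ h5 hx hy
  have e : ∀ a b : ℤ, (p : ℤ) ∣ a - b → (a : ZMod p) = (b : ZMod p) := by
    intro a b hab
    rw [← sub_eq_zero, ← Int.cast_sub]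
    exact (ZMod.intCast_zmod_eq_zero_iff_dvd _ _).mpr hab
  unfold ell2
  rw [e _ _ h0, e _ _ h1, e _ _ h2]

/-- A unit congruent to a rational integer modulo `π³` has `ℓ₂ = 0`. -/
theorem hasL2_of_int (hζ : IsPrimitiveRoot ζ p) {z : 𝓞 K} (hz : IsUnit z) {m : ℤ}
    (h : (ζ - 1) ^ 3 ∣ z - (m : 𝓞 K)) : HasL2 p (ζ - 1) z 0 := by
  refine ⟨m, 0, 0, ?_, ?_, by simp [ell2]⟩
  · unfold Approx
    convert h using 1
    push_cast; ring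
  · intro hm
    rw [ZMod.intCast_zmod_eq_zero_iff_dvd, ← pi_dvd_intCast_iff hζ] at hm
    have h1 : (ζ - 1) ∣ z - (m : 𝓞 K) := (dvd_pow_self _ (by norm_num)).trans h
    have h2 : (ζ - 1) ∣ z := by
      have := dvd_add h1 hm
      rwa [sub_add_cancel] at this
    exact (prime_pi hζ).not_isUnit (isUnit_of_dvd_unit h2 hz)

/-- A unit that is a `p`-th power modulo `π³` has `ℓ₂ = 0`. -/
theorem hasL2_of_pow (hζ : IsPrimitiveRoot ζ p) (h5 : 5 ≤ p) {z : 𝓞 K} (hz : IsUnit z)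
    {c : 𝓞 K} (h : (ζ - 1) ^ 3 ∣ z - c ^ p) : HasL2 p (ζ - 1) z 0 := by
  obtain ⟨m, hm⟩ := exists_int_dvd_pow_sub hζ c
  refine hasL2_of_int hζ hz (m := m) ?_
  have := dvd_add h ((pi_cube_dvd_p hζ h5).trans hm)
  convert this using 1; ring

end L2

/-! ## 4. The Galois product `η_a` -/

section Gal

variable {p : ℕ} [Fact p.Prime] {K : Type} [Field K] [NumberField K]
  [IsCyclotomicExtension {p} ℚ K] {ζ : 𝓞 K}

theorem natCast_eq_of_pow_eq {ξ : K} (hξ : IsPrimitiveRoot ξ p) {n m : ℕ} (h : ξ ^ n = ξ ^ m) :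
    (n : ZMod p) = (m : ZMod p) := by
  have h0 : ξ ≠ 0 := hξ.ne_zero (Fact.out : p.Prime).ne_zero
  have h1 : ξ ^ ((n : ℤ) - (m : ℤ)) = 1 := by
    rw [zpow_sub₀ h0, zpow_natCast, zpow_natCast, h, div_self (pow_ne_zero _ h0)]
  have h2 := (hξ.zpow_eq_one_iff_dvd _).mp h1
  have h3 := (ZMod.intCast_zmod_eq_zero_iff_dvd _ _).mpr h2
  push_cast at h3
  exact sub_eq_zero.mp h3

/-- The exponent `n_σ ∈ [1, p-1]` with `σ ζ = ζ ^ n_σ`. -/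
noncomputable def nOf (hζ : IsPrimitiveRoot ζ p) (σ : K ≃ₐ[ℚ] K) : ℕ :=
  (((coe_primitive hζ).autToPow ℚ σ : (ZMod p)ˣ) : ZMod p).val

theorem nOf_spec (hζ : IsPrimitiveRoot ζ p) (σ : K ≃ₐ[ℚ] K) :
    σ (ζ : K) = (ζ : K) ^ nOf hζ σ :=
  ((coe_primitive hζ).autToPow_spec ℚ σ).symm

theorem nOf_cast (hζ : IsPrimitiveRoot ζ p) (σ : K ≃ₐ[ℚ] K) :
    (nOf hζ σ : ZMod p) = (((coe_primitive hζ).autToPow ℚ σ : (ZMod p)ˣ) : ZMod p) :=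
  ZMod.natCast_zmod_val _

theorem nOf_ne_zero (hζ : IsPrimitiveRoot ζ p) (σ : K ≃ₐ[ℚ] K) : (nOf hζ σ : ZMod p) ≠ 0 := by
  rw [nOf_cast]
  exact Units.ne_zero _

theorem nOf_coprime (hζ : IsPrimitiveRoot ζ p) (σ : K ≃ₐ[ℚ] K) : (nOf hζ σ).Coprime p :=
  ZMod.val_coe_unit_coprime _

/-- `ξ_σ = 1 + ζ + … + ζ^(n_σ - 1) = σ(ζ - 1)/(ζ - 1)`. -/
noncomputable def xi (hζ : IsPrimitiveRoot ζ p) (σ : K ≃ₐ[ℚ] K) : 𝓞 K :=
  ∑ i ∈ range (nOf hζ σ), ζ ^ i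

theorem smul_pi (hζ : IsPrimitiveRoot ζ p) (σ : K ≃ₐ[ℚ] K) :
    σ • (ζ - 1) = (ζ - 1) * xi hζ σ := by
  rw [xi, mul_geom_sum]
  apply RingOfIntegers.ext
  show σ (((ζ - 1 : 𝓞 K)) : K) = _
  push_cast
  rw [map_sub, map_one, nOf_spec hζ σ]

theorem xi_isUnit (hζ : IsPrimitiveRoot ζ p) (σ : K ≃ₐ[ℚ] K) : IsUnit (xi hζ σ) :=
  hζ.geom_sum_isUnit (Fact.out : p.Prime).two_le (nOf_coprime hζ σ)

theorem pi_ne_zero (hζ : IsPrimitiveRoot ζ p) : ζ - 1 ≠ 0 := (prime_pi hζ).ne_zero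

/-- cocycle relation `ξ_{τσ} = ξ_τ · τ(ξ_σ)`. -/
theorem xi_mul (hζ : IsPrimitiveRoot ζ p) (τ σ : K ≃ₐ[ℚ] K) :
    xi hζ (τ * σ) = xi hζ τ * τ • xi hζ σ := by
  have h1 : (τ * σ) • (ζ - 1) = (ζ - 1) * (xi hζ τ * τ • xi hζ σ) := by
    rw [mul_smul, smul_pi hζ σ, MulDistribMulAction.smul_mul, smul_pi hζ τ, mul_assoc]
  rw [smul_pi hζ (τ * σ)] at h1
  exact mul_left_cancel₀ (pi_ne_zero hζ) h1

/-- The unit part of `η_a`. -/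
noncomputable def etaU (hζ : IsPrimitiveRoot ζ p) (a : (K ≃ₐ[ℚ] K) → ℕ) : 𝓞 K :=
  ∏ σ : K ≃ₐ[ℚ] K, xi hζ σ ^ a σ

theorem isUnit_prod_pow (hζ : IsPrimitiveRoot ζ p) (S : Finset (K ≃ₐ[ℚ] K))
    (e : (K ≃ₐ[ℚ] K) → ℕ) : IsUnit (∏ σ ∈ S, xi hζ σ ^ e σ) := by
  classical
  induction S using Finset.induction_on with
  | empty => simp
  | insert i S hi ih =>
    rw [Finset.prod_insert hi]
    exact ((xi_isUnit hζ i).pow _).mul ih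

theorem etaU_isUnit (hζ : IsPrimitiveRoot ζ p) (a : (K ≃ₐ[ℚ] K) → ℕ) : IsUnit (etaU hζ a) :=
  isUnit_prod_pow hζ _ a

theorem etaElt_eq (hζ : IsPrimitiveRoot ζ p) (a : (K ≃ₐ[ℚ] K) → ℕ) :
    etaElt K ζ a = (ζ - 1) ^ (∑ σ : K ≃ₐ[ℚ] K, a σ) * etaU hζ a := by
  unfold etaElt etaU
  simp_rw [smul_pi hζ, mul_pow]
  rw [Finset.prod_mul_distrib, Finset.prod_pow_eq_pow_sum]

theorem autToPow_bijective (hζ : IsPrimitiveRoot ζ p) :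
    Function.Bijective ((coe_primitive hζ).autToPow ℚ) := by
  have : IsGalois ℚ K := IsCyclotomicExtension.isGalois {p} ℚ K
  rw [Fintype.bijective_iff_injective_and_card]
  refine ⟨(coe_primitive hζ).autToPow_injective ℚ, ?_⟩
  rw [ZMod.card_units_eq_totient, ← Nat.card_eq_fintype_card, IsGalois.card_aut_eq_finrank,
    IsCyclotomicExtension.finrank K (Polynomial.cyclotomic.irreducible_rat (NeZero.pos p))]

/-- Power sums of `n_σ⁻¹` over the Galois group. -/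
theorem sum_inv_pow (hζ : IsPrimitiveRoot ζ p) (k : ℕ) :
    ∑ σ : K ≃ₐ[ℚ] K, ((nOf hζ σ : ZMod p)⁻¹) ^ k = if p - 1 ∣ k then -1 else 0 := by
  classical
  have h1 : ∑ σ : K ≃ₐ[ℚ] K, ((nOf hζ σ : ZMod p)⁻¹) ^ k
      = ∑ x : (ZMod p)ˣ, (((x : ZMod p))⁻¹) ^ k := by
    simp_rw [nOf_cast]
    exact (autToPow_bijective hζ).sum_comp (fun x : (ZMod p)ˣ => ((x : ZMod p)⁻¹) ^ k)
  have h2 : ∑ x : (ZMod p)ˣ, (((x : ZMod p))⁻¹) ^ k = ∑ x : (ZMod p)ˣ, (x : ZMod p) ^ k := by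
    simp_rw [← Units.val_inv_eq_inv_val]
    exact Equiv.sum_comp (Equiv.inv (ZMod p)ˣ) (fun x : (ZMod p)ˣ => (x : ZMod p) ^ k)
  rw [h1, h2, FiniteField.sum_pow_units, ZMod.card]

theorem a_cast (hζ : IsPrimitiveRoot ζ p) {a : (K ≃ₐ[ℚ] K) → ℕ} (ha : IsInvSqFamily p K ζ a)
    (σ : K ≃ₐ[ℚ] K) : (a σ : ZMod p) = ((nOf hζ σ : ZMod p)⁻¹) ^ 2 := by
  have h := ha σ (nOf hζ σ) (nOf_spec hζ σ)
  rw [inv_pow]
  exact eq_inv_of_mul_eq_one_left h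

theorem dvd_sum_a (hζ : IsPrimitiveRoot ζ p) (h5 : 5 ≤ p) {a : (K ≃ₐ[ℚ] K) → ℕ}
    (ha : IsInvSqFamily p K ζ a) : p ∣ ∑ σ : K ≃ₐ[ℚ] K, a σ := by
  rw [← ZMod.natCast_eq_zero_iff]
  push_cast
  simp_rw [a_cast hζ ha]
  rw [sum_inv_pow hζ 2, if_neg]
  intro h
  have := Nat.le_of_dvd (by norm_num) h
  omega

theorem etaU_hasL2 (hζ : IsPrimitiveRoot ζ p) (h5 : 5 ≤ p) {a : (K ≃ₐ[ℚ] K) → ℕ}
    (ha : IsInvSqFamily p K ζ a) : HasL2 p (ζ - 1) (etaU hζ a) (-1 / 24) := by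
  have key : ∀ σ : K ≃ₐ[ℚ] K, HasL2 p (ζ - 1) (xi hζ σ)
      (((nOf hζ σ : ZMod p) - 1) * ((nOf hζ σ : ZMod p) - 5) / 24) := by
    intro σ
    have := hasL2_geom h5 (ζ - 1) (nOf hζ σ) (nOf_ne_zero hζ σ)
    rwa [add_sub_cancel] at this
  have hmain := HasL2.prod_pow h5 (Finset.univ : Finset (K ≃ₐ[ℚ] K)) (xi hζ) a _
    (fun σ _ => key σ)
  have h2 := two_ne_zero' (p := p) h5
  have h3 := three_ne_zero' (p := p) h5
  have h24 : (24 : ZMod p) ≠ 0 := by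
    have : (24 : ZMod p) = 2 * 2 * 2 * 3 := by norm_num
    rw [this]; exact mul_ne_zero (mul_ne_zero (mul_ne_zero h2 h2) h2) h3
  have hterm : ∀ σ : K ≃ₐ[ℚ] K, (a σ : ZMod p) *
      (((nOf hζ σ : ZMod p) - 1) * ((nOf hζ σ : ZMod p) - 5) / 24)
      = (((nOf hζ σ : ZMod p)⁻¹) ^ 0 - 6 * ((nOf hζ σ : ZMod p)⁻¹) ^ 1
        + 5 * ((nOf hζ σ : ZMod p)⁻¹) ^ 2) / 24 := by
    intro σ
    rw [a_cast hζ ha σ]
    have hn := nOf_ne_zero hζ σ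
    field_simp
    ring
  have e1 : ¬ (p - 1 ∣ 1) := fun h => by
    have := Nat.le_of_dvd (by norm_num) h
    omega
  have e2 : ¬ (p - 1 ∣ 2) := fun h => by
    have := Nat.le_of_dvd (by norm_num) h
    omega
  have hsum : ∑ σ : K ≃ₐ[ℚ] K, (a σ : ZMod p) *
      (((nOf hζ σ : ZMod p) - 1) * ((nOf hζ σ : ZMod p) - 5) / 24) = -1 / 24 := by
    simp_rw [hterm]
    rw [← Finset.sum_div, Finset.sum_add_distrib, Finset.sum_sub_distrib, ← Finset.mul_sum,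
      ← Finset.mul_sum, sum_inv_pow hζ 0, sum_inv_pow hζ 1, sum_inv_pow hζ 2,
      if_pos (dvd_zero _), if_neg e1, if_neg e2]
    ring
  rw [hsum] at hmain
  exact hmain

end Gal

/-! ## 5. The eigen-property of the unit part -/

section Eigen

variable {p : ℕ} [Fact p.Prime] {K : Type} [Field K] [NumberField K]
  [IsCyclotomicExtension {p} ℚ K] {ζ : 𝓞 K}

theorem a_congr (hζ : IsPrimitiveRoot ζ p) {a : (K ≃ₐ[ℚ] K) → ℕ} (ha : IsInvSqFamily p K ζ a)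
    (τ : K ≃ₐ[ℚ] K) (n : ℕ) (hτ : τ (ζ : K) = (ζ : K) ^ n) (ρ : K ≃ₐ[ℚ] K) :
    (a (τ⁻¹ * ρ) : ZMod p) = (n : ZMod p) ^ 2 * (a ρ : ZMod p) := by
  set n' := nOf hζ τ⁻¹ with hn'
  set m := nOf hζ ρ with hm
  have h3 : (n' : ZMod p) * (n : ZMod p) = 1 := by
    have e : (ζ : K) ^ (n * n') = (ζ : K) ^ 1 := by
      have e1 : (τ⁻¹ * τ) (ζ : K) = (ζ : K) := by rw [inv_mul_cancel]; rfl
      rw [AlgEquiv.mul_apply, hτ, map_pow, nOf_spec hζ τ⁻¹, ← pow_mul, mul_comm] at e1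
      rw [pow_one]
      exact e1
    have := natCast_eq_of_pow_eq (coe_primitive hζ) e
    push_cast at this
    rw [mul_comm]
    exact this
  have h1 : (a (τ⁻¹ * ρ) : ZMod p) * ((n' : ZMod p) * (m : ZMod p)) ^ 2 = 1 := by
    have := ha (τ⁻¹ * ρ) (n' * m) (by
      rw [AlgEquiv.mul_apply, nOf_spec hζ ρ, map_pow, nOf_spec hζ τ⁻¹, ← pow_mul])
    push_cast at this
    exact this
  have h2 : (a ρ : ZMod p) * (m : ZMod p) ^ 2 = 1 := ha ρ m (nOf_spec hζ ρ)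
  linear_combination ((n : ZMod p) ^ 2 * (a ρ : ZMod p)) * h1 - (a (τ⁻¹ * ρ) : ZMod p) * h2
    - (a (τ⁻¹ * ρ) : ZMod p) * (a ρ : ZMod p) * (m : ZMod p) ^ 2
      * ((n' : ZMod p) * (n : ZMod p) + 1) * h3

theorem etaU_eigen (hζ : IsPrimitiveRoot ζ p) (h5 : 5 ≤ p) {a : (K ≃ₐ[ℚ] K) → ℕ}
    (ha : IsInvSqFamily p K ζ a) (τ : K ≃ₐ[ℚ] K) (n : ℕ) (hτ : τ (ζ : K) = (ζ : K) ^ n) :
    ∃ δ : (𝓞 K)ˣ, τ • etaU hζ a = etaU hζ a ^ (n ^ 2) * (δ : 𝓞 K) ^ p := by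
  obtain ⟨s, hs⟩ := dvd_sum_a hζ h5 ha
  have hkl : ∀ ρ : K ≃ₐ[ℚ] K, a (τ⁻¹ * ρ) + p * ((n ^ 2 * a ρ) / p)
      = n ^ 2 * a ρ + p * (a (τ⁻¹ * ρ) / p) := by
    intro ρ
    have hmod : a (τ⁻¹ * ρ) % p = (n ^ 2 * a ρ) % p := by
      have := a_congr hζ ha τ n hτ ρ
      have h' : ((a (τ⁻¹ * ρ) : ℕ) : ZMod p) = ((n ^ 2 * a ρ : ℕ) : ZMod p) := by
        push_cast; exact this
      exact (ZMod.natCast_eq_natCast_iff' _ _ _).mp h'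
    have h1 := Nat.div_add_mod (a (τ⁻¹ * ρ)) p
    have h2 := Nat.div_add_mod (n ^ 2 * a ρ) p
    linarith
  have key : xi hζ τ ^ (∑ σ : K ≃ₐ[ℚ] K, a σ) * τ • etaU hζ a
      = ∏ ρ : K ≃ₐ[ℚ] K, xi hζ ρ ^ a (τ⁻¹ * ρ) := by
    unfold etaU
    rw [smul_prod', ← Finset.prod_pow_eq_pow_sum, ← Finset.prod_mul_distrib]
    have : ∀ σ : K ≃ₐ[ℚ] K, xi hζ τ ^ a σ * τ • (xi hζ σ ^ a σ)
        = xi hζ (τ * σ) ^ a (τ⁻¹ * (τ * σ)) := by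
      intro σ
      rw [smul_pow', ← mul_pow, ← xi_mul, inv_mul_cancel_left]
    simp_rw [this]
    exact Equiv.prod_comp (Equiv.mulLeft τ) (fun ρ => xi hζ ρ ^ a (τ⁻¹ * ρ))
  have id2 : (∏ ρ : K ≃ₐ[ℚ] K, xi hζ ρ ^ a (τ⁻¹ * ρ))
        * (∏ ρ : K ≃ₐ[ℚ] K, xi hζ ρ ^ ((n ^ 2 * a ρ) / p)) ^ p
      = etaU hζ a ^ (n ^ 2) * (∏ ρ : K ≃ₐ[ℚ] K, xi hζ ρ ^ (a (τ⁻¹ * ρ) / p)) ^ p := by
    unfold etaU
    rw [← Finset.prod_pow, ← Finset.prod_pow, ← Finset.prod_pow, ← Finset.prod_mul_distrib,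
      ← Finset.prod_mul_distrib]
    refine Finset.prod_congr rfl fun ρ _ => ?_
    rw [← pow_mul, ← pow_mul, ← pow_mul, ← pow_add, ← pow_add]
    congr 1
    have := hkl ρ
    linarith [mul_comm ((n ^ 2 * a ρ) / p) p, mul_comm (a (τ⁻¹ * ρ) / p) p,
      mul_comm (a ρ) (n ^ 2)]
  obtain ⟨u1, hu1⟩ := ((xi_isUnit hζ τ).pow s).mul
    (isUnit_prod_pow hζ Finset.univ (fun ρ => (n ^ 2 * a ρ) / p))
  obtain ⟨u2, hu2⟩ := isUnit_prod_pow hζ Finset.univ (fun ρ => a (τ⁻¹ * ρ) / p)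
  refine ⟨u2 * u1⁻¹, ?_⟩
  have h3 : τ • etaU hζ a * (u1 : 𝓞 K) ^ p = etaU hζ a ^ (n ^ 2) * (u2 : 𝓞 K) ^ p := by
    rw [hu1, hu2, ← id2, ← key, hs, mul_pow, ← pow_mul, mul_comm s p]
    ring
  calc τ • etaU hζ a
      = τ • etaU hζ a * ((u1 : 𝓞 K) * ((u1⁻¹ : (𝓞 K)ˣ) : 𝓞 K)) ^ p := by
        rw [Units.mul_inv, one_pow, mul_one]
    _ = (τ • etaU hζ a * (u1 : 𝓞 K) ^ p) * ((u1⁻¹ : (𝓞 K)ˣ) : 𝓞 K) ^ p := by ring
    _ = etaU hζ a ^ (n ^ 2) * ((u2 * u1⁻¹ : (𝓞 K)ˣ) : 𝓞 K) ^ p := by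
        rw [h3]; push_cast; ring

end Eigen

/-! ## 6. Outputs -/

section Out

variable {p : ℕ}

/-- If `ε ^ A * u ^ B = δ ^ p` with `ε ≡ c ^ p (mod λ³)` (`u` the unit part of `η_a`),
then `p ∣ B`. -/
theorem dvd_of_rel [Fact p.Prime] (h5 : 5 ≤ p) {K : Type} [Field K] [NumberField K]
    [IsCyclotomicExtension {p} ℚ K] {ζ : 𝓞 K} (hζ : IsPrimitiveRoot ζ p)
    {a : (K ≃ₐ[ℚ] K) → ℕ} (ha : IsInvSqFamily p K ζ a) (ε δ : (𝓞 K)ˣ) (c : 𝓞 K)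
    (hc : (ε : 𝓞 K) - c ^ p ∈ Ideal.span {ζ - 1} ^ 3) (A B : ℕ)
    (h : (ε : 𝓞 K) ^ A * etaU hζ a ^ B = (δ : 𝓞 K) ^ p) : p ∣ B := by
  rw [Ideal.span_singleton_pow, Ideal.mem_span_singleton] at hc
  have h1 : HasL2 p (ζ - 1) ((ε : 𝓞 K) ^ A * etaU hζ a ^ B)
      ((A : ZMod p) * 0 + (B : ZMod p) * (-1 / 24)) :=
    ((hasL2_of_pow hζ h5 ε.isUnit hc).pow h5 A).mul h5 ((etaU_hasL2 hζ h5 ha).pow h5 B)
  have h2 : HasL2 p (ζ - 1) ((δ : 𝓞 K) ^ p) 0 :=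
    hasL2_of_pow hζ h5 (δ.isUnit.pow p) (c := (δ : 𝓞 K)) (by simp)
  rw [h] at h1
  have h3 := HasL2.unique hζ h5 h1 h2
  have h2' := two_ne_zero' (p := p) h5
  have h3' := three_ne_zero' (p := p) h5
  have h24 : (24 : ZMod p) ≠ 0 := by
    have : (24 : ZMod p) = 2 * 2 * 2 * 3 := by norm_num
    rw [this]; exact mul_ne_zero (mul_ne_zero (mul_ne_zero h2' h2') h2') h3'
  rw [← ZMod.natCast_eq_zero_iff]
  field_simp at h3
  linear_combination -h3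

theorem etaCube (hp : p.Prime) (h5 : 5 ≤ p) : EtaCube p := by
  intro K _ _ _ ζ hζ a ha
  have : Fact p.Prime := ⟨hp⟩
  obtain ⟨s, hs⟩ := dvd_sum_a hζ h5 ha
  refine ⟨s, (etaU_isUnit hζ a).unit, ?_, ?_, ?_⟩
  · rw [etaElt_eq hζ a, hs, ← pow_mul, mul_comm s p]
    rfl
  · intro σ n hσ
    obtain ⟨δ, hδ⟩ := etaU_eigen hζ h5 ha σ n hσ
    refine ⟨δ, ?_⟩
    have e : ((σ • etaU hζ a : 𝓞 K) : K) = σ ((etaU hζ a : 𝓞 K) : K) := rfl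
    show σ ((etaU hζ a : 𝓞 K) : K) = _
    rw [← e, hδ]
    push_cast
    rfl
  · intro j m hmem
    have hd : (ζ - 1) ^ 3 ∣ etaU hζ a ^ j - (m : 𝓞 K) := by
      rwa [Ideal.span_singleton_pow, Ideal.mem_span_singleton] at hmem
    have h1 : HasL2 p (ζ - 1) (etaU hζ a ^ j) 0 :=
      hasL2_of_int hζ ((etaU_isUnit hζ a).pow j) hd
    have h2 := (etaU_hasL2 hζ h5 ha).pow h5 j
    have h3 := HasL2.unique hζ h5 h2 h1
    have h2' := two_ne_zero' (p := p) h5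
    have h3' := three_ne_zero' (p := p) h5
    have h24 : (24 : ZMod p) ≠ 0 := by
      have : (24 : ZMod p) = 2 * 2 * 2 * 3 := by norm_num
      rw [this]; exact mul_ne_zero (mul_ne_zero (mul_ne_zero h2' h2') h2') h3'
    rw [← ZMod.natCast_eq_zero_iff]
    field_simp at h3
    linear_combination -h3

/-- An element of `K` whose `p`-th power is (the image of) an element of `𝓞 K` lies in `𝓞 K`. -/
theorem exists_int_of_pow_eq {K : Type} [Field K] [NumberField K] (hp0 : 0 < p) (W : K)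
    (v : 𝓞 K) (h : W ^ p = (v : K)) : ∃ w : 𝓞 K, (w : K) = W ∧ w ^ p = v := by
  have hint : IsIntegral ℤ W := by
    refine IsIntegral.of_pow hp0 ?_
    rw [h]
    exact RingOfIntegers.isIntegral_coe v
  refine ⟨⟨W, hint⟩, rfl, ?_⟩
  apply RingOfIntegers.ext
  push_cast
  exact h

theorem etaNotPow (hp : p.Prime) (h5 : 5 ≤ p) : EtaNotPow p := by
  intro K _ _ _ ζ hζ a ha ⟨x, hx⟩
  have : Fact p.Prime := ⟨hp⟩
  obtain ⟨s, hs⟩ := dvd_sum_a hζ h5 ha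
  have hπ0 : (ζ : K) - 1 ≠ 0 := by
    intro h0
    apply pi_ne_zero hζ
    apply RingOfIntegers.ext
    push_cast
    exact h0
  have hW : (x / ((ζ : K) - 1) ^ s) ^ p = ((etaU hζ a : 𝓞 K) : K) := by
    rw [div_pow, hx, etaElt_eq hζ a, hs]
    push_cast
    rw [mul_comm p s, pow_mul, mul_comm, mul_div_assoc,
      div_self (pow_ne_zero _ (pow_ne_zero _ hπ0)), mul_one]
  obtain ⟨w, -, hw⟩ := exists_int_of_pow_eq hp.pos _ _ hW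
  have h1 : HasL2 p (ζ - 1) (etaU hζ a) 0 :=
    hasL2_of_pow hζ h5 (etaU_isUnit hζ a) (c := w) (by rw [hw, sub_self]; exact dvd_zero _)
  have h3 := HasL2.unique hζ h5 (etaU_hasL2 hζ h5 ha) h1
  have h2' := two_ne_zero' (p := p) h5
  have h3' := three_ne_zero' (p := p) h5
  have h24 : (24 : ZMod p) ≠ 0 := by
    have : (24 : ZMod p) = 2 * 2 * 2 * 3 := by norm_num
    rw [this]; exact mul_ne_zero (mul_ne_zero (mul_ne_zero h2' h2') h2') h3'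
  field_simp at h3
  exact one_ne_zero (by linear_combination -h3)

end Out

end Fermat.Agent.S14T.EtaCore
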