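import Fermat.Agent.S14T.Plan

/-!
# S14T block [Fin] (owner: helper54)

`finStatement p : FinStatement p` — the algebraic assembly of the number field core for `p ≥ 5`:
the class of `𝔞` (where `(α) = 𝔞 ^ p`) is killed by the class descent, so `α = ε · b ^ p` with a
unit `ε`, and the unit case applies.
-/

set_option autoImplicit false

namespace Fermat.Agent.S14T.Fin

open NumberField
open scoped Pointwise nonZeroDivisors

variable {K : Type} [Field K] [NumberField K]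

/-- The operator `J ↦ ∏_σ (σ J)^(a σ)` on ideals, as a monoid homomorphism. -/
noncomputable def NaHom (a : (K ≃ₐ[ℚ] K) → ℕ) : Ideal (𝓞 K) →* Ideal (𝓞 K) :=
  ∏ σ : K ≃ₐ[ℚ] K, (MulDistribMulAction.toMonoidHom (Ideal (𝓞 K)) σ) ^ (a σ)

theorem NaHom_apply (a : (K ≃ₐ[ℚ] K) → ℕ) (J : Ideal (𝓞 K)) :
    NaHom a J = ∏ σ : K ≃ₐ[ℚ] K, (σ • J) ^ a σ := by
  simp [NaHom]

theorem NaHom_span (a : (K ≃ₐ[ℚ] K) → ℕ) (x : 𝓞 K) :
    NaHom a (Ideal.span {x}) = Ideal.span {∏ σ : K ≃ₐ[ℚ] K, (σ • x) ^ a σ} := by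
  rw [NaHom_apply, ← Ideal.prod_span_singleton]
  refine Finset.prod_congr rfl fun σ _ => ?_
  rw [Ideal.smul_closure, Set.smul_set_singleton, Ideal.span_singleton_pow]

theorem NaHom_ne_bot (a : (K ≃ₐ[ℚ] K) → ℕ) {J : Ideal (𝓞 K)} (hJ : J ≠ ⊥) :
    NaHom a J ≠ ⊥ := by
  rw [NaHom_apply, ← Ideal.zero_eq_bot, Finset.prod_ne_zero_iff]
  intro σ _
  apply pow_ne_zero
  rw [Ideal.zero_eq_bot]
  intro h
  apply hJ
  have := congrArg (fun I => σ⁻¹ • I) h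
  simpa using this

/-- `NaHom` on nonzero ideals. -/
noncomputable def Na0 (a : (K ≃ₐ[ℚ] K) → ℕ) : (Ideal (𝓞 K))⁰ →* (Ideal (𝓞 K))⁰ :=
  ((NaHom a).comp (Submonoid.subtype _)).codRestrict (Ideal (𝓞 K))⁰ fun J =>
    mem_nonZeroDivisors_iff_ne_zero.mpr (NaHom_ne_bot a (nonZeroDivisors.coe_ne_zero J))

theorem coe_Na0 (a : (K ≃ₐ[ℚ] K) → ℕ) (J : (Ideal (𝓞 K))⁰) :
    ((Na0 a J : (Ideal (𝓞 K))⁰) : Ideal (𝓞 K)) = NaHom a J := rfl

/-- `N_a` respects ideal classes. -/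
theorem mk0_Na0_eq (a : (K ≃ₐ[ℚ] K) → ℕ) {I J : (Ideal (𝓞 K))⁰}
    (h : ClassGroup.mk0 I = ClassGroup.mk0 J) :
    ClassGroup.mk0 (Na0 a I) = ClassGroup.mk0 (Na0 a J) := by
  rw [ClassGroup.mk0_eq_mk0_iff] at h ⊢
  obtain ⟨x, y, hx, hy, hxy⟩ := h
  refine ⟨∏ σ : K ≃ₐ[ℚ] K, (σ • x) ^ a σ, ∏ σ : K ≃ₐ[ℚ] K, (σ • y) ^ a σ, ?_, ?_, ?_⟩
  · exact Finset.prod_ne_zero_iff.mpr fun σ _ => pow_ne_zero _ ((smul_ne_zero_iff_ne σ).mpr hx)
  · exact Finset.prod_ne_zero_iff.mpr fun σ _ => pow_ne_zero _ ((smul_ne_zero_iff_ne σ).mpr hy)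
  · rw [coe_Na0, coe_Na0, ← NaHom_span, ← NaHom_span, ← map_mul, ← map_mul, hxy]

/-- A representative of an ideal class. -/
noncomputable def rep (c : ClassGroup (𝓞 K)) : (Ideal (𝓞 K))⁰ :=
  (ClassGroup.mk0_surjective c).choose

theorem mk0_rep (c : ClassGroup (𝓞 K)) : ClassGroup.mk0 (rep c) = c :=
  (ClassGroup.mk0_surjective c).choose_spec

/-- The endomorphism of the class group induced by `N_a`. -/
noncomputable def clN (a : (K ≃ₐ[ℚ] K) → ℕ) : ClassGroup (𝓞 K) →* ClassGroup (𝓞 K) where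
  toFun c := ClassGroup.mk0 (Na0 a (rep c))
  map_one' := by
    have h : ClassGroup.mk0 (rep (1 : ClassGroup (𝓞 K))) = ClassGroup.mk0 1 := by
      rw [mk0_rep, map_one]
    exact (mk0_Na0_eq a h).trans (by rw [map_one, map_one])
  map_mul' c d := by
    have h : ClassGroup.mk0 (rep (c * d)) = ClassGroup.mk0 (rep c * rep d) := by
      rw [mk0_rep, map_mul, mk0_rep, mk0_rep]
    exact (mk0_Na0_eq a h).trans (by rw [map_mul, map_mul])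

theorem clN_mk0 (a : (K ≃ₐ[ℚ] K) → ℕ) (J : (Ideal (𝓞 K))⁰) :
    clN a (ClassGroup.mk0 J) = ClassGroup.mk0 (Na0 a J) :=
  mk0_Na0_eq a (mk0_rep (ClassGroup.mk0 J))

/-! ## The descent lemma in a finite abelian group -/

theorem iterate_exists_pow {G : Type*} [CommGroup G] {p : ℕ} (f : G →* G)
    (hf : ∀ x, ∃ y, f x = y ^ p) (k : ℕ) : ∀ x, ∃ y, f^[k] x = y ^ (p ^ k) := by
  induction k with
  | zero => intro x; exact ⟨x, by simp⟩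
  | succ k ih =>
    intro x
    obtain ⟨y, hy⟩ := hf x
    obtain ⟨z, hz⟩ := ih y
    refine ⟨z, ?_⟩
    rw [Function.iterate_succ_apply, hy, iterate_map_pow, hz, ← pow_mul, pow_succ]

/-- If `f` maps a finite abelian group into its `p`-th powers and `f c = c⁻¹`, `c ^ p = 1`,
then `c = 1`. -/
theorem eq_one_of_descent {G : Type*} [CommGroup G] [Finite G] {p : ℕ} (hp : p.Prime)
    (f : G →* G) (hf : ∀ x, ∃ y, f x = y ^ p) {c : G} (hc : c ^ p = 1) (hfc : f c = c⁻¹) :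
    c = 1 := by
  have hg : ∀ x, ∃ y, (f.comp f) x = y ^ p := fun x => hf (f x)
  have hgc : (f.comp f) c = c := by
    rw [MonoidHom.comp_apply, hfc, map_inv, hfc, inv_inv]
  set h := Nat.card G with hh
  obtain ⟨y, hy⟩ := iterate_exists_pow (f.comp f) hg h c
  rw [Function.iterate_fixed hgc] at hy
  have hy1 : y ^ (p ^ (h + 1)) = 1 := by
    rw [pow_succ, pow_mul, ← hy, hc]
  have hdvd : orderOf y ∣ p ^ (h + 1) := orderOf_dvd_of_pow_eq_one hy1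
  obtain ⟨j, -, hj⟩ := (Nat.dvd_prime_pow hp).mp hdvd
  have hle : orderOf y ≤ h := orderOf_le_card
  have hlt : h < p ^ h := Nat.lt_pow_self hp.one_lt
  have hjh : j ≤ h := by
    by_contra hcon
    have : p ^ h ≤ p ^ j := Nat.pow_le_pow_right hp.pos (Nat.le_of_not_ge hcon)
    omega
  rw [hy]
  apply orderOf_dvd_iff_pow_eq_one.mp
  rw [hj]
  exact pow_dvd_pow p hjh

/-! ## Existence of an inverse-square family -/

theorem exists_isInvSqFamily {p : ℕ} (hp : p.Prime) (ζ : 𝓞 K) (hζ : IsPrimitiveRoot ζ p) :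
    ∃ (a e : (K ≃ₐ[ℚ] K) → ℕ), IsInvSqFamily p K ζ a ∧
      (∀ σ : K ≃ₐ[ℚ] K, σ (ζ : K) = (ζ : K) ^ e σ) ∧
      (∀ σ : K ≃ₐ[ℚ] K, (e σ ^ 2 * a σ) % p = 1) := by
  have : Fact p.Prime := ⟨hp⟩
  have : NeZero p := ⟨hp.ne_zero⟩
  have hζK : IsPrimitiveRoot (ζ : K) p :=
    hζ.map_of_injective (FaithfulSMul.algebraMap_injective (𝓞 K) K)
  have hfin : IsOfFinOrder (ζ : K) := isOfFinOrder_iff_pow_eq_one.mpr ⟨p, hp.pos, hζK.pow_eq_one⟩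
  have hex : ∀ σ : K ≃ₐ[ℚ] K, ∃ i : ℕ, σ (ζ : K) = (ζ : K) ^ i := by
    intro σ
    have h1 : (σ (ζ : K)) ^ p = 1 := by rw [← map_pow, hζK.pow_eq_one, map_one]
    obtain ⟨i, -, hi⟩ := hζK.eq_pow_of_pow_eq_one h1
    exact ⟨i, hi.symm⟩
  choose e he using hex
  have hne : ∀ σ : K ≃ₐ[ℚ] K, (e σ : ZMod p) ≠ 0 := by
    intro σ h0
    rw [ZMod.natCast_eq_zero_iff] at h0
    obtain ⟨k, hk⟩ := h0
    have h1 : σ (ζ : K) = 1 := by rw [he σ, hk, pow_mul, hζK.pow_eq_one, one_pow]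
    have h2 : (ζ : K) = 1 := by
      have := congrArg σ.symm h1
      simpa using this
    exact hζK.ne_one hp.one_lt h2
  refine ⟨fun σ => (((e σ : ZMod p) ^ 2)⁻¹).val, e, ?_, he, ?_⟩
  · intro σ n hn
    have hmod : (n : ZMod p) = (e σ : ZMod p) := by
      rw [ZMod.natCast_eq_natCast_iff]
      have h3 : (ζ : K) ^ n = (ζ : K) ^ e σ := by rw [← hn, he σ]
      have := hfin.pow_eq_pow_iff_modEq.mp h3
      rwa [← hζK.eq_orderOf] at this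
    rw [ZMod.natCast_zmod_val, hmod]
    exact inv_mul_cancel₀ (pow_ne_zero 2 (hne σ))
  · intro σ
    have h1 : ((e σ ^ 2 * (((e σ : ZMod p) ^ 2)⁻¹).val : ℕ) : ZMod p) = ((1 : ℕ) : ZMod p) := by
      push_cast
      rw [ZMod.natCast_zmod_val]
      exact mul_inv_cancel₀ (pow_ne_zero 2 (hne σ))
    have h2 := (ZMod.natCast_eq_natCast_iff' _ _ _).mp h1
    rw [h2, Nat.mod_eq_of_lt hp.one_lt]

/-! ## `[Th]` and `(G)`: the range of `clN a` consists of `p`-th powers -/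

theorem clN_mem_range {p : ℕ} [IsCyclotomicExtension {p} ℚ K] (hTh : ThaineStatement p)
    (hG : GStatement p) (ζ : 𝓞 K) (hζ : IsPrimitiveRoot ζ p) (a : (K ≃ₐ[ℚ] K) → ℕ)
    (ha : IsInvSqFamily p K ζ a) :
    ∀ c : ClassGroup (𝓞 K), ∃ y : ClassGroup (𝓞 K), clN a c = y ^ p := by
  have key : Subgroup.closure (goodClasses p K (etaElt K ζ a)) ⊔
      (powMonoidHom p : ClassGroup (𝓞 K) →* ClassGroup (𝓞 K)).range ≤
      ((powMonoidHom p : ClassGroup (𝓞 K) →* ClassGroup (𝓞 K)).range).comap (clN a) := by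
    rw [sup_le_iff, Subgroup.closure_le]
    constructor
    · rintro c ⟨Q, hQp, hQn, hQne, hQη, rfl⟩
      obtain ⟨x, y, J, hx, hy, hJ, hrel⟩ := hTh K ζ hζ a ha Q.1 hQp hQn hQne hQη
      change clN a (ClassGroup.mk0 Q) ∈ (powMonoidHom p).range
      rw [clN_mk0]
      refine ⟨ClassGroup.mk0 ⟨J, mem_nonZeroDivisors_iff_ne_zero.mpr hJ⟩, ?_⟩
      rw [powMonoidHom_apply, ← map_pow]
      symm
      rw [ClassGroup.mk0_eq_mk0_iff]
      refine ⟨x, y, hx, hy, ?_⟩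
      rw [coe_Na0, NaHom_apply]
      exact hrel
    · rintro c ⟨d, rfl⟩
      change clN a (powMonoidHom p d) ∈ (powMonoidHom p).range
      exact ⟨clN a d, by rw [powMonoidHom_apply, powMonoidHom_apply, map_pow]⟩
  rw [hG K ζ hζ a ha] at key
  intro c
  obtain ⟨y, hy⟩ := key (Subgroup.mem_top c)
  exact ⟨y, hy.symm⟩

/-! ## The eigen-condition on the class of `𝔞` -/

/-- The action of `σ` on nonzero ideals. -/
noncomputable def sig0 (σ : K ≃ₐ[ℚ] K) (J : (Ideal (𝓞 K))⁰) : (Ideal (𝓞 K))⁰ :=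
  ⟨σ • (J : Ideal (𝓞 K)), mem_nonZeroDivisors_iff_ne_zero.mpr (by
    intro h
    apply nonZeroDivisors.coe_ne_zero J
    have := congrArg (fun I => σ⁻¹ • I) h
    simpa using this)⟩

theorem coe_sig0 (σ : K ≃ₐ[ℚ] K) (J : (Ideal (𝓞 K))⁰) :
    ((sig0 σ J : (Ideal (𝓞 K))⁰) : Ideal (𝓞 K)) = σ • (J : Ideal (𝓞 K)) := rfl

theorem Na0_eq_prod (a : (K ≃ₐ[ℚ] K) → ℕ) (J : (Ideal (𝓞 K))⁰) :
    Na0 a J = ∏ σ : K ≃ₐ[ℚ] K, sig0 σ J ^ a σ := by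
  apply Subtype.ext
  rw [coe_Na0, NaHom_apply, Submonoid.coe_finsetProd]
  rfl

theorem clN_mk0_eq_pow (a m : (K ≃ₐ[ℚ] K) → ℕ) (J : (Ideal (𝓞 K))⁰)
    (h : ∀ σ, ClassGroup.mk0 (sig0 σ J) = ClassGroup.mk0 J ^ m σ) :
    clN a (ClassGroup.mk0 J) = ClassGroup.mk0 J ^ ∑ σ : K ≃ₐ[ℚ] K, m σ * a σ := by
  rw [clN_mk0, Na0_eq_prod, map_prod, ← Finset.prod_pow_eq_pow_sum]
  refine Finset.prod_congr rfl fun σ _ => ?_
  rw [map_pow, h, pow_mul]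

theorem ideal_pow_left_inj {n : ℕ} (hn : n ≠ 0) {I J : Ideal (𝓞 K)} (h : I ^ n = J ^ n) :
    I = J := by
  apply dvd_antisymm
  · exact (UniqueFactorizationMonoid.pow_dvd_pow_iff_dvd hn).mp (h ▸ dvd_rfl)
  · exact (UniqueFactorizationMonoid.pow_dvd_pow_iff_dvd hn).mp (h ▸ dvd_rfl)

theorem coe_smul_int (σ : K ≃ₐ[ℚ] K) (x : 𝓞 K) : ((σ • x : 𝓞 K) : K) = σ (x : K) := rfl

theorem smul_span_singleton (σ : K ≃ₐ[ℚ] K) (x : 𝓞 K) :
    σ • Ideal.span {x} = Ideal.span {σ • x} := by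
  rw [Ideal.smul_closure, Set.smul_set_singleton]

theorem mk0_sig0_eq_pow {p : ℕ} (hp : p ≠ 0) (σ : K ≃ₐ[ℚ] K) {α : 𝓞 K} (hα : α ≠ 0)
    (𝔞 : (Ideal (𝓞 K))⁰) (h : Ideal.span {α} = (𝔞 : Ideal (𝓞 K)) ^ p) (m : ℕ) (y : K)
    (hy : σ (α : K) = (α : K) ^ m * y ^ p) :
    ClassGroup.mk0 (sig0 σ 𝔞) = ClassGroup.mk0 𝔞 ^ m := by
  obtain ⟨b₁, b₂, hb₂, rfl⟩ := IsFractionRing.div_surjective (𝓞 K) y
  have hb₂0 : b₂ ≠ 0 := nonZeroDivisors.ne_zero hb₂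
  have hb₂K : (algebraMap (𝓞 K) K b₂) ≠ 0 := by
    simpa using hb₂0
  have hσα : σ (α : K) ≠ 0 := by
    simpa using hα
  have hb₁0 : b₁ ≠ 0 := by
    rintro rfl
    apply hσα
    rw [hy, map_zero, zero_div, zero_pow hp, mul_zero]
  have hrel : (σ • α) * b₂ ^ p = α ^ m * b₁ ^ p := by
    apply FaithfulSMul.algebraMap_injective (𝓞 K) K
    rw [map_mul, map_mul, map_pow, map_pow, map_pow]
    change σ (α : K) * _ = _
    rw [hy, div_pow]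
    field_simp
  rw [← map_pow, ClassGroup.mk0_eq_mk0_iff]
  refine ⟨b₂, b₁, hb₂0, hb₁0, ?_⟩
  apply ideal_pow_left_inj hp
  rw [mul_pow, mul_pow, Ideal.span_singleton_pow, Ideal.span_singleton_pow, coe_sig0,
    SubmonoidClass.coe_pow, ← smul_pow', ← pow_mul, mul_comm m p, pow_mul, ← h,
    smul_span_singleton, Ideal.span_singleton_pow, Ideal.span_singleton_mul_span_singleton,
    Ideal.span_singleton_mul_span_singleton, mul_comm (b₂ ^ p), hrel, mul_comm]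

theorem card_gal {p : ℕ} (hp : p.Prime) [IsCyclotomicExtension {p} ℚ K] :
    Fintype.card (K ≃ₐ[ℚ] K) = p - 1 := by
  have : NeZero p := ⟨hp.ne_zero⟩
  have : IsGalois ℚ K := IsCyclotomicExtension.isGalois {p} ℚ K
  rw [← Nat.card_eq_fintype_card, IsGalois.card_aut_eq_finrank,
    IsCyclotomicExtension.Rat.finrank p K, Nat.totient_prime hp]

/-- Transfer of `KVHyp` from `α = ε · b ^ p` to the unit `ε`. -/
theorem kvHyp_unit {p : ℕ} (ζ : 𝓞 K) {α b : 𝓞 K} (ε : (𝓞 K)ˣ)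
    (hα : KVHyp p K ζ α) (hb : b ≠ 0) (hαε : α = (ε : 𝓞 K) * b ^ p) :
    KVHyp p K ζ (ε : 𝓞 K) := by
  have hbK : (b : K) ≠ 0 := by simpa using hb
  have hαK : (α : K) = ((ε : 𝓞 K) : K) * (b : K) ^ p := by
    rw [hαε]; push_cast; rfl
  refine ⟨ε.ne_zero, ⟨⊤, ?_⟩, ?_, ?_⟩
  · rw [Ideal.span_singleton_eq_top.mpr ε.isUnit, ← Ideal.one_eq_top, one_pow]
  · intro σ n hn
    obtain ⟨y, hy⟩ := hα.eigen σ n hn
    have hσb : σ (b : K) ≠ 0 := by simpa using hbK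
    refine ⟨(b : K) ^ (n ^ 2) * y / σ (b : K), ?_⟩
    rw [hαK, map_mul, map_pow] at hy
    rw [div_pow, mul_pow, mul_div_assoc', eq_div_iff (pow_ne_zero p hσb), hy]
    ring
  · intro x hx m
    obtain ⟨y, hy0, hy⟩ := hx
    refine hα.loc x ⟨y / (b : K), div_ne_zero hy0 hbK, ?_⟩ m
    rw [hy, hαK, div_pow]
    field_simp

end Fermat.Agent.S14T.Fin

namespace Fermat.Agent.S14T

open NumberField
open scoped Pointwise nonZeroDivisors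

/-- Block [Fin]: the algebraic assembly of the number field core for `p ≥ 5`. -/
theorem finStatement (p : ℕ) : FinStatement p := by
  intro hp _ hTh hG hUn K _ _ _ ζ hζ α hα
  obtain ⟨a, e, ha, he, hea⟩ := Fin.exists_isInvSqFamily hp ζ hζ
  obtain ⟨𝔞, h𝔞⟩ := hα.ideal
  have h𝔞0 : 𝔞 ≠ ⊥ := by
    rintro rfl
    rw [← Ideal.zero_eq_bot, zero_pow hp.ne_zero, Ideal.zero_eq_bot,
      Ideal.span_singleton_eq_bot] at h𝔞
    exact hα.ne_zero h𝔞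
  obtain ⟨𝔞0, h𝔞0'⟩ : ∃ 𝔞0 : (Ideal (𝓞 K))⁰, (𝔞0 : Ideal (𝓞 K)) = 𝔞 :=
    ⟨⟨𝔞, mem_nonZeroDivisors_iff_ne_zero.mpr h𝔞0⟩, rfl⟩
  subst h𝔞0'
  have hcp : ClassGroup.mk0 𝔞0 ^ p = 1 := by
    rw [← map_pow, ClassGroup.mk0_eq_one_iff, SubmonoidClass.coe_pow, ← h𝔞]
    exact ⟨⟨α, rfl⟩⟩
  have hsig : ∀ σ : K ≃ₐ[ℚ] K,
      ClassGroup.mk0 (Fin.sig0 σ 𝔞0) = ClassGroup.mk0 𝔞0 ^ (e σ ^ 2) := by
    intro σ
    obtain ⟨y, hy⟩ := hα.eigen σ (e σ) (he σ)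
    exact Fin.mk0_sig0_eq_pow hp.ne_zero σ hα.ne_zero 𝔞0 h𝔞 _ y hy
  have hclN : Fin.clN a (ClassGroup.mk0 𝔞0) = (ClassGroup.mk0 𝔞0)⁻¹ := by
    rw [Fin.clN_mk0_eq_pow a (fun σ => e σ ^ 2) 𝔞0 hsig, ← Finset.prod_pow_eq_pow_sum]
    have h1 : ∀ σ : K ≃ₐ[ℚ] K, ClassGroup.mk0 𝔞0 ^ (e σ ^ 2 * a σ) = ClassGroup.mk0 𝔞0 :=
      fun σ => by rw [pow_eq_pow_mod _ hcp, hea σ, pow_one]
    rw [Finset.prod_congr rfl fun σ _ => h1 σ, Finset.prod_const, Finset.card_univ,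
      Fin.card_gal hp]
    apply eq_inv_of_mul_eq_one_left
    rw [← pow_succ, Nat.sub_add_cancel hp.one_le, hcp]
  have hc1 : ClassGroup.mk0 𝔞0 = 1 :=
    Fin.eq_one_of_descent hp (Fin.clN a) (Fin.clN_mem_range hTh hG ζ hζ a ha) hcp hclN
  rw [ClassGroup.mk0_eq_one_iff] at hc1
  obtain ⟨b, hb⟩ := hc1.principal
  have hb' : (𝔞0 : Ideal (𝓞 K)) = Ideal.span {b} := hb
  have hb0 : b ≠ 0 := by
    rintro rfl
    apply nonZeroDivisors.coe_ne_zero 𝔞0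
    rw [hb', Ideal.zero_eq_bot, Ideal.span_singleton_eq_bot]
  rw [hb', Ideal.span_singleton_pow, Ideal.span_singleton_eq_span_singleton] at h𝔞
  obtain ⟨u, hu⟩ := h𝔞
  have hαε : α = ((u⁻¹ : (𝓞 K)ˣ) : 𝓞 K) * b ^ p := by
    rw [← hu, mul_comm α, ← mul_assoc, Units.inv_mul, one_mul]
  obtain ⟨β, hβ⟩ := hUn K ζ hζ u⁻¹ (Fin.kvHyp_unit ζ u⁻¹ hα hb0 hαε)
  refine ⟨β * (b : K), ?_⟩
  rw [mul_pow, ← hβ, hαε]
  push_cast
  rfl

end Fermat.Agent.S14T
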