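import Mathlib

namespace Fermat.Agent.S14T.KummerSplit

open NumberField Polynomial IntermediateField

variable {p : ℕ} [hp : Fact p.Prime]

section field

variable {K : Type*} [Field K] {M : Type*} [Field M] [Algebra K M] [FiniteDimensional K M]

/-- **Kummer automorphism.** If `K` contains a primitive `p`-th root of unity `ζ`, `η ∈ K` is not a
`p`-th power, and `M/K` has degree `p` and contains `θ` with `θ ^ p = η`, then there is a
`K`-automorphism of `M` sending `θ` to `ζ * θ`. -/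
theorem exists_algEquiv_of_pow_eq {ζ : K} (hζ : IsPrimitiveRoot ζ p) {η : K}
    (hη : ∀ b : K, b ^ p ≠ η) {θ : M} (hθ : θ ^ p = algebraMap K M η)
    (hfin : Module.finrank K M = p) :
    ∃ σ : M ≃ₐ[K] M, σ θ = algebraMap K M ζ * θ := by
  have hirr : Irreducible (X ^ p - C η) := X_pow_sub_C_irreducible_of_prime hp.out hη
  have hint : IsIntegral K θ := IsIntegral.of_finite K θ
  have hmin : minpoly K θ = X ^ p - C η := by
    symm
    refine minpoly.eq_of_irreducible_of_monic hirr ?_ (monic_X_pow_sub_C _ hp.out.ne_zero)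
    simp [hθ]
  have htop : K⟮θ⟯ = ⊤ := by
    apply IntermediateField.eq_of_le_of_finrank_eq le_top
    rw [IntermediateField.adjoin.finrank hint, hmin, natDegree_X_pow_sub_C, IntermediateField.finrank_top', hfin]
  subst hfin
  have : NeZero (Module.finrank K M) := ⟨hp.out.ne_zero⟩
  have hK : (primitiveRoots (Module.finrank K M) K).Nonempty :=
    ⟨ζ, (mem_primitiveRoots hp.out.pos).2 hζ⟩
  have := isSplittingField_X_pow_sub_C_of_root_adjoin_eq_top hK hθ htop
  refine ⟨(autEquivZmod hirr M hζ).symm (Multiplicative.ofAdd ((1 : ℕ) : ZMod _)), ?_⟩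
  rw [autEquivZmod_symm_apply_natCast hirr M hθ hζ 1, pow_one, Algebra.smul_def]

end field


section ints

variable {K : Type*} [Field K] [NumberField K] {M : Type*} [Field M] [NumberField M] [Algebra K M]

/-- The Kummer automorphism on rings of integers. -/
theorem exists_algEquiv_ringOfIntegers {ζ : 𝓞 K} (hζ : IsPrimitiveRoot ζ p) {η : 𝓞 K}
    (hη : ∀ b : K, b ^ p ≠ (η : K)) {θ : 𝓞 M} (hθ : θ ^ p = algebraMap (𝓞 K) (𝓞 M) η)
    (hfin : Module.finrank K M = p) :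
    ∃ τ : 𝓞 M ≃ₐ[𝓞 K] 𝓞 M, τ θ = algebraMap (𝓞 K) (𝓞 M) ζ * θ := by
  have hζK : IsPrimitiveRoot (ζ : K) p := hζ.map_of_injective RingOfIntegers.coe_injective
  have hθM : (θ : M) ^ p = algebraMap K M (η : K) := by
    have := congrArg (algebraMap (𝓞 M) M) hθ
    rw [map_pow] at this
    rw [this, ← IsScalarTower.algebraMap_apply, IsScalarTower.algebraMap_apply (𝓞 K) K M]
  obtain ⟨σ, hσ⟩ := exists_algEquiv_of_pow_eq hζK hη hθM hfin
  refine ⟨galRestrict (𝓞 K) K M (𝓞 M) σ, ?_⟩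
  apply RingOfIntegers.coe_injective
  rw [algebraMap_galRestrict_apply, hσ, map_mul]
  congr 1


/-- In a domain, the difference of two distinct powers (exponents `< p`) of a primitive `p`-th
root of unity divides `p`. -/
theorem pow_sub_pow_dvd_prime {R : Type*} [CommRing R] [IsDomain R] {ζ : R}
    (hζ : IsPrimitiveRoot ζ p) {a b : ℕ} (ha : a < p) (hb : b < p) (hab : a ≠ b) :
    ζ ^ a - ζ ^ b ∣ (p : R) := by
  wlog h : b < a generalizing a b
  · have := this hb ha hab.symm (lt_of_le_of_ne (not_lt.mp h) hab)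
    rw [← neg_sub]
    exact (neg_dvd).2 this
  have hp0 : p ≠ 0 := hp.out.ne_zero
  obtain ⟨n, rfl⟩ : ∃ n, p = n + 1 := ⟨p - 1, by omega⟩
  have hk : a - b - 1 < n := by omega
  have hdvd : (1 - ζ ^ (a - b - 1 + 1)) ∣ ((n + 1 : ℕ) : R) := by
    rw [Nat.cast_add, Nat.cast_one, ← hζ.prod_one_sub_pow_eq_order]
    exact Finset.dvd_prod_of_mem _ (Finset.mem_range.2 hk)
  have e : ζ ^ a - ζ ^ b = -(ζ ^ b) * (1 - ζ ^ (a - b - 1 + 1)) := by
    have h1 : a - b - 1 + 1 = a - b := by omega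
    have h2 : ζ ^ a = ζ ^ b * ζ ^ (a - b) := by
      rw [← pow_add]; congr 1; omega
    rw [h1, h2]; ring
  rw [e]
  exact (IsUnit.mul_left_dvd (((hζ.isUnit (Nat.succ_ne_zero n)).pow b).neg)).2 hdvd

/-- A ring automorphism preserves the absolute norm of ideals. -/
theorem absNorm_comap_equiv {S : Type*} [CommRing S] [IsDedekindDomain S] [Module.Free ℤ S]
    (e : S ≃+* S) (P : Ideal S) :
    Ideal.absNorm (P.comap (e : S →+* S)) = Ideal.absNorm P := by
  rw [Ideal.absNorm_apply, Ideal.absNorm_apply, Submodule.cardQuot_apply, Submodule.cardQuot_apply]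
  exact Nat.card_congr (Ideal.quotientEquiv _ _ e
    (Ideal.map_comap_of_surjective _ e.surjective P).symm).toEquiv

/-- **Splitting of residue primes in a Kummer extension** (generic form).
`K ∋ ζ` primitive `p`-th root of unity, `η ∈ 𝓞 K` not a `p`-th power in `K`, `M/K` of degree `p`
with `θ ∈ 𝓞 M`, `θ ^ p = η`.  If `Q` is a nonzero prime of `𝓞 K` with `p ∉ Q`, `η ∉ Q` and
`η ≡ y ^ p mod Q`, then there are `p` distinct primes of `𝓞 M` above `Q`, each of absolute norm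
`N Q`. -/
theorem exists_primes_over_of_residue {ζ : 𝓞 K} (hζ : IsPrimitiveRoot ζ p) {η : 𝓞 K}
    (hη : ∀ b : K, b ^ p ≠ (η : K)) {θ : 𝓞 M} (hθ : θ ^ p = algebraMap (𝓞 K) (𝓞 M) η)
    (hfin : Module.finrank K M = p)
    (Q : Ideal (𝓞 K)) [hQ : Q.IsPrime] (hQ0 : Q ≠ ⊥) (hpQ : (p : 𝓞 K) ∉ Q) (hηQ : η ∉ Q)
    {y : 𝓞 K} (hy : η - y ^ p ∈ Q) :
    ∃ f : Fin p → Ideal (𝓞 M), Function.Injective f ∧ ∀ i, (f i).IsPrime ∧ f i ≠ ⊥ ∧
      (f i).comap (algebraMap (𝓞 K) (𝓞 M)) = Q ∧ Ideal.absNorm (f i) = Ideal.absNorm Q := by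
  classical
  obtain ⟨τ, hτ⟩ := exists_algEquiv_ringOfIntegers hζ hη hθ hfin
  have hinj : Function.Injective (algebraMap (𝓞 K) (𝓞 M)) :=
    RingOfIntegers.algebraMap.injective K M
  -- a prime over `Q`
  obtain ⟨P, -, hPprime, hPQ⟩ :=
    Ideal.exists_ideal_over_prime_of_isIntegral Q (⊥ : Ideal (𝓞 M))
      (by rw [Ideal.comap_bot_of_injective _ hinj]; exact bot_le)
  have hζM : IsPrimitiveRoot (algebraMap (𝓞 K) (𝓞 M) ζ) p := hζ.map_of_injective hinj
  -- product formula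
  have hprod : θ ^ p - (algebraMap (𝓞 K) (𝓞 M) y) ^ p =
      ∏ i ∈ Finset.range p, (θ - (algebraMap (𝓞 K) (𝓞 M) ζ) ^ i * algebraMap (𝓞 K) (𝓞 M) y) := by
    have h := X_pow_sub_C_eq_prod hζM hp.out.pos
      (rfl : (algebraMap (𝓞 K) (𝓞 M) y) ^ p = (algebraMap (𝓞 K) (𝓞 M) y) ^ p)
    have := congrArg (Polynomial.eval θ) h
    simpa [Polynomial.eval_prod] using this
  have hmem : θ ^ p - (algebraMap (𝓞 K) (𝓞 M) y) ^ p ∈ P := by
    have : θ ^ p - (algebraMap (𝓞 K) (𝓞 M) y) ^ p = algebraMap (𝓞 K) (𝓞 M) (η - y ^ p) := by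
      rw [hθ, map_sub, map_pow]
    rw [this, ← Ideal.mem_comap, hPQ]
    exact hy
  rw [hprod, Ideal.IsPrime.prod_mem_iff] at hmem
  obtain ⟨i, -, hi⟩ := hmem
  -- powers of `τ`
  have hτk : ∀ k : ℕ, (τ ^ k) θ = (algebraMap (𝓞 K) (𝓞 M) ζ) ^ k * θ := by
    intro k
    induction k with
    | zero => simp
    | succ k ih =>
      rw [pow_succ', AlgEquiv.mul_apply, ih, map_mul, map_pow, τ.commutes, hτ]
      ring
  -- the `p` conjugate primes
  let f : ℕ → Ideal (𝓞 M) := fun k => P.comap ((τ ^ k).symm.toRingEquiv : 𝓞 M →+* 𝓞 M)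
  have hfmem : ∀ k : ℕ, (algebraMap (𝓞 K) (𝓞 M) ζ) ^ k * θ -
      (algebraMap (𝓞 K) (𝓞 M) ζ) ^ i * algebraMap (𝓞 K) (𝓞 M) y ∈ f k := by
    intro k
    have : (algebraMap (𝓞 K) (𝓞 M) ζ) ^ k * θ -
        (algebraMap (𝓞 K) (𝓞 M) ζ) ^ i * algebraMap (𝓞 K) (𝓞 M) y =
        (τ ^ k) (θ - (algebraMap (𝓞 K) (𝓞 M) ζ) ^ i * algebraMap (𝓞 K) (𝓞 M) y) := by
      have hc : (τ ^ k) ((algebraMap (𝓞 K) (𝓞 M) ζ) ^ i * algebraMap (𝓞 K) (𝓞 M) y) =
          (algebraMap (𝓞 K) (𝓞 M) ζ) ^ i * algebraMap (𝓞 K) (𝓞 M) y := by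
        rw [← map_pow, ← map_mul, AlgEquiv.commutes]
      rw [map_sub, hτk, hc]
    rw [this]
    show (τ ^ k).symm ((τ ^ k) _) ∈ P
    rw [AlgEquiv.symm_apply_apply]
    exact hi
  have hfover : ∀ k : ℕ, (f k).comap (algebraMap (𝓞 K) (𝓞 M)) = Q := by
    intro k
    ext x
    rw [← hPQ, Ideal.mem_comap, Ideal.mem_comap]
    show (τ ^ k).symm (algebraMap (𝓞 K) (𝓞 M) x) ∈ P ↔ _
    rw [AlgEquiv.commutes]
    exact Iff.rfl
  have hfprime : ∀ k : ℕ, (f k).IsPrime := fun k => Ideal.comap_isPrime _ P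
  have hyQ : y ∉ Q := by
    intro hyQ
    apply hηQ
    have : η = (η - y ^ p) + y ^ p := by ring
    rw [this]
    exact Q.add_mem hy (Q.pow_mem_of_mem hyQ p hp.out.pos)
  have hfinj : ∀ k l : ℕ, k < p → l < p → f k = f l → k = l := by
    intro k l hk hl hkl
    by_contra hne
    have h1 := hfmem k
    have h2 := hfmem l
    rw [← hkl] at h2
    have h3 : algebraMap (𝓞 K) (𝓞 M) (ζ ^ i * y * (ζ ^ k - ζ ^ l)) ∈ f k := by
      have : algebraMap (𝓞 K) (𝓞 M) (ζ ^ i * y * (ζ ^ k - ζ ^ l)) =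
          (algebraMap (𝓞 K) (𝓞 M) ζ) ^ l * ((algebraMap (𝓞 K) (𝓞 M) ζ) ^ k * θ -
            (algebraMap (𝓞 K) (𝓞 M) ζ) ^ i * algebraMap (𝓞 K) (𝓞 M) y) -
          (algebraMap (𝓞 K) (𝓞 M) ζ) ^ k * ((algebraMap (𝓞 K) (𝓞 M) ζ) ^ l * θ -
            (algebraMap (𝓞 K) (𝓞 M) ζ) ^ i * algebraMap (𝓞 K) (𝓞 M) y) := by
        simp only [map_mul, map_sub, map_pow]
        ring
      rw [this]
      exact (f k).sub_mem ((f k).mul_mem_left _ h1) ((f k).mul_mem_left _ h2)
    rw [← Ideal.mem_comap, hfover k] at h3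
    rcases hQ.mem_or_mem h3 with h4 | h4
    · rcases hQ.mem_or_mem h4 with h5 | h5
      · have : (1 : 𝓞 K) ∈ Q := by
          have h6 := Q.pow_mem_of_mem h5 p hp.out.pos
          rwa [← pow_mul, mul_comm, pow_mul, hζ.pow_eq_one, one_pow] at h6
        exact hQ.ne_top ((Ideal.eq_top_iff_one _).2 this)
      · exact hyQ h5
    · exact hpQ (Q.mem_of_dvd (pow_sub_pow_dvd_prime hζ hk hl hne) h4)
  have hfne : ∀ k : ℕ, f k ≠ ⊥ := by
    intro k hk
    apply hQ0
    rw [← hfover k, hk, Ideal.comap_bot_of_injective _ hinj]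
  have hfnorm : ∀ k : ℕ, Ideal.absNorm (f k) = Ideal.absNorm P := fun k =>
    absNorm_comap_equiv _ P
  -- the norm of `P`
  have hNP : Ideal.absNorm P = Ideal.absNorm Q := by
    have hP0 : P ≠ ⊥ := by
      intro hP
      apply hQ0
      rw [← hPQ, hP, Ideal.comap_bot_of_injective _ hinj]
    have hNQ0 : Ideal.absNorm Q ≠ 0 := fun h => hQ0 (Ideal.absNorm_eq_zero_iff.1 h)
    -- `N Q ≤ N P`
    have hle : Ideal.absNorm Q ≤ Ideal.absNorm P := by
      have : Finite (𝓞 M ⧸ P) := Ideal.finiteQuotientOfFreeOfNeBot P hP0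
      rw [Ideal.absNorm_apply, Ideal.absNorm_apply, Submodule.cardQuot_apply,
        Submodule.cardQuot_apply]
      exact Nat.card_le_card_of_injective
        (Ideal.quotientMap P (algebraMap (𝓞 K) (𝓞 M)) hPQ.ge)
        (Ideal.quotientMap_injective' hPQ.le)
    -- `N P ∣ N Q`
    have hdvd : Ideal.absNorm P ∣ Ideal.absNorm Q := by
      set s : Finset (Ideal (𝓞 M)) := (Finset.range p).image f with hs
      have hcard : s.card = p := by
        rw [hs, Finset.card_image_of_injOn, Finset.card_range]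
        intro k hk l hl hkl
        exact hfinj k l (Finset.mem_range.1 (Finset.mem_coe.1 hk))
          (Finset.mem_range.1 (Finset.mem_coe.1 hl)) hkl
      have hprodd : ∏ a ∈ s, a ∣ Q.map (algebraMap (𝓞 K) (𝓞 M)) := by
        refine Finset.prod_primes_dvd _ ?_ ?_
        · intro a ha
          obtain ⟨k, -, rfl⟩ := Finset.mem_image.1 ha
          exact Ideal.prime_of_isPrime (hfne k) (hfprime k)
        · intro a ha
          obtain ⟨k, -, rfl⟩ := Finset.mem_image.1 ha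
          exact Ideal.dvd_iff_le.2 (Ideal.map_le_iff_le_comap.2 (hfover k).ge)
      have h1 := map_dvd Ideal.absNorm hprodd
      rw [map_prod, Ideal.absNorm_algebraMap] at h1
      have h2 : ∏ a ∈ s, Ideal.absNorm a = Ideal.absNorm P ^ p := by
        rw [← hcard]
        refine Finset.prod_eq_pow_card ?_
        intro a ha
        obtain ⟨k, -, rfl⟩ := Finset.mem_image.1 ha
        exact hfnorm k
      have h3 : Module.finrank (𝓞 K) (𝓞 M) = p := by
        rw [← hfin]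
        exact (IsFractionRing.finrank_eq (𝓞 K) K (𝓞 M) M).symm
      rw [h2, h3] at h1
      exact (Nat.pow_dvd_pow_iff hp.out.ne_zero).1 h1
    exact le_antisymm (Nat.le_of_dvd (Nat.pos_of_ne_zero hNQ0) hdvd) hle
  refine ⟨fun k => f k, ?_, fun k => ⟨hfprime k, hfne k, hfover k, (hfnorm k).trans hNP⟩⟩
  intro k l hkl
  exact Fin.ext (hfinj k l k.2 l.2 hkl)


/-- If a prime `P` of `𝓞 M` over `Q` has the same absolute norm as `Q`, every element of `𝓞 M`
is congruent mod `P` to an element of `𝓞 K`. -/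
theorem exists_sub_mem_of_absNorm_eq (Q : Ideal (𝓞 K)) (P : Ideal (𝓞 M)) (hP0 : P ≠ ⊥)
    (hPQ : P.comap (algebraMap (𝓞 K) (𝓞 M)) = Q) (hN : Ideal.absNorm P = Ideal.absNorm Q)
    (θ : 𝓞 M) : ∃ y : 𝓞 K, θ - algebraMap (𝓞 K) (𝓞 M) y ∈ P := by
  have : Finite (𝓞 M ⧸ P) := Ideal.finiteQuotientOfFreeOfNeBot P hP0
  have hinj : Function.Injective (Ideal.quotientMap P (algebraMap (𝓞 K) (𝓞 M)) hPQ.ge) :=
    Ideal.quotientMap_injective' hPQ.le
  have hbij := hinj.bijective_of_nat_card_le (by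
    rw [Ideal.absNorm_apply, Ideal.absNorm_apply, Submodule.cardQuot_apply,
      Submodule.cardQuot_apply] at hN
    exact hN.le)
  obtain ⟨ybar, hy⟩ := hbij.2 (Ideal.Quotient.mk P θ)
  obtain ⟨y, rfl⟩ := Ideal.Quotient.mk_surjective ybar
  refine ⟨y, ?_⟩
  rw [Ideal.quotientMap_mk] at hy
  exact Ideal.Quotient.eq.1 hy.symm

/-- Converse of `exists_primes_over_of_residue`: if some prime of `𝓞 M` over `Q` has the same
absolute norm as `Q` and `θ ^ p = η` in `𝓞 M`, then `η` is a `p`-th power modulo `Q`. -/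
theorem exists_residue_of_absNorm_eq {n : ℕ} {η : 𝓞 K} {θ : 𝓞 M}
    (hθ : θ ^ n = algebraMap (𝓞 K) (𝓞 M) η)
    (Q : Ideal (𝓞 K)) (P : Ideal (𝓞 M)) (hP0 : P ≠ ⊥)
    (hPQ : P.comap (algebraMap (𝓞 K) (𝓞 M)) = Q) (hN : Ideal.absNorm P = Ideal.absNorm Q) :
    ∃ y : 𝓞 K, η - y ^ n ∈ Q := by
  obtain ⟨y, hy⟩ := exists_sub_mem_of_absNorm_eq Q P hP0 hPQ hN θ
  refine ⟨y, ?_⟩
  rw [← hPQ, Ideal.mem_comap, map_sub, map_pow, ← hθ]
  exact P.mem_of_dvd (sub_dvd_pow_sub_pow _ _ n) hy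

end ints

section pack

universe u

open IsDedekindDomain

variable {K : Type u} [Field K] [NumberField K]

/-- **Packaged Kummer splitting, with the field structure exposed.**  Let `K` be a number field
containing a primitive `p`-th root of unity and let `η ∈ 𝓞 K` be not a `p`-th power in `K`.  Then
there is a number field `M/K` of degree `p` (namely `K(η^{1/p})`) with `θ ∈ 𝓞 M`, `θ ^ p = η`, and
an injective map `{v prime of K | p ∉ v, η ∉ v, η is a p-th power mod v} × Fin p → {primes of M}`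
such that `φ (v, i)` lies over `v` and has the same absolute norm as `v`. -/
theorem exists_kummerField_split (hζ : ∃ ζ : K, IsPrimitiveRoot ζ p) (η : 𝓞 K)
    (hη : ∀ b : K, b ^ p ≠ (η : K)) :
    ∃ (M : Type u) (_ : Field M) (_ : NumberField M) (_ : Algebra K M) (θ : 𝓞 M)
      (φ : {v : HeightOneSpectrum (𝓞 K) // (p : 𝓞 K) ∉ v.asIdeal ∧ η ∉ v.asIdeal ∧
          ∃ y : 𝓞 K, η - y ^ p ∈ v.asIdeal} × Fin p → HeightOneSpectrum (𝓞 M)),
      Module.finrank K M = p ∧ θ ^ p = algebraMap (𝓞 K) (𝓞 M) η ∧ Function.Injective φ ∧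
      ∀ x, (φ x).asIdeal.comap (algebraMap (𝓞 K) (𝓞 M)) = x.1.1.asIdeal ∧
        Ideal.absNorm (φ x).asIdeal = Ideal.absNorm x.1.1.asIdeal := by
  obtain ⟨ζ, hζ⟩ := hζ
  have : NeZero p := ⟨hp.out.ne_zero⟩
  have hirr : Irreducible (X ^ p - C (η : K)) := X_pow_sub_C_irreducible_of_prime hp.out hη
  have : Fact (Irreducible (X ^ p - C (η : K))) := ⟨hirr⟩
  let M := AdjoinRoot (X ^ p - C (η : K))
  have hfinite : Module.Finite K M := (AdjoinRoot.powerBasis hirr.ne_zero).finite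
  have : NumberField M := NumberField.of_module_finite K M
  have hfin : Module.finrank K M = p := by
    rw [(AdjoinRoot.powerBasis hirr.ne_zero).finrank, AdjoinRoot.powerBasis_dim,
      natDegree_X_pow_sub_C]
  have hroot : (AdjoinRoot.root (X ^ p - C (η : K))) ^ p = algebraMap K M (η : K) := by
    have := AdjoinRoot.eval₂_root (X ^ p - C (η : K))
    show _ = AdjoinRoot.of (X ^ p - C (η : K)) (η : K)
    simpa [sub_eq_zero] using this
  have hint : IsIntegral ℤ (AdjoinRoot.root (X ^ p - C (η : K))) := by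
    refine IsIntegral.of_pow hp.out.pos ?_
    rw [hroot]
    exact (RingOfIntegers.isIntegral_coe η).algebraMap
  let θ : 𝓞 M := ⟨AdjoinRoot.root (X ^ p - C (η : K)), hint⟩
  have hθ : θ ^ p = algebraMap (𝓞 K) (𝓞 M) η := by
    apply RingOfIntegers.coe_injective
    rw [map_pow]
    exact hroot
  have hζ' : IsPrimitiveRoot hζ.toInteger p := hζ.toInteger_isPrimitiveRoot
  have H : ∀ v : {v : HeightOneSpectrum (𝓞 K) // (p : 𝓞 K) ∉ v.asIdeal ∧ η ∉ v.asIdeal ∧
      ∃ y : 𝓞 K, η - y ^ p ∈ v.asIdeal},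
      ∃ f : Fin p → Ideal (𝓞 M), Function.Injective f ∧ ∀ i, (f i).IsPrime ∧ f i ≠ ⊥ ∧
        (f i).comap (algebraMap (𝓞 K) (𝓞 M)) = v.1.asIdeal ∧
        Ideal.absNorm (f i) = Ideal.absNorm v.1.asIdeal := by
    intro v
    obtain ⟨y, hy⟩ := v.2.2.2
    have := v.1.isPrime
    exact exists_primes_over_of_residue hζ' hη hθ hfin v.1.asIdeal v.1.ne_bot v.2.1 v.2.2.1 hy
  choose F hFinj hF using H
  refine ⟨M, inferInstance, inferInstance, inferInstance, θ,
    fun x => ⟨F x.1 x.2, (hF x.1 x.2).1, (hF x.1 x.2).2.1⟩, hfin, hθ, ?_,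
    fun x => (hF x.1 x.2).2.2⟩
  rintro ⟨v, k⟩ ⟨v', k'⟩ h
  have h1 : F v k = F v' k' := congrArg HeightOneSpectrum.asIdeal h
  have h2 : v.1.asIdeal = v'.1.asIdeal := by
    rw [← (hF v k).2.2.1, ← (hF v' k').2.2.1, h1]
  have h3 : v = v' := Subtype.ext (HeightOneSpectrum.ext h2)
  subst h3
  rw [hFinj v h1]

/-- **Packaged Kummer splitting** (consumer form for the analytic blocks: no algebra structure
on the consumer side).  Let `K` be a number field containing a primitive `p`-th root of unity and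
let `η ∈ 𝓞 K` be not a `p`-th power in `K`.  Then there is a number field `M`
(namely `K(η^{1/p})`) and an injective, absolute-norm-preserving map
`{v prime of K | p ∉ v, η ∉ v, η is a p-th power mod v} × Fin p → {primes of M}`. -/
theorem exists_numberField_split (hζ : ∃ ζ : K, IsPrimitiveRoot ζ p) (η : 𝓞 K)
    (hη : ∀ b : K, b ^ p ≠ (η : K)) :
    ∃ (M : Type u) (_ : Field M) (_ : NumberField M)
      (φ : {v : HeightOneSpectrum (𝓞 K) // (p : 𝓞 K) ∉ v.asIdeal ∧ η ∉ v.asIdeal ∧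
          ∃ y : 𝓞 K, η - y ^ p ∈ v.asIdeal} × Fin p → HeightOneSpectrum (𝓞 M)),
      Function.Injective φ ∧ ∀ x, Ideal.absNorm (φ x).asIdeal = Ideal.absNorm x.1.1.asIdeal := by
  obtain ⟨M, iF, iN, _, _, φ, -, -, hinj, hφ⟩ := exists_kummerField_split hζ η hη
  exact ⟨M, iF, iN, φ, hinj, fun x => (hφ x).2⟩

end pack

end Fermat.Agent.S14T.KummerSplit
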