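/-
S14T [Th] : interface between the K-only Thaine relation (Thaine.lean, helper99) and the
eigen-projection consumer (ThEigen.lean, helper18).
-/
import Mathlib

set_option autoImplicit false

namespace Fermat.Agent.S14T

open NumberField

/-- **K-only Thaine relation** at the rational prime `q` (to be used for `q ≡ 1 mod p`,
`K = ℚ(ζ_p)`): there are an integer `g` and `0 ≠ x ∈ 𝓞 K` such that for every nonzero prime
`v` of `𝓞 K`, with `r = ord_v(x)`: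
* if `v ∤ q` then `(q - 1) ∣ r`;
* if `v ∣ q` then `(ζ - 1) * g ^ r ≡ 1 mod v`. -/
def ThaineCoreV (K : Type) [Field K] [NumberField K] (ζ : 𝓞 K) (q : ℕ) : Prop :=
  ∃ (g : ℤ) (x : 𝓞 K), x ≠ 0 ∧ ∀ v : Ideal (𝓞 K), v.IsPrime → v ≠ ⊥ → ∃ r : ℕ,
    x ∈ v ^ r ∧ x ∉ v ^ (r + 1) ∧ ((q : 𝓞 K) ∉ v → (q - 1) ∣ r) ∧
    ((q : 𝓞 K) ∈ v → (ζ - 1) * (g : 𝓞 K) ^ r - 1 ∈ v)

end Fermat.Agent.S14T
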