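/-
S14T — ThCoreDef.lean (helper99, [Th] block lead).
K-only core of the Thaine relation: the interface between the cyclotomic computation in
`F = K(ζ_q)` (files ThSetup / ThaineCore, helper99) and the eigen-projection consumer that
derives `ThaineStatement p` of `Plan.lean` (helper18).  No proof obligations here.
-/
import Fermat.Agent.S14T.Plan

set_option autoImplicit false

namespace Fermat.Agent.S14T

open NumberField
open scoped Pointwise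

/-- Thaine relation, K-only form.  For a degree-one prime `Q` of `K = ℚ(ζ_p)` not above `p`
(`q = N Q`), there are `g`, `X ≠ 0`, an ideal `𝔟 ≠ ⊥` and exponents `r ρ` with
`(X) = 𝔟^p · ∏_ρ (ρ Q)^(r ρ)` and `ρ⁻¹(ζ - 1) · g^(r ρ) ≡ 1 (mod Q)` for all `ρ ∈ Gal(K/ℚ)`.
(Internally `X = N_{F/K} γ` with `(ζ_p - ζ_q) · τ γ = γ`, `g` a primitive root mod `q`,
`r ρ = ord_{ρ Q} X`.) -/
def ThaineCore (p : ℕ) : Prop :=
  ∀ (K : Type) [Field K] [NumberField K] [IsCyclotomicExtension {p} ℚ K] (ζ : 𝓞 K),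
    IsPrimitiveRoot ζ p → ∀ Q : Ideal (𝓞 K), Q.IsPrime → (Ideal.absNorm Q).Prime →
    Ideal.absNorm Q ≠ p →
    ∃ (g X : 𝓞 K) (𝔟 : Ideal (𝓞 K)) (r : (K ≃ₐ[ℚ] K) → ℕ), X ≠ 0 ∧ 𝔟 ≠ ⊥ ∧
      Ideal.span {X} = 𝔟 ^ p * ∏ ρ : K ≃ₐ[ℚ] K, (ρ • Q) ^ r ρ ∧
      ∀ ρ : K ≃ₐ[ℚ] K, (ρ⁻¹ • (ζ - 1)) * g ^ r ρ - 1 ∈ Q

end Fermat.Agent.S14T
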