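/-
S14T [Th] — ThEigen.lean (helper18).  Consumer side of the Thaine relation, part (I):

  v-indexed K-only relation `ThaineCoreV K ζ q` (all `q ≡ 1 mod p`)  ⟹  ρ-indexed `ThaineCore p`.

Ingredients (all K-only, `K = ℚ(ζ_p)`, `Q` a degree-one prime not over `p`, `q = N Q`):
* `q ≡ 1 mod p`;
* `(x) = ∏_v v ^ ord_v x` (normalized factors);
* `Gal(K/ℚ)` acts simply transitively on the primes over `q`;
* the primes `v ∤ q` have `p ∣ q - 1 ∣ ord_v x`, whence the `p`-th power `𝔟 ^ p`;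
* the congruence at `ρ • Q` is pulled back to `Q` by `ρ⁻¹`.
-/
import Fermat.Agent.S14T.ThCore
import Fermat.Agent.S14T.ThCoreDef
import Fermat.Agent.S14T.Leaves

set_option autoImplicit false

namespace Fermat.Agent.S14T.ThEigen

open NumberField
open scoped Pointwise nonZeroDivisors

/-! ### Factorisation of a principal ideal from its orders -/

section Dedekind

open UniqueFactorizationMonoid in
/-- If `r v = ord_v x` for all nonzero primes `v`, then `(x) = ∏_{v ∈ U} v ^ r v` for every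
finite set `U` of nonzero primes containing the prime factors of `(x)`. -/
theorem span_eq_prod_pow {R : Type*} [CommRing R] [IsDedekindDomain R] {x : R} (hx : x ≠ 0)
    (r : Ideal R → ℕ)
    (hr : ∀ v : Ideal R, v.IsPrime → v ≠ ⊥ → x ∈ v ^ r v ∧ x ∉ v ^ (r v + 1))
    (U : Finset (Ideal R)) (hU : ∀ v ∈ U, v.IsPrime ∧ v ≠ ⊥)
    (hSU : (normalizedFactors (Ideal.span {x})).toFinset ⊆ U) :
    Ideal.span {x} = ∏ v ∈ U, v ^ r v := by
  classical
  have hI : Ideal.span {x} ≠ ⊥ := by simpa using hx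
  have hcount : ∀ v : Ideal R, v.IsPrime → v ≠ ⊥ →
      (normalizedFactors (Ideal.span {x})).count v = r v := by
    intro v hv hv0
    obtain ⟨h1, h2⟩ := hr v hv hv0
    refine Ideal.count_normalizedFactors_eq ?_ ?_
    · rwa [Ideal.span_singleton_le_iff_mem]
    · rwa [Ideal.span_singleton_le_iff_mem]
  conv_lhs => rw [← Ideal.prod_normalizedFactors_eq_self hI, Finset.prod_multiset_count]
  rw [← Finset.prod_subset hSU]
  · refine Finset.prod_congr rfl fun v hv => ?_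
    obtain ⟨h1, h2⟩ := hU v (hSU hv)
    rw [hcount v h1 h2]
  · intro v hvU hvS
    obtain ⟨h1, h2⟩ := hU v hvU
    have : (normalizedFactors (Ideal.span {x})).count v = 0 := by
      rw [Multiset.count_eq_zero]
      exact fun h => hvS (Multiset.mem_toFinset.mpr h)
    rw [← hcount v h1 h2, this, pow_zero]

/-- Existence of the order of a nonzero element at a nonzero prime. -/
theorem exists_ord {R : Type*} [CommRing R] [IsDedekindDomain R] {x : R} (hx : x ≠ 0)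
    {v : Ideal R} (hv : v.IsPrime) (_hv0 : v ≠ ⊥) : ∃ r : ℕ, x ∈ v ^ r ∧ x ∉ v ^ (r + 1) := by
  classical
  have hI : Ideal.span {x} ≠ 0 := by simpa using hx
  have hnu : ¬ IsUnit v := by
    rw [Ideal.isUnit_iff]; exact hv.ne_top
  have hfin : FiniteMultiplicity v (Ideal.span {x}) := FiniteMultiplicity.of_not_isUnit hnu hI
  have hex : ∃ n : ℕ, x ∉ v ^ (n + 1) := by
    obtain ⟨n, hn⟩ := hfin
    exact ⟨n, fun h => hn (Ideal.dvd_span_singleton.mpr h)⟩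
  refine ⟨Nat.find hex, ?_, Nat.find_spec hex⟩
  rcases Nat.eq_zero_or_pos (Nat.find hex) with h0 | hpos
  · rw [h0, pow_zero, Ideal.one_eq_top]; trivial
  · have := Nat.find_min hex (Nat.sub_lt hpos one_pos)
    rw [not_not] at this
    have e : Nat.find hex - 1 + 1 = Nat.find hex := by omega
    rwa [e] at this

end Dedekind

/-! ### Arithmetic of `ℚ(ζ_p)` at a degree-one prime -/

section Field

variable {p : ℕ} {K : Type} [Field K] [NumberField K] {ζ : 𝓞 K}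

omit [NumberField K] in
theorem natCast_p_mem (hp : p.Prime) (hζ : IsPrimitiveRoot ζ p)
    {v : Ideal (𝓞 K)} (h : ζ - 1 ∈ v) : (p : 𝓞 K) ∈ v := by
  have hsum : ∑ i ∈ Finset.range p, ζ ^ i = 0 := hζ.geom_sum_eq_zero hp.one_lt
  have e : (p : 𝓞 K) = ∑ i ∈ Finset.range p, (1 - ζ ^ i) := by
    rw [Finset.sum_sub_distrib, hsum]; simp
  rw [e]
  refine Ideal.sum_mem _ fun i _ => ?_
  obtain ⟨c, hc⟩ : ζ - 1 ∣ ζ ^ i - 1 := by simpa using sub_dvd_pow_sub_pow ζ 1 i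
  have h2 : ζ ^ i - 1 ∈ v := by rw [hc]; exact v.mul_mem_right _ h
  have : 1 - ζ ^ i = -(ζ ^ i - 1) := by ring
  rw [this]; exact v.neg_mem h2

omit [NumberField K] in
/-- `ζ ≢ 1` modulo a prime over `q ≠ p`. -/
theorem zeta_sub_one_notMem (hp : p.Prime) (hζ : IsPrimitiveRoot ζ p) {q : ℕ} (hq : q.Prime)
    (hqp : q ≠ p) {v : Ideal (𝓞 K)} (hv : v.IsPrime) (hqv : (q : 𝓞 K) ∈ v) : ζ - 1 ∉ v := by
  intro h
  have hpv := natCast_p_mem hp hζ h
  have hcop : IsCoprime (p : ℤ) (q : ℤ) :=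
    Nat.isCoprime_iff_coprime.mpr ((Nat.coprime_primes hp hq).mpr (Ne.symm hqp))
  obtain ⟨a, b, hab⟩ := hcop
  have h1 : (1 : 𝓞 K) = (a : 𝓞 K) * (p : 𝓞 K) + (b : 𝓞 K) * (q : 𝓞 K) := by
    have := congrArg (Int.cast : ℤ → 𝓞 K) hab
    push_cast at this
    exact this.symm
  apply hv.ne_top
  rw [Ideal.eq_top_iff_one, h1]
  exact v.add_mem (v.mul_mem_left _ hpv) (v.mul_mem_left _ hqv)

/-- Modulo a prime of prime norm every integer of `K` is congruent to a rational integer. -/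
theorem exists_int_sub_mem {Q : Ideal (𝓞 K)} (hq : (Ideal.absNorm Q).Prime) (x : 𝓞 K) :
    ∃ m : ℤ, x - (m : 𝓞 K) ∈ Q := by
  have hcard : Nat.card (𝓞 K ⧸ Q) = Ideal.absNorm Q := rfl
  have : Fact (Ideal.absNorm Q).Prime := ⟨hq⟩
  have h1 : (1 : 𝓞 K ⧸ Q) ≠ 0 := by
    intro h
    have hQ : Q = ⊤ := by
      rw [Ideal.eq_top_iff_one, ← Ideal.Quotient.eq_zero_iff_mem]; exact h
    rw [hQ] at hq
    simp at hq
    exact Nat.not_prime_one hq
  have h2 := mem_zmultiples_of_prime_card hcard h1 (g' := Ideal.Quotient.mk Q x)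
  obtain ⟨k, hk⟩ := AddSubgroup.mem_zmultiples_iff.mp h2
  refine ⟨k, ?_⟩
  rw [← Ideal.Quotient.eq, ← hk]
  simp

theorem smul_intCast (σ : K ≃ₐ[ℚ] K) (m : ℤ) : σ • (m : 𝓞 K) = (m : 𝓞 K) :=
  map_intCast (MulSemiringAction.toRingHom (K ≃ₐ[ℚ] K) (𝓞 K) σ) m

theorem smul_natCast (σ : K ≃ₐ[ℚ] K) (m : ℕ) : σ • (m : 𝓞 K) = (m : 𝓞 K) :=
  map_natCast (MulSemiringAction.toRingHom (K ≃ₐ[ℚ] K) (𝓞 K) σ) m

theorem coe_smul (σ : K ≃ₐ[ℚ] K) (x : 𝓞 K) : ((σ • x : 𝓞 K) : K) = σ (x : K) := rfl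

/-- An automorphism stabilising a prime of prime norm acts trivially on the residue field. -/
theorem smul_sub_mem {Q : Ideal (𝓞 K)} (hq : (Ideal.absNorm Q).Prime) {σ : K ≃ₐ[ℚ] K}
    (hσ : σ • Q = Q) (x : 𝓞 K) : σ • x - x ∈ Q := by
  obtain ⟨m, hm⟩ := exists_int_sub_mem hq x
  have h1 : σ • (x - (m : 𝓞 K)) ∈ Q := by
    rw [← hσ]; exact Ideal.smul_mem_pointwise_smul σ _ Q hm
  have e : σ • x - x = σ • (x - (m : 𝓞 K)) - (x - (m : 𝓞 K)) := by
    rw [smul_sub, smul_intCast]; ring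
  rw [e]; exact Q.sub_mem h1 hm

omit [NumberField K] in
/-- The image of `ζ` in `𝓞 K ⧸ v` has order exactly `p` when `v ∣ q ≠ p`. -/
theorem orderOf_mk_zeta (hp : p.Prime) (hζ : IsPrimitiveRoot ζ p) {q : ℕ} (hq : q.Prime)
    (hqp : q ≠ p) {v : Ideal (𝓞 K)} (hv : v.IsPrime) (hqv : (q : 𝓞 K) ∈ v) :
    orderOf (Ideal.Quotient.mk v ζ) = p := by
  have : Fact p.Prime := ⟨hp⟩
  refine orderOf_eq_prime ?_ ?_
  · rw [← map_pow, hζ.pow_eq_one, map_one]
  · intro h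
    apply zeta_sub_one_notMem hp hζ hq hqp hv hqv
    rw [← Ideal.Quotient.eq_zero_iff_mem, map_sub, h, map_one, sub_self]

theorem exists_pow_eq_smul (hp : p.Prime) (hζ : IsPrimitiveRoot ζ p) (σ : K ≃ₐ[ℚ] K) :
    ∃ n : ℕ, n < p ∧ σ • ζ = ζ ^ n := by
  have : NeZero p := ⟨hp.ne_zero⟩
  have h1 : (σ • ζ) ^ p = 1 := by
    rw [← smul_pow', hζ.pow_eq_one, smul_one]
  obtain ⟨i, hi, h⟩ := hζ.eq_pow_of_pow_eq_one h1
  exact ⟨i, hi, h.symm⟩

/-- **Trivial stabiliser.** Only the identity of `Gal(ℚ(ζ_p)/ℚ)` fixes a degree-one prime not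
over `p`. -/
theorem eq_one_of_smul_eq [IsCyclotomicExtension {p} ℚ K] (hp : p.Prime)
    (hζ : IsPrimitiveRoot ζ p) {Q : Ideal (𝓞 K)}
    (hQ : Q.IsPrime) (hq : (Ideal.absNorm Q).Prime) (hqp : Ideal.absNorm Q ≠ p)
    {σ : K ≃ₐ[ℚ] K} (hσ : σ • Q = Q) : σ = 1 := by
  have : NeZero p := ⟨hp.ne_zero⟩
  obtain ⟨n, hn, hσζ⟩ := exists_pow_eq_smul hp hζ σ
  have hord := orderOf_mk_zeta hp hζ hq hqp hQ (Ideal.absNorm_mem Q)
  have hmem : ζ ^ n - ζ ∈ Q := by rw [← hσζ]; exact smul_sub_mem hq hσ ζ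
  set z := Ideal.Quotient.mk Q ζ with hz
  have hzn : z ^ n = z := by
    rw [hz, ← map_pow, ← sub_eq_zero, ← map_sub, Ideal.Quotient.eq_zero_iff_mem]; exact hmem
  have hzp : z ^ p = 1 := by rw [hz, ← map_pow, hζ.pow_eq_one, map_one]
  have hn1 : n = 1 := by
    rcases Nat.eq_zero_or_pos n with h0 | hpos
    · exfalso
      rw [h0, pow_zero] at hzn
      have : orderOf z = 1 := by rw [← hzn]; exact orderOf_one
      rw [hord] at this
      exact hp.one_lt.ne' this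
    · have hu : IsUnit z := IsUnit.of_pow_eq_one hzp hp.ne_zero
      have h2 : z ^ (n - 1) = 1 := by
        have h3 : z ^ (n - 1) * z = 1 * z := by
          rw [← pow_succ, Nat.sub_add_cancel hpos, hzn, one_mul]
        exact hu.mul_right_cancel h3
      have h4 : p ∣ n - 1 := by rw [← hord]; exact orderOf_dvd_of_pow_eq_one h2
      have h5 : n - 1 = 0 := Nat.eq_zero_of_dvd_of_lt h4 (by omega)
      omega
  rw [hn1, pow_one] at hσζ
  have hζK : IsPrimitiveRoot (ζ : K) p :=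
    hζ.map_of_injective (FaithfulSMul.algebraMap_injective (𝓞 K) K)
  have hσK : σ (ζ : K) = (ζ : K) := by rw [← coe_smul, hσζ]
  have hadj := IsCyclotomicExtension.adjoin_primitive_root_eq_top (A := ℚ) hζK
  have : (σ : K →ₐ[ℚ] K) = AlgHom.id ℚ K := by
    refine AlgHom.ext_of_adjoin_eq_top hadj ?_
    intro x hx
    rw [Set.mem_singleton_iff] at hx
    subst hx
    simpa using hσK
  ext x
  have := congrArg (fun f : K →ₐ[ℚ] K => f x) this
  simpa using this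

/-- **Transitivity.** `Gal(ℚ(ζ_p)/ℚ)` permutes the primes over `q` transitively. -/
theorem exists_smul_eq_of_mem [IsCyclotomicExtension {p} ℚ K] (hp : p.Prime)
    {Q v : Ideal (𝓞 K)} (hQ : Q.IsPrime)
    (hv : v.IsPrime) {q : ℕ} (hq : q.Prime) (hqQ : (q : 𝓞 K) ∈ Q) (hqv : (q : 𝓞 K) ∈ v) :
    ∃ σ : K ≃ₐ[ℚ] K, σ • Q = v := by
  have : NeZero p := ⟨hp.ne_zero⟩
  have : IsGalois ℚ K := IsCyclotomicExtension.isGalois {p} ℚ K
  have hmax : (Ideal.span {(q : ℤ)}).IsMaximal :=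
    (Ideal.isPrime_of_prime (Ideal.prime_span_singleton_iff.mpr
      (Nat.prime_iff_prime_int.mp hq))).isMaximal (by simp [hq.ne_zero])
  have key : ∀ w : Ideal (𝓞 K), w.IsPrime → (q : 𝓞 K) ∈ w →
      w.LiesOver (Ideal.span {(q : ℤ)}) := by
    intro w hw hqw
    refine ⟨?_⟩
    have hle : Ideal.span {(q : ℤ)} ≤ w.under ℤ := by
      rw [Ideal.span_singleton_le_iff_mem, Ideal.mem_comap]
      simpa using hqw
    have hne : w.under ℤ ≠ ⊤ := (Ideal.IsPrime.under ℤ w).ne_top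
    exact hmax.eq_of_le hne hle
  have := key Q hQ hqQ
  have := key v hv hqv
  exact Ideal.exists_smul_eq_of_isGaloisGroup (Ideal.span {(q : ℤ)}) Q v (K ≃ₐ[ℚ] K)

/-- A degree-one prime of `ℚ(ζ_p)` not over `p` has norm `≡ 1 mod p`. -/
theorem absNorm_mod_eq_one (hp : p.Prime) (hζ : IsPrimitiveRoot ζ p) {Q : Ideal (𝓞 K)}
    (hQ : Q.IsPrime) (hq : (Ideal.absNorm Q).Prime) (hqp : Ideal.absNorm Q ≠ p) :
    Ideal.absNorm Q % p = 1 := by
  have hord := orderOf_mk_zeta hp hζ hq hqp hQ (Ideal.absNorm_mem Q)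
  have hQ0 : Q ≠ ⊥ := by
    intro h
    rw [h] at hq
    simp at hq
    exact Nat.not_prime_zero hq
  have hmax : Q.IsMaximal := hQ.isMaximal hQ0
  let _ := Ideal.Quotient.field Q
  have hfin : Finite (𝓞 K ⧸ Q) :=
    Nat.finite_of_card_ne_zero (hq.ne_zero : Nat.card (𝓞 K ⧸ Q) ≠ 0)
  let _ := Fintype.ofFinite (𝓞 K ⧸ Q)
  have hzp : (Ideal.Quotient.mk Q ζ) ^ p = 1 := by rw [← map_pow, hζ.pow_eq_one, map_one]
  have hz0 : Ideal.Quotient.mk Q ζ ≠ 0 := by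
    intro h
    rw [h, zero_pow hp.ne_zero] at hzp
    exact zero_ne_one hzp
  have h1 := FiniteField.pow_card_sub_one_eq_one (Ideal.Quotient.mk Q ζ) hz0
  have hcard : Fintype.card (𝓞 K ⧸ Q) = Ideal.absNorm Q := by
    rw [← Nat.card_eq_fintype_card]; rfl
  rw [hcard] at h1
  have hdvd : p ∣ Ideal.absNorm Q - 1 := by
    rw [← hord]; exact orderOf_dvd_of_pow_eq_one h1
  obtain ⟨k, hk⟩ := hdvd
  have hq1 : 1 ≤ Ideal.absNorm Q := hq.one_lt.le
  have e : Ideal.absNorm Q = 1 + p * k := by omega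
  rw [e, Nat.add_mul_mod_self_left, Nat.mod_eq_of_lt hp.one_lt]

end Field

/-! ### Part (I): from the v-indexed relation to the ρ-indexed relation -/

theorem thaineCore_of_coreV {p : ℕ} (hp : p.Prime)
    (h : ∀ (K : Type) [Field K] [NumberField K] [IsCyclotomicExtension {p} ℚ K] (ζ : 𝓞 K),
      IsPrimitiveRoot ζ p → ∀ q : ℕ, q.Prime → q % p = 1 → ThaineCoreV K ζ q) :
    ThaineCore p := by
  intro K _ _ _ ζ hζ Q hQ hq hqp
  classical
  have hq1 : Ideal.absNorm Q % p = 1 := absNorm_mod_eq_one hp hζ hQ hq hqp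
  obtain ⟨g, x, hx, hv⟩ := h K ζ hζ (Ideal.absNorm Q) hq hq1
  have hpq : p ∣ Ideal.absNorm Q - 1 := by
    have := Nat.dvd_sub_mod (n := p) (Ideal.absNorm Q)
    rwa [hq1] at this
  have hv' : ∀ v : Ideal (𝓞 K), v.IsPrime ∧ v ≠ ⊥ → ∃ r : ℕ,
      x ∈ v ^ r ∧ x ∉ v ^ (r + 1) ∧ ((Ideal.absNorm Q : 𝓞 K) ∉ v → (Ideal.absNorm Q - 1) ∣ r) ∧
      ((Ideal.absNorm Q : 𝓞 K) ∈ v → (ζ - 1) * (g : 𝓞 K) ^ r - 1 ∈ v) :=
    fun v hv0 => hv v hv0.1 hv0.2
  choose! r hr using hv'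
  have hQ0 : Q ≠ ⊥ := by
    intro h0
    rw [h0] at hq
    simp at hq
    exact Nat.not_prime_zero hq
  have hqQ : (Ideal.absNorm Q : 𝓞 K) ∈ Q := Ideal.absNorm_mem Q
  -- the conjugates of `Q`
  have hsP : ∀ σ : K ≃ₐ[ℚ] K, (σ • Q).IsPrime ∧ σ • Q ≠ ⊥ ∧
      (Ideal.absNorm Q : 𝓞 K) ∈ σ • Q := by
    intro σ
    refine ⟨inferInstance, ?_, ?_⟩
    · intro h0
      apply hQ0
      have : σ⁻¹ • (σ • Q) = σ⁻¹ • (⊥ : Ideal (𝓞 K)) := by rw [h0]
      rwa [inv_smul_smul, Ideal.smul_bot] at this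
    · rw [← smul_natCast σ (Ideal.absNorm Q)]
      exact Ideal.smul_mem_pointwise_smul σ _ Q hqQ
  have hinj : Function.Injective (fun σ : K ≃ₐ[ℚ] K => σ • Q) := by
    intro σ τ hστ
    have h1 : (τ⁻¹ * σ) • Q = Q := by
      rw [mul_smul]
      change τ⁻¹ • (σ • Q) = Q
      rw [show σ • Q = τ • Q from hστ, inv_smul_smul]
    have h2 := eq_one_of_smul_eq hp hζ hQ hq hqp h1
    exact (inv_mul_eq_one.mp h2).symm
  set T : Finset (Ideal (𝓞 K)) := Finset.univ.image (fun σ : K ≃ₐ[ℚ] K => σ • Q) with hT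
  set S : Finset (Ideal (𝓞 K)) :=
    (UniqueFactorizationMonoid.normalizedFactors (Ideal.span {x})).toFinset with hS
  have hU : ∀ v ∈ S ∪ T, v.IsPrime ∧ v ≠ ⊥ := by
    intro v hv
    rcases Finset.mem_union.mp hv with h1 | h1
    · have hpr : Prime v :=
        UniqueFactorizationMonoid.prime_of_normalized_factor v (Multiset.mem_toFinset.mp h1)
      exact ⟨Ideal.isPrime_of_prime hpr, hpr.ne_zero⟩
    · obtain ⟨σ, -, rfl⟩ := Finset.mem_image.mp h1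
      exact ⟨(hsP σ).1, (hsP σ).2.1⟩
  have hfact : Ideal.span {x} = ∏ v ∈ S ∪ T, v ^ r v :=
    span_eq_prod_pow hx r (fun v h1 h2 => ⟨(hr v ⟨h1, h2⟩).1, (hr v ⟨h1, h2⟩).2.1⟩) (S ∪ T) hU
      Finset.subset_union_left
  have hfilter : (S ∪ T).filter (fun v => (Ideal.absNorm Q : 𝓞 K) ∈ v) = T := by
    ext v
    rw [Finset.mem_filter]
    constructor
    · rintro ⟨hvU, hqv⟩
      obtain ⟨σ, hσ⟩ := exists_smul_eq_of_mem hp hQ (hU v hvU).1 hq hqQ hqv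
      exact Finset.mem_image.mpr ⟨σ, Finset.mem_univ _, hσ⟩
    · intro hvT
      refine ⟨Finset.mem_union_right _ hvT, ?_⟩
      obtain ⟨σ, -, rfl⟩ := Finset.mem_image.mp hvT
      exact (hsP σ).2.2
  rw [← Finset.prod_filter_mul_prod_filter_not (S ∪ T) (fun v => (Ideal.absNorm Q : 𝓞 K) ∈ v),
    hfilter, hT, Finset.prod_image (fun σ _ τ _ hστ => hinj hστ)] at hfact
  -- the part prime to `q` is a `p`-th power
  have hpow : ∏ v ∈ (S ∪ T).filter (fun v => ¬ (Ideal.absNorm Q : 𝓞 K) ∈ v), v ^ r v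
      = (∏ v ∈ (S ∪ T).filter (fun v => ¬ (Ideal.absNorm Q : 𝓞 K) ∈ v), v ^ (r v / p)) ^ p := by
    rw [← Finset.prod_pow]
    refine Finset.prod_congr rfl fun v hv => ?_
    obtain ⟨hvU, hqv⟩ := Finset.mem_filter.mp hv
    have hdvd : p ∣ r v := hpq.trans ((hr v (hU v hvU)).2.2.1 hqv)
    rw [← pow_mul, Nat.div_mul_cancel hdvd]
  rw [hpow] at hfact
  refine ⟨(g : 𝓞 K), x,
    ∏ v ∈ (S ∪ T).filter (fun v => ¬ (Ideal.absNorm Q : 𝓞 K) ∈ v), v ^ (r v / p),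
    fun ρ => r (ρ • Q), hx, ?_, ?_, ?_⟩
  · rw [← Ideal.zero_eq_bot, Finset.prod_ne_zero_iff]
    intro v hv
    exact pow_ne_zero _ (hU v (Finset.mem_filter.mp hv).1).2
  · rw [hfact, mul_comm]
  · intro ρ
    have h1 := (hr (ρ • Q) ⟨(hsP ρ).1, (hsP ρ).2.1⟩).2.2.2 (hsP ρ).2.2
    rw [Ideal.mem_pointwise_smul_iff_inv_smul_mem] at h1
    have e : ρ⁻¹ • ((ζ - 1) * (g : 𝓞 K) ^ r (ρ • Q) - 1)
        = (ρ⁻¹ • (ζ - 1)) * (g : 𝓞 K) ^ r (ρ • Q) - 1 := by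
      rw [smul_sub, smul_mul', smul_pow', smul_intCast, smul_one]
    rwa [e] at h1

/-- The captain's leaf `ThaineRel p` (all orders, `g : ℕ`) gives the v-indexed core. -/
theorem thaineCoreV_of_rel {p : ℕ} (h : ThaineRel p) (K : Type) [Field K] [NumberField K]
    [IsCyclotomicExtension {p} ℚ K] (ζ : 𝓞 K) (hζ : IsPrimitiveRoot ζ p) (q : ℕ) (hq : q.Prime)
    (hq1 : q % p = 1) : ThaineCoreV K ζ q := by
  obtain ⟨g, x, -, hx, hv⟩ := h K ζ hζ q hq hq1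
  refine ⟨(g : ℤ), x, hx, fun v hvp hv0 => ?_⟩
  obtain ⟨r, h1, h2⟩ := exists_ord hx hvp hv0
  obtain ⟨h3, h4⟩ := hv v hvp hv0 r h1 h2
  refine ⟨r, h1, h2, h3, fun hqv => ?_⟩
  have := h4 hqv
  simpa using this

/-- Part (I) from the captain's leaf `ThaineRel p`. -/
theorem thaineCore_of_rel {p : ℕ} (hp : p.Prime) (h : ThaineRel p) : ThaineCore p :=
  thaineCore_of_coreV hp (fun K _ _ _ ζ hζ q hq hq1 => thaineCoreV_of_rel h K ζ hζ q hq hq1)

end Fermat.Agent.S14T.ThEigen
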