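/-
S14T — ThProjB.lean (helper63): the eigen-projection half of block [Th].
`ThaineCore p → ThaineStatement p`  (part (II) of the consumer; Mathlib + Plan + ThCoreDef only).

From `(X) = 𝔟^p · ∏_ρ (ρQ)^(r ρ)` and `ρ⁻¹(ζ-1) · g^(r ρ) ≡ 1 (mod Q)`:
* `S := ∑_ρ a(ρ⁻¹)·r ρ` satisfies `η_a · g^S ≡ 1 (mod Q)`, so `p ∤ S` when `η_a` is not a
  `p`-th power residue modulo `Q`;
* applying `N_a = ∏_τ (τ •)^(a τ)` gives `(N_a X) = (N_a 𝔟)^p · ∏_μ (μQ)^(c μ)` with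
  `c μ = ∑_ρ a(μρ⁻¹)·r ρ ≡ a μ · S (mod p)`;
* Bezout on `p ∤ S` isolates `∏_μ (μQ)^(a μ)` up to principal ideals and `p`-th powers.
-/
import Fermat.Agent.S14T.ThCoreDef

set_option autoImplicit false

namespace Fermat.Agent.S14T.ThProjB

open NumberField
open scoped Pointwise nonZeroDivisors

variable {K : Type} [Field K] [NumberField K]

theorem smul_span_singleton (σ : K ≃ₐ[ℚ] K) (x : 𝓞 K) :
    σ • Ideal.span {x} = Ideal.span {σ • x} := by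
  rw [Ideal.pointwise_smul_def, Ideal.map_span, Set.image_singleton]
  rfl

theorem smul_ne_zero_ideal (σ : K ≃ₐ[ℚ] K) {I : Ideal (𝓞 K)} (h : I ≠ 0) : σ • I ≠ 0 := by
  intro h0
  apply h
  have h1 := congrArg (fun J => σ⁻¹ • J) h0
  simpa [inv_smul_smul] using h1

theorem exists_pow_eq {p : ℕ} (hp : p.Prime) {ζ : 𝓞 K} (hζ : IsPrimitiveRoot ζ p)
    (σ : K ≃ₐ[ℚ] K) : ∃ n : ℕ, σ (ζ : K) = (ζ : K) ^ n := by
  have hζK : IsPrimitiveRoot (ζ : K) p :=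
    hζ.map_of_injective (FaithfulSMul.algebraMap_injective (𝓞 K) K)
  have h1 : (σ (ζ : K)) ^ p = 1 := by rw [← map_pow, hζK.pow_eq_one, map_one]
  have : NeZero p := ⟨hp.ne_zero⟩
  obtain ⟨i, -, hi⟩ := hζK.eq_pow_of_pow_eq_one h1
  exact ⟨i, hi.symm⟩

/-- An inverse-square family is multiplicative modulo `p`. -/
theorem family_mul {p : ℕ} (hp : p.Prime) {ζ : 𝓞 K} (hζ : IsPrimitiveRoot ζ p)
    {a : (K ≃ₐ[ℚ] K) → ℕ} (ha : IsInvSqFamily p K ζ a) (μ ρ : K ≃ₐ[ℚ] K) :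
    (a (μ * ρ) : ZMod p) = a μ * a ρ := by
  obtain ⟨n, hn⟩ := exists_pow_eq hp hζ μ
  obtain ⟨m, hm⟩ := exists_pow_eq hp hζ ρ
  have hmul : (μ * ρ) (ζ : K) = (ζ : K) ^ (n * m) := by
    rw [AlgEquiv.mul_apply, hm, map_pow, hn, ← pow_mul]
  have h1 := ha μ n hn
  have h2 := ha ρ m hm
  have h3 := ha (μ * ρ) (n * m) hmul
  push_cast at h3
  calc (a (μ * ρ) : ZMod p)
      = a (μ * ρ) * ((a μ * (n : ZMod p) ^ 2) * (a ρ * (m : ZMod p) ^ 2)) := by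
        rw [h1, h2]; ring
    _ = (a (μ * ρ) * ((n : ZMod p) * m) ^ 2) * (a μ * a ρ) := by ring
    _ = a μ * a ρ := by rw [h3, one_mul]

/-- **Eigen-projection of the Thaine relation.** -/
theorem thaineStatement_of_core {p : ℕ} (hp : p.Prime) (hcore : ThaineCore p) :
    ThaineStatement p := by
  intro K _ _ _ ζ hζ a ha Q hQ hNQ hNp hη
  obtain ⟨g, X, 𝔟, r, hX, h𝔟, hspan, hcong⟩ := hcore K ζ hζ Q hQ hNQ hNp
  set S : ℕ := ∑ ρ : K ≃ₐ[ℚ] K, a ρ⁻¹ * r ρ with hS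
  -- Step 1: `p ∤ S`.
  have hpS : ¬ p ∣ S := by
    rintro ⟨k, hk⟩
    apply hη
    have h1 : ∀ ρ : K ≃ₐ[ℚ] K,
        Ideal.Quotient.mk Q (ρ⁻¹ • (ζ - 1)) * Ideal.Quotient.mk Q g ^ r ρ = 1 := by
      intro ρ
      have h2 : Ideal.Quotient.mk Q ((ρ⁻¹ • (ζ - 1)) * g ^ r ρ - 1) = 0 :=
        Ideal.Quotient.eq_zero_iff_mem.mpr (hcong ρ)
      rw [map_sub, map_mul, map_pow, map_one, sub_eq_zero] at h2
      exact h2
    have h3 : Ideal.Quotient.mk Q (etaElt K ζ a) * Ideal.Quotient.mk Q g ^ S = 1 := by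
      have h4 : ∏ ρ : K ≃ₐ[ℚ] K,
          (Ideal.Quotient.mk Q (ρ⁻¹ • (ζ - 1)) * Ideal.Quotient.mk Q g ^ r ρ) ^ a ρ⁻¹ = 1 := by
        apply Finset.prod_eq_one
        intro ρ _
        rw [h1 ρ, one_pow]
      simp only [mul_pow, Finset.prod_mul_distrib, ← pow_mul] at h4
      rw [Finset.prod_pow_eq_pow_sum] at h4
      have h5 : ∏ ρ : K ≃ₐ[ℚ] K, Ideal.Quotient.mk Q (ρ⁻¹ • (ζ - 1)) ^ a ρ⁻¹ =
          Ideal.Quotient.mk Q (etaElt K ζ a) := by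
        unfold etaElt
        rw [map_prod]
        simp only [map_pow]
        exact Fintype.prod_equiv (Equiv.inv _) _ _ (fun ρ => rfl)
      have h6 : ∑ ρ : K ≃ₐ[ℚ] K, r ρ * a ρ⁻¹ = S := by
        rw [hS]
        exact Finset.sum_congr rfl (fun ρ _ => mul_comm _ _)
      rw [h5, h6] at h4
      exact h4
    obtain ⟨m, hm⟩ : ∃ m, p = m + 1 := ⟨p - 1, (Nat.succ_pred_eq_of_pos hp.pos).symm⟩
    rw [hk, hm, pow_mul'] at h3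
    refine ⟨etaElt K ζ a * (g ^ k) ^ m, ?_⟩
    rw [← Ideal.Quotient.eq_zero_iff_mem, map_sub, sub_eq_zero, map_pow, map_mul, map_pow,
      map_pow]
    generalize Ideal.Quotient.mk Q (etaElt K ζ a) = e at h3 ⊢
    generalize Ideal.Quotient.mk Q g ^ k = y at h3 ⊢
    rw [hm]
    calc (e * y ^ m) ^ (m + 1) = e * (e * y ^ (m + 1)) ^ m := by ring
      _ = e := by rw [h3, one_pow, mul_one]
  -- Step 2: the exponents `c μ`.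
  let c : (K ≃ₐ[ℚ] K) → ℕ := fun μ => ∑ ρ : K ≃ₐ[ℚ] K, a (μ * ρ⁻¹) * r ρ
  have hc : ∀ μ, (c μ : ZMod p) = ((a μ * S : ℕ) : ZMod p) := by
    intro μ
    simp only [c, hS]
    push_cast
    rw [Finset.mul_sum]
    apply Finset.sum_congr rfl
    intro ρ _
    rw [family_mul hp hζ ha μ ρ⁻¹]
    ring
  have hd : ∀ μ, ∃ d₁ d₂ : ℕ, c μ + p * d₁ = a μ * S + p * d₂ := by
    intro μ
    have h := (ZMod.natCast_eq_natCast_iff _ _ _).mp (hc μ)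
    rcases le_total (c μ) (a μ * S) with hle | hle
    · obtain ⟨k, hk⟩ := (Nat.modEq_iff_dvd' hle).mp h
      refine ⟨k, 0, ?_⟩
      rw [← hk, mul_zero, add_zero]
      exact Nat.add_sub_of_le hle
    · obtain ⟨k, hk⟩ := (Nat.modEq_iff_dvd' hle).mp h.symm
      refine ⟨0, k, ?_⟩
      rw [← hk, mul_zero, add_zero]
      exact (Nat.add_sub_of_le hle).symm
  choose d₁ d₂ hd using hd
  -- `N_a` applied to the relation.
  have key : Ideal.span {∏ τ : K ≃ₐ[ℚ] K, (τ • X) ^ a τ} =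
      (∏ τ : K ≃ₐ[ℚ] K, (τ • 𝔟) ^ a τ) ^ p * ∏ μ : K ≃ₐ[ℚ] K, (μ • Q) ^ c μ := by
    have h1 : ∀ τ : K ≃ₐ[ℚ] K, Ideal.span {τ • X} =
        (τ • 𝔟) ^ p * ∏ ρ : K ≃ₐ[ℚ] K, ((τ * ρ) • Q) ^ r ρ := by
      intro τ
      rw [← smul_span_singleton, hspan, MulDistribMulAction.smul_mul, smul_pow',
        Finset.smul_prod']
      congr 1
      apply Finset.prod_congr rfl
      intro ρ _
      rw [smul_pow', mul_smul]
    have h2 : Ideal.span {∏ τ : K ≃ₐ[ℚ] K, (τ • X) ^ a τ} =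
        ∏ τ : K ≃ₐ[ℚ] K, (Ideal.span {τ • X}) ^ a τ := by
      rw [← Ideal.prod_span_singleton]
      simp only [Ideal.span_singleton_pow]
    have h3 : ∏ τ : K ≃ₐ[ℚ] K, (Ideal.span {τ • X}) ^ a τ =
        (∏ τ : K ≃ₐ[ℚ] K, (τ • 𝔟) ^ a τ) ^ p *
          ∏ τ : K ≃ₐ[ℚ] K, ∏ ρ : K ≃ₐ[ℚ] K, ((τ * ρ) • Q) ^ (r ρ * a τ) := by
      rw [← Finset.prod_pow, ← Finset.prod_mul_distrib]
      apply Finset.prod_congr rfl
      intro τ _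
      rw [h1 τ, mul_pow, ← Finset.prod_pow]
      congr 1
      · rw [← pow_mul, ← pow_mul, mul_comm]
      · apply Finset.prod_congr rfl
        intro ρ _
        rw [← pow_mul]
    have h4 : ∏ τ : K ≃ₐ[ℚ] K, ∏ ρ : K ≃ₐ[ℚ] K, ((τ * ρ) • Q) ^ (r ρ * a τ) =
        ∏ μ : K ≃ₐ[ℚ] K, (μ • Q) ^ c μ := by
      rw [Finset.prod_comm]
      have h5 : ∀ ρ : K ≃ₐ[ℚ] K, ∏ τ : K ≃ₐ[ℚ] K, ((τ * ρ) • Q) ^ (r ρ * a τ) =
          ∏ μ : K ≃ₐ[ℚ] K, (μ • Q) ^ (r ρ * a (μ * ρ⁻¹)) := by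
        intro ρ
        refine Fintype.prod_equiv (Equiv.mulRight ρ) _ _ (fun τ => ?_)
        simp [mul_assoc]
      simp only [h5]
      rw [Finset.prod_comm]
      apply Finset.prod_congr rfl
      intro μ _
      rw [Finset.prod_pow_eq_pow_sum]
      congr 1
      exact Finset.sum_congr rfl (fun ρ _ => mul_comm _ _)
    rw [h2, h3, h4]
  -- names
  have hQ0 : Q ≠ 0 := by
    rintro rfl
    exact Nat.not_prime_zero (by simpa using hNQ)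
  have h𝔟0 : 𝔟 ≠ 0 := h𝔟
  set Pa : Ideal (𝓞 K) := ∏ σ : K ≃ₐ[ℚ] K, (σ • Q) ^ a σ with hPa
  set x₁ : 𝓞 K := ∏ τ : K ≃ₐ[ℚ] K, (τ • X) ^ a τ with hx₁
  set B : Ideal (𝓞 K) := ∏ τ : K ≃ₐ[ℚ] K, (τ • 𝔟) ^ a τ with hB
  set J₁ : Ideal (𝓞 K) := ∏ μ : K ≃ₐ[ℚ] K, (μ • Q) ^ d₁ μ with hJ₁
  set J₂ : Ideal (𝓞 K) := ∏ μ : K ≃ₐ[ℚ] K, (μ • Q) ^ d₂ μ with hJ₂
  have hPa0 : Pa ≠ 0 :=
    Finset.prod_ne_zero_iff.mpr (fun σ _ => pow_ne_zero _ (smul_ne_zero_ideal σ hQ0))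
  have hB0 : B ≠ 0 :=
    Finset.prod_ne_zero_iff.mpr (fun σ _ => pow_ne_zero _ (smul_ne_zero_ideal σ h𝔟0))
  have hJ₁0 : J₁ ≠ 0 :=
    Finset.prod_ne_zero_iff.mpr (fun σ _ => pow_ne_zero _ (smul_ne_zero_ideal σ hQ0))
  have hJ₂0 : J₂ ≠ 0 :=
    Finset.prod_ne_zero_iff.mpr (fun σ _ => pow_ne_zero _ (smul_ne_zero_ideal σ hQ0))
  have hx₁0 : x₁ ≠ 0 :=
    Finset.prod_ne_zero_iff.mpr (fun σ _ => pow_ne_zero _ ((smul_ne_zero_iff_ne σ).mpr hX))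
  have E1 : Ideal.span {x₁} * J₁ ^ p = (B * J₂) ^ p * Pa ^ S := by
    rw [key]
    have h1 : (∏ μ : K ≃ₐ[ℚ] K, (μ • Q) ^ c μ) * J₁ ^ p = J₂ ^ p * Pa ^ S := by
      simp only [hJ₁, hJ₂, hPa, ← Finset.prod_pow, ← Finset.prod_mul_distrib, ← pow_mul,
        ← pow_add]
      apply Finset.prod_congr rfl
      intro μ _
      congr 1
      have h2 := hd μ
      rw [mul_comm (d₁ μ) p, mul_comm (d₂ μ) p, h2]
      ring
    rw [mul_pow, mul_assoc, h1, mul_assoc]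
  -- Bezout
  obtain ⟨s, t, hst⟩ : ∃ s t : ℕ, S * s = 1 + p * t := by
    have hcop : Nat.Coprime S p := (Nat.Coprime.symm ((Nat.Prime.coprime_iff_not_dvd hp).mpr hpS))
    obtain ⟨s, -, hs⟩ := Nat.exists_mul_mod_eq_one_of_coprime hcop hp.one_lt
    refine ⟨s, S * s / p, ?_⟩
    have := Nat.div_add_mod (S * s) p
    rw [hs] at this
    omega
  have E2 : Ideal.span {x₁ ^ s} * (J₁ ^ s) ^ p = Pa * ((B * J₂) ^ s * Pa ^ t) ^ p := by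
    have e1 : (Ideal.span {x₁} * J₁ ^ p) ^ s = Ideal.span {x₁ ^ s} * (J₁ ^ s) ^ p := by
      rw [← Ideal.span_singleton_pow]
      ring
    have e3 : Pa ^ (S * s) = Pa * Pa ^ (p * t) := by rw [hst, pow_add, pow_one]
    have e2 : ((B * J₂) ^ p * Pa ^ S) ^ s = Pa * ((B * J₂) ^ s * Pa ^ t) ^ p := by
      calc ((B * J₂) ^ p * Pa ^ S) ^ s = ((B * J₂) ^ s) ^ p * Pa ^ (S * s) := by ring
        _ = ((B * J₂) ^ s) ^ p * (Pa * Pa ^ (p * t)) := by rw [e3]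
        _ = Pa * ((B * J₂) ^ s * Pa ^ t) ^ p := by ring
    rw [← e1, E1, e2]
  -- invert `J₃ = (B J₂)^s Pa^t` up to a principal ideal
  set J₃ : Ideal (𝓞 K) := (B * J₂) ^ s * Pa ^ t with hJ₃
  have hJ₃0 : J₃ ≠ 0 := mul_ne_zero (pow_ne_zero _ (mul_ne_zero hB0 hJ₂0)) (pow_ne_zero _ hPa0)
  obtain ⟨z, hzJ, hz0⟩ := Submodule.exists_mem_ne_zero_of_ne_bot hJ₃0
  obtain ⟨J₃', hJ₃'⟩ := Ideal.dvd_span_singleton.mpr hzJ
  have hJ₃'0 : J₃' ≠ 0 := by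
    rintro rfl
    rw [mul_zero] at hJ₃'
    exact hz0 (Ideal.span_singleton_eq_bot.mp hJ₃')
  refine ⟨z ^ p, x₁ ^ s, J₁ ^ s * J₃', pow_ne_zero _ hz0, pow_ne_zero _ hx₁0,
    mul_ne_zero (pow_ne_zero _ hJ₁0) hJ₃'0, ?_⟩
  calc Ideal.span {z ^ p} * Pa = (J₃ * J₃') ^ p * Pa := by
        rw [← Ideal.span_singleton_pow, hJ₃']
    _ = J₃' ^ p * (Pa * J₃ ^ p) := by ring
    _ = J₃' ^ p * (Ideal.span {x₁ ^ s} * (J₁ ^ s) ^ p) := by rw [E2]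
    _ = Ideal.span {x₁ ^ s} * (J₁ ^ s * J₃') ^ p := by ring

end Fermat.Agent.S14T.ThProjB
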