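/-
S14T [Th-b] : abstract "Hilbert 90 ⟹ norm" algebra for the Thaine relation.

If `u * τ γ = γ` then `γ ^ n = (∏ j < n, ∏ i < j, τ^i u) * ∏ j < n, τ^j γ`; for a finite cyclic
group `G = ⟨τ⟩` this reads `γ ^ |G| = W * ∏ σ : G, σ • γ` with `W` a product of conjugates of `u`
(a unit as soon as `u` is).  Mathlib-only.
-/
import Mathlib

set_option autoImplicit false

namespace Fermat.Agent.S14T.ThNorm

open Finset

section Iterate

variable {M : Type*} [CommMonoid M]

/-- `u * f γ = γ` implies `(∏ i < j, f^[i] u) * f^[j] γ = γ`. -/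
theorem prod_iterate_mul_iterate (f : M →* M) {u γ : M} (h : u * f γ = γ) (j : ℕ) :
    (∏ i ∈ range j, f^[i] u) * f^[j] γ = γ := by
  induction j with
  | zero => simp
  | succ j ih =>
    rw [prod_range_succ, Function.iterate_succ_apply, mul_assoc]
    have : f^[j] u * f^[j] (f γ) = f^[j] γ := by
      rw [← iterate_map_mul, h]
    rw [this, ih]

/-- `u * f γ = γ` implies `γ ^ n = (∏ j < n, ∏ i < j, f^[i] u) * ∏ j < n, f^[j] γ`. -/
theorem pow_eq_prod_iterate (f : M →* M) {u γ : M} (h : u * f γ = γ) (n : ℕ) :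
    γ ^ n = (∏ j ∈ range n, ∏ i ∈ range j, f^[i] u) * ∏ j ∈ range n, f^[j] γ := by
  rw [← prod_mul_distrib]
  rw [prod_congr rfl (fun j _ => prod_iterate_mul_iterate f h j)]
  simp

/-- Version of `pow_eq_prod_iterate` for `τ : MulAut M` and its powers. -/
theorem pow_eq_prod_mulAut (τ : MulAut M) {u γ : M} (h : u * τ γ = γ) (n : ℕ) :
    γ ^ n = (∏ j ∈ range n, ∏ i ∈ range j, (τ ^ i) u) * ∏ j ∈ range n, (τ ^ j) γ := by
  have key : ∀ (i : ℕ) (x : M), (τ ^ i) x = (τ.toMonoidHom)^[i] x := by
    intro i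
    induction i with
    | zero => intro x; simp
    | succ i ih =>
      intro x
      rw [pow_succ, MulAut.mul_apply, ih, Function.iterate_succ_apply]
      rfl
  simp only [key]
  exact pow_eq_prod_iterate τ.toMonoidHom h n

end Iterate

section Action

variable {M : Type*} [CommMonoid M] {G : Type*} [Group G] [MulDistribMulAction G M]

/-- Version of `pow_eq_prod_iterate` for a group acting on `M` by monoid automorphisms. -/
theorem pow_eq_prod_smul (τ : G) {u γ : M} (h : u * τ • γ = γ) (n : ℕ) :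
    γ ^ n = (∏ j ∈ range n, ∏ i ∈ range j, τ ^ i • u) * ∏ j ∈ range n, τ ^ j • γ := by
  have key : ∀ (i : ℕ) (x : M), τ ^ i • x = (MulDistribMulAction.toMonoidHom M τ)^[i] x := by
    intro i
    induction i with
    | zero => intro x; simp
    | succ i ih =>
      intro x
      rw [pow_succ, mul_smul, ih, Function.iterate_succ_apply]
      rfl
  simp only [key]
  exact pow_eq_prod_iterate (MulDistribMulAction.toMonoidHom M τ) h n

/-- In a finite cyclic group generated by `τ`, a product over the group is the product over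
the powers `τ ^ j`, `j < |G|`. -/
theorem prod_univ_eq_prod_range_pow {N : Type*} [CommMonoid N] [Fintype G] {τ : G}
    (hτ : ∀ σ : G, σ ∈ Subgroup.zpowers τ) (F : G → N) :
    ∏ σ : G, F σ = ∏ j ∈ range (Nat.card G), F (τ ^ j) := by
  classical
  have himg := IsCyclic.image_range_card hτ
  rw [← himg, prod_image]
  intro i hi j hj hij
  have hord : orderOf τ = Nat.card G := orderOf_eq_card_of_forall_mem_zpowers hτ
  rw [Finset.coe_range, ← hord] at hi hj
  exact pow_injOn_Iio_orderOf hi hj hij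

/-- **Norm identity.** `G = ⟨τ⟩` finite cyclic acting on `M`, `u * τ • γ = γ`. Then
`γ ^ |G| = W * ∏ σ : G, σ • γ`, where `W` is an explicit product of conjugates of `u`. -/
theorem pow_card_eq_mul_prod_smul [Fintype G] {τ : G} (hτ : ∀ σ : G, σ ∈ Subgroup.zpowers τ)
    {u γ : M} (h : u * τ • γ = γ) :
    γ ^ Nat.card G
      = (∏ j ∈ range (Nat.card G), ∏ i ∈ range j, τ ^ i • u) * ∏ σ : G, σ • γ := by
  rw [prod_univ_eq_prod_range_pow hτ (fun σ => σ • γ)]
  exact pow_eq_prod_smul τ h _

/-- The factor `W` is a unit when `u` is. -/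
theorem isUnit_prod_prod_smul (τ : G) {u : M} (hu : IsUnit u) (n : ℕ) :
    IsUnit (∏ j ∈ range n, ∏ i ∈ range j, τ ^ i • u) := by
  have h1 : ∀ i : ℕ, IsUnit (τ ^ i • u) := fun i =>
    hu.map (MulDistribMulAction.toMonoidHom M (τ ^ i))
  have h2 : ∀ j : ℕ, IsUnit (∏ i ∈ range j, τ ^ i • u) := by
    intro j
    induction j with
    | zero => simp
    | succ j ih => rw [prod_range_succ]; exact ih.mul (h1 j)
  induction n with
  | zero => simp
  | succ n ih => rw [prod_range_succ]; exact ih.mul (h2 n)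

/-- **Norm identity, associated form.** `G = ⟨τ⟩` finite cyclic acting on `M`, `u` a unit with
`u * τ • γ = γ`.  Then `∏ σ : G, σ • γ` is associated to `γ ^ |G|`. -/
theorem associated_prod_smul_pow_card [Fintype G] {τ : G}
    (hτ : ∀ σ : G, σ ∈ Subgroup.zpowers τ) {u γ : M} (hu : IsUnit u) (h : u * τ • γ = γ) :
    Associated (∏ σ : G, σ • γ) (γ ^ Nat.card G) := by
  obtain ⟨w, hw⟩ := isUnit_prod_prod_smul τ hu (Nat.card G)
  refine ⟨w, ?_⟩
  rw [pow_card_eq_mul_prod_smul hτ h, hw, mul_comm]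

end Action

section Ring

variable {R : Type*} [CommRing R] {G : Type*} [Group G] [Fintype G] [MulSemiringAction G R]

/-- **Norm identity, ideal form.** In a commutative ring with an action of a finite cyclic group
`G = ⟨τ⟩`, if `u` is a unit and `u * τ • γ = γ`, then `(∏ σ, σ • γ) = (γ) ^ |G|` as ideals. -/
theorem span_prod_smul_eq_span_pow_card {τ : G} (hτ : ∀ σ : G, σ ∈ Subgroup.zpowers τ)
    {u γ : R} (hu : IsUnit u) (h : u * τ • γ = γ) :
    Ideal.span {∏ σ : G, σ • γ} = Ideal.span {γ} ^ Nat.card G := by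
  obtain ⟨w, hw⟩ := associated_prod_smul_pow_card hτ hu h
  rw [Ideal.span_singleton_pow, ← hw, Ideal.span_singleton_mul_right_unit w.isUnit]

end Ring

end Fermat.Agent.S14T.ThNorm
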