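/-
S14T [Th-d] : abstract residue lemma for the Thaine relation.

`R` a Dedekind domain, `P` a nonzero prime, `τ` a ring endomorphism (any `RingHomClass`, e.g. `R →+* R`, `R ≃+* R`, `R ≃ₐ[A] R`) acting trivially
on `R ⧸ P`, `π ∈ P \ P²` with `τ π ≡ g * π mod P²`.  Then `τ y ≡ g ^ r * y mod P ^ (r + 1)` for
all `y ∈ P ^ r`; consequently, if `y ∈ P ^ r \ P ^ (r + 1)` and `u * τ y = y` then
`u * g ^ r ≡ 1 mod P`.
-/
import Mathlib

set_option autoImplicit false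

namespace Fermat.Agent.S14T.ThResidue

variable {R : Type*} [CommRing R] {F : Type*} [FunLike F R R] [RingHomClass F R R]

/-- A ring endomorphism which is the identity modulo `P` maps `P ^ n` into `P ^ n`. -/
theorem map_mem_pow {P : Ideal R} (τ : F) (hτ : ∀ x, τ x - x ∈ P) (n : ℕ) {x : R}
    (hx : x ∈ P ^ n) : τ x ∈ P ^ n := by
  have h1 : P ≤ P.comap τ := by
    intro z hz
    rw [Ideal.mem_comap]
    have := P.add_mem (hτ z) hz
    simpa using this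
  have h2 : P ^ n ≤ (P ^ n).comap τ :=
    (Ideal.pow_right_mono h1 n).trans (Ideal.le_comap_pow τ n)
  exact h2 hx

/-- `a ≡ b mod P²`, `a, b ∈ P` implies `a ^ r ≡ b ^ r mod P ^ (r + 1)`. -/
theorem pow_sub_pow_mem {P : Ideal R} {a b : R} (ha : a ∈ P) (hb : b ∈ P)
    (hab : a - b ∈ P ^ 2) (r : ℕ) : a ^ r - b ^ r ∈ P ^ (r + 1) := by
  induction r with
  | zero => simp
  | succ r ih =>
    have e : a ^ (r + 1) - b ^ (r + 1) = a ^ r * (a - b) + (a ^ r - b ^ r) * b := by ring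
    rw [e]
    refine Ideal.add_mem _ ?_ ?_
    · have : a ^ r * (a - b) ∈ P ^ r * P ^ 2 := Ideal.mul_mem_mul (Ideal.pow_mem_pow ha r) hab
      rwa [← pow_add] at this
    · have : (a ^ r - b ^ r) * b ∈ P ^ (r + 1) * P := Ideal.mul_mem_mul ih hb
      rwa [← pow_succ] at this

variable [IsDedekindDomain R]

/-- `π ∈ P \ P²` implies `π ^ r ∉ P ^ (r + 1)`. -/
theorem pow_notMem_pow_succ {P : Ideal R} [P.IsPrime] (hP : P ≠ ⊥) {π : R} (hπ : π ∈ P)
    (hπ2 : π ∉ P ^ 2) (r : ℕ) : π ^ r ∉ P ^ (r + 1) := by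
  have hprime : Prime P := Ideal.prime_of_isPrime hP inferInstance
  have hm : emultiplicity P (Ideal.span {π}) = 1 := by
    have : emultiplicity P (Ideal.span {π}) = ((1 : ℕ) : ℕ∞) := by
      rw [emultiplicity_eq_coe]
      refine ⟨?_, ?_⟩
      · rw [pow_one, Ideal.dvd_span_singleton]; exact hπ
      · rw [Ideal.dvd_span_singleton]; exact hπ2
    simpa using this
  intro h
  rw [← Ideal.dvd_span_singleton, ← Ideal.span_singleton_pow, pow_dvd_iff_le_emultiplicity,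
    emultiplicity_pow hprime, hm, mul_one] at h
  have : ((r + 1 : ℕ) : ℕ∞) ≤ (r : ℕ∞) := h
  rw [Nat.cast_le] at this
  omega

/-- **Residue lemma.** If `τ` is the identity mod `P` and `τ π ≡ g π mod P²` for a uniformizer
`π ∈ P \ P²`, then `τ y ≡ g ^ r y mod P ^ (r + 1)` for `y ∈ P ^ r`. -/
theorem sub_pow_mul_mem_pow_succ {P : Ideal R} [P.IsPrime] (hP : P ≠ ⊥) (τ : F)
    (hτ : ∀ x, τ x - x ∈ P) {π g : R} (hπ : π ∈ P) (hπ2 : π ∉ P ^ 2)
    (hg : τ π - g * π ∈ P ^ 2) (r : ℕ) {y : R} (hy : y ∈ P ^ r) :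
    τ y - g ^ r * y ∈ P ^ (r + 1) := by
  obtain ⟨d, e, he, rfl⟩ := Ideal.exists_mul_add_mem_pow_succ hP (π ^ r) y
    (Ideal.pow_mem_pow hπ r) (pow_notMem_pow_succ hP hπ hπ2 r) hy
  have hτπ : τ π ∈ P := by simpa using map_mem_pow τ hτ 1 (by simpa using hπ)
  have hgπ : g * π ∈ P := P.mul_mem_left g hπ
  have key := pow_sub_pow_mem hτπ hgπ hg r
  have e1 : τ (π ^ r * d + e) - g ^ r * (π ^ r * d + e)
      = (τ π ^ r - (g * π) ^ r) * τ d + (g * π) ^ r * (τ d - d) + τ e - g ^ r * e := by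
    simp only [map_add, map_mul, map_pow]; ring
  rw [e1]
  refine Ideal.sub_mem _ (Ideal.add_mem _ (Ideal.add_mem _ ?_ ?_) ?_) ?_
  · exact Ideal.mul_mem_right _ _ key
  · have : (g * π) ^ r * (τ d - d) ∈ P ^ r * P :=
      Ideal.mul_mem_mul (Ideal.pow_mem_pow hgπ r) (hτ d)
    rwa [← pow_succ] at this
  · exact map_mem_pow τ hτ (r + 1) he
  · exact Ideal.mul_mem_left _ _ he

/-- **Residue lemma, Hilbert-90 form.** If moreover `u * τ y = y` with `y ∈ P ^ r \ P ^ (r + 1)`,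
then `u * g ^ r ≡ 1 mod P`. -/
theorem mul_pow_sub_one_mem {P : Ideal R} [P.IsPrime] (hP : P ≠ ⊥) (τ : F)
    (hτ : ∀ x, τ x - x ∈ P) {π g : R} (hπ : π ∈ P) (hπ2 : π ∉ P ^ 2)
    (hg : τ π - g * π ∈ P ^ 2) (r : ℕ) {u y : R} (hy : y ∈ P ^ r) (hy' : y ∉ P ^ (r + 1))
    (huy : u * τ y = y) : u * g ^ r - 1 ∈ P := by
  have h1 := sub_pow_mul_mem_pow_succ hP τ hτ hπ hπ2 hg r hy
  have h2 : y * (1 - u * g ^ r) ∈ P ^ (r + 1) := by
    have : y * (1 - u * g ^ r) = u * (τ y - g ^ r * y) := by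
      have e : u * (τ y - g ^ r * y) = u * τ y - u * g ^ r * y := by ring
      rw [e, huy]; ring
    rw [this]
    exact Ideal.mul_mem_left _ _ h1
  have h3 : 1 - u * g ^ r ∈ P := Ideal.mem_prime_of_mul_mem_pow hP hy' h2
  have : u * g ^ r - 1 = -(1 - u * g ^ r) := by ring
  rw [this]
  exact P.neg_mem h3

end Fermat.Agent.S14T.ThResidue
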