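/-
S14T [Th-e] — ThAsm.lean (helper99): abstract assembly of the K-only Thaine relation.

Data: a cyclic Galois extension `F/K` of number fields of degree `q - 1` with generator `τ`,
`ζ : 𝓞 K`, `ζq : 𝓞 F` with `τ ζq = ζq ^ g`, `N_{F/K}(ζ - ζq) = 1`, and the ramification table of
`F/K` (hypotheses `hR1`, `hR2`, `hR4`, `hR5`).  Output: the body of `ThaineCoreV K ζ q`.

Proof: integral Hilbert 90 gives `γ` with `(ζ - ζq) * τ γ = γ`; `X := N_{F/K} γ` satisfies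
`X 𝓞_F = (γ)^(q-1)` (ThNorm); the valuations of `X` are read off from those of `γ`, and the
residue lemma (ThResidue) gives `(ζ - 1) * g ^ ord ≡ 1` at the ramified primes.
-/
import Mathlib
import Fermat.Agent.S14T.ThResidue
import Fermat.Agent.S14T.ThNorm

set_option autoImplicit false

namespace Fermat.Agent.S14T.ThAsm

open NumberField

section valuation

variable {R : Type*} [CommRing R] [IsDedekindDomain R]

theorem exists_mem_pow_notMem_pow_succ {P : Ideal R} [hPp : P.IsPrime] {x : R} (hx : x ≠ 0) :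
    ∃ m : ℕ, x ∈ P ^ m ∧ x ∉ P ^ (m + 1) := by
  classical
  have h : ∃ n : ℕ, x ∉ P ^ n := by
    by_contra hcon
    push Not at hcon
    have : x ∈ ⨅ i : ℕ, P ^ i := by
      rw [Ideal.mem_iInf]; exact hcon
    rw [Ideal.iInf_pow_eq_bot_of_isDomain P hPp.ne_top] at this
    exact hx (by simpa using this)
  have hn := Nat.find_spec h
  have hn0 : Nat.find h ≠ 0 := by
    intro h0
    rw [h0] at hn
    simp at hn
  obtain ⟨m, hm⟩ := Nat.exists_eq_succ_of_ne_zero hn0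
  refine ⟨m, ?_, ?_⟩
  · by_contra hcon
    exact Nat.find_min h (by omega : m < Nat.find h) hcon
  · rw [← Nat.succ_eq_add_one, ← hm]; exact hn

theorem emultiplicity_eq_of_mem {P : Ideal R} [P.IsPrime] {x : R} {m : ℕ}
    (hx : x ∈ P ^ m) (hx' : x ∉ P ^ (m + 1)) : emultiplicity P (Ideal.span {x}) = m := by
  rw [emultiplicity_eq_coe]
  exact ⟨by rw [Ideal.dvd_span_singleton]; exact hx, by rw [Ideal.dvd_span_singleton]; exact hx'⟩

theorem mem_of_emultiplicity_eq {P : Ideal R} [P.IsPrime] {x : R} {m : ℕ}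
    (h : emultiplicity P (Ideal.span {x}) = m) : x ∈ P ^ m ∧ x ∉ P ^ (m + 1) := by
  rw [emultiplicity_eq_coe] at h
  exact ⟨by rw [← Ideal.dvd_span_singleton]; exact h.1, by rw [← Ideal.dvd_span_singleton]; exact h.2⟩

theorem pow_mem_notMem {P : Ideal R} [hPp : P.IsPrime] (hP : P ≠ ⊥) {y : R} {m : ℕ}
    (hy : y ∈ P ^ m) (hy' : y ∉ P ^ (m + 1)) (k : ℕ) :
    y ^ k ∈ P ^ (k * m) ∧ y ^ k ∉ P ^ (k * m + 1) := by
  have hprime : Prime P := Ideal.prime_of_isPrime hP hPp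
  have h1 := emultiplicity_eq_of_mem hy hy'
  have h2 : emultiplicity P (Ideal.span {y ^ k}) = ((k * m : ℕ) : ℕ∞) := by
    rw [← Ideal.span_singleton_pow, emultiplicity_pow hprime, h1]
    push_cast; rfl
  exact mem_of_emultiplicity_eq h2

end valuation

section main

variable {q : ℕ} (K F : Type) [Field K] [NumberField K] [Field F] [NumberField F] [Algebra K F]

theorem thaineCoreV_of_data [IsGalois K F] (hq2 : 2 ≤ q)
    (hcard : Nat.card (F ≃ₐ[K] F) = q - 1)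
    (τ : F ≃ₐ[K] F) (hτ : ∀ σ : F ≃ₐ[K] F, σ ∈ Subgroup.zpowers τ)
    (ζ : 𝓞 K) (ζq : 𝓞 F) (g : ℕ)
    (hτζ : τ (ζq : F) = (ζq : F) ^ g)
    (hnorm : Algebra.norm K (algebraMap K F (ζ : K) - (ζq : F)) = 1)
    (hR1 : ∀ (P : Ideal (𝓞 F)) [P.IsPrime], P ≠ ⊥ → (q : 𝓞 F) ∉ P → ∀ (x : 𝓞 K) (n : ℕ),
        x ∈ (P.under (𝓞 K)) ^ n ↔ algebraMap (𝓞 K) (𝓞 F) x ∈ P ^ n)
    (hR2 : ∀ (P : Ideal (𝓞 F)) [P.IsPrime], P ≠ ⊥ → (q : 𝓞 F) ∈ P → ∀ (x : 𝓞 K) (n : ℕ),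
        x ∈ (P.under (𝓞 K)) ^ n ↔ algebraMap (𝓞 K) (𝓞 F) x ∈ P ^ ((q - 1) * n))
    (hR4 : ∀ (P : Ideal (𝓞 F)) [P.IsPrime], P ≠ ⊥ → (q : 𝓞 F) ∈ P → ∀ x : 𝓞 F,
        galRestrict (𝓞 K) K F (𝓞 F) τ x - x ∈ P)
    (hR5 : ∀ (P : Ideal (𝓞 F)) [P.IsPrime], P ≠ ⊥ → (q : 𝓞 F) ∈ P →
        ζq - 1 ∈ P ∧ ζq - 1 ∉ P ^ 2) :
    ∃ (g : ℤ) (x : 𝓞 K), x ≠ 0 ∧ ∀ v : Ideal (𝓞 K), v.IsPrime → v ≠ ⊥ → ∃ r : ℕ,
      x ∈ v ^ r ∧ x ∉ v ^ (r + 1) ∧ ((q : 𝓞 K) ∉ v → (q - 1) ∣ r) ∧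
      ((q : 𝓞 K) ∈ v → (ζ - 1) * (g : 𝓞 K) ^ r - 1 ∈ v) := by
  classical
  set τ' := galRestrict (𝓞 K) K F (𝓞 F) τ with hτ'
  set u : 𝓞 F := algebraMap (𝓞 K) (𝓞 F) ζ - ζq with hu
  have hucoe : algebraMap (𝓞 F) F u = algebraMap K F (ζ : K) - (ζq : F) := by
    rw [hu, map_sub]
    rfl
  have : IsCyclic (F ≃ₐ[K] F) := ⟨τ, hτ⟩
  obtain ⟨γ, hγ0, hγ⟩ := groupCohomology.exists_mul_galRestrict_of_norm_eq_one
    (A := 𝓞 K) (B := 𝓞 F) hτ (η := u) (by rw [hucoe]; exact hnorm)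
  have hu_unit : IsUnit u := by
    have h1 : Algebra.intNorm (𝓞 K) (𝓞 F) u = 1 := by
      apply FaithfulSMul.algebraMap_injective (𝓞 K) K
      rw [Algebra.algebraMap_intNorm (L := F), map_one, hucoe]
      exact hnorm
    have h2 := Algebra.dvd_algebraMap_intNorm_self (𝓞 K) (𝓞 F) u
    rw [h1, map_one] at h2
    exact isUnit_of_dvd_one h2
  set X := Algebra.intNorm (𝓞 K) (𝓞 F) γ with hX
  have hX0 : X ≠ 0 := by rw [hX, Ne, Algebra.intNorm_eq_zero]; exact hγ0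
  have hsmul : ∀ (σ : F ≃ₐ[K] F) (y : 𝓞 F), algebraMap (𝓞 F) F (σ • y) = σ (algebraMap (𝓞 F) F y) := by
    intro σ y
    rfl
  have hτ'smul : ∀ y : 𝓞 F, τ' y = τ • y := by
    intro y
    apply FaithfulSMul.algebraMap_injective (𝓞 F) F
    rw [hsmul, hτ', algebraMap_galRestrict_apply]
  have hkey : Ideal.span {algebraMap (𝓞 K) (𝓞 F) X} = Ideal.span {γ} ^ (q - 1) := by
    have h1 : algebraMap (𝓞 K) (𝓞 F) X = ∏ σ : F ≃ₐ[K] F, σ • γ := by
      apply FaithfulSMul.algebraMap_injective (𝓞 F) F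
      rw [map_prod]
      simp_rw [hsmul]
      rw [← Algebra.norm_eq_prod_automorphisms K, ← Algebra.algebraMap_intNorm (A := 𝓞 K) (B := 𝓞 F)]
      rfl
    have h2 : u * τ • γ = γ := by rw [← hτ'smul]; exact hγ
    rw [h1, ThNorm.span_prod_smul_eq_span_pow_card hτ hu_unit h2, hcard]
  refine ⟨(g : ℤ), X, hX0, ?_⟩
  intro v hvp hv0
  obtain ⟨P, hPp, hPv⟩ : ∃ P : Ideal (𝓞 F), P.IsPrime ∧ P.under (𝓞 K) = v := by
    obtain ⟨P, hP1, hP2⟩ := Ideal.exists_ideal_over_prime_of_isIntegral v (⊥ : Ideal (𝓞 F))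
      (by simp)
    exact ⟨P, hP2.1, hP2.2⟩
  have hP0 : P ≠ ⊥ := by
    rintro rfl
    apply hv0
    rw [← hPv]
    exact Ideal.under_bot (𝓞 K) (𝓞 F)
  have hqP : (q : 𝓞 F) ∈ P ↔ (q : 𝓞 K) ∈ v := by
    rw [← hPv, Ideal.under_def, Ideal.mem_comap, map_natCast]
  obtain ⟨m, hm, hm'⟩ := exists_mem_pow_notMem_pow_succ (P := P) hγ0
  have hpow := pow_mem_notMem hP0 hm hm' (q - 1)
  have hXm : algebraMap (𝓞 K) (𝓞 F) X ∈ P ^ ((q - 1) * m) ∧
      algebraMap (𝓞 K) (𝓞 F) X ∉ P ^ ((q - 1) * m + 1) := by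
    have e1 : emultiplicity P (Ideal.span {algebraMap (𝓞 K) (𝓞 F) X})
        = (((q - 1) * m : ℕ) : ℕ∞) := by
      rw [hkey, Ideal.span_singleton_pow]
      exact emultiplicity_eq_of_mem hpow.1 hpow.2
    exact mem_of_emultiplicity_eq e1
  by_cases hqv : (q : 𝓞 K) ∈ v
  · have hqP' : (q : 𝓞 F) ∈ P := hqP.mpr hqv
    refine ⟨m, ?_, ?_, fun h => absurd hqv h, fun _ => ?_⟩
    · rw [← hPv]; exact (hR2 P hP0 hqP' X m).mpr hXm.1
    · intro hcon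
      rw [← hPv] at hcon
      have h3 := (hR2 P hP0 hqP' X (m + 1)).mp hcon
      refine hXm.2 (Ideal.pow_le_pow_right ?_ h3)
      have : 1 ≤ q - 1 := by omega
      nlinarith
    · obtain ⟨hπ, hπ2⟩ := hR5 P hP0 hqP'
      have hζq1 : ∀ i : ℕ, ζq ^ i - 1 ∈ P := by
        intro i
        have : ζq ^ i - 1 = (ζq - 1) * ∑ j ∈ Finset.range i, ζq ^ j := by
          rw [mul_comm, geom_sum_mul]
        rw [this]
        exact Ideal.mul_mem_right _ _ hπ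
      have hτ'ζ : τ' ζq = ζq ^ g := by
        apply FaithfulSMul.algebraMap_injective (𝓞 F) F
        rw [hτ', algebraMap_galRestrict_apply, map_pow]
        exact hτζ
      have hg : τ' (ζq - 1) - (g : 𝓞 F) * (ζq - 1) ∈ P ^ 2 := by
        have e : τ' (ζq - 1) - (g : 𝓞 F) * (ζq - 1)
            = (ζq - 1) * ∑ j ∈ Finset.range g, (ζq ^ j - 1) := by
          have h1 : (ζq - 1) * ∑ j ∈ Finset.range g, ζq ^ j = ζq ^ g - 1 := mul_geom_sum ζq g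
          have h2 : (ζq - 1) * ∑ j ∈ Finset.range g, (ζq ^ j - 1)
              = (ζq - 1) * (∑ j ∈ Finset.range g, ζq ^ j) - (ζq - 1) * (g : 𝓞 F) := by
            rw [Finset.sum_sub_distrib, mul_sub]
            simp
          rw [h2, h1, map_sub, map_one, hτ'ζ]
          ring
        rw [e, pow_two]
        exact Ideal.mul_mem_mul hπ (Ideal.sum_mem _ fun j _ => hζq1 j)
      have hres := ThResidue.mul_pow_sub_one_mem hP0 τ' (hR4 P hP0 hqP') hπ hπ2 hg m hm hm' hγ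
      rw [← hPv, Ideal.under_def, Ideal.mem_comap]
      have e : algebraMap (𝓞 K) (𝓞 F) ((ζ - 1) * ((g : ℤ) : 𝓞 K) ^ m - 1)
          = (u * (g : 𝓞 F) ^ m - 1) + (ζq - 1) * (g : 𝓞 F) ^ m := by
        simp [hu]
        ring
      rw [e]
      exact Ideal.add_mem _ hres (Ideal.mul_mem_right _ _ hπ)
  · have hqP' : (q : 𝓞 F) ∉ P := fun h => hqv (hqP.mp h)
    refine ⟨(q - 1) * m, ?_, ?_, fun _ => dvd_mul_right _ _, fun h => absurd h hqv⟩
    · rw [← hPv]; exact (hR1 P hP0 hqP' X _).mpr hXm.1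
    · intro hcon
      rw [← hPv] at hcon
      exact hXm.2 ((hR1 P hP0 hqP' X _).mp hcon)

end main

end Fermat.Agent.S14T.ThAsm
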