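/-
S14T block [Th], leaf [Th-c] (owner: helper57).  Ramification table for
`F = ℚ(ζ_{pq}) ⊇ K = ℚ(ζ_p)` (`p ≠ q` primes, `q ≡ 1 mod p`), read off from Mathlib's
`IsCyclotomicExtension.Rat` results over `ℤ` and multiplicativity in towers.

For a nonzero prime `v` of `𝓞 K` and a prime `P` of `𝓞 F` over `v`:
* `ram_eq_one`   : `q ∉ v → e(P|v) = 1`;
* `ram_eq`       : `q ∈ v → e(P|v) = q - 1`;
* `exists_int_sub_mem`, `exists_sub_mem` : `q ∈ v →` every element of `𝓞 F` is congruent mod `P`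
  to a rational integer (`f(P|q) = 1`);
* `eq_of_liesOver` : `q ∈ v → P` is the only prime of `𝓞 F` over `v`;
* `one_sub_zeta_mem`, `one_sub_zeta_notMem_sq` : `q ∈ v → 1 - ζ_q ∈ P \ P²`;
* `mem_pow_of_algebraMap_mem_pow`, `mem_pow_of_algebraMap_mem_pow_mul` : descent of
  `P`-adic orders to `v`-adic orders.
Mathlib only.
-/
import Mathlib

set_option autoImplicit false

open NumberField Ideal

namespace Fermat.Agent.S14T.ThRam

section General

variable {K : Type*} [Field K]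

/-- The rational prime below a nonzero prime of `𝓞 K`. -/
theorem exists_prime_under (v : Ideal (𝓞 K)) [v.IsPrime] (hv : v ≠ ⊥) :
    ∃ ℓ : ℕ, ℓ.Prime ∧ v.under ℤ = span {(ℓ : ℤ)} := by
  have h0 : v.under ℤ ≠ ⊥ := Ideal.under_ne_bot ℤ hv
  have hprime : (v.under ℤ).IsPrime := inferInstance
  refine ⟨absNorm (v.under ℤ), ?_, (Int.ideal_span_absNorm_eq_self _).symm⟩
  rw [← Int.ideal_span_absNorm_eq_self (v.under ℤ)] at hprime h0
  have hne : ((absNorm (v.under ℤ) : ℕ) : ℤ) ≠ 0 := by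
    intro h
    apply h0
    rw [h]
    simp
  exact Nat.prime_iff_prime_int.2 ((Ideal.span_singleton_prime hne).1 hprime)

/-- `(n : 𝓞 K) ∈ v ↔ ℓ ∣ n` when `v` lies over `ℓ`. -/
theorem natCast_mem_iff (v : Ideal (𝓞 K)) {ℓ : ℕ} (hℓ : v.under ℤ = span {(ℓ : ℤ)}) (n : ℕ) :
    (n : 𝓞 K) ∈ v ↔ ℓ ∣ n := by
  have h1 : (n : 𝓞 K) ∈ v ↔ (n : ℤ) ∈ v.under ℤ := by
    rw [Ideal.under_def, Ideal.mem_comap]
    simp
  rw [h1, hℓ, Ideal.mem_span_singleton, Int.natCast_dvd_natCast]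

end General

section Main

variable {p q : ℕ} [Fact p.Prime] [Fact q.Prime]
  (K F : Type*) [Field K] [NumberField K] [Field F] [NumberField F] [Algebra K F]
  [IsCyclotomicExtension {p} ℚ K] [IsCyclotomicExtension {p * q} ℚ F]
  (v : Ideal (𝓞 K)) [v.IsPrime] (P : Ideal (𝓞 F)) [P.IsPrime] [P.LiesOver v]

omit [Fact p.Prime] [Fact q.Prime] in
private lemma ne_of_mod (hpq : q % p = 1) : p ≠ q := by
  rintro rfl
  simp at hpq

private lemma not_dvd_pq (hpq : q % p = 1) : ¬ p ∣ q := fun h =>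
  ne_of_mod hpq ((Nat.prime_dvd_prime_iff_eq (Fact.out : p.Prime) (Fact.out : q.Prime)).1 h)

private lemma not_dvd_qp (hpq : q % p = 1) : ¬ q ∣ p := fun h =>
  ne_of_mod hpq ((Nat.prime_dvd_prime_iff_eq (Fact.out : q.Prime) (Fact.out : p.Prime)).1 h).symm

include K in
/-- Ramification over `ℤ` of a prime `P` of `𝓞 F` over the rational prime `ℓ`, and of the prime
`v` of `𝓞 K` below it. -/
private lemma ram_table (hpq : q % p = 1) {ℓ : ℕ} (hℓp : ℓ.Prime)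
    (hℓ : v.under ℤ = span {(ℓ : ℤ)}) :
    (ℓ ≠ q → P.ramificationIdx ℤ = v.ramificationIdx ℤ) ∧
    (ℓ = q → P.ramificationIdx ℤ = q - 1 ∧ v.ramificationIdx ℤ = 1 ∧ P.inertiaDeg ℤ = 1) := by
  have : Fact ℓ.Prime := ⟨hℓp⟩
  have hv' : v.LiesOver (span {(ℓ : ℤ)}) := ⟨hℓ.symm⟩
  have hP' : P.LiesOver (span {(ℓ : ℤ)}) := LiesOver.trans P v _
  have : NeZero (p * q) :=
    ⟨Nat.mul_ne_zero (Fact.out : p.Prime).ne_zero (Fact.out : q.Prime).ne_zero⟩
  have : NeZero p := ⟨(Fact.out : p.Prime).ne_zero⟩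
  constructor
  · intro hℓq
    by_cases hℓp' : ℓ = p
    · subst hℓp'
      have h1 : P.ramificationIdx ℤ = ℓ ^ 0 * (ℓ - 1) :=
        IsCyclotomicExtension.Rat.ramificationIdx_eq (ℓ * q) (m := q) (p := ℓ) (k := 0) F P (by ring)
          (not_dvd_pq hpq)
      have h2 : v.ramificationIdx ℤ = ℓ - 1 :=
        IsCyclotomicExtension.Rat.ramificationIdx_eq_of_prime ℓ K v
      rw [h1, h2, pow_zero, one_mul]
    · have hnd : ¬ ℓ ∣ p * q := by
        intro h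
        rcases (Nat.Prime.dvd_mul hℓp).1 h with h | h
        · exact hℓp' ((Nat.prime_dvd_prime_iff_eq hℓp (Fact.out : p.Prime)).1 h)
        · exact hℓq ((Nat.prime_dvd_prime_iff_eq hℓp (Fact.out : q.Prime)).1 h)
      have hnd' : ¬ ℓ ∣ p := fun h =>
        hℓp' ((Nat.prime_dvd_prime_iff_eq hℓp (Fact.out : p.Prime)).1 h)
      have h1 : P.ramificationIdx ℤ = 1 :=
        IsCyclotomicExtension.Rat.ramificationIdx_eq_of_not_dvd ℓ F P hnd
      have h2 : v.ramificationIdx ℤ = 1 :=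
        IsCyclotomicExtension.Rat.ramificationIdx_eq_of_not_dvd ℓ K v hnd'
      rw [h1, h2]
  · rintro rfl
    have h1 : P.ramificationIdx ℤ = ℓ ^ 0 * (ℓ - 1) :=
      IsCyclotomicExtension.Rat.ramificationIdx_eq (p * ℓ) (m := p) (p := ℓ) (k := 0) F P (by ring)
        (not_dvd_qp hpq)
    have h2 : v.ramificationIdx ℤ = 1 :=
      IsCyclotomicExtension.Rat.ramificationIdx_eq_of_not_dvd ℓ K v (not_dvd_qp hpq)
    have h3 : P.inertiaDeg ℤ = orderOf ((ℓ : ℕ) : ZMod p) :=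
      IsCyclotomicExtension.Rat.inertiaDeg_eq (p * ℓ) (m := p) (p := ℓ) (k := 0) F P (by ring)
        (not_dvd_qp hpq)
    refine ⟨by rw [h1, pow_zero, one_mul], h2, ?_⟩
    rw [h3, orderOf_eq_one_iff]
    have : ((ℓ : ℕ) : ZMod p) = ((ℓ % p : ℕ) : ZMod p) := by simp
    rw [this, hpq, Nat.cast_one]

/-- (c1) `F/K` is unramified at the primes not over `q`. -/
theorem ram_eq_one (hpq : q % p = 1) (hv : v ≠ ⊥) (hq : (q : 𝓞 K) ∉ v) :
    P.ramificationIdx (𝓞 K) = 1 := by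
  obtain ⟨ℓ, hℓp, hℓ⟩ := exists_prime_under v hv
  have hℓq : ℓ ≠ q := by
    rintro rfl
    exact hq ((natCast_mem_iff v hℓ ℓ).2 dvd_rfl)
  have h1 := (ram_table K F v P hpq hℓp hℓ).1 hℓq
  have h2 : P.ramificationIdx ℤ = v.ramificationIdx ℤ * P.ramificationIdx (𝓞 K) :=
    Ideal.ramificationIdx_tower v P
  have h3 : 0 < v.ramificationIdx ℤ := Ideal.ramificationIdx_pos v ℤ
  rw [h1] at h2
  exact (Nat.eq_of_mul_eq_mul_left h3 (by rw [mul_one]; exact h2)).symm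

/-- (c2) `F/K` is totally ramified at the primes over `q`. -/
theorem ram_eq (hpq : q % p = 1) (hv : v ≠ ⊥) (hq : (q : 𝓞 K) ∈ v) :
    P.ramificationIdx (𝓞 K) = q - 1 := by
  obtain ⟨ℓ, hℓp, hℓ⟩ := exists_prime_under v hv
  have hℓq : ℓ = q :=
    (Nat.prime_dvd_prime_iff_eq hℓp (Fact.out : q.Prime)).1 ((natCast_mem_iff v hℓ q).1 hq)
  obtain ⟨h1, h2, -⟩ := (ram_table K F v P hpq hℓp hℓ).2 hℓq
  have h3 : P.ramificationIdx ℤ = v.ramificationIdx ℤ * P.ramificationIdx (𝓞 K) :=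
    Ideal.ramificationIdx_tower v P
  rw [h1, h2, one_mul] at h3
  exact h3.symm

/-- (c2') The residue field of `P | q` is `𝔽_q`: every element of `𝓞 F` is congruent to a
rational integer modulo `P`. -/
theorem exists_int_sub_mem (hpq : q % p = 1) (hv : v ≠ ⊥) (hq : (q : 𝓞 K) ∈ v) (a : 𝓞 F) :
    ∃ b : ℤ, a - (b : 𝓞 F) ∈ P := by
  obtain ⟨ℓ, hℓp, hℓ⟩ := exists_prime_under v hv
  have hℓq : ℓ = q :=
    (Nat.prime_dvd_prime_iff_eq hℓp (Fact.out : q.Prime)).1 ((natCast_mem_iff v hℓ q).1 hq)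
  obtain ⟨-, -, h3⟩ := (ram_table K F v P hpq hℓp hℓ).2 hℓq
  rw [hℓq] at hℓ
  have hv' : v.LiesOver (span {(q : ℤ)}) := ⟨hℓ.symm⟩
  have hP' : P.LiesOver (span {(q : ℤ)}) := LiesOver.trans P v _
  have hqmax : (span {(q : ℤ)}).IsMaximal := Int.ideal_span_isMaximal_of_prime q
  have hPmax : P.IsMaximal := Ideal.IsMaximal.of_liesOver_isMaximal P (span {(q : ℤ)})
  have habs : absNorm P = q := by
    rw [Ideal.absNorm_eq_pow_inertiaDeg' P (Fact.out : q.Prime),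
      Ideal.inertiaDeg'_eq_inertiaDeg, h3, pow_one]
  have hcard : Nat.card (𝓞 F ⧸ P) = q := by
    rw [← habs, Ideal.absNorm_apply, Submodule.cardQuot_apply]
  have : Fact (Nat.card (𝓞 F ⧸ P)).Prime := ⟨hcard ▸ (Fact.out : q.Prime)⟩
  rcases (AddSubgroup.zmultiples (1 : 𝓞 F ⧸ P)).eq_bot_or_eq_top_of_prime_card with h | h
  · exfalso
    have h1 : (1 : 𝓞 F ⧸ P) ∈ AddSubgroup.zmultiples (1 : 𝓞 F ⧸ P) :=
      AddSubgroup.mem_zmultiples _
    rw [h, AddSubgroup.mem_bot] at h1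
    have h2 : (1 : 𝓞 F) ∈ P := by
      rw [← Ideal.Quotient.eq_zero_iff_mem, map_one]
      exact h1
    exact (inferInstance : P.IsPrime).ne_top ((Ideal.eq_top_iff_one _).2 h2)
  · have h1 : Ideal.Quotient.mk P a ∈ AddSubgroup.zmultiples (1 : 𝓞 F ⧸ P) := by
      rw [h]
      exact AddSubgroup.mem_top _
    obtain ⟨b, hb⟩ := AddSubgroup.mem_zmultiples_iff.1 h1
    refine ⟨b, ?_⟩
    rw [← Ideal.Quotient.eq_zero_iff_mem, map_sub, ← hb]
    simp

/-- (c2') in `𝓞 K`-form. -/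
theorem exists_sub_mem (hpq : q % p = 1) (hv : v ≠ ⊥) (hq : (q : 𝓞 K) ∈ v) (a : 𝓞 F) :
    ∃ b : 𝓞 K, a - algebraMap (𝓞 K) (𝓞 F) b ∈ P := by
  obtain ⟨b, hb⟩ := exists_int_sub_mem K F v P hpq hv hq a
  exact ⟨(b : 𝓞 K), by simpa using hb⟩

include K F in
private lemma finrank_KF (hpq : q % p = 1) : Module.finrank K F = q - 1 := by
  have hp : p.Prime := Fact.out
  have hq : q.Prime := Fact.out
  have : NeZero p := ⟨hp.ne_zero⟩
  have : NeZero (p * q) := ⟨Nat.mul_ne_zero hp.ne_zero hq.ne_zero⟩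
  have h1 : Module.finrank ℚ K = p.totient := IsCyclotomicExtension.Rat.finrank p K
  have h2 : Module.finrank ℚ F = (p * q).totient := IsCyclotomicExtension.Rat.finrank (p * q) F
  have h3 := Module.finrank_mul_finrank ℚ K F
  have hcop : p.Coprime q := (Nat.coprime_primes hp hq).2 (ne_of_mod hpq)
  rw [h1, h2, Nat.totient_mul hcop, Nat.totient_prime hp, Nat.totient_prime hq] at h3
  exact Nat.eq_of_mul_eq_mul_left (Nat.sub_pos_of_lt hp.one_lt) h3

/-- (c2'') `P` is the only prime of `𝓞 F` over a prime `v | q` of `𝓞 K`. -/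
theorem eq_of_liesOver (hpq : q % p = 1) (hv : v ≠ ⊥) (hq : (q : 𝓞 K) ∈ v)
    (P' : Ideal (𝓞 F)) [P'.IsPrime] [P'.LiesOver v] : P' = P := by
  classical
  by_contra hne
  have : v.IsMaximal := (inferInstance : v.IsPrime).isMaximal hv
  have hfin : Module.finrank K F = q - 1 := finrank_KF K F hpq
  have hsum := Ideal.sum_ramification_inertia_eq_finrank v (𝓞 F)
  rw [← IsFractionRing.finrank_eq (𝓞 K) K (𝓞 F) F, hfin] at hsum
  let a : v.primesOver (𝓞 F) := ⟨P, ⟨inferInstance, inferInstance⟩⟩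
  let b : v.primesOver (𝓞 F) := ⟨P', ⟨inferInstance, inferInstance⟩⟩
  have hab : a ≠ b := fun h => hne (congrArg Subtype.val h).symm
  have hterm : ∀ Q : v.primesOver (𝓞 F),
      q - 1 ≤ Q.1.ramificationIdx (𝓞 K) * Q.1.inertiaDeg (𝓞 K) := by
    intro Q
    have : Q.1.IsPrime := Q.2.1
    have : Q.1.LiesOver v := Q.2.2
    rw [ram_eq K F v Q.1 hpq hv hq]
    exact Nat.le_mul_of_pos_right _ (Ideal.inertiaDeg_pos Q.1 (𝓞 K))
  have h2 : (q - 1) + (q - 1) ≤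
      ∑ Q : v.primesOver (𝓞 F), Q.1.ramificationIdx (𝓞 K) * Q.1.inertiaDeg (𝓞 K) := by
    have h3 := Finset.sum_pair
      (f := fun Q : v.primesOver (𝓞 F) => Q.1.ramificationIdx (𝓞 K) * Q.1.inertiaDeg (𝓞 K)) hab
    have h4 := Finset.sum_le_sum_of_subset
      (f := fun Q : v.primesOver (𝓞 F) => Q.1.ramificationIdx (𝓞 K) * Q.1.inertiaDeg (𝓞 K))
      (Finset.subset_univ ({a, b} : Finset (v.primesOver (𝓞 F))))
    have h5 := hterm a
    have h6 := hterm b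
    rw [h3] at h4
    exact le_trans (add_le_add h5 h6) h4
  have hq2 : 2 ≤ q := (Fact.out : q.Prime).two_le
  omega

omit [Fact p.Prime] [Fact q.Prime] [NumberField K] [NumberField F] [IsCyclotomicExtension {p} ℚ K]
  [IsCyclotomicExtension {p * q} ℚ F] [v.IsPrime] [P.IsPrime] in
private lemma natCast_mem_of_mem (hq : (q : 𝓞 K) ∈ v) : (q : 𝓞 F) ∈ P := by
  have h := (Ideal.mem_of_liesOver P v (q : 𝓞 K)).1 hq
  simpa using h

omit [Fact p.Prime] [NumberField K] [NumberField F] [Algebra K F] [IsCyclotomicExtension {p} ℚ K]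
  [IsCyclotomicExtension {p * q} ℚ F] in
private lemma associated_pow (ζq : 𝓞 F) (hζq : IsPrimitiveRoot ζq q) :
    Associated ((ζq - 1) ^ (q - 1)) (q : 𝓞 F) := by
  have hζF : IsPrimitiveRoot (ζq : F) q := hζq.map_of_injective RingOfIntegers.coe_injective
  have h := IsCyclotomicExtension.Rat.associated_zeta_sub_one_pow_prime q hζF
  have e : hζF.toInteger = ζq := RingOfIntegers.ext rfl
  rwa [e] at h

omit [Fact p.Prime] [NumberField K] [NumberField F] [IsCyclotomicExtension {p} ℚ K]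
  [IsCyclotomicExtension {p * q} ℚ F] [v.IsPrime] in
/-- (c3), first half: `1 - ζ_q ∈ P` for `P | q`. -/
theorem one_sub_zeta_mem' (hq : (q : 𝓞 K) ∈ v) {ζq : 𝓞 F} (hζq : IsPrimitiveRoot ζq q) :
    1 - ζq ∈ P := by
  have h1 : (ζq - 1) ^ (q - 1) ∈ P := by
    obtain ⟨u, hu⟩ := (associated_pow F ζq hζq).symm
    rw [← hu]
    exact P.mul_mem_right _ (natCast_mem_of_mem K F v P hq)
  have h2 : ζq - 1 ∈ P := (inferInstance : P.IsPrime).mem_of_pow_mem _ h1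
  have : 1 - ζq = -(ζq - 1) := by ring
  rw [this]
  exact P.neg_mem h2

omit [Fact p.Prime] [NumberField K] [IsCyclotomicExtension {p} ℚ K]
  [IsCyclotomicExtension {p * q} ℚ F] [v.IsPrime] in
/-- (c3), first half, in the agreed argument shape. -/
theorem one_sub_zeta_mem (_hpq : q % p = 1) (_hv : v ≠ ⊥) (hq : (q : 𝓞 K) ∈ v) {ζq : 𝓞 F}
    (hζq : IsPrimitiveRoot ζq q) : 1 - ζq ∈ P :=
  one_sub_zeta_mem' K F v P hq hζq

/-- (c3), second half: `1 - ζ_q ∉ P²` for `P | q` (`1 - ζ_q` is a uniformiser at `P`). -/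
theorem one_sub_zeta_notMem_sq (hpq : q % p = 1) (hv : v ≠ ⊥) (hq : (q : 𝓞 K) ∈ v) {ζq : 𝓞 F}
    (hζq : IsPrimitiveRoot ζq q) : 1 - ζq ∉ P ^ 2 := by
  intro hmem
  obtain ⟨ℓ, hℓp, hℓ⟩ := exists_prime_under v hv
  have hℓq : ℓ = q :=
    (Nat.prime_dvd_prime_iff_eq hℓp (Fact.out : q.Prime)).1 ((natCast_mem_iff v hℓ q).1 hq)
  obtain ⟨h1, -, -⟩ := (ram_table K F v P hpq hℓp hℓ).2 hℓq
  rw [hℓq] at hℓ
  have hv' : v.LiesOver (span {(q : ℤ)}) := ⟨hℓ.symm⟩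
  have hP' : P.LiesOver (span {(q : ℤ)}) := LiesOver.trans P v _
  have hq0 : (q : 𝓞 F) ≠ 0 := Nat.cast_ne_zero.2 (Fact.out : q.Prime).ne_zero
  have hmap : map (algebraMap ℤ (𝓞 F)) (span {(q : ℤ)}) = span {(q : 𝓞 F)} := by
    rw [Ideal.map_span, Set.image_singleton]
    simp
  have hne : map (algebraMap ℤ (𝓞 F)) (span {(q : ℤ)}) ≠ ⊥ := by
    rw [hmap, Ne, Ideal.span_singleton_eq_bot]
    exact hq0
  have hP0 : P ≠ ⊥ := by
    rintro rfl
    exact hq0 (by simpa using natCast_mem_of_mem K F v ⊥ hq)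
  have hprime : Prime P := Ideal.prime_of_isPrime hP0 inferInstance
  have h2 : P.ramificationIdx ℤ = multiplicity P (map (algebraMap ℤ (𝓞 F)) (span {(q : ℤ)})) :=
    IsDedekindDomain.ramificationIdx_eq_multiplicity (span {(q : ℤ)}) P hne
  -- `q ∈ P ^ (2 (q - 1))`
  have h3 : (ζq - 1) ^ (q - 1) ∈ P ^ (2 * (q - 1)) := by
    have : ζq - 1 ∈ P ^ 2 := by
      have e : ζq - 1 = -(1 - ζq) := by ring
      rw [e]
      exact (P ^ 2).neg_mem hmem
    rw [pow_mul]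
    exact Ideal.pow_mem_pow this _
  have h4 : (q : 𝓞 F) ∈ P ^ (2 * (q - 1)) := by
    obtain ⟨u, hu⟩ := associated_pow F ζq hζq
    rw [← hu]
    exact (P ^ (2 * (q - 1))).mul_mem_right _ h3
  have h5 : P ^ (2 * (q - 1)) ∣ map (algebraMap ℤ (𝓞 F)) (span {(q : ℤ)}) := by
    rw [hmap, Ideal.dvd_span_singleton]
    exact h4
  have h6 : 2 * (q - 1) ≤ multiplicity P (map (algebraMap ℤ (𝓞 F)) (span {(q : ℤ)})) :=
    (FiniteMultiplicity.of_prime_left hprime hne).le_multiplicity_of_pow_dvd h5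
  have hq2 : 2 ≤ q := (Fact.out : q.Prime).two_le
  rw [← h2, h1] at h6
  omega

omit [Fact p.Prime] [Fact q.Prime] [IsCyclotomicExtension {p} ℚ K]
  [IsCyclotomicExtension {p * q} ℚ F] in
/-- Descent of orders: `x ∈ P ^ (e r)` implies `x ∈ v ^ r`, `e = e(P|v)`. -/
theorem mem_pow_of_algebraMap_mem_pow_ram (hv : v ≠ ⊥) {x : 𝓞 K} {r : ℕ}
    (h : algebraMap (𝓞 K) (𝓞 F) x ∈ P ^ (P.ramificationIdx (𝓞 K) * r)) : x ∈ v ^ r := by
  by_cases hx : x = 0
  · subst hx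
    exact zero_mem _
  have hP0 : P ≠ ⊥ := Ideal.ne_bot_of_liesOver_of_ne_bot hv P
  have hvprime : Prime v := Ideal.prime_of_isPrime hv inferInstance
  have hPprime : Prime P := Ideal.prime_of_isPrime hP0 inferInstance
  have hI : span {x} ≠ ⊥ := by rwa [Ne, Ideal.span_singleton_eq_bot]
  have key := IsDedekindDomain.emultiplicity_map_eq_ramificationIdx'_mul (S := 𝓞 F) hI
    hvprime.irreducible hPprime.irreducible hP0 (v := v) (w := P)
  rw [Ideal.ramificationIdx'_eq_ramificationIdx v P hv, Ideal.map_span, Set.image_singleton]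
    at key
  have h1 : P ^ (P.ramificationIdx (𝓞 K) * r) ∣ span {algebraMap (𝓞 K) (𝓞 F) x} := by
    rwa [Ideal.dvd_span_singleton]
  have h2 := le_emultiplicity_of_pow_dvd h1
  rw [key] at h2
  have he : P.ramificationIdx (𝓞 K) ≠ 0 := (Ideal.ramificationIdx_pos P (𝓞 K)).ne'
  have h3 : (r : ℕ∞) ≤ emultiplicity v (span {x}) := by
    generalize emultiplicity v (span {x}) = m at h2 ⊢
    induction m using ENat.recTopCoe with
    | top => exact le_top
    | coe m =>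
      have h4 : P.ramificationIdx (𝓞 K) * r ≤ P.ramificationIdx (𝓞 K) * m := by
        exact_mod_cast h2
      exact_mod_cast Nat.le_of_mul_le_mul_left h4 (Nat.pos_of_ne_zero he)
  have h4 : v ^ r ∣ span {x} := pow_dvd_of_le_emultiplicity h3
  rwa [Ideal.dvd_span_singleton] at h4

/-- (c4), unramified case: for `v ∤ q`, `x ∈ P ^ r` implies `x ∈ v ^ r`. -/
theorem mem_pow_of_algebraMap_mem_pow (hpq : q % p = 1) (hv : v ≠ ⊥) (hq : (q : 𝓞 K) ∉ v)
    {x : 𝓞 K} {r : ℕ} (h : algebraMap (𝓞 K) (𝓞 F) x ∈ P ^ r) : x ∈ v ^ r := by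
  apply mem_pow_of_algebraMap_mem_pow_ram K F v P hv
  rwa [ram_eq_one K F v P hpq hv hq, one_mul]

/-- (c4), totally ramified case: for `v | q`, `x ∈ P ^ ((q - 1) r)` implies `x ∈ v ^ r`. -/
theorem mem_pow_of_algebraMap_mem_pow_mul (hpq : q % p = 1) (hv : v ≠ ⊥) (hq : (q : 𝓞 K) ∈ v)
    {x : 𝓞 K} {r : ℕ} (h : algebraMap (𝓞 K) (𝓞 F) x ∈ P ^ ((q - 1) * r)) : x ∈ v ^ r := by
  apply mem_pow_of_algebraMap_mem_pow_ram K F v P hv
  rwa [ram_eq K F v P hpq hv hq]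

end Main

end Fermat.Agent.S14T.ThRam
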