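/-
S14T — ThSetup.lean (helper39): field-specific setup for the Thaine core, leaves [Th-a] + (C0),(C1).

Setting: `p q` primes, `K = ℚ(ζ_p)`, `F = K(ζ_q)` (generic `F` with
`[Algebra K F] [IsCyclotomicExtension {q} K F]`).

* `isCyclotomicExtension_mul` : `F = ℚ(ζ_{pq})`.
* `finrank_eq`               : `[F : K] = q - 1`.
* `irreducible_cyclotomic`   : `Φ_q` is irreducible over `K`.
* `isCyclic_gal`, `exists_generator` : `Gal(F/K)` is cyclic, generated by `τ` with `τ ζ_q = ζ_q ^ g`.
* `norm_sub_eq_one`          : `N_{F/K}(ζ_p - ζ_q) = 1` when `q ≡ 1 mod p`.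
-/
import Mathlib

set_option autoImplicit false

namespace Fermat.Agent.S14T.ThSetup

open NumberField Polynomial

variable {p q : ℕ} [hp : Fact p.Prime] [hq : Fact q.Prime]
variable (K : Type) [Field K] [NumberField K] [IsCyclotomicExtension {p} ℚ K]
variable (F : Type) [Field F] [NumberField F] [Algebra K F] [IsCyclotomicExtension {q} K F]

include K in
/-- `F = K(ζ_q) = ℚ(ζ_p, ζ_q)` is the `pq`-th cyclotomic field. -/
theorem isCyclotomicExtension_mul (hne : p ≠ q) : IsCyclotomicExtension {p * q} ℚ F := by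
  have : NeZero p := ⟨hp.out.ne_zero⟩
  have : NeZero q := ⟨hq.out.ne_zero⟩
  have h1 : IsCyclotomicExtension ({p} ∪ {q}) ℚ F :=
    IsCyclotomicExtension.trans {p} {q} ℚ K F (algebraMap K F).injective
  obtain ⟨ζp, hζp⟩ := IsCyclotomicExtension.exists_isPrimitiveRoot ℚ F
    (S := {p} ∪ {q}) (n := p) (by simp) hp.out.ne_zero
  obtain ⟨ζq, hζq⟩ := IsCyclotomicExtension.exists_isPrimitiveRoot ℚ F
    (S := {p} ∪ {q}) (n := q) (by simp) hq.out.ne_zero
  have hcop : Nat.Coprime p q := (Nat.coprime_primes hp.out hq.out).mpr hne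
  have hζ : IsPrimitiveRoot (ζp * ζq) (p * q) := by
    have h := IsPrimitiveRoot.orderOf (ζp * ζq)
    rwa [(Commute.all ζp ζq).orderOf_mul_eq_mul_orderOf_of_coprime
      (by rwa [← hζp.eq_orderOf, ← hζq.eq_orderOf]), ← hζp.eq_orderOf, ← hζq.eq_orderOf] at h
  have h2 : IsCyclotomicExtension ({p} ∪ {q} ∪ {p * q}) ℚ F :=
    IsCyclotomicExtension.union_of_isPrimitiveRoot _ ℚ F hζ
  have hpq0 : p * q ≠ 0 := mul_ne_zero hp.out.ne_zero hq.out.ne_zero
  have h3 : IsCyclotomicExtension ({p * q} ∪ {p} ∪ {q}) ℚ F := by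
    convert h2 using 1
    ext x
    simp only [Set.union_singleton, Set.mem_insert_iff, Set.mem_singleton_iff]
    tauto
  have h4 : IsCyclotomicExtension ({p * q} ∪ {p}) ℚ F :=
    (IsCyclotomicExtension.iff_union_of_dvd ℚ F (S := {p * q} ∪ {p}) (n := q)
      ⟨p * q, by simp, hpq0, dvd_mul_left _ _⟩).mpr h3
  exact (IsCyclotomicExtension.iff_union_of_dvd ℚ F (S := {p * q}) (n := p)
      ⟨p * q, rfl, hpq0, dvd_mul_right _ _⟩).mpr h4

/-- `[K(ζ_q) : K] = q - 1`. -/
theorem finrank_eq (hne : p ≠ q) : Module.finrank K F = q - 1 := by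
  have := isCyclotomicExtension_mul (p := p) (q := q) K F hne
  have hcop : Nat.Coprime p q := (Nat.coprime_primes hp.out hq.out).mpr hne
  have hF : Module.finrank ℚ F = (p - 1) * (q - 1) := by
    rw [IsCyclotomicExtension.Rat.finrank (p * q) F, Nat.totient_mul hcop,
      Nat.totient_prime hp.out, Nat.totient_prime hq.out]
  have hK : Module.finrank ℚ K = p - 1 := by
    rw [IsCyclotomicExtension.Rat.finrank p K, Nat.totient_prime hp.out]
  have hmul := Module.finrank_mul_finrank ℚ K F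
  rw [hF, hK] at hmul
  have hp1 : 0 < p - 1 := Nat.sub_pos_of_lt hp.out.one_lt
  exact Nat.eq_of_mul_eq_mul_left hp1 hmul

include F in
/-- Auxiliary form of `irreducible_cyclotomic` (with a witness field `F`). -/
theorem irreducible_cyclotomic_aux (hne : p ≠ q) : Irreducible (cyclotomic q K) := by
  have : NeZero q := ⟨hq.out.ne_zero⟩
  obtain ⟨ζq, hζq⟩ := IsCyclotomicExtension.exists_isPrimitiveRoot K F
    (S := {q}) (n := q) rfl hq.out.ne_zero
  have hint : IsIntegral K ζq := (hζq.isIntegral hq.out.pos).tower_top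
  have hdvd : minpoly K ζq ∣ cyclotomic q K := by
    refine minpoly.dvd K ζq ?_
    rw [aeval_def, eval₂_eq_eval_map, map_cyclotomic]
    exact hζq.isRoot_cyclotomic hq.out.pos
  have htop := IsCyclotomicExtension.adjoin_primitive_root_eq_top (n := q) (A := K) (B := F) hζq
  have hdeg : (minpoly K ζq).natDegree = q - 1 := by
    rw [← finrank_eq K F hne, ← IntermediateField.adjoin.finrank hint]
    have : IntermediateField.adjoin K {ζq} = ⊤ := by
      rw [← IntermediateField.toSubalgebra_inj, IntermediateField.top_toSubalgebra,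
        IntermediateField.adjoin_simple_toSubalgebra_of_isAlgebraic hint.isAlgebraic]
      exact htop
    rw [this, IntermediateField.finrank_top']
  have heq : minpoly K ζq = cyclotomic q K := by
    refine (Polynomial.eq_of_monic_of_dvd_of_natDegree_le (minpoly.monic hint)
      (cyclotomic.monic q K) hdvd ?_).symm
    rw [natDegree_cyclotomic, Nat.totient_prime hq.out, hdeg]
  rw [← heq]
  exact minpoly.irreducible hint

/-- `Φ_q` is irreducible over `K = ℚ(ζ_p)` (`q ≠ p` primes). -/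
theorem irreducible_cyclotomic (hne : p ≠ q) : Irreducible (cyclotomic q K) :=
  irreducible_cyclotomic_aux (p := p) K (CyclotomicField q K) hne

omit [NumberField F] in
/-- `Gal(K(ζ_q)/K)` is cyclic. -/
theorem isCyclic_gal (hne : p ≠ q) : IsCyclic (F ≃ₐ[K] F) := by
  have : NeZero q := ⟨hq.out.ne_zero⟩
  have e := IsCyclotomicExtension.autEquivPow F (irreducible_cyclotomic (p := p) K hne)
  exact isCyclic_of_surjective e.symm e.symm.surjective

omit [NumberField F] in
/-- A generator `τ` of `Gal(K(ζ_q)/K)` together with `g` such that `τ ζ_q = ζ_q ^ g`. -/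
theorem exists_generator (hne : p ≠ q) (ζq : F) (hζq : IsPrimitiveRoot ζq q) :
    ∃ (τ : F ≃ₐ[K] F) (g : ℕ), (∀ σ : F ≃ₐ[K] F, σ ∈ Subgroup.zpowers τ) ∧ τ ζq = ζq ^ g := by
  have : NeZero q := ⟨hq.out.ne_zero⟩
  have := isCyclic_gal (p := p) K F hne
  obtain ⟨τ, hτ⟩ := IsCyclic.exists_generator (α := F ≃ₐ[K] F)
  exact ⟨τ, ((hζq.autToPow K τ : (ZMod q)ˣ) : ZMod q).val, hτ, (hζq.autToPow_spec K τ).symm⟩

omit hq [IsCyclotomicExtension {p} ℚ K] [NumberField K] in
/-- `∑_{i<q} ζ_p^i = 1` when `q ≡ 1 mod p`. -/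
theorem geom_sum_eq_one (ζp : K) (hζp : IsPrimitiveRoot ζp p) (hpq : q % p = 1) :
    ∑ i ∈ Finset.range q, ζp ^ i = 1 := by
  have h1 : ζp ^ q = ζp := by
    conv_lhs => rw [← Nat.div_add_mod q p, pow_add, pow_mul, hζp.pow_eq_one, one_pow, one_mul, hpq,
      pow_one]
  have hne1 : ζp - 1 ≠ 0 := sub_ne_zero.mpr (hζp.ne_one hp.out.one_lt)
  have h2 := geom_sum_mul ζp q
  rw [h1] at h2
  exact mul_right_cancel₀ hne1 (by rw [h2, one_mul])

/-- [Th-a] `N_{F/K}(ζ_p - ζ_q) = Φ_q(ζ_p) = 1` when `q ≡ 1 mod p`. -/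
theorem norm_sub_eq_one (ζp : K) (hζp : IsPrimitiveRoot ζp p) (ζq : F) (hζq : IsPrimitiveRoot ζq q)
    (hpq : q % p = 1) : Algebra.norm K (algebraMap K F ζp - ζq) = 1 := by
  have hne : p ≠ q := by
    rintro rfl
    rw [Nat.mod_self] at hpq
    exact zero_ne_one hpq
  have : NeZero q := ⟨hq.out.ne_zero⟩
  have hirr := irreducible_cyclotomic (p := p) K hne
  let E := AlgebraicClosure F
  have := IsCyclotomicExtension.finiteDimensional {q} K F
  have := IsCyclotomicExtension.isGalois {q} K F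
  apply (algebraMap K E).injective
  rw [Algebra.norm_eq_prod_embeddings, map_one]
  have h1 : ∀ σ : F →ₐ[K] E, σ (algebraMap K F ζp - ζq) = algebraMap K E ζp - σ ζq := by
    intro σ
    rw [map_sub, AlgHom.commutes]
  simp only [h1]
  have Hprod : (Finset.univ.prod fun σ : F →ₐ[K] E => algebraMap K E ζp - σ ζq) =
      eval (algebraMap K E ζp) (cyclotomic' q E) := by
    rw [cyclotomic', eval_prod, ← @Finset.prod_attach E E, ← Finset.univ_eq_attach]
    refine Fintype.prod_equiv (hζq.embeddingsEquivPrimitiveRoots E hirr) _ _ fun σ => ?_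
    simp
  have hz : IsPrimitiveRoot (algebraMap F E ζq) q :=
    hζq.map_of_injective (algebraMap F E).injective
  rw [Hprod, cyclotomic', ← cyclotomic_eq_prod_X_sub_primitiveRoots hz, cyclotomic_prime,
    eval_finsetSum]
  simp only [eval_pow, eval_X]
  rw [← map_one (algebraMap K E), ← geom_sum_eq_one (q := q) K ζp hζp hpq, map_sum]
  simp only [map_pow]

end Fermat.Agent.S14T.ThSetup
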