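/-
S14T [Th-e] — Thaine.lean (helper99): the K-only Thaine relation `thaineCoreV`.

Wiring of `ThAsm.thaineCoreV_of_data` with `F := CyclotomicField q K`:
`ThSetup` (helper39: `{p*q}`-cyclotomic instance, generator of `Gal(F/K)`, `N(ζ_p - ζ_q) = 1`)
and `ThRamification` (helper57: ramification table of `F/K`).
-/
import Fermat.Agent.S14T.ThAsm
import Fermat.Agent.S14T.ThSetup
import Fermat.Agent.S14T.ThCore
import Fermat.Agent.S14T.ThRamification

set_option autoImplicit false

namespace Fermat.Agent.S14T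

open NumberField

theorem thaineCoreV {p : ℕ} (hp : p.Prime) (K : Type) [Field K] [NumberField K]
    [IsCyclotomicExtension {p} ℚ K] (ζ : 𝓞 K) (hζ : IsPrimitiveRoot ζ p) (q : ℕ) (hq : q.Prime)
    (hpq : q % p = 1) : ThaineCoreV K ζ q := by
  classical
  have : Fact p.Prime := ⟨hp⟩
  have : Fact q.Prime := ⟨hq⟩
  have hne : p ≠ q := by
    rintro rfl
    rw [Nat.mod_self] at hpq
    exact zero_ne_one hpq
  have : NeZero q := ⟨hq.ne_zero⟩
  let F := CyclotomicField q K
  have hpqF : IsCyclotomicExtension {p * q} ℚ F := ThSetup.isCyclotomicExtension_mul K F hne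
  have : IsGalois K F := IsCyclotomicExtension.isGalois {q} K F
  have hζq0 : IsPrimitiveRoot (IsCyclotomicExtension.zeta q K F) q :=
    IsCyclotomicExtension.zeta_spec q K F
  set ζq : 𝓞 F := hζq0.toInteger with hζq_def
  have hζq : IsPrimitiveRoot ζq q := hζq0.toInteger_isPrimitiveRoot
  obtain ⟨τ, g, hτ, hτζ⟩ := ThSetup.exists_generator (p := p) K F hne _ hζq0
  have hcard : Nat.card (F ≃ₐ[K] F) = q - 1 := by
    rw [IsGalois.card_aut_eq_finrank, ThSetup.finrank_eq (p := p) K F hne]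
  have hζK : IsPrimitiveRoot (ζ : K) p :=
    hζ.map_of_injective (FaithfulSMul.algebraMap_injective (𝓞 K) K)
  have hnorm := ThSetup.norm_sub_eq_one K F (ζ : K) hζK _ hζq0 hpq
  have hunder : ∀ (P : Ideal (𝓞 F)) [P.IsPrime], P ≠ ⊥ → P.under (𝓞 K) ≠ ⊥ := by
    intro P _ hP
    exact Ideal.under_ne_bot (𝓞 K) hP
  have hqmem : ∀ (P : Ideal (𝓞 F)), (q : 𝓞 K) ∈ P.under (𝓞 K) ↔ (q : 𝓞 F) ∈ P := by
    intro P
    rw [Ideal.under_def, Ideal.mem_comap, map_natCast]
  have hmap : ∀ (P : Ideal (𝓞 F)) (x : 𝓞 K) (n : ℕ), x ∈ (P.under (𝓞 K)) ^ n →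
      algebraMap (𝓞 K) (𝓞 F) x ∈ (Ideal.map (algebraMap (𝓞 K) (𝓞 F)) (P.under (𝓞 K))) ^ n := by
    intro P x n hx
    rw [← Ideal.map_pow]
    exact Ideal.mem_map_of_mem _ hx
  refine ThAsm.thaineCoreV_of_data K F hq.two_le hcard τ hτ ζ ζq g hτζ hnorm ?_ ?_ ?_ ?_
  · intro P _ hP hqP x n
    constructor
    · intro hx
      exact Ideal.pow_right_mono Ideal.map_comap_le n (hmap P x n hx)
    · intro hx
      exact ThRam.mem_pow_of_algebraMap_mem_pow (p := p) K F (P.under (𝓞 K)) P hpq (hunder P hP)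
        (fun h => hqP ((hqmem P).mp h)) hx
  · intro P _ hP hqP x n
    constructor
    · intro hx
      have he := ThRam.ram_eq (p := p) K F (P.under (𝓞 K)) P hpq (hunder P hP) ((hqmem P).mpr hqP)
      have hle : Ideal.map (algebraMap (𝓞 K) (𝓞 F)) (P.under (𝓞 K)) ≤ P ^ (q - 1) := by
        have hne0 : Ideal.map (algebraMap (𝓞 K) (𝓞 F)) (P.under (𝓞 K)) ≠ ⊥ := by
          rw [Ne, Ideal.map_eq_bot_iff_of_injective (FaithfulSMul.algebraMap_injective (𝓞 K) (𝓞 F))]
          exact hunder P hP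
        have hm := Ideal.IsDedekindDomain.ramificationIdx_eq_multiplicity (p := P.under (𝓞 K)) (q := P) hne0
        rw [he] at hm
        rw [hm]
        exact Ideal.le_of_dvd (pow_multiplicity_dvd _ _)
      rw [pow_mul]
      exact Ideal.pow_right_mono hle n (hmap P x n hx)
    · intro hx
      exact ThRam.mem_pow_of_algebraMap_mem_pow_mul (p := p) K F (P.under (𝓞 K)) P hpq
        (hunder P hP) ((hqmem P).mpr hqP) hx
  · intro P _ hP hqP x
    set τ' := galRestrict (𝓞 K) K F (𝓞 F) τ with hτ'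
    have hv := hunder P hP
    have hqv := (hqmem P).mpr hqP
    -- `comap τ' P` is a prime over `v`, hence equals `P`
    have hPP : Ideal.comap τ' P = P := by
      have : (Ideal.comap τ' P).IsPrime := Ideal.comap_isPrime τ' P
      have : (Ideal.comap τ' P).LiesOver (P.under (𝓞 K)) := by
        constructor
        ext y
        simp only [Ideal.under_def, Ideal.mem_comap, AlgEquiv.commutes]
      exact ThRam.eq_of_liesOver (p := p) K F (P.under (𝓞 K)) P hpq hv hqv (Ideal.comap τ' P)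
    obtain ⟨b, hb⟩ := ThRam.exists_sub_mem (p := p) K F (P.under (𝓞 K)) P hpq hv hqv x
    have h1 : τ' (x - algebraMap (𝓞 K) (𝓞 F) b) ∈ P := by
      rw [← Ideal.mem_comap, hPP]; exact hb
    have e : τ' x - x = τ' (x - algebraMap (𝓞 K) (𝓞 F) b) - (x - algebraMap (𝓞 K) (𝓞 F) b) := by
      rw [map_sub, AlgEquiv.commutes]; ring
    rw [e]
    exact P.sub_mem h1 hb
  · intro P _ hP hqP
    have h1 := ThRam.one_sub_zeta_mem (p := p) K F (P.under (𝓞 K)) P hpq (hunder P hP)
      ((hqmem P).mpr hqP) hζq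
    have h2 := ThRam.one_sub_zeta_notMem_sq (p := p) K F (P.under (𝓞 K)) P hpq (hunder P hP)
      ((hqmem P).mpr hqP) hζq
    have e : ζq - 1 = -(1 - ζq) := by ring
    rw [e]
    exact ⟨P.neg_mem h1, fun h => h2 (by simpa using (P ^ 2).neg_mem h)⟩

end Fermat.Agent.S14T
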