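/-
S14T [Th] — ThaineMain.lean (helper99, [Th] block lead): block output `ThaineStatement p`.

Chain:  `thaineCoreV` (Thaine.lean: Hilbert 90 in `K(ζ_q)/K`, ThSetup, ThRamification, ThAsm)
     →  `ThEigen.thaineCore_of_coreV` (helper18: factorisation over the primes above `q`)
     →  `ThProjB.thaineStatement_of_core` (helper63: eigen-projection).
-/
import Fermat.Agent.S14T.Thaine
import Fermat.Agent.S14T.ThEigen
import Fermat.Agent.S14T.ThProjB

set_option autoImplicit false

namespace Fermat.Agent.S14T

/-- Block [Th]: the Thaine statement of `Plan.lean`, for every prime `p`. -/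
theorem thaineStatement {p : ℕ} (hp : p.Prime) : ThaineStatement p :=
  ThProjB.thaineStatement_of_core hp
    (ThEigen.thaineCore_of_coreV hp
      (fun K _ _ _ ζ hζ q hq hpq => thaineCoreV hp K ζ hζ q hq hpq))

end Fermat.Agent.S14T
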