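/-
S14T — block [P3] (helper63): the case `p = 3` of the number-field core.
`ℤ[ζ₃]` is a PID, and a unit congruent to an integer modulo `λ²` is `±1` (Mathlib).
-/
import Fermat.Agent.S14T.Plan

set_option autoImplicit false

namespace Fermat.Agent.S14T

open NumberField

theorem p3Statement : P3Statement := by
  intro K _ _ _ ζ hζ α hα
  have hζK : IsPrimitiveRoot (ζ : K) 3 :=
    hζ.map_of_injective (FaithfulSMul.algebraMap_injective (𝓞 K) K)
  have hint : hζK.toInteger = ζ := by ext; rfl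
  have : IsPrincipalIdealRing (𝓞 K) := IsCyclotomicExtension.Rat.three_pid K
  have : Fact (Nat.Prime 3) := ⟨by decide⟩
  obtain ⟨𝔞, h𝔞⟩ := hα.ideal
  obtain ⟨b, rfl⟩ := (IsPrincipalIdealRing.principal 𝔞).principal
  rw [Ideal.submodule_span_eq, Ideal.span_singleton_pow] at h𝔞
  obtain ⟨u, hu⟩ := Ideal.span_singleton_eq_span_singleton.mp h𝔞
  have hα0 : α ≠ 0 := hα.ne_zero
  have hb0 : b ≠ 0 := by
    rintro rfl
    rw [zero_pow (by decide)] at hu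
    exact hα0 (by simpa using hu)
  have hbK : (b : K) ≠ 0 := by
    simpa using hb0
  -- the unit `u⁻¹ = α / b³` is an integral representative of the class of `α`
  have hrep : ((u⁻¹ : (𝓞 K)ˣ) : K) = (α : K) * ((b : K)⁻¹) ^ 3 := by
    have h1 : (α : K) * ((u : (𝓞 K)ˣ) : K) = (b : K) ^ 3 := by
      exact_mod_cast congrArg (fun z : 𝓞 K => (z : K)) hu
    have h2 : ((u : (𝓞 K)ˣ) : K) * ((u⁻¹ : (𝓞 K)ˣ) : K) = 1 := by
      exact_mod_cast congrArg (fun z : 𝓞 K => (z : K)) (Units.mul_inv u)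
    have hu0 : ((u : (𝓞 K)ˣ) : K) ≠ 0 := left_ne_zero_of_mul_eq_one h2
    field_simp
    rw [eq_comm, ← h1]
    have : ((u⁻¹ : (𝓞 K)ˣ) : K) = (((u : (𝓞 K)ˣ) : K))⁻¹ := eq_inv_of_mul_eq_one_right h2
    rw [this]
    field_simp
  obtain ⟨c, hc⟩ := hα.loc ((u⁻¹ : (𝓞 K)ˣ) : 𝓞 K) ⟨(b : K)⁻¹, inv_ne_zero hbK, hrep⟩ 2
  rw [Ideal.span_singleton_pow, Ideal.mem_span_singleton] at hc
  -- `λ = ζ - 1` in Mathlib's notation
  have hlam : hζK.toInteger - 1 = ζ - 1 := by rw [hint]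
  have hprime : Prime (ζ - 1) := by
    have := hζK.zeta_sub_one_prime'
    rwa [hint] at this
  have hndvd : ¬ (hζK.toInteger - 1) ∣ c := by
    rw [hlam]
    intro hdvd
    have h1 : (ζ - 1) ∣ ((u⁻¹ : (𝓞 K)ˣ) : 𝓞 K) - c ^ 3 :=
      dvd_trans (dvd_pow_self _ (by decide)) hc
    have h2 : (ζ - 1) ∣ c ^ 3 := dvd_pow hdvd (by decide)
    have h3 : (ζ - 1) ∣ ((u⁻¹ : (𝓞 K)ˣ) : 𝓞 K) := by
      have := dvd_add h1 h2
      simpa using this
    exact hprime.not_isUnit (isUnit_of_dvd_unit h3 (Units.isUnit _))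
  have hcong : ∃ n : ℤ, (hζK.toInteger - 1) ^ 2 ∣ (((u⁻¹ : (𝓞 K)ˣ) : 𝓞 K) - n : 𝓞 K) := by
    rw [hlam]
    rcases IsCyclotomicExtension.Rat.Three.lambda_pow_four_dvd_cube_sub_one_or_add_one_of_lambda_not_dvd
      hζK hndvd with h | h
    · rw [hlam] at h
      refine ⟨1, ?_⟩
      have h4 : (ζ - 1) ^ 2 ∣ c ^ 3 - 1 := dvd_trans (pow_dvd_pow _ (by decide)) h
      have h5 := dvd_add hc h4
      have h6 : ((u⁻¹ : (𝓞 K)ˣ) : 𝓞 K) - c ^ 3 + (c ^ 3 - 1) =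
          ((u⁻¹ : (𝓞 K)ˣ) : 𝓞 K) - ((1 : ℤ) : 𝓞 K) := by push_cast; ring
      rwa [h6] at h5
    · rw [hlam] at h
      refine ⟨-1, ?_⟩
      have h4 : (ζ - 1) ^ 2 ∣ c ^ 3 + 1 := dvd_trans (pow_dvd_pow _ (by decide)) h
      have h5 := dvd_add hc h4
      have h6 : ((u⁻¹ : (𝓞 K)ˣ) : 𝓞 K) - c ^ 3 + (c ^ 3 + 1) =
          ((u⁻¹ : (𝓞 K)ˣ) : 𝓞 K) - ((-1 : ℤ) : 𝓞 K) := by push_cast; ring
      rwa [h6] at h5
  rcases IsCyclotomicExtension.Rat.Three.eq_one_or_neg_one_of_unit_of_congruent hζK (u⁻¹) hcong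
    with h | h
  · have hu1 : u = 1 := by simpa using h
    refine ⟨(b : K), ?_⟩
    have : α = b ^ 3 := by simpa [hu1] using hu
    rw [this]; simp
  · have hu1 : u = -1 := by
      have := congrArg (fun z => z⁻¹) h
      simpa using this
    refine ⟨-(b : K), ?_⟩
    have : α = -(b ^ 3) := by
      have h5 : α * (-1) = b ^ 3 := by simpa [hu1] using hu
      linear_combination -h5
    rw [this]
    simp only [map_neg, map_pow]
    ring

end Fermat.Agent.S14T
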