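/-
S14T — Top.lean (helper63): dry-run of the final assembly.  The block theorems enter as
hypotheses in exactly the shape their owners deliver them (`5 ≤ p` guards on [Th], [Un]);
the output is helper14's `KummerVanishing p`, which block [T] turns into `ExtVanishingCts p`.
-/
import Fermat.Agent.S14T.P3
import Fermat.Agent.S14.Interface

set_option autoImplicit false

namespace Fermat.Agent.S14T

/-- `NFCore p` for every prime `p ≥ 3` from the block outputs. -/
theorem nfcore_of_guarded_blocks {p : ℕ} (hp : p.Prime) (h3 : 3 ≤ p)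
    (hFin : FinStatement p) (hTh : 5 ≤ p → ThaineStatement p) (hEta : 5 ≤ p → EtaNotPow p)
    (hUn : 5 ≤ p → UnitStatement p) (hG : 5 ≤ p → EtaNotPow p → GStatement p) : NFCore p := by
  rcases Nat.lt_or_ge p 5 with h | h
  · have h34 : p = 3 ∨ p = 4 := by omega
    rcases h34 with rfl | rfl
    · exact p3Statement
    · exact absurd hp (by decide)
  · exact hFin hp h (hTh h) (hG h (hEta h)) (hUn h)

/-- The same with the general generation statement `GenStatement` as the (G)-input. -/
theorem nfcore_of_guarded_blocks_gen {p : ℕ} (hp : p.Prime) (h3 : 3 ≤ p)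
    (hFin : FinStatement p) (hTh : 5 ≤ p → ThaineStatement p) (hEta : 5 ≤ p → EtaNotPow p)
    (hUn : 5 ≤ p → UnitStatement p) (hGen : GenStatement) : NFCore p :=
  nfcore_of_guarded_blocks hp h3 hFin hTh hEta hUn
    (fun _ hη => gStatement_of_gen hp h3 hGen hη)

/-- T1's deliverable to block [T]. -/
theorem kummerVanishing_of_blocks {p : ℕ} (hp : p.Prime) (h3 : 3 ≤ p)
    (hFin : FinStatement p) (hTh : 5 ≤ p → ThaineStatement p) (hEta : 5 ≤ p → EtaNotPow p)
    (hUn : 5 ≤ p → UnitStatement p) (hG : 5 ≤ p → EtaNotPow p → GStatement p) :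
    Fermat.Agent.S14Tr.KummerVanishing p :=
  kummerVanishing_shape (nfcore_of_guarded_blocks hp h3 hFin hTh hEta hUn hG)

theorem kummerVanishing_of_blocks_gen {p : ℕ} (hp : p.Prime) (h3 : 3 ≤ p)
    (hFin : FinStatement p) (hTh : 5 ≤ p → ThaineStatement p) (hEta : 5 ≤ p → EtaNotPow p)
    (hUn : 5 ≤ p → UnitStatement p) (hGen : GenStatement) :
    Fermat.Agent.S14Tr.KummerVanishing p :=
  kummerVanishing_shape (nfcore_of_guarded_blocks_gen hp h3 hFin hTh hEta hUn hGen)

end Fermat.Agent.S14T
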