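/-
S14T — FinB.lean (helper48): independent B-proof of block [Fin] of `Plan.lean`
(`FinStatement p`), ideal-level style.

Chain: `N_a J := ∏_σ (σ • J)^(a σ)` on ideals, the induced endomorphism `ν` of the class group,
`ν(Cl) ⊆ Cl^p` from [Th] + (G), `ν(c) = c⁻¹` for the class `c` of `𝔞` (`𝔞^p = (α)`),
descent `c ∈ ⋂ Cl^(p^k)`, hence `c = 1`, then the unit case [Un-b].
-/
import Fermat.Agent.S14T.Plan

set_option autoImplicit false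

namespace Fermat.Agent.S14T.FinB

open NumberField
open scoped Pointwise nonZeroDivisors

/-! ### A finite-group lemma -/

theorem eq_one_of_forall_pow {G : Type*} [CommGroup G] [Finite G] {p : ℕ} (hp : p.Prime)
    {c : G} (hc : c ^ p = 1) (h : ∀ k : ℕ, ∃ d : G, d ^ (p ^ k) = c) : c = 1 := by
  have hcard : Nat.card G ≠ 0 := Nat.card_pos.ne'
  obtain ⟨e, m, hm, hn⟩ := Nat.exists_eq_pow_mul_and_not_dvd hcard p hp.ne_one
  obtain ⟨d, hd⟩ := h e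
  have h1 : c ^ m = 1 := by
    rw [← hd, ← pow_mul, ← hn]
    exact pow_card_eq_one'
  have hcop : Nat.gcd m p = 1 := by
    rw [Nat.gcd_comm]
    exact (Nat.Prime.coprime_iff_not_dvd hp).2 hm
  have := pow_gcd_eq_one.2 ⟨h1, hc⟩
  rwa [hcop, pow_one] at this

variable {K : Type} [Field K] [NumberField K]

/-! ### The operator `N_a` on ideals -/

/-- `N_a J = ∏_σ (σ • J)^(a σ)`. -/
noncomputable def normA (a : (K ≃ₐ[ℚ] K) → ℕ) (J : Ideal (𝓞 K)) : Ideal (𝓞 K) :=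
  ∏ σ : K ≃ₐ[ℚ] K, (σ • J) ^ a σ

/-- `N_a x = ∏_σ σ(x)^(a σ)` on elements. -/
noncomputable def normAElt (a : (K ≃ₐ[ℚ] K) → ℕ) (x : 𝓞 K) : 𝓞 K :=
  ∏ σ : K ≃ₐ[ℚ] K, (σ • x) ^ a σ

theorem normA_mul (a : (K ≃ₐ[ℚ] K) → ℕ) (I J : Ideal (𝓞 K)) :
    normA a (I * J) = normA a I * normA a J := by
  unfold normA
  rw [← Finset.prod_mul_distrib]
  refine Finset.prod_congr rfl fun σ _ => ?_
  rw [smul_mul', mul_pow]

theorem normA_one (a : (K ≃ₐ[ℚ] K) → ℕ) : normA a (1 : Ideal (𝓞 K)) = 1 := by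
  unfold normA
  refine Finset.prod_eq_one fun σ _ => ?_
  rw [smul_one, one_pow]

theorem normA_pow (a : (K ≃ₐ[ℚ] K) → ℕ) (J : Ideal (𝓞 K)) (n : ℕ) :
    normA a (J ^ n) = normA a J ^ n := by
  induction n with
  | zero => rw [pow_zero, pow_zero, normA_one]
  | succ n ih => rw [pow_succ, normA_mul, ih, pow_succ]

theorem smul_span_singleton (σ : K ≃ₐ[ℚ] K) (x : 𝓞 K) :
    σ • Ideal.span {x} = Ideal.span {σ • x} := by
  rw [Ideal.smul_closure, Set.smul_set_singleton]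

theorem normA_span_singleton (a : (K ≃ₐ[ℚ] K) → ℕ) (x : 𝓞 K) :
    normA a (Ideal.span {x}) = Ideal.span {normAElt a x} := by
  unfold normA normAElt
  rw [← Ideal.prod_span_singleton]
  refine Finset.prod_congr rfl fun σ _ => ?_
  rw [smul_span_singleton, Ideal.span_singleton_pow]

theorem smul_ne_zero_of_ne_zero (σ : K ≃ₐ[ℚ] K) {x : 𝓞 K} (hx : x ≠ 0) : σ • x ≠ 0 := by
  intro h
  apply hx
  have : σ⁻¹ • (σ • x) = σ⁻¹ • (0 : 𝓞 K) := by rw [h]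
  rwa [inv_smul_smul, smul_zero] at this

theorem normAElt_ne_zero (a : (K ≃ₐ[ℚ] K) → ℕ) {x : 𝓞 K} (hx : x ≠ 0) : normAElt a x ≠ 0 := by
  unfold normAElt
  exact Finset.prod_ne_zero_iff.2 fun σ _ => pow_ne_zero _ (smul_ne_zero_of_ne_zero σ hx)

theorem smul_ideal_ne_bot (σ : K ≃ₐ[ℚ] K) {J : Ideal (𝓞 K)} (hJ : J ≠ ⊥) : σ • J ≠ ⊥ := by
  intro h
  apply hJ
  have : σ⁻¹ • (σ • J) = σ⁻¹ • (⊥ : Ideal (𝓞 K)) := by rw [h]
  rwa [inv_smul_smul, Ideal.smul_bot] at this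

theorem normA_ne_bot (a : (K ≃ₐ[ℚ] K) → ℕ) {J : Ideal (𝓞 K)} (hJ : J ≠ ⊥) : normA a J ≠ ⊥ := by
  unfold normA
  rw [← Ideal.zero_eq_bot]
  exact Finset.prod_ne_zero_iff.2 fun σ _ =>
    pow_ne_zero _ (by rw [Ideal.zero_eq_bot]; exact smul_ideal_ne_bot σ hJ)

omit [NumberField K] in
theorem mem_nzd_of_ne_bot {J : Ideal (𝓞 K)} (hJ : J ≠ ⊥) : J ∈ (Ideal (𝓞 K))⁰ :=
  mem_nonZeroDivisors_iff_ne_zero.2 (by rwa [Ideal.zero_eq_bot])

omit [NumberField K] in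
theorem ne_bot_of_mem_nzd (J : (Ideal (𝓞 K))⁰) : (J : Ideal (𝓞 K)) ≠ ⊥ := by
  have := mem_nonZeroDivisors_iff_ne_zero.1 J.2
  rwa [Ideal.zero_eq_bot] at this

/-- The class of `N_a J`. -/
noncomputable def classA (a : (K ≃ₐ[ℚ] K) → ℕ) (J : (Ideal (𝓞 K))⁰) : ClassGroup (𝓞 K) :=
  ClassGroup.mk0 ⟨normA a J, mem_nzd_of_ne_bot (normA_ne_bot a (ne_bot_of_mem_nzd J))⟩

theorem classA_mul (a : (K ≃ₐ[ℚ] K) → ℕ) (I J : (Ideal (𝓞 K))⁰) :
    classA a (I * J) = classA a I * classA a J := by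
  unfold classA
  rw [← map_mul]
  congr 1
  ext1
  exact normA_mul a I J

theorem classA_congr (a : (K ≃ₐ[ℚ] K) → ℕ) {I J : (Ideal (𝓞 K))⁰}
    (h : ClassGroup.mk0 I = ClassGroup.mk0 J) : classA a I = classA a J := by
  obtain ⟨x, y, hx, hy, hxy⟩ := ClassGroup.mk0_eq_mk0_iff.1 h
  unfold classA
  rw [ClassGroup.mk0_eq_mk0_iff]
  refine ⟨normAElt a x, normAElt a y, normAElt_ne_zero a hx, normAElt_ne_zero a hy, ?_⟩
  show Ideal.span {normAElt a x} * normA a I = Ideal.span {normAElt a y} * normA a J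
  rw [← normA_span_singleton, ← normA_span_singleton, ← normA_mul, ← normA_mul, hxy]

theorem mk0_surjInv (c : ClassGroup (𝓞 K)) :
    ClassGroup.mk0 (Function.surjInv ClassGroup.mk0_surjective c) = c :=
  Function.surjInv_eq _ c

/-- The endomorphism `ν` of the class group induced by `N_a`. -/
noncomputable def nu (a : (K ≃ₐ[ℚ] K) → ℕ) : ClassGroup (𝓞 K) →* ClassGroup (𝓞 K) where
  toFun c := classA a (Function.surjInv ClassGroup.mk0_surjective c)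
  map_one' := by
    have h : ClassGroup.mk0 (Function.surjInv ClassGroup.mk0_surjective (1 : ClassGroup (𝓞 K)))
        = ClassGroup.mk0 (1 : (Ideal (𝓞 K))⁰) := by
      rw [mk0_surjInv, map_one]
    rw [classA_congr a h]
    unfold classA
    rw [ClassGroup.mk0_eq_one_iff]
    show Submodule.IsPrincipal (normA a ((1 : (Ideal (𝓞 K))⁰) : Ideal (𝓞 K)))
    rw [Submonoid.coe_one, normA_one, Ideal.one_eq_top]
    exact ⟨⟨1, by simp⟩⟩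
  map_mul' c d := by
    have h : ClassGroup.mk0 (Function.surjInv ClassGroup.mk0_surjective (c * d))
        = ClassGroup.mk0 (Function.surjInv ClassGroup.mk0_surjective c *
            Function.surjInv ClassGroup.mk0_surjective d) := by
      rw [map_mul, mk0_surjInv, mk0_surjInv, mk0_surjInv]
    rw [classA_congr a h, classA_mul]

theorem nu_mk0 (a : (K ≃ₐ[ℚ] K) → ℕ) (J : (Ideal (𝓞 K))⁰) :
    nu a (ClassGroup.mk0 J) = classA a J :=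
  classA_congr a (mk0_surjInv _)

/-! ### `ν` maps the class group into the `p`-th powers -/

theorem nu_mem_range_pow {p : ℕ} (hTh : ThaineStatement p) (hG : GStatement p)
    [IsCyclotomicExtension {p} ℚ K] (ζ : 𝓞 K) (hζ : IsPrimitiveRoot ζ p)
    (a : (K ≃ₐ[ℚ] K) → ℕ) (ha : IsInvSqFamily p K ζ a) (c : ClassGroup (𝓞 K)) :
    nu a c ∈ (powMonoidHom p : ClassGroup (𝓞 K) →* ClassGroup (𝓞 K)).range := by
  set R : Subgroup (ClassGroup (𝓞 K)) :=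
    (powMonoidHom p : ClassGroup (𝓞 K) →* ClassGroup (𝓞 K)).range with hR
  have hgood : goodClasses p K (etaElt K ζ a) ⊆ (R.comap (nu a) : Set (ClassGroup (𝓞 K))) := by
    rintro c ⟨Q, hQp, hQn, hQnp, hQη, rfl⟩
    obtain ⟨x, y, J, hx, hy, hJ, hxy⟩ := hTh K ζ hζ a ha Q hQp hQn hQnp hQη
    show nu a (ClassGroup.mk0 Q) ∈ R
    rw [nu_mk0]
    have hJp : J ^ p ≠ ⊥ := by
      rw [← Ideal.zero_eq_bot]
      exact pow_ne_zero _ (by rwa [Ideal.zero_eq_bot])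
    have h1 : classA a Q = ClassGroup.mk0 ⟨J ^ p, mem_nzd_of_ne_bot hJp⟩ := by
      unfold classA
      rw [ClassGroup.mk0_eq_mk0_iff]
      exact ⟨x, y, hx, hy, hxy⟩
    have h2 : (⟨J ^ p, mem_nzd_of_ne_bot hJp⟩ : (Ideal (𝓞 K))⁰) =
        (⟨J, mem_nzd_of_ne_bot hJ⟩ : (Ideal (𝓞 K))⁰) ^ p := by
      ext1
      rfl
    rw [h1, h2, map_pow]
    exact ⟨_, rfl⟩
  have hpow : R ≤ R.comap (nu a) := by
    rintro _ ⟨d, rfl⟩
    show nu a (d ^ p) ∈ R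
    rw [map_pow]
    exact ⟨_, rfl⟩
  have htop : R.comap (nu a) = ⊤ := by
    rw [eq_top_iff, ← hG K ζ hζ a ha]
    exact sup_le ((Subgroup.closure_le _).2 hgood) hpow
  have : c ∈ R.comap (nu a) := by rw [htop]; trivial
  exact this

/-! ### Existence of an inverse-square family -/

theorem exists_invSqFamily {p : ℕ} (hp : p.Prime) (ζ : 𝓞 K) (hζ : IsPrimitiveRoot ζ p) :
    ∃ a : (K ≃ₐ[ℚ] K) → ℕ, IsInvSqFamily p K ζ a := by
  have : Fact p.Prime := ⟨hp⟩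
  have : NeZero p := ⟨hp.ne_zero⟩
  have hζK : IsPrimitiveRoot (ζ : K) p :=
    hζ.map_of_injective (FaithfulSMul.algebraMap_injective (𝓞 K) K)
  have hex : ∀ σ : K ≃ₐ[ℚ] K, ∃ i : ℕ, (ζ : K) ^ i = σ (ζ : K) := by
    intro σ
    have h1 : (σ (ζ : K)) ^ p = 1 := by rw [← map_pow, hζK.pow_eq_one, map_one]
    obtain ⟨i, -, hi⟩ := hζK.eq_pow_of_pow_eq_one h1
    exact ⟨i, hi⟩
  choose nσ hnσ using hex
  refine ⟨fun σ => (((nσ σ : ZMod p) ^ 2)⁻¹).val, ?_⟩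
  intro σ n hn
  have hne : (nσ σ : ZMod p) ≠ 0 := by
    intro h0
    have hdvd : p ∣ nσ σ := (ZMod.natCast_eq_zero_iff _ _).1 h0
    have h1 : σ (ζ : K) = 1 := by rw [← hnσ σ]; exact (hζK.pow_eq_one_iff_dvd _).2 hdvd
    have h2 : (ζ : K) = 1 := by
      have := congrArg σ.symm h1
      simpa using this
    exact hζK.ne_one hp.one_lt h2
  have heq : (n : ZMod p) = (nσ σ : ZMod p) := by
    have h1 : (ζ : K) ^ n = (ζ : K) ^ nσ σ := by rw [← hn, hnσ σ]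
    have hζ0 : (ζ : K) ≠ 0 := hζK.ne_zero hp.ne_zero
    have h2 : (ζ : K) ^ ((n : ℤ) - (nσ σ : ℤ)) = 1 := by
      rw [zpow_sub₀ hζ0, zpow_natCast, zpow_natCast, h1, div_self (pow_ne_zero _ hζ0)]
    have h3 : (p : ℤ) ∣ (n : ℤ) - (nσ σ : ℤ) := (hζK.zpow_eq_one_iff_dvd _).1 h2
    have h4 : ((n : ℤ) : ZMod p) = ((nσ σ : ℤ) : ZMod p) :=
      (ZMod.intCast_eq_intCast_iff_dvd_sub _ _ _).2 (by
        have : (p : ℤ) ∣ (nσ σ : ℤ) - (n : ℤ) := by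
          have := dvd_neg.2 h3
          rwa [neg_sub] at this
        exact this)
    simpa using h4
  rw [ZMod.natCast_zmod_val, heq]
  exact inv_mul_cancel₀ (pow_ne_zero 2 hne)

/-! ### The class of `𝔞` is an eigen-class -/

theorem ideal_pow_left_inj {n : ℕ} (hn : n ≠ 0) {I J : Ideal (𝓞 K)} (h : I ^ n = J ^ n) :
    I = J := by
  have h1 : I ∣ J := (UniqueFactorizationMonoid.pow_dvd_pow_iff_dvd hn).1 (by rw [h])
  have h2 : J ∣ I := (UniqueFactorizationMonoid.pow_dvd_pow_iff_dvd hn).1 (by rw [h])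
  exact dvd_antisymm h1 h2

theorem pow_eq_self_of_modEq {G : Type*} [Group G] {p : ℕ} (hp : p.Prime) {c : G}
    (hc : c ^ p = 1) {m : ℕ} (hm : (m : ZMod p) = 1) : c ^ m = c := by
  have : Fact p.Prime := ⟨hp⟩
  have h1 : m ≡ 1 [MOD p] := by
    rw [← ZMod.natCast_eq_natCast_iff]
    simpa using hm
  have h2 : m % p = 1 := by
    rw [Nat.ModEq, Nat.mod_eq_of_lt hp.one_lt] at h1
    exact h1
  conv_lhs => rw [← Nat.div_add_mod m p, h2, pow_add, pow_mul, hc, one_pow, one_mul, pow_one]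

/-- `mk0 (σ • 𝔞) = c^(n²)` when `σ α = α^(n²) y^p`, `(α) = 𝔞^p`, `c = mk0 𝔞`. -/
theorem mk0_smul_eq_pow {p : ℕ} (hp0 : p ≠ 0) {α : 𝓞 K} (hα : α ≠ 0) {𝔞 : Ideal (𝓞 K)}
    (h𝔞 : 𝔞 ≠ ⊥) (hα𝔞 : Ideal.span {α} = 𝔞 ^ p) (σ : K ≃ₐ[ℚ] K) (m : ℕ) (y : K)
    (hy : σ (α : K) = (α : K) ^ m * y ^ p) :
    ClassGroup.mk0 ⟨σ • 𝔞, mem_nzd_of_ne_bot (smul_ideal_ne_bot σ h𝔞)⟩ =
      ClassGroup.mk0 ⟨𝔞, mem_nzd_of_ne_bot h𝔞⟩ ^ m := by
  obtain ⟨y₁, y₂, hy₂, rfl⟩ := IsFractionRing.div_surjective (A := 𝓞 K) y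
  have hy₂0 : y₂ ≠ 0 := nonZeroDivisors.ne_zero hy₂
  have hαK : (α : K) ≠ 0 := RingOfIntegers.coe_ne_zero_iff.2 hα
  have hy₂K : (algebraMap (𝓞 K) K y₂) ≠ 0 := RingOfIntegers.coe_ne_zero_iff.2 hy₂0
  have hy₁0 : y₁ ≠ 0 := by
    rintro rfl
    have hσα : σ (α : K) ≠ 0 := by
      intro h0
      exact hαK ((map_eq_zero σ).1 h0)
    apply hσα
    rw [hy, map_zero, zero_div, zero_pow hp0, mul_zero]
  -- the integral identity
  have hint : (σ • α) * y₂ ^ p = α ^ m * y₁ ^ p := by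
    apply FaithfulSMul.algebraMap_injective (𝓞 K) K
    have h1 : algebraMap (𝓞 K) K (σ • α) = σ (α : K) := rfl
    rw [map_mul, map_mul, map_pow, map_pow, map_pow, h1, hy, div_pow]
    field_simp
  -- ideals
  have hid : (σ • 𝔞 * Ideal.span {y₂}) ^ p = (𝔞 ^ m * Ideal.span {y₁}) ^ p := by
    rw [mul_pow, mul_pow, ← smul_pow', ← hα𝔞, smul_span_singleton, Ideal.span_singleton_pow,
      Ideal.span_singleton_mul_span_singleton, ← pow_mul, mul_comm m p, pow_mul, ← hα𝔞,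
      Ideal.span_singleton_pow, Ideal.span_singleton_pow, Ideal.span_singleton_mul_span_singleton,
      hint]
  have hid' := ideal_pow_left_inj hp0 hid
  have h𝔞m : 𝔞 ^ m ≠ ⊥ := by
    rw [← Ideal.zero_eq_bot]
    exact pow_ne_zero _ (by rwa [Ideal.zero_eq_bot])
  have h2 : (⟨𝔞 ^ m, mem_nzd_of_ne_bot h𝔞m⟩ : (Ideal (𝓞 K))⁰) =
      (⟨𝔞, mem_nzd_of_ne_bot h𝔞⟩ : (Ideal (𝓞 K))⁰) ^ m := by
    ext1
    rfl
  rw [← map_pow, ← h2, ClassGroup.mk0_eq_mk0_iff]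
  refine ⟨y₂, y₁, hy₂0, hy₁0, ?_⟩
  show Ideal.span {y₂} * σ • 𝔞 = Ideal.span {y₁} * 𝔞 ^ m
  rw [mul_comm, hid', mul_comm]

/-! ### `ν(c) · c = 1` for the class of `𝔞` -/

theorem card_gal_cyclotomic {p : ℕ} (hp : p.Prime) [IsCyclotomicExtension {p} ℚ K] :
    Fintype.card (K ≃ₐ[ℚ] K) = p - 1 := by
  have : NeZero p := ⟨hp.ne_zero⟩
  have : IsGalois ℚ K := IsCyclotomicExtension.isGalois {p} ℚ K
  rw [← Nat.card_eq_fintype_card, IsGalois.card_aut_eq_finrank,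
    IsCyclotomicExtension.finrank K (Polynomial.cyclotomic.irreducible_rat hp.pos),
    Nat.totient_prime hp]

theorem nu_mul_self {p : ℕ} (hp : p.Prime) [IsCyclotomicExtension {p} ℚ K] (ζ : 𝓞 K)
    (a : (K ≃ₐ[ℚ] K) → ℕ) (ha : IsInvSqFamily p K ζ a) (hζ : IsPrimitiveRoot ζ p)
    {α : 𝓞 K} (hα : KVHyp p K ζ α) {𝔞 : Ideal (𝓞 K)} (h𝔞 : 𝔞 ≠ ⊥)
    (hα𝔞 : Ideal.span {α} = 𝔞 ^ p)
    (hc : ClassGroup.mk0 ⟨𝔞, mem_nzd_of_ne_bot h𝔞⟩ ^ p = 1) :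
    nu a (ClassGroup.mk0 ⟨𝔞, mem_nzd_of_ne_bot h𝔞⟩) * ClassGroup.mk0 ⟨𝔞, mem_nzd_of_ne_bot h𝔞⟩
      = 1 := by
  have : NeZero p := ⟨hp.ne_zero⟩
  set c := ClassGroup.mk0 ⟨𝔞, mem_nzd_of_ne_bot h𝔞⟩ with hcdef
  have hζK : IsPrimitiveRoot (ζ : K) p :=
    hζ.map_of_injective (FaithfulSMul.algebraMap_injective (𝓞 K) K)
  -- each conjugate class
  have hσ : ∀ σ : K ≃ₐ[ℚ] K,
      ClassGroup.mk0 ⟨σ • 𝔞, mem_nzd_of_ne_bot (smul_ideal_ne_bot σ h𝔞)⟩ ^ a σ = c := by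
    intro σ
    have h1 : (σ (ζ : K)) ^ p = 1 := by rw [← map_pow, hζK.pow_eq_one, map_one]
    obtain ⟨n, -, hn⟩ := hζK.eq_pow_of_pow_eq_one h1
    obtain ⟨y, hy⟩ := hα.eigen σ n hn.symm
    rw [mk0_smul_eq_pow hp.ne_zero hα.ne_zero h𝔞 hα𝔞 σ (n ^ 2) y hy, ← pow_mul]
    apply pow_eq_self_of_modEq hp hc
    have := ha σ n hn.symm
    push_cast
    rw [mul_comm]
    exact this
  -- the class of `N_a 𝔞`
  have hprod : (⟨normA a 𝔞, mem_nzd_of_ne_bot (normA_ne_bot a h𝔞)⟩ : (Ideal (𝓞 K))⁰) =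
      ∏ σ : K ≃ₐ[ℚ] K,
        (⟨σ • 𝔞, mem_nzd_of_ne_bot (smul_ideal_ne_bot σ h𝔞)⟩ : (Ideal (𝓞 K))⁰) ^ a σ := by
    ext1
    rw [Submonoid.coe_finsetProd]
    rfl
  have hnu : nu a c = c ^ (p - 1) := by
    rw [hcdef, nu_mk0]
    unfold classA
    show ClassGroup.mk0 ⟨normA a 𝔞, _⟩ = _
    rw [hprod, map_prod]
    simp only [map_pow]
    rw [Finset.prod_congr rfl (fun σ _ => hσ σ), Finset.prod_const, Finset.card_univ,
      card_gal_cyclotomic hp]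
  rw [hnu, ← pow_succ, Nat.sub_add_cancel hp.one_le, hc]

/-! ### The main theorem -/

theorem finStatementB (p : ℕ) : FinStatement p := by
  intro hp _h5 hTh hG hUn K _ _ _ ζ hζ α hα
  obtain ⟨a, ha⟩ := exists_invSqFamily hp ζ hζ
  obtain ⟨𝔞, hα𝔞⟩ := hα.ideal
  have h𝔞 : 𝔞 ≠ ⊥ := by
    rintro rfl
    have h0 : Ideal.span {α} = ⊥ := by
      rw [hα𝔞, ← Ideal.zero_eq_bot, zero_pow hp.ne_zero]
    exact hα.ne_zero (Ideal.span_singleton_eq_bot.1 h0)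
  set c := ClassGroup.mk0 ⟨𝔞, mem_nzd_of_ne_bot h𝔞⟩ with hcdef
  -- `c^p = 1`
  have hc : c ^ p = 1 := by
    have h𝔞p : 𝔞 ^ p ≠ ⊥ := by
      rw [← Ideal.zero_eq_bot]
      exact pow_ne_zero _ (by rwa [Ideal.zero_eq_bot])
    have h2 : (⟨𝔞 ^ p, mem_nzd_of_ne_bot h𝔞p⟩ : (Ideal (𝓞 K))⁰) =
        (⟨𝔞, mem_nzd_of_ne_bot h𝔞⟩ : (Ideal (𝓞 K))⁰) ^ p := by
      ext1
      rfl
    rw [hcdef, ← map_pow, ← h2, ClassGroup.mk0_eq_one_iff]
    exact ⟨⟨α, by rw [← hα𝔞]⟩⟩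
  have hνc : nu a c * c = 1 := nu_mul_self hp ζ a ha hζ hα h𝔞 hα𝔞 hc
  -- descent
  have hdesc : ∀ k : ℕ, ∃ d : ClassGroup (𝓞 K), d ^ (p ^ k) = c := by
    intro k
    induction k with
    | zero => exact ⟨c, by rw [pow_zero, pow_one]⟩
    | succ k ih =>
      obtain ⟨d, hd⟩ := ih
      obtain ⟨e, he⟩ := nu_mem_range_pow hTh hG ζ hζ a ha d
      have he' : e ^ p = nu a d := he
      refine ⟨e⁻¹, ?_⟩
      have h1 : nu a c = e ^ (p ^ (k + 1)) := by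
        rw [← hd, map_pow, ← he', ← pow_mul, pow_succ, mul_comm]
      rw [inv_pow, ← h1]
      exact (eq_inv_of_mul_eq_one_right hνc).symm
  have hc1 : c = 1 := eq_one_of_forall_pow hp hc hdesc
  -- `𝔞` is principal
  obtain ⟨⟨b, hb⟩⟩ := (ClassGroup.mk0_eq_one_iff (mem_nzd_of_ne_bot h𝔞)).1 hc1
  have hb' : 𝔞 = Ideal.span {b} := hb
  have hb0 : b ≠ 0 := by
    rintro rfl
    apply h𝔞
    rw [hb', Ideal.span_singleton_eq_bot]
  have hassoc : Associated α (b ^ p) := by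
    rw [← Ideal.span_singleton_eq_span_singleton, hα𝔞, hb', Ideal.span_singleton_pow]
  obtain ⟨u, hu⟩ := hassoc
  -- `α = ε b^p` with `ε = u⁻¹`
  have hαε : α = (u⁻¹ : (𝓞 K)ˣ) * b ^ p := by
    rw [← hu, mul_comm α, ← mul_assoc, Units.inv_mul, one_mul]
  have hbK : (b : K) ≠ 0 := RingOfIntegers.coe_ne_zero_iff.2 hb0
  have hαεK : (α : K) = (((u⁻¹ : (𝓞 K)ˣ) : 𝓞 K) : K) * (b : K) ^ p := by
    conv_lhs => rw [hαε]
    exact (map_mul (algebraMap (𝓞 K) K) _ _).trans (by rw [map_pow])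
  have hεK : (((u⁻¹ : (𝓞 K)ˣ) : 𝓞 K) : K) ≠ 0 :=
    RingOfIntegers.coe_ne_zero_iff.2 (Units.ne_zero _)
  -- KVHyp for `ε`
  have hKV : KVHyp p K ζ ((u⁻¹ : (𝓞 K)ˣ) : 𝓞 K) := by
    refine ⟨Units.ne_zero _, ⟨⊤, ?_⟩, ?_, ?_⟩
    · rw [Ideal.span_singleton_eq_top.2 (Units.isUnit _), ← Ideal.one_eq_top, one_pow]
    · intro σ n hn
      obtain ⟨y, hy⟩ := hα.eigen σ n hn
      have hσb : σ (b : K) ≠ 0 := fun h0 => hbK ((map_eq_zero σ).1 h0)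
      refine ⟨(b : K) ^ (n ^ 2) * y / σ (b : K), ?_⟩
      have h1 : σ (((u⁻¹ : (𝓞 K)ˣ) : 𝓞 K) : K) * σ (b : K) ^ p =
          ((((u⁻¹ : (𝓞 K)ˣ) : 𝓞 K) : K) * (b : K) ^ p) ^ (n ^ 2) * y ^ p := by
        rw [← map_pow, ← map_mul, ← hαεK, hy]
      rw [div_pow, mul_pow, ← pow_mul, eq_comm, mul_div_assoc', div_eq_iff (pow_ne_zero _ hσb), h1]
      ring
    · intro x hx m
      obtain ⟨y, hy0, hy⟩ := hx
      refine hα.loc x ⟨y / (b : K), div_ne_zero hy0 hbK, ?_⟩ m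
      rw [hy, hαεK, div_pow]
      field_simp
  obtain ⟨β, hβ⟩ := hUn K ζ hζ (u⁻¹) hKV
  refine ⟨β * (b : K), ?_⟩
  rw [hαεK, hβ, mul_pow]

end Fermat.Agent.S14T.FinB
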