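/-
S14T — UnitAsmB.lean (helper90).  B-assembly of block [Un] from the leaves of `Leaves.lean`:
* `etaNotPow_of_leaves     : p.Prime → 5 ≤ p → EtaCube p → PowInt p → EtaNotPow p`      ([Un-a])
* `unitStatement_of_leaves : p.Prime → 5 ≤ p → UnitRel p → EtaCube p → PowInt p → UnitStatement p`
                                                                                      ([Un-b])
-/
import Fermat.Agent.S14T.Leaves
import Fermat.Agent.S14T.PowInt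
import Fermat.Agent.S14T.FinB

set_option autoImplicit false

namespace Fermat.Agent.S14T.UnitAsmB

open NumberField
open scoped Pointwise nonZeroDivisors

variable {K : Type} [Field K] [NumberField K]

/-! ### Roots of integers / units are integers / units -/

omit [NumberField K] in
/-- An element of `K` whose `n`-th power (`0 < n`) lies in `𝓞 K` lies in `𝓞 K`. -/
theorem exists_integer_of_pow {n : ℕ} (hn : 0 < n) (y : K) (u : 𝓞 K) (h : y ^ n = (u : K)) :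
    ∃ w : 𝓞 K, (w : K) = y := by
  have hy : IsIntegral ℤ y :=
    IsIntegral.of_pow hn (by rw [h]; exact RingOfIntegers.isIntegral_coe u)
  exact ⟨⟨y, hy⟩, rfl⟩

omit [NumberField K] in
/-- An element of `K` whose `n`-th power (`0 < n`) is a unit of `𝓞 K` is a unit of `𝓞 K`. -/
theorem exists_unit_of_pow {n : ℕ} (hn : 0 < n) (y : K) (u : (𝓞 K)ˣ)
    (h : y ^ n = ((u : 𝓞 K) : K)) : ∃ δ : (𝓞 K)ˣ, ((δ : 𝓞 K) : K) = y := by
  have hu : ((u : 𝓞 K) : K) * (((u⁻¹ : (𝓞 K)ˣ) : 𝓞 K) : K) = 1 := by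
    exact_mod_cast congrArg (fun z : 𝓞 K => (z : K)) (Units.mul_inv u)
  have hu0 : ((u : 𝓞 K) : K) ≠ 0 := left_ne_zero_of_mul_eq_one hu
  obtain ⟨w, hw⟩ := exists_integer_of_pow hn y u h
  have h' : (y⁻¹) ^ n = (((u⁻¹ : (𝓞 K)ˣ) : 𝓞 K) : K) := by
    rw [inv_pow, h]
    exact inv_eq_of_mul_eq_one_right hu
  obtain ⟨w', hw'⟩ := exists_integer_of_pow hn y⁻¹ _ h'
  have hy0 : y ≠ 0 := by
    rintro rfl
    rw [zero_pow hn.ne'] at h
    exact hu0 h.symm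
  refine ⟨⟨w, w', ?_, ?_⟩, hw⟩
  · apply RingOfIntegers.ext
    show (w : K) * (w' : K) = 1
    rw [hw, hw', mul_inv_cancel₀ hy0]
  · apply RingOfIntegers.ext
    show (w' : K) * (w : K) = 1
    rw [hw, hw', inv_mul_cancel₀ hy0]

/-! ### The subgroup of units that are rational integers modulo an ideal -/

/-- Units of `R` congruent to a rational integer modulo the proper ideal `I ∋ p`. -/
def intModSubgroup {R : Type*} [CommRing R] (I : Ideal R) (p : ℕ) (hp : p.Prime)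
    (hpI : (p : R) ∈ I) (hI : I ≠ ⊤) : Subgroup Rˣ where
  carrier := {x | ∃ m : ℤ, (x : R) - (m : R) ∈ I}
  mul_mem' := by
    rintro x y ⟨m, hm⟩ ⟨n, hn⟩
    refine ⟨m * n, ?_⟩
    have h : ((x * y : Rˣ) : R) - ((m * n : ℤ) : R) =
        (x : R) * ((y : R) - (n : R)) + (n : R) * ((x : R) - (m : R)) := by
      push_cast; ring
    rw [h]
    exact I.add_mem (I.mul_mem_left _ hn) (I.mul_mem_left _ hm)
  one_mem' := ⟨1, by simp⟩
  inv_mem' := by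
    rintro x ⟨m, hm⟩
    have hndvd : ¬ (p : ℤ) ∣ m := by
      rintro ⟨m', rfl⟩
      apply hI
      refine I.eq_top_of_isUnit_mem ?_ x.isUnit
      have h : (x : R) = ((x : R) - ((p * m' : ℤ) : R)) + (p : R) * (m' : R) := by
        push_cast; ring
      rw [h]
      exact I.add_mem hm (I.mul_mem_right _ hpI)
    have hcop : IsCoprime (p : ℤ) m :=
      (Prime.coprime_iff_not_dvd (Nat.prime_iff_prime_int.mp hp)).2 hndvd
    obtain ⟨t, s, hst⟩ := hcop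
    refine ⟨s, ?_⟩
    have h1 : (t : R) * (p : R) + (s : R) * (m : R) = 1 := by
      exact_mod_cast congrArg (fun z : ℤ => (z : R)) hst
    have h : ((x⁻¹ : Rˣ) : R) - (s : R) =
        ((x⁻¹ : Rˣ) : R) * ((t : R) * (p : R)) +
          (-(((x⁻¹ : Rˣ) : R) * (s : R))) * ((x : R) - (m : R)) := by
      have hx : ((x⁻¹ : Rˣ) : R) * (x : R) = 1 := Units.inv_mul x
      linear_combination (-((x⁻¹ : Rˣ) : R)) * h1 + (s : R) * hx
    rw [h]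
    exact I.add_mem (I.mul_mem_left _ (I.mul_mem_left _ hpI)) (I.mul_mem_left _ hm)

theorem mem_intModSubgroup {R : Type*} [CommRing R] (I : Ideal R) (p : ℕ) (hp : p.Prime)
    (hpI : (p : R) ∈ I) (hI : I ≠ ⊤) (x : Rˣ) :
    x ∈ intModSubgroup I p hp hpI hI ↔ ∃ m : ℤ, (x : R) - (m : R) ∈ I := Iff.rfl

/-! ### [Un-a] -/

theorem etaNotPow_of_leaves {p : ℕ} (hp : p.Prime) (_h5 : 5 ≤ p) (hEta : EtaCube p)
    (hPow : PowInt p) : EtaNotPow p := by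
  intro K _ _ _ ζ hζ a ha
  rintro ⟨x, hx⟩
  obtain ⟨k, u, hu1, -, hu3⟩ := hEta K ζ hζ a ha
  have hζK : IsPrimitiveRoot (ζ : K) p :=
    hζ.map_of_injective (FaithfulSMul.algebraMap_injective (𝓞 K) K)
  have hl0 : ((ζ : K) - 1) ≠ 0 := sub_ne_zero.2 (hζK.ne_one hp.one_lt)
  have hxK : x ^ p = (((ζ : K) - 1) ^ k) ^ p * ((u : 𝓞 K) : K) := by
    rw [hx, hu1]
    simp
  have hy : (x / ((ζ : K) - 1) ^ k) ^ p = ((u : 𝓞 K) : K) := by
    rw [div_pow, hxK]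
    field_simp
  obtain ⟨w, hw⟩ := exists_integer_of_pow hp.pos _ (u : 𝓞 K) hy
  have hwu : w ^ p = (u : 𝓞 K) := by
    apply RingOfIntegers.ext
    show (w : K) ^ p = ((u : 𝓞 K) : K)
    rw [hw, hy]
  obtain ⟨m, hm⟩ := hPow K ζ hζ w
  rw [hwu] at hm
  have h1 : p ∣ 1 := hu3 1 m (by rwa [pow_one])
  exact hp.one_lt.ne' (Nat.dvd_one.1 h1)

/-! ### [Un-b] -/

/-- `KVHyp.eigen` for a unit gives `UnitEigen2`. -/
theorem unitEigen2_of_kvHyp {p : ℕ} (hp : p.Prime) (ζ : 𝓞 K) (ε : (𝓞 K)ˣ)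
    (h : KVHyp p K ζ (ε : 𝓞 K)) : UnitEigen2 p K ζ ε := by
  intro σ n hσ
  obtain ⟨y, hy⟩ := h.eigen σ n hσ
  have hε : ((ε : 𝓞 K) : K) * (((ε⁻¹ : (𝓞 K)ˣ) : 𝓞 K) : K) = 1 := by
    exact_mod_cast congrArg (fun z : 𝓞 K => (z : K)) (Units.mul_inv ε)
  have hε' : (((ε⁻¹ : (𝓞 K)ˣ) : 𝓞 K) : K) * ((ε : 𝓞 K) : K) = 1 := by
    rw [mul_comm]; exact hε
  -- `σ ε` as a unit of `𝓞 K`
  have hσint : ∀ z : 𝓞 K, ∃ z' : 𝓞 K, (z' : K) = σ (z : K) := fun z =>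
    ⟨⟨σ (z : K), map_isIntegral_int σ (RingOfIntegers.isIntegral_coe z)⟩, rfl⟩
  obtain ⟨e1, he1⟩ := hσint (ε : 𝓞 K)
  obtain ⟨e2, he2⟩ := hσint ((ε⁻¹ : (𝓞 K)ˣ) : 𝓞 K)
  have he12 : e1 * e2 = 1 := by
    apply RingOfIntegers.ext
    show (e1 : K) * (e2 : K) = 1
    rw [he1, he2, ← map_mul, hε, map_one]
  let v : (𝓞 K)ˣ := ⟨e1, e2, he12, by rw [mul_comm]; exact he12⟩
  -- `y ^ p = σ ε * ε⁻¹ ^ (n ^ 2)` is a unit
  have hyp : y ^ p = (((v * (ε⁻¹) ^ (n ^ 2) : (𝓞 K)ˣ) : 𝓞 K) : K) := by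
    have h1 : (((v * (ε⁻¹) ^ (n ^ 2) : (𝓞 K)ˣ) : 𝓞 K) : K) =
        σ ((ε : 𝓞 K) : K) * ((((ε⁻¹ : (𝓞 K)ˣ) : 𝓞 K) : K)) ^ (n ^ 2) := by
      rw [← he1]
      simp [v]
    rw [h1, hy]
    have h2 : ((ε : 𝓞 K) : K) ^ (n ^ 2) * ((((ε⁻¹ : (𝓞 K)ˣ) : 𝓞 K) : K)) ^ (n ^ 2) = 1 := by
      rw [← mul_pow, hε, one_pow]
    linear_combination (-(y ^ p)) * h2
  obtain ⟨δ, hδ⟩ := exists_unit_of_pow hp.pos y _ hyp
  exact ⟨δ, by rw [hδ, hy]⟩

theorem unitStatement_of_leaves {p : ℕ} (hp : p.Prime) (h5 : 5 ≤ p) (hRel : UnitRel p)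
    (hEta : EtaCube p) (hPow : PowInt p) : UnitStatement p := by
  intro K _ _ _ ζ hζ ε hε
  have : Fact p.Prime := ⟨hp⟩
  have hζK : IsPrimitiveRoot (ζ : K) p :=
    hζ.map_of_injective (FaithfulSMul.algebraMap_injective (𝓞 K) K)
  have hint : hζK.toInteger = ζ := by ext; rfl
  have hprime : Prime (ζ - 1) := by
    have := hζK.zeta_sub_one_prime'
    rwa [hint] at this
  -- the ideal `λ³`
  set I : Ideal (𝓞 K) := Ideal.span {ζ - 1} ^ 3 with hIdef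
  have hI : I = Ideal.span {(ζ - 1) ^ 3} := by rw [hIdef, Ideal.span_singleton_pow]
  have hpI : (p : 𝓞 K) ∈ I := by
    rw [hI, Ideal.mem_span_singleton]
    exact (pow_dvd_pow (ζ - 1) (by omega : 3 ≤ p - 1)).trans
      (PowInt.zeta_sub_one_pow_dvd_prime hp ζ hζ)
  have hItop : I ≠ ⊤ := by
    rw [hI, Ne, Ideal.span_singleton_eq_top]
    intro hunit
    exact hprime.not_isUnit ((isUnit_pow_iff (by norm_num)).1 hunit)
  let H := intModSubgroup I p hp hpI hItop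
  -- eigen-units
  have hε2 : UnitEigen2 p K ζ ε := unitEigen2_of_kvHyp hp ζ ε hε
  obtain ⟨a, ha⟩ := FinB.exists_invSqFamily hp ζ hζ
  obtain ⟨k, u, -, hu2, hu3⟩ := hEta K ζ hζ a ha
  obtain ⟨A, B, δ, hAB, hrel⟩ := hRel K ζ hζ ε u hε2 hu2
  -- `ε ∈ H`
  have hεH : ε ∈ H := by
    obtain ⟨c, hc⟩ := hε.loc (ε : 𝓞 K) ⟨1, one_ne_zero, by simp⟩ 3
    obtain ⟨m, hm⟩ := hPow K ζ hζ c
    refine ⟨m, ?_⟩
    have h : ((ε : 𝓞 K)) - (m : 𝓞 K) = ((ε : 𝓞 K) - c ^ p) + (c ^ p - (m : 𝓞 K)) := by ring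
    rw [h]
    exact I.add_mem hc hm
  -- `δ ^ p ∈ H`
  have hδH : δ ^ p ∈ H := by
    obtain ⟨m, hm⟩ := hPow K ζ hζ (δ : 𝓞 K)
    exact ⟨m, by rwa [Units.val_pow_eq_pow_val]⟩
  -- `u ^ B ∈ H`
  have huB : u ^ B ∈ H := by
    have h : u ^ B = (ε ^ A)⁻¹ * δ ^ p := by
      rw [← hrel, inv_mul_cancel_left]
    rw [h]
    exact H.mul_mem (H.inv_mem (H.zpow_mem hεH A)) hδH
  have huB' : u ^ B.natAbs ∈ H := by
    rcases Int.natAbs_eq B with hB | hB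
    · have : u ^ B.natAbs = u ^ B := by
        conv_rhs => rw [hB]
        rw [zpow_natCast]
      rw [this]; exact huB
    · have : u ^ B.natAbs = (u ^ B)⁻¹ := by
        conv_rhs => rw [hB]
        rw [zpow_neg, zpow_natCast, inv_inv]
      rw [this]; exact H.inv_mem huB
  have hpB : (p : ℤ) ∣ B := by
    obtain ⟨m, hm⟩ := huB'
    rw [Units.val_pow_eq_pow_val] at hm
    exact Int.natCast_dvd.2 (hu3 B.natAbs m hm)
  have hpA : ¬ (p : ℤ) ∣ A := fun hA => hAB ⟨hA, hpB⟩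
  obtain ⟨B', rfl⟩ := hpB
  obtain ⟨s, t, hst⟩ := (Prime.coprime_iff_not_dvd (Nat.prime_iff_prime_int.mp hp)).2 hpA
  -- `ε ^ A = (δ * (u ^ B')⁻¹) ^ p`
  have hεA : ε ^ A = (δ * (u ^ B')⁻¹) ^ p := by
    have h1 : u ^ ((p : ℤ) * B') = (u ^ B') ^ p := by
      rw [mul_comm, zpow_mul, zpow_natCast]
    rw [mul_pow, inv_pow, ← h1, ← hrel, mul_inv_cancel_right]
  -- `ε = (ε ^ s * (δ * (u ^ B')⁻¹) ^ t) ^ p`
  have hεp : ε = (ε ^ s * (δ * (u ^ B')⁻¹) ^ t) ^ p := by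
    have h1 : ε = ε ^ (s * (p : ℤ) + t * A) := by rw [hst, zpow_one]
    have h2 : ε ^ (s * (p : ℤ)) = (ε ^ s) ^ p := by rw [zpow_mul, zpow_natCast]
    have h3 : ε ^ (t * A) = ((δ * (u ^ B')⁻¹) ^ t) ^ p := by
      calc ε ^ (t * A) = (ε ^ A) ^ t := by rw [mul_comm t A, zpow_mul]
        _ = ((δ * (u ^ B')⁻¹) ^ (p : ℤ)) ^ t := by rw [hεA, zpow_natCast]
        _ = (δ * (u ^ B')⁻¹) ^ (t * (p : ℤ)) := by rw [← zpow_mul, mul_comm (p : ℤ) t]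
        _ = ((δ * (u ^ B')⁻¹) ^ t) ^ p := by rw [zpow_mul, zpow_natCast]
    rw [mul_pow, ← h2, ← h3, ← zpow_add]
    exact h1
  refine ⟨(((ε ^ s * (δ * (u ^ B')⁻¹) ^ t : (𝓞 K)ˣ) : 𝓞 K) : K), ?_⟩
  rw [← map_pow, ← Units.val_pow_eq_pow_val, ← hεp]

/-! ### Versions with `PowInt` discharged (`PowInt.powInt`) -/

theorem etaNotPow_of_etaCube {p : ℕ} (hp : p.Prime) (h5 : 5 ≤ p) (hEta : EtaCube p) :
    EtaNotPow p :=
  etaNotPow_of_leaves hp h5 hEta (PowInt.powInt hp (by omega))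

theorem unitStatement_of_unitRel_etaCube {p : ℕ} (hp : p.Prime) (h5 : 5 ≤ p) (hRel : UnitRel p)
    (hEta : EtaCube p) : UnitStatement p :=
  unitStatement_of_leaves hp h5 hRel hEta (PowInt.powInt hp (by omega))

end Fermat.Agent.S14T.UnitAsmB
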