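/-
S14T — UnitEigen.lean (helper6).  Leaf [Un-D]: `dim (E/E^p)(ω²) ≤ 1` for `K = ℚ(ζ_p)`, `5 ≤ p`.

Main statement `exists_rel_of_eigen`: two units `ε₁, ε₂` of `𝓞 K` lying in the `ω²`-eigenspace
of `E/E^p` satisfy a nontrivial relation `ε₁^a * ε₂^b = δ^p`.

Proof: Galois-equivariant Dirichlet unit theorem through TRACES of integer matrices.  The Galois
group `G` acts on the unit lattice (Mathlib's `unitLattice K ⊆ logSpace K`) through integer
matrices `AZ τ` with `tr (AZ τ) = Fix(τ on the infinite places) - 1`.  Modulo `p`, the operator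
`π = -∑_τ ψ(τ)⁻¹ AZ τ` (`ψ = χ²`, `χ` the mod `p` cyclotomic character) is a projector onto
the `ψ`-eigenspace and `tr π = 1` (Burnside + `∑_τ ψ(τ)⁻¹ = 0`), so the eigenspace is a line.
Mathlib-only.
-/
import Mathlib

set_option autoImplicit false

namespace Fermat.Agent.S14T.UnitEigen

open NumberField NumberField.Units NumberField.Units.dirichletUnitTheorem
  NumberField.InfinitePlace Module

/-! ## 1. Abstract core modulo `p` -/

/-- Abstract mod `p` core: a family of matrices `A σ` over `ZMod p` (a representation of a finite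
group `G` with `card G ≡ -1`), a character `ψ`, and the trace identity
`∑ σ, ψ(σ)⁻¹ tr(A σ) = -1` force the `ψ`-eigenspace to be at most one-dimensional. -/
theorem dep_of_eigen {p : ℕ} [Fact p.Prime] {G : Type*} [Group G] [Fintype G] {r : ℕ}
    (hr : r < p) (A : G → Matrix (Fin r) (Fin r) (ZMod p))
    (hA : ∀ σ τ, A (σ * τ) = A σ * A τ) (ψ : G →* (ZMod p)ˣ)
    (hcard : (Fintype.card G : ZMod p) = -1)
    (htr : ∑ σ, (((ψ σ)⁻¹ : (ZMod p)ˣ) : ZMod p) * (A σ).trace = -1)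
    (v₁ v₂ : Fin r → ZMod p)
    (h₁ : ∀ σ, (A σ).mulVec v₁ = ((ψ σ : (ZMod p)ˣ) : ZMod p) • v₁)
    (h₂ : ∀ σ, (A σ).mulVec v₂ = ((ψ σ : (ZMod p)ˣ) : ZMod p) • v₂) :
    ∃ a b : ZMod p, (a ≠ 0 ∨ b ≠ 0) ∧ a • v₁ + b • v₂ = 0 := by
  classical
  set P : Matrix (Fin r) (Fin r) (ZMod p) :=
    - ∑ σ, (((ψ σ)⁻¹ : (ZMod p)ˣ) : ZMod p) • A σ with hP
  have hPv : ∀ v : Fin r → ZMod p,
      (∀ σ, (A σ).mulVec v = ((ψ σ : (ZMod p)ˣ) : ZMod p) • v) → P.mulVec v = v := by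
    intro v hv
    rw [hP, Matrix.neg_mulVec, Matrix.sum_mulVec]
    have : ∀ σ ∈ (Finset.univ : Finset G),
        ((((ψ σ)⁻¹ : (ZMod p)ˣ) : ZMod p) • A σ).mulVec v = v := by
      intro σ _
      rw [Matrix.smul_mulVec, hv σ, smul_smul, Units.inv_mul, one_smul]
    rw [Finset.sum_congr rfl this, Finset.sum_const, Finset.card_univ,
      ← Nat.cast_smul_eq_nsmul (ZMod p), hcard, neg_smul, one_smul, neg_neg]
  have hAP : ∀ τ, A τ * P = ((ψ τ : (ZMod p)ˣ) : ZMod p) • P := by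
    intro τ
    rw [hP, Matrix.mul_neg, Matrix.mul_sum, smul_neg, Finset.smul_sum]
    congr 1
    rw [← Fintype.sum_equiv (Equiv.mulLeft τ) (fun σ => ((ψ τ : (ZMod p)ˣ) : ZMod p) •
      ((((ψ (τ * σ))⁻¹ : (ZMod p)ˣ) : ZMod p) • A (τ * σ)))
      (fun σ => ((ψ τ : (ZMod p)ˣ) : ZMod p) • ((((ψ σ)⁻¹ : (ZMod p)ˣ) : ZMod p) • A σ))
      (fun σ => rfl)]
    refine Finset.sum_congr rfl (fun σ _ => ?_)
    rw [Matrix.mul_smul, ← hA, smul_smul]
    congr 1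
    rw [map_mul, mul_inv, Units.val_mul, ← mul_assoc, Units.mul_inv, one_mul]
  have hPP : P * P = P := by
    conv_lhs => rw [hP]
    rw [Matrix.neg_mul, Finset.sum_mul]
    have : ∀ σ ∈ (Finset.univ : Finset G),
        ((((ψ σ)⁻¹ : (ZMod p)ˣ) : ZMod p) • A σ) * P = P := by
      intro σ _
      rw [Matrix.smul_mul, hAP σ, smul_smul, Units.inv_mul, one_smul]
    rw [Finset.sum_congr rfl this, Finset.sum_const, Finset.card_univ,
      ← Nat.cast_smul_eq_nsmul (ZMod p), hcard, neg_smul, one_smul, neg_neg]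
  have hPtr : P.trace = 1 := by
    rw [hP, Matrix.trace_neg, Matrix.trace_sum]
    simp only [Matrix.trace_smul, smul_eq_mul]
    rw [htr, neg_neg]
  set f : (Fin r → ZMod p) →ₗ[ZMod p] (Fin r → ZMod p) := Matrix.toLin' P with hf
  have hff : ∀ x, f (f x) = f x := by
    intro x
    rw [hf, Matrix.toLin'_apply, Matrix.toLin'_apply, Matrix.mulVec_mulVec, hPP]
  have hproj : LinearMap.IsProj (LinearMap.range f) f :=
    ⟨fun x => LinearMap.mem_range_self f x, fun x ⟨y, hy⟩ => by rw [← hy, hff]⟩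
  have htrf : LinearMap.trace (ZMod p) _ f = 1 := by
    rw [LinearMap.trace_eq_matrix_trace (ZMod p) (Pi.basisFun (ZMod p) (Fin r)),
      LinearMap.toMatrix_eq_toMatrix', hf, LinearMap.toMatrix'_toLin', hPtr]
  have hfin : finrank (ZMod p) (LinearMap.range f) = 1 := by
    have h1 : ((finrank (ZMod p) (LinearMap.range f) : ℕ) : ZMod p) = 1 := by
      rw [← hproj.trace, htrf]
    have h2 : finrank (ZMod p) (LinearMap.range f) ≤ r := by
      have := Submodule.finrank_le (LinearMap.range f)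
      simpa using this
    have h3 : ((finrank (ZMod p) (LinearMap.range f) : ℕ) : ZMod p) = ((1 : ℕ) : ZMod p) := by
      rw [h1, Nat.cast_one]
    rw [ZMod.natCast_eq_natCast_iff'] at h3
    have hp1 : 1 < p := (Fact.out : p.Prime).one_lt
    rw [Nat.mod_eq_of_lt (lt_of_le_of_lt h2 hr), Nat.mod_eq_of_lt hp1] at h3
    exact h3
  obtain ⟨v, -, hv⟩ := finrank_eq_one_iff'.mp hfin
  obtain ⟨c₁, hc₁⟩ := hv ⟨v₁, ⟨v₁, by rw [hf, Matrix.toLin'_apply, hPv v₁ h₁]⟩⟩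
  obtain ⟨c₂, hc₂⟩ := hv ⟨v₂, ⟨v₂, by rw [hf, Matrix.toLin'_apply, hPv v₂ h₂]⟩⟩
  have e₁ : v₁ = c₁ • (v : Fin r → ZMod p) := by
    have := congrArg Subtype.val hc₁; simpa using this.symm
  have e₂ : v₂ = c₂ • (v : Fin r → ZMod p) := by
    have := congrArg Subtype.val hc₂; simpa using this.symm
  by_cases hc : c₁ = 0
  · refine ⟨1, 0, Or.inl one_ne_zero, ?_⟩
    rw [e₁, hc]; simp
  · refine ⟨c₂, -c₁, Or.inr (neg_ne_zero.mpr hc), ?_⟩
    rw [e₁, e₂, smul_smul, smul_smul, mul_comm c₂ c₁, neg_mul, neg_smul, add_neg_cancel]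

/-! ## 2. The Galois action on the unit lattice -/

variable {K : Type*} [Field K] [NumberField K]

/-- The action of a field automorphism on the units of the ring of integers. -/
noncomputable def gu (τ : K ≃ₐ[ℚ] K) : (𝓞 K)ˣ →* (𝓞 K)ˣ :=
  Units.map ((RingOfIntegers.mapRingEquiv (τ : K ≃+* K) : 𝓞 K →+* 𝓞 K) : 𝓞 K →* 𝓞 K)

theorem gu_coe (τ : K ≃ₐ[ℚ] K) (u : (𝓞 K)ˣ) :
    (((gu τ u : (𝓞 K)ˣ) : 𝓞 K) : K) = τ ((u : 𝓞 K) : K) := rfl

theorem gu_mul (σ τ : K ≃ₐ[ℚ] K) (u : (𝓞 K)ˣ) : gu (σ * τ) u = gu σ (gu τ u) := by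
  apply Units.ext
  apply RingOfIntegers.ext
  rw [gu_coe, gu_coe, gu_coe]
  rfl

open Classical in
/-- Extension of a vector of the log space to all infinite places (sum zero). -/
noncomputable def ext : logSpace K →ₗ[ℝ] (InfinitePlace K → ℝ) where
  toFun x w := if h : w = w₀ then - ∑ w', x w' else x ⟨w, h⟩
  map_add' x y := by
    funext w
    by_cases h : w = w₀
    · simp [h, Finset.sum_add_distrib]; ring
    · simp [h]
  map_smul' c x := by
    funext w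
    by_cases h : w = w₀
    · simp [h, Finset.mul_sum]
    · simp [h]

theorem ext_apply_of_ne (x : logSpace K) {w : InfinitePlace K} (h : w ≠ w₀) :
    ext x w = x ⟨w, h⟩ := by
  simp [ext, h]

open Classical in
theorem ext_apply_w₀ (x : logSpace K) : ext x (w₀ : InfinitePlace K) = - ∑ w', x w' := by
  simp [ext]

theorem ext_logEmbedding (u : (𝓞 K)ˣ) (w : InfinitePlace K) :
    ext (logEmbedding K (Additive.ofMul u)) w = mult w * Real.log (w ((u : 𝓞 K) : K)) := by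
  classical
  by_cases h : w = w₀
  · subst h
    rw [ext_apply_w₀, sum_logEmbedding_component]
    ring
  · rw [ext_apply_of_ne _ h, logEmbedding_component]

/-- The action of an automorphism on the log space. -/
noncomputable def Tlog (τ : K ≃ₐ[ℚ] K) : logSpace K →ₗ[ℝ] logSpace K :=
  (LinearMap.funLeft ℝ ℝ (fun w : {w : InfinitePlace K // w ≠ w₀} => τ⁻¹ • w.val)).comp ext

theorem Tlog_apply (τ : K ≃ₐ[ℚ] K) (x : logSpace K) (w : {w : InfinitePlace K // w ≠ w₀}) :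
    Tlog τ x w = ext x (τ⁻¹ • w.val) := rfl

theorem mult_smul' (τ : K ≃ₐ[ℚ] K) (w : InfinitePlace K) : mult (τ • w) = mult w := by
  by_cases h : IsReal w
  · rw [h.mult_eq_one, (isReal_smul_iff.mpr h).mult_eq_one]
  · have h' : ¬ IsReal (τ • w) := fun h' => h (isReal_smul_iff.mp h')
    rw [(not_isReal_iff_isComplex.mp h).mult_eq_two, (not_isReal_iff_isComplex.mp h').mult_eq_two]

theorem logEmbedding_gu (τ : K ≃ₐ[ℚ] K) (u : (𝓞 K)ˣ) :
    logEmbedding K (Additive.ofMul (gu τ u)) = Tlog τ (logEmbedding K (Additive.ofMul u)) := by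
  funext w
  rw [Tlog_apply, ext_logEmbedding, logEmbedding_component, mult_smul']
  rfl

open Classical in
theorem Tlog_single (τ : K ≃ₐ[ℚ] K) (w : {w : InfinitePlace K // w ≠ w₀}) :
    Tlog τ (Pi.single w 1) w =
      (if τ • w.val = w.val then (1 : ℝ) else 0) - (if τ • w₀ = w.val then 1 else 0) := by
  rw [Tlog_apply]
  by_cases h : τ⁻¹ • w.val = w₀
  · have h1 : τ • (w₀ : InfinitePlace K) = w.val := (inv_smul_eq_iff.mp h).symm
    have h2 : ¬ (τ • w.val = w.val) := by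
      intro h3
      apply w.2
      have h4 : τ⁻¹ • w.val = w.val := inv_smul_eq_iff.mpr h3.symm
      exact h4.symm.trans h
    rw [h, ext_apply_w₀, if_neg h2, if_pos h1, Finset.sum_pi_single']
    simp
  · have h1 : ¬ (τ • (w₀ : InfinitePlace K) = w.val) := by
      intro h3
      apply h
      exact inv_smul_eq_iff.mpr h3.symm
    rw [ext_apply_of_ne _ h, if_neg h1, sub_zero, Pi.single_apply]
    by_cases h2 : τ • w.val = w.val
    · have h3 : (⟨τ⁻¹ • w.val, h⟩ : {w : InfinitePlace K // w ≠ w₀}) = w := by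
        apply Subtype.ext
        show τ⁻¹ • w.val = w.val
        rw [inv_smul_eq_iff, h2]
      rw [if_pos h2, if_pos h3]
    · have h3 : ¬ ((⟨τ⁻¹ • w.val, h⟩ : {w : InfinitePlace K // w ≠ w₀}) = w) := by
        intro h4
        apply h2
        have := congrArg Subtype.val h4
        simp only at this
        rw [inv_smul_eq_iff] at this
        exact this.symm
      rw [if_neg h2, if_neg h3]

open Classical in
theorem trace_Tlog (τ : K ≃ₐ[ℚ] K) :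
    LinearMap.trace ℝ (logSpace K) (Tlog τ) =
      (∑ w : InfinitePlace K, if τ • w = w then (1 : ℝ) else 0) - 1 := by
  rw [LinearMap.trace_eq_matrix_trace ℝ (Pi.basisFun ℝ {w : InfinitePlace K // w ≠ w₀})]
  simp only [Matrix.trace, Matrix.diag_apply, LinearMap.toMatrix_apply, Pi.basisFun_apply,
    Pi.basisFun_repr]
  rw [Finset.sum_congr rfl (fun w _ => Tlog_single τ w)]
  have h := Fintype.sum_eq_add_sum_subtype_ne (fun w : InfinitePlace K =>
    (if τ • w = w then (1 : ℝ) else 0) - (if τ • w₀ = w then 1 else 0)) w₀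
  simp only [sub_self, zero_add] at h
  rw [← h, Finset.sum_sub_distrib, Finset.sum_ite_eq]
  simp

/-- The point of the unit lattice attached to a unit. -/
noncomputable def lat (u : (𝓞 K)ˣ) : unitLattice K :=
  ⟨logEmbedding K (Additive.ofMul u), ⟨Additive.ofMul u, trivial, rfl⟩⟩

theorem lat_coe (u : (𝓞 K)ˣ) : (lat u : logSpace K) = logEmbedding K (Additive.ofMul u) := rfl

theorem lat_surj (x : unitLattice K) : ∃ u : (𝓞 K)ˣ, lat u = x := by
  obtain ⟨x, ⟨y, -, hy⟩⟩ := x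
  exact ⟨Additive.toMul y, Subtype.ext hy⟩

theorem lat_mul (u v : (𝓞 K)ˣ) : lat (u * v) = lat u + lat v := by
  apply Subtype.ext
  rw [Submodule.coe_add, lat_coe, lat_coe, lat_coe, ofMul_mul, map_add]

theorem lat_one : lat (1 : (𝓞 K)ˣ) = 0 := by
  apply Subtype.ext
  rw [lat_coe, ofMul_one, map_zero]
  rfl

theorem lat_pow (u : (𝓞 K)ˣ) (n : ℕ) : lat (u ^ n) = n • lat u := by
  induction n with
  | zero => rw [pow_zero, lat_one, zero_smul]
  | succ k ih => rw [pow_succ, lat_mul, ih, add_smul, one_smul]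

theorem lat_inv (u : (𝓞 K)ˣ) : lat u⁻¹ = - lat u := by
  have h : lat (u⁻¹ * u) = lat u⁻¹ + lat u := lat_mul _ _
  rw [inv_mul_cancel, lat_one] at h
  exact eq_neg_of_add_eq_zero_left h.symm

theorem lat_eq_zero_iff (u : (𝓞 K)ˣ) : lat u = 0 ↔ u ∈ torsion K := by
  rw [← logEmbedding_eq_zero_iff, ← lat_coe]
  exact ⟨fun h => by rw [h]; rfl, fun h => Subtype.ext h⟩

theorem Tlog_mem (τ : K ≃ₐ[ℚ] K) (x : logSpace K) (hx : x ∈ unitLattice K) :
    Tlog τ x ∈ unitLattice K := by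
  obtain ⟨u, hu⟩ := lat_surj ⟨x, hx⟩
  have hx' : x = logEmbedding K (Additive.ofMul u) := by
    have := congrArg Subtype.val hu
    exact this.symm
  rw [hx', ← logEmbedding_gu]
  exact (lat (gu τ u)).2

/-- The action of an automorphism on the unit lattice. -/
noncomputable def TZ (τ : K ≃ₐ[ℚ] K) : unitLattice K →ₗ[ℤ] unitLattice K :=
  ((Tlog τ).restrictScalars ℤ).restrict (Tlog_mem τ)

theorem TZ_coe (τ : K ≃ₐ[ℚ] K) (x : unitLattice K) :
    (TZ τ x : logSpace K) = Tlog τ (x : logSpace K) := rfl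

theorem TZ_lat (τ : K ≃ₐ[ℚ] K) (u : (𝓞 K)ˣ) : TZ τ (lat u) = lat (gu τ u) := by
  apply Subtype.ext
  rw [TZ_coe, lat_coe, lat_coe, logEmbedding_gu]

theorem TZ_mul (σ τ : K ≃ₐ[ℚ] K) : TZ (σ * τ) = TZ σ ∘ₗ TZ τ := by
  apply LinearMap.ext
  intro x
  obtain ⟨u, rfl⟩ := lat_surj x
  rw [LinearMap.comp_apply, TZ_lat, TZ_lat, TZ_lat, gu_mul]

/-- The integer matrix of the action of an automorphism on the unit lattice. -/
noncomputable def AZ (τ : K ≃ₐ[ℚ] K) : Matrix (Fin (rank K)) (Fin (rank K)) ℤ :=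
  LinearMap.toMatrix (basisUnitLattice K) (basisUnitLattice K) (TZ τ)

theorem AZ_mul (σ τ : K ≃ₐ[ℚ] K) : AZ (σ * τ) = AZ σ * AZ τ := by
  rw [AZ, AZ, AZ, TZ_mul, LinearMap.toMatrix_comp _ (basisUnitLattice K)]

open Classical in
theorem trace_AZ (τ : K ≃ₐ[ℚ] K) :
    (((AZ τ).trace : ℤ) : ℝ) = (∑ w : InfinitePlace K, if τ • w = w then (1 : ℝ) else 0) - 1 := by
  rw [← trace_Tlog, LinearMap.trace_eq_matrix_trace ℝ
    ((basisUnitLattice K).ofZLatticeBasis ℝ (unitLattice K))]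
  rw [Matrix.trace, Matrix.trace, Int.cast_sum]
  refine Finset.sum_congr rfl (fun i _ => ?_)
  rw [Matrix.diag_apply, Matrix.diag_apply, LinearMap.toMatrix_apply, AZ, LinearMap.toMatrix_apply,
    Basis.ofZLatticeBasis_apply, ← TZ_coe, Basis.ofZLatticeBasis_repr_apply]

/-- Integer coordinates of a unit in the unit lattice. -/
noncomputable def cvec (u : (𝓞 K)ˣ) : Fin (rank K) → ℤ :=
  fun i => (basisUnitLattice K).repr (lat u) i

theorem cvec_gu (τ : K ≃ₐ[ℚ] K) (u : (𝓞 K)ˣ) : cvec (gu τ u) = (AZ τ).mulVec (cvec u) := by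
  have h := LinearMap.toMatrix_mulVec_repr (basisUnitLattice K) (basisUnitLattice K) (TZ τ) (lat u)
  rw [TZ_lat] at h
  exact h.symm

theorem cvec_mul (u v : (𝓞 K)ˣ) : cvec (u * v) = cvec u + cvec v := by
  funext i
  simp only [cvec, lat_mul, map_add, Finsupp.coe_add, Pi.add_apply]

theorem cvec_pow (u : (𝓞 K)ˣ) (n : ℕ) : cvec (u ^ n) = n • cvec u := by
  funext i
  simp only [cvec, lat_pow, map_nsmul, Finsupp.coe_smul, Pi.smul_apply]

theorem cvec_inv (u : (𝓞 K)ˣ) : cvec u⁻¹ = - cvec u := by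
  funext i
  simp only [cvec, lat_inv, map_neg, Finsupp.coe_neg, Pi.neg_apply]

theorem cvec_eq_zero_iff (u : (𝓞 K)ˣ) : cvec u = 0 ↔ u ∈ torsion K := by
  rw [← lat_eq_zero_iff]
  constructor
  · intro h
    apply (basisUnitLattice K).repr.injective
    ext i
    have := congrFun h i
    simpa [cvec] using this
  · intro h
    funext i
    simp [cvec, h]

theorem cvec_surj (d : Fin (rank K) → ℤ) : ∃ u : (𝓞 K)ˣ, cvec u = d := by
  obtain ⟨u, hu⟩ := lat_surj ((basisUnitLattice K).repr.symm (Finsupp.equivFunOnFinite.symm d))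
  refine ⟨u, ?_⟩
  funext i
  simp [cvec, hu]

/-! ## 3. Fixed points of the Galois action on the infinite places -/

open Classical in
/-- Burnside for the (transitive) action of the Galois group on the infinite places. -/
theorem sum_fix [IsGalois ℚ K] :
    ∑ σ : K ≃ₐ[ℚ] K, (Finset.univ.filter (fun w : InfinitePlace K => σ • w = w)).card =
      Fintype.card (K ≃ₐ[ℚ] K) := by
  have hB := MulAction.sum_card_fixedBy_eq_card_orbits_mul_card_group (K ≃ₐ[ℚ] K) (InfinitePlace K)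
  have htr : MulAction.IsPretransitive (K ≃ₐ[ℚ] K) (InfinitePlace K) :=
    ⟨fun w w' => exists_smul_eq_of_comap_eq (Subsingleton.elim _ _)⟩
  have hsub := (MulAction.pretransitive_iff_subsingleton_quotient (K ≃ₐ[ℚ] K) (InfinitePlace K)).mp htr
  have h1 : Fintype.card (Quotient (MulAction.orbitRel (K ≃ₐ[ℚ] K) (InfinitePlace K))) = 1 := by
    exact Fintype.card_eq_one_iff.mpr
      ⟨Quotient.mk _ (w₀ : InfinitePlace K), fun y => hsub.elim _ _⟩
  rw [h1, one_mul] at hB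
  rw [← hB]
  refine Finset.sum_congr rfl (fun σ _ => ?_)
  rw [← Fintype.card_subtype]
  rfl

theorem sq_eq_one_of_fix (σ : K ≃ₐ[ℚ] K) (w : InfinitePlace K) (h : σ • w = w) : σ ^ 2 = 1 := by
  have hmem : σ ∈ MulAction.stabilizer (K ≃ₐ[ℚ] K) w := h
  have h2 : (⟨σ, hmem⟩ : MulAction.stabilizer (K ≃ₐ[ℚ] K) w) ^ 2 = 1 := by
    rcases nat_card_stabilizer_eq_one_or_two ℚ w with h1 | h1
    · have := pow_card_eq_one' (G := MulAction.stabilizer (K ≃ₐ[ℚ] K) w) (x := ⟨σ, hmem⟩)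
      rw [h1, pow_one] at this
      rw [this, one_pow]
    · have := pow_card_eq_one' (G := MulAction.stabilizer (K ≃ₐ[ℚ] K) w) (x := ⟨σ, hmem⟩)
      rw [h1] at this
      exact this
  have := congrArg Subtype.val h2
  simpa using this

/-! ## 4. The cyclotomic field `ℚ(ζ_p)` -/

private theorem comm_aux {G : Type*} [CommGroup G] (x₁ x₂ y₁ y₂ z w : G) (a b p : ℕ) :
    (x₁ ^ 4 * y₁ ^ p) ^ a * (x₂ ^ 4 * y₂ ^ p) ^ b * (w ^ p)⁻¹ =
      (x₁ ^ a * x₂ ^ b * (z ^ p)⁻¹) ^ 4 * (y₁ ^ a * y₂ ^ b * w⁻¹ * z ^ 4) ^ p := by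
  simp only [mul_pow, inv_pow, ← pow_mul]
  rw [mul_comm 4 a, mul_comm p a, mul_comm 4 b, mul_comm p b, mul_comm 4 p]
  have : (z ^ (p * 4))⁻¹ * z ^ (p * 4) = 1 := inv_mul_cancel _
  calc x₁ ^ (a * 4) * y₁ ^ (a * p) * (x₂ ^ (b * 4) * y₂ ^ (b * p)) * (w ^ p)⁻¹
      = x₁ ^ (a * 4) * x₂ ^ (b * 4) * ((z ^ (p * 4))⁻¹ * z ^ (p * 4)) *
          (y₁ ^ (a * p) * y₂ ^ (b * p) * (w ^ p)⁻¹) := by
        rw [this]; simp only [mul_one, mul_assoc, mul_left_comm]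
    _ = _ := by simp only [mul_assoc, mul_left_comm, mul_comm]

variable {p : ℕ} [Fact p.Prime]

theorem torsion_pow (hp2 : p ≠ 2) [IsCyclotomicExtension {p} ℚ K] (t : (𝓞 K)ˣ)
    (ht : t ∈ torsion K) : t ^ (2 * p) = 1 := by
  have : NeZero p := ⟨(Fact.out : p.Prime).ne_zero⟩
  have hodd : ¬ Even p := by
    intro he
    exact hp2 (((Fact.out : p.Prime).even_iff).mp he)
  have hord : torsionOrder K = 2 * p := by
    rw [IsCyclotomicExtension.Rat.torsionOrder_eq (n := p) (K := K), if_neg hodd]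
  have h := pow_card_eq_one' (G := torsion K) (x := ⟨t, ht⟩)
  have h' : ((⟨t, ht⟩ : torsion K) : (𝓞 K)ˣ) ^ Nat.card (torsion K) = 1 := by
    rw [← Subgroup.coe_pow, h]
    rfl
  rw [← hord]
  exact h'

theorem torsion_sq_eq_one (hp2 : p ≠ 2) [IsCyclotomicExtension {p} ℚ K] {ζ : K}
    (hζ : IsPrimitiveRoot ζ p) (t : (𝓞 K)ˣ) (ht : t ∈ torsion K) (τ : K ≃ₐ[ℚ] K)
    (hτ : τ ζ = ζ ^ 2) (δ : (𝓞 K)ˣ) (h : gu τ t = t ^ 4 * δ ^ p) : t ^ 2 = 1 := by
  have : NeZero p := ⟨(Fact.out : p.Prime).ne_zero⟩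
  have h2p := torsion_pow hp2 t ht
  obtain ⟨s, hs⟩ : ∃ s : (𝓞 K)ˣ, s = t ^ 2 := ⟨_, rfl⟩
  have hsp : s ^ p = 1 := by rw [hs, ← pow_mul]; exact h2p
  have hsK : (algebraMap (𝓞 K) K ((s : (𝓞 K)ˣ) : 𝓞 K)) ^ p = 1 := by
    rw [← map_pow, ← Units.val_pow_eq_pow_val, hsp, Units.val_one, map_one]
  obtain ⟨k, -, hk⟩ := hζ.eq_pow_of_pow_eq_one hsK
  have h1 : gu τ s = s ^ 2 := by
    apply Units.ext
    apply RingOfIntegers.ext
    show τ (algebraMap (𝓞 K) K ((s : (𝓞 K)ˣ) : 𝓞 K)) =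
      algebraMap (𝓞 K) K (((s ^ 2 : (𝓞 K)ˣ) : (𝓞 K)ˣ) : 𝓞 K)
    rw [Units.val_pow_eq_pow_val, map_pow, ← hk, map_pow, hτ, ← pow_mul, ← pow_mul, mul_comm]
  have h3 : gu τ s = s ^ 4 * (δ ^ 2) ^ p := by
    rw [hs, map_pow, h, mul_pow, ← pow_mul, ← pow_mul, ← pow_mul, ← pow_mul, mul_comm 4 2,
      mul_comm p 2]
  obtain ⟨d, hd⟩ : ∃ d : (𝓞 K)ˣ, d = δ ^ 2 := ⟨_, rfl⟩
  rw [← hd] at h3
  have hdp : d ^ p = s ^ 2 * (s ^ 4)⁻¹ := by
    rw [h1] at h3
    rw [h3, mul_comm (s ^ 4), mul_assoc, mul_inv_cancel, mul_one]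
  have hdpp : d ^ (p * p) = 1 := by
    rw [pow_mul, hdp, mul_pow, inv_pow, pow_right_comm s 2 p, pow_right_comm s 4 p, hsp, one_pow,
      one_pow, inv_one, mul_one]
  have hdt : d ∈ torsion K := by
    rw [torsion, CommGroup.mem_torsion]
    exact isOfFinOrder_iff_pow_eq_one.mpr
      ⟨p * p, Nat.mul_pos (Fact.out : p.Prime).pos (Fact.out : p.Prime).pos, hdpp⟩
  have hd2p := torsion_pow hp2 d hdt
  have hs4' : (s ^ 2 * (s ^ 4)⁻¹) ^ 2 = 1 := by
    rw [← hdp, ← pow_mul, mul_comm]; exact hd2p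
  have hs4 : s ^ 4 = 1 := by
    have e : (s ^ 2 * (s ^ 4)⁻¹) ^ 2 = (s ^ 4)⁻¹ := by
      have e1 : (s ^ 2) ^ 2 = s ^ 4 := by rw [← pow_mul]
      rw [mul_pow, inv_pow, e1, sq (s ^ 4), mul_inv, ← mul_assoc, mul_inv_cancel, one_mul]
    rw [e] at hs4'
    exact inv_eq_one.mp hs4'
  have hcop : Nat.gcd 4 p = 1 := by
    have h2 : Nat.Coprime 2 p :=
      (Nat.coprime_primes Nat.prime_two (Fact.out : p.Prime)).mpr (Ne.symm hp2)
    have : Nat.Coprime (2 ^ 2) p := Nat.Coprime.pow_left 2 h2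
    exact this
  have := pow_gcd_eq_one.mpr ⟨hs4, hsp⟩
  rw [hcop, pow_one] at this
  rw [← hs]
  exact this

/-- **[Un-D]** Two units of `ℤ[ζ_p]` (`5 ≤ p`) in the `ω²`-eigenspace of `E/E^p` are dependent
modulo `p`-th powers. -/
theorem exists_rel_of_eigen (hp5 : 5 ≤ p) [IsCyclotomicExtension {p} ℚ K] {ζ : K}
    (hζ : IsPrimitiveRoot ζ p) (ε₁ ε₂ : (𝓞 K)ˣ)
    (h₁ : ∀ (τ : K ≃ₐ[ℚ] K) (n : ℕ), τ ζ = ζ ^ n → ∃ δ : (𝓞 K)ˣ,
      τ ((ε₁ : 𝓞 K) : K) = ((ε₁ : 𝓞 K) : K) ^ (n ^ 2) * ((δ : 𝓞 K) : K) ^ p)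
    (h₂ : ∀ (τ : K ≃ₐ[ℚ] K) (n : ℕ), τ ζ = ζ ^ n → ∃ δ : (𝓞 K)ˣ,
      τ ((ε₂ : 𝓞 K) : K) = ((ε₂ : 𝓞 K) : K) ^ (n ^ 2) * ((δ : 𝓞 K) : K) ^ p) :
    ∃ (a b : ℤ) (δ : (𝓞 K)ˣ), ¬ ((p : ℤ) ∣ a ∧ (p : ℤ) ∣ b) ∧ ε₁ ^ a * ε₂ ^ b = δ ^ p := by
  classical
  have : NeZero p := ⟨(Fact.out : p.Prime).ne_zero⟩
  have : IsGalois ℚ K := IsCyclotomicExtension.isGalois {p} ℚ K
  have hp : p.Prime := Fact.out
  have hp2 : p ≠ 2 := by omega
  -- unit form of the hypotheses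
  have key : ∀ ε : (𝓞 K)ˣ, (∀ (τ : K ≃ₐ[ℚ] K) (n : ℕ), τ ζ = ζ ^ n → ∃ δ : (𝓞 K)ˣ,
      τ ((ε : 𝓞 K) : K) = ((ε : 𝓞 K) : K) ^ (n ^ 2) * ((δ : 𝓞 K) : K) ^ p) →
      ∀ (τ : K ≃ₐ[ℚ] K) (n : ℕ), τ ζ = ζ ^ n → ∃ δ : (𝓞 K)ˣ, gu τ ε = ε ^ (n ^ 2) * δ ^ p := by
    intro ε h τ n hn
    obtain ⟨δ, hδ⟩ := h τ n hn
    refine ⟨δ, ?_⟩
    apply Units.ext
    apply RingOfIntegers.ext
    rw [gu_coe, hδ]
    push_cast
    rfl
  have h₁' := key ε₁ h₁
  have h₂' := key ε₂ h₂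
  -- the cyclotomic character and its square
  set χ : (K ≃ₐ[ℚ] K) →* (ZMod p)ˣ := hζ.autToPow ℚ with hχ
  have hχspec : ∀ τ : K ≃ₐ[ℚ] K, τ ζ = ζ ^ ((χ τ : ZMod p).val) :=
    fun τ => (hζ.autToPow_spec ℚ τ).symm
  set ψ : (K ≃ₐ[ℚ] K) →* (ZMod p)ˣ := χ ^ 2 with hψ
  have hcardG : Fintype.card (K ≃ₐ[ℚ] K) = p - 1 := by
    rw [← Nat.card_eq_fintype_card, IsGalois.card_aut_eq_finrank,
      IsCyclotomicExtension.Rat.finrank p K, Nat.totient_prime hp]
  have hcard : ((Fintype.card (K ≃ₐ[ℚ] K) : ℕ) : ZMod p) = -1 := by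
    rw [hcardG, Nat.cast_sub hp.one_le, ZMod.natCast_self, Nat.cast_one, zero_sub]
  have hr : rank K < p := by
    have h1 := card_add_two_mul_card_eq_rank K
    have h2 := card_eq_nrRealPlaces_add_nrComplexPlaces K
    have h3 : finrank ℚ K = p - 1 := by
      rw [IsCyclotomicExtension.Rat.finrank p K, Nat.totient_prime hp]
    have h4 : rank K = Fintype.card (InfinitePlace K) - 1 := rfl
    omega
  -- an automorphism with `χ = 2`
  have hχbij : Function.Bijective χ := by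
    rw [Fintype.bijective_iff_injective_and_card]
    refine ⟨hζ.autToPow_injective ℚ, ?_⟩
    rw [hcardG, ZMod.card_units]
  have h2ne : (2 : ZMod p) ≠ 0 := by
    intro h
    have h' : ((2 : ℕ) : ZMod p) = 0 := by exact_mod_cast h
    rw [ZMod.natCast_eq_zero_iff] at h'
    have := Nat.le_of_dvd (by norm_num) h'
    omega
  obtain ⟨τ₂, hτ₂⟩ := hχbij.2 (Units.mk0 2 h2ne)
  have hτ₂ζ : τ₂ ζ = ζ ^ 2 := by
    have h := hχspec τ₂
    rw [hτ₂, Units.val_mk0, ZMod.val_two_eq_two_mod, Nat.mod_eq_of_lt (by omega)] at h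
    exact h
  -- the matrices modulo `p`
  set A : (K ≃ₐ[ℚ] K) → Matrix (Fin (rank K)) (Fin (rank K)) (ZMod p) :=
    fun τ => (AZ τ).map (Int.castRingHom (ZMod p)) with hAdef
  have hA : ∀ σ τ, A (σ * τ) = A σ * A τ := by
    intro σ τ
    simp only [hAdef]
    rw [AZ_mul, Matrix.map_mul]
  have htrA : ∀ τ : K ≃ₐ[ℚ] K, (A τ).trace =
      ((Finset.univ.filter (fun w : InfinitePlace K => τ • w = w)).card : ZMod p) - 1 := by
    intro τ
    have h1 : (AZ τ).trace =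
        ((Finset.univ.filter (fun w : InfinitePlace K => τ • w = w)).card : ℤ) - 1 := by
      have := trace_AZ τ
      rw [Finset.sum_boole] at this
      exact_mod_cast this
    simp only [hAdef]
    rw [← AddMonoidHom.map_trace (Int.castRingHom (ZMod p)), h1]
    simp
  have hψfix : ∀ τ : K ≃ₐ[ℚ] K,
      (Finset.univ.filter (fun w : InfinitePlace K => τ • w = w)).card ≠ 0 → ψ τ = 1 := by
    intro τ hne
    obtain ⟨w, hw⟩ := Finset.card_ne_zero.mp hne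
    have hw' := (Finset.mem_filter.mp hw).2
    have := sq_eq_one_of_fix τ w hw'
    rw [hψ, MonoidHom.pow_apply, ← map_pow, this, map_one]
  have hsum0 : ∑ τ : K ≃ₐ[ℚ] K, (((ψ τ)⁻¹ : (ZMod p)ˣ) : ZMod p) = 0 := by
    have hne : (Units.coeHom (ZMod p)).comp ψ⁻¹ ≠ 1 := by
      intro h
      have h' := DFunLike.congr_fun h τ₂
      simp only [MonoidHom.coe_comp, Function.comp_apply, MonoidHom.inv_apply, Units.coeHom_apply,
        MonoidHom.one_apply] at h'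
      rw [hψ, MonoidHom.pow_apply, hτ₂] at h'
      have h4 : ((Units.mk0 (2 : ZMod p) h2ne ^ 2 : (ZMod p)ˣ) : ZMod p) = 1 := by
        have := congrArg (fun x : ZMod p => x * ((Units.mk0 (2 : ZMod p) h2ne ^ 2 : (ZMod p)ˣ) : ZMod p)) h'
        simp only [Units.inv_mul, one_mul] at this
        exact this.symm
      rw [Units.val_pow_eq_pow_val, Units.val_mk0] at h4
      have h3 : ((3 : ℕ) : ZMod p) = 0 := by
        have : (2 : ZMod p) ^ 2 - 1 = 0 := by rw [h4, sub_self]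
        push_cast
        rw [← this]
        ring
      rw [ZMod.natCast_eq_zero_iff] at h3
      have := Nat.le_of_dvd (by norm_num) h3
      omega
    exact sum_hom_units_eq_zero _ hne
  have htr : ∑ σ : K ≃ₐ[ℚ] K, (((ψ σ)⁻¹ : (ZMod p)ˣ) : ZMod p) * (A σ).trace = -1 := by
    simp_rw [htrA, mul_sub, mul_one]
    rw [Finset.sum_sub_distrib, hsum0, sub_zero]
    have hterm : ∀ σ ∈ (Finset.univ : Finset (K ≃ₐ[ℚ] K)),
        (((ψ σ)⁻¹ : (ZMod p)ˣ) : ZMod p) *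
          ((Finset.univ.filter (fun w : InfinitePlace K => σ • w = w)).card : ZMod p) =
        (((Finset.univ.filter (fun w : InfinitePlace K => σ • w = w)).card : ℕ) : ZMod p) := by
      intro σ _
      by_cases h0 : (Finset.univ.filter (fun w : InfinitePlace K => σ • w = w)).card = 0
      · rw [h0, Nat.cast_zero, mul_zero]
      · rw [hψfix σ h0, inv_one, Units.val_one, one_mul]
    rw [Finset.sum_congr rfl hterm, ← Nat.cast_sum, sum_fix, hcard]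
  -- the eigenvectors modulo `p`
  have hvec : ∀ ε : (𝓞 K)ˣ, (∀ (τ : K ≃ₐ[ℚ] K) (n : ℕ), τ ζ = ζ ^ n →
      ∃ δ : (𝓞 K)ˣ, gu τ ε = ε ^ (n ^ 2) * δ ^ p) →
      ∀ σ, (A σ).mulVec (fun j => ((cvec ε j : ℤ) : ZMod p)) =
        ((ψ σ : (ZMod p)ˣ) : ZMod p) • (fun j => ((cvec ε j : ℤ) : ZMod p)) := by
    intro ε h σ
    obtain ⟨δ, hδ⟩ := h σ ((χ σ : ZMod p).val) (hχspec σ)
    have h1 : ∀ j, (AZ σ).mulVec (cvec ε) j =
        (((χ σ : ZMod p).val ^ 2 : ℕ) : ℤ) * cvec ε j + (p : ℤ) * cvec δ j := by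
      intro j
      rw [← cvec_gu, hδ, cvec_mul, cvec_pow, cvec_pow, Pi.add_apply, Pi.smul_apply, Pi.smul_apply,
        nsmul_eq_mul, nsmul_eq_mul]
    funext j
    have h2 := RingHom.map_mulVec (Int.castRingHom (ZMod p)) (AZ σ) (cvec ε) j
    rw [h1 j] at h2
    have h3 : (A σ).mulVec (fun j => ((cvec ε j : ℤ) : ZMod p)) j =
        ((AZ σ).map (Int.castRingHom (ZMod p))).mulVec ((Int.castRingHom (ZMod p)) ∘ cvec ε) j := rfl
    rw [h3, ← h2, map_add, map_mul, map_mul, map_natCast, map_natCast, eq_intCast, eq_intCast,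
      Nat.cast_pow, ZMod.natCast_zmod_val, ZMod.natCast_self, zero_mul, add_zero, Pi.smul_apply,
      smul_eq_mul, hψ, MonoidHom.pow_apply, Units.val_pow_eq_pow_val]
  obtain ⟨a, b, hab, hrel⟩ := dep_of_eigen hr A hA ψ hcard htr _ _ (hvec ε₁ h₁') (hvec ε₂ h₂')
  -- back to the integers
  have hdiv : ∀ j, (p : ℤ) ∣ (a.val : ℤ) * cvec ε₁ j + (b.val : ℤ) * cvec ε₂ j := by
    intro j
    have h := congrFun hrel j
    simp only [Pi.add_apply, Pi.smul_apply, smul_eq_mul, Pi.zero_apply] at h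
    rw [← ZMod.intCast_zmod_eq_zero_iff_dvd, Int.cast_add, Int.cast_mul, Int.cast_mul,
      Int.cast_natCast, Int.cast_natCast, ZMod.natCast_zmod_val, ZMod.natCast_zmod_val]
    exact h
  choose d hd using hdiv
  obtain ⟨δ₀, hδ₀⟩ := cvec_surj d
  set t : (𝓞 K)ˣ := ε₁ ^ a.val * ε₂ ^ b.val * (δ₀ ^ p)⁻¹ with ht
  have htors : t ∈ torsion K := by
    rw [← cvec_eq_zero_iff, ht, cvec_mul, cvec_mul, cvec_inv, cvec_pow, cvec_pow, cvec_pow, hδ₀]
    funext j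
    have := hd j
    rw [Pi.add_apply, Pi.add_apply, Pi.neg_apply, Pi.smul_apply, Pi.smul_apply, Pi.smul_apply,
      nsmul_eq_mul, nsmul_eq_mul, nsmul_eq_mul, Pi.zero_apply]
    linarith
  obtain ⟨δ₁, hδ₁⟩ := h₁' τ₂ 2 hτ₂ζ
  obtain ⟨δ₂, hδ₂⟩ := h₂' τ₂ 2 hτ₂ζ
  have hgt : gu τ₂ t = t ^ 4 * (δ₁ ^ a.val * δ₂ ^ b.val * (gu τ₂ δ₀)⁻¹ * δ₀ ^ 4) ^ p := by
    rw [ht, map_mul, map_mul, map_inv, map_pow, map_pow, map_pow, hδ₁, hδ₂]
    exact comm_aux ε₁ ε₂ δ₁ δ₂ δ₀ (gu τ₂ δ₀) a.val b.val p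
  have ht2 : t ^ 2 = 1 := torsion_sq_eq_one hp2 hζ t htors τ₂ hτ₂ζ _ hgt
  have htp : t ^ p = t := by
    obtain ⟨m, hm⟩ : ∃ m, p = 2 * m + 1 := by
      rcases Nat.Prime.eq_two_or_odd' hp with h | h
      · exact absurd h hp2
      · obtain ⟨m, hm⟩ := h; exact ⟨m, hm⟩
    rw [hm, pow_succ, pow_mul, ht2, one_pow, one_mul]
  refine ⟨(a.val : ℤ), (b.val : ℤ), t * δ₀, ?_, ?_⟩
  · rintro ⟨ha, hb⟩
    have ha' : a.val = 0 :=
      Nat.eq_zero_of_dvd_of_lt (Int.natCast_dvd_natCast.mp ha) (ZMod.val_lt a)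
    have hb' : b.val = 0 :=
      Nat.eq_zero_of_dvd_of_lt (Int.natCast_dvd_natCast.mp hb) (ZMod.val_lt b)
    rcases hab with h | h
    · exact h ((ZMod.val_eq_zero a).mp ha')
    · exact h ((ZMod.val_eq_zero b).mp hb')
  · rw [zpow_natCast, zpow_natCast, mul_pow, htp, ht, inv_mul_cancel_right]

end Fermat.Agent.S14T.UnitEigen
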