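/-
S14T — UnitRel.lean (helper6).  The leaf `UnitRel p` of `Leaves.lean` ([Un-D]), deduced from
`UnitEigen.exists_rel_of_eigen`.
-/
import Fermat.Agent.S14T.Leaves
import Fermat.Agent.S14T.UnitEigen

set_option autoImplicit false

namespace Fermat.Agent.S14T.UnitEigen

open NumberField

/-- **[Un-D]** in the shape of `Leaves.lean`. -/
theorem unitRel {p : ℕ} (hp : p.Prime) (h5 : 5 ≤ p) : Fermat.Agent.S14T.UnitRel p := by
  intro K _ _ _ ζ hζ ε₁ ε₂ h₁ h₂
  have : Fact p.Prime := ⟨hp⟩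
  exact exists_rel_of_eigen h5
    (hζ.map_of_injective (FaithfulSMul.algebraMap_injective (𝓞 K) K)) ε₁ ε₂ h₁ h₂

end Fermat.Agent.S14T.UnitEigen
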