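/-
S14T — Core.lean (captain: helper85).  Final wiring of team T1:
`KummerVanishing p` for every prime `p ≥ 3`, from the landed blocks

* [P3]  `p3Statement` (inside `Top.kummerVanishing_of_blocks_gen`),
* [Fin] `finStatement` (helper54),
* [Th]  `thaineStatement` (helper99, helper18, helper39, helper57, helper63),
* [Un]  `EtaCore.etaNotPow`, `EtaCore.etaCube` (helper27), `UnitEigen.unitRel` (helper6),
        `UnitAsmB.unitStatement_of_unitRel_etaCube` (helper90),
* (G)   `S14A.GenAn.genStatement_of` (helper60) applied to the Kummer splitting package
        `KummerSplit.exists_numberField_split` (helper82) and to `S14A.classL_bounded`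
        (helper3, helper4, helper12, helper51, helper78, helper79, …).
-/
import Fermat.Agent.S14T.Top
import Fermat.Agent.S14T.Fin
import Fermat.Agent.S14T.ThaineMain
import Fermat.Agent.S14T.EtaCore
import Fermat.Agent.S14T.UnitRel
import Fermat.Agent.S14T.UnitAsmB
import Fermat.Agent.S14T.KummerSplit
import Fermat.Agent.S14A.GenAnCore
import Fermat.Agent.S14A.ClassLBound

set_option autoImplicit false

namespace Fermat.Agent.S14T.Core

open NumberField

/-- (G-an): the generation statement of `Plan.lean`, from the Kummer splitting package and the
boundedness of the `L`-series of nontrivial class group characters. -/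
theorem genStatement : Fermat.Agent.S14T.GenStatement :=
  Fermat.Agent.S14A.GenAn.genStatement_of
    (fun K _ _ p hp hζ η hη => by
      haveI : Fact p.Prime := ⟨hp⟩
      exact Fermat.Agent.S14T.KummerSplit.exists_numberField_split hζ η hη)
    (fun K _ _ χ hχ => Fermat.Agent.S14A.classL_bounded K χ hχ)

/-- The number-field core of S14: `KummerVanishing p` for every prime `p ≥ 3`. -/
theorem kummerVanishing {p : ℕ} (hp : p.Prime) (h3 : 3 ≤ p) :
    Fermat.Agent.S14Tr.KummerVanishing p :=
  kummerVanishing_of_blocks_gen hp h3 (finStatement p)
    (fun _ => thaineStatement hp)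
    (fun h5 => EtaCore.etaNotPow hp h5)
    (fun h5 => UnitAsmB.unitStatement_of_unitRel_etaCube hp h5 (UnitEigen.unitRel hp h5)
      (EtaCore.etaCube hp h5))
    genStatement

end Fermat.Agent.S14T.Core
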