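/-
S14 (T1) / S14A, block [An2], B-path (helper81): the smoothed weight on the mixed space and its
annulus estimates (homogeneity, bound, Lipschitz), uniformly in `s ∈ [1,2]`.
-/
import Mathlib
import Fermat.Agent.S14T.An2Defs

set_option autoImplicit false

namespace Fermat.Agent.S14T.An2Annulus

open NumberField NumberField.InfinitePlace NumberField.Units
  NumberField.Units.dirichletUnitTheorem NumberField.mixedEmbedding Module
open Fermat.Agent.S14T.An2
open scoped Classical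

/-! ### Elementary real-analysis helpers -/

theorem abs_log_sub_log_le {a b η : ℝ} (hη : 0 < η) (ha : η ≤ a) (hb : η ≤ b) :
    |Real.log a - Real.log b| ≤ |a - b| / η := by
  have key : ∀ {a b : ℝ}, η ≤ a → a ≤ b → |Real.log a - Real.log b| ≤ |a - b| / η := by
    intro a b ha hab
    have ha0 : 0 < a := lt_of_lt_of_le hη ha
    have hb0 : 0 < b := lt_of_lt_of_le ha0 hab
    have h1 : Real.log a ≤ Real.log b := Real.log_le_log ha0 hab
    rw [abs_of_nonpos (by linarith), abs_of_nonpos (by linarith)]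
    have h2 : Real.log b - Real.log a = Real.log (b / a) := (Real.log_div hb0.ne' ha0.ne').symm
    have h3 : Real.log (b / a) ≤ b / a - 1 := Real.log_le_sub_one_of_pos (div_pos hb0 ha0)
    have h4 : b / a - 1 = (b - a) / a := by field_simp
    have h5 : (b - a) / a ≤ (b - a) / η := div_le_div_of_nonneg_left (by linarith) hη ha
    have h6 : -(a - b) / η = (b - a) / η := by ring
    linarith
  rcases le_total a b with hab | hab
  · exact key ha hab
  · rw [abs_sub_comm, abs_sub_comm a b]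
    exact key hb hab

theorem abs_exp_sub_exp_le {u v c : ℝ} (hu : u ≤ c) (hv : v ≤ c) :
    |Real.exp u - Real.exp v| ≤ Real.exp c * |u - v| := by
  have key : ∀ {u v : ℝ}, u ≤ c → v ≤ u → |Real.exp u - Real.exp v| ≤ Real.exp c * |u - v| := by
    intro u v hu hvu
    have h1 : Real.exp v ≤ Real.exp u := Real.exp_le_exp.mpr hvu
    rw [abs_of_nonneg (by linarith), abs_of_nonneg (by linarith)]
    have h2 : Real.exp v = Real.exp u * Real.exp (v - u) := by
      rw [← Real.exp_add]; ring_nf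
    have h3 : v - u + 1 ≤ Real.exp (v - u) := Real.add_one_le_exp _
    have h4 : Real.exp u ≤ Real.exp c := Real.exp_le_exp.mpr hu
    have h5 : 0 < Real.exp u := Real.exp_pos _
    have h6 : Real.exp u - Real.exp v ≤ Real.exp u * (u - v) := by
      rw [h2]; nlinarith
    calc Real.exp u - Real.exp v ≤ Real.exp u * (u - v) := h6
      _ ≤ Real.exp c * (u - v) := mul_le_mul_of_nonneg_right h4 (by linarith)
  rcases le_total v u with h | h
  · exact key hu h
  · rw [abs_sub_comm, abs_sub_comm u v]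
    exact key hv h

theorem abs_prod_sub_prod_le {ι : Type*} (S : Finset ι) (a b : ι → ℝ)
    (ha : ∀ i ∈ S, 0 ≤ a i ∧ a i ≤ 1) (hb : ∀ i ∈ S, 0 ≤ b i ∧ b i ≤ 1) :
    |∏ i ∈ S, a i - ∏ i ∈ S, b i| ≤ ∑ i ∈ S, |a i - b i| := by
  classical
  induction S using Finset.induction_on with
  | empty => simp
  | insert j S hj ih =>
    rw [Finset.prod_insert hj, Finset.prod_insert hj, Finset.sum_insert hj]
    have haS : ∀ i ∈ S, 0 ≤ a i ∧ a i ≤ 1 := fun i hi => ha i (Finset.mem_insert_of_mem hi)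
    have hbS : ∀ i ∈ S, 0 ≤ b i ∧ b i ≤ 1 := fun i hi => hb i (Finset.mem_insert_of_mem hi)
    have ih' := ih haS hbS
    have hPa0 : 0 ≤ ∏ i ∈ S, a i := Finset.prod_nonneg fun i hi => (haS i hi).1
    have hPa1 : ∏ i ∈ S, a i ≤ 1 := Finset.prod_le_one (fun i hi => (haS i hi).1)
      fun i hi => (haS i hi).2
    have hbj := hb j (Finset.mem_insert_self j S)
    have heq : a j * ∏ i ∈ S, a i - b j * ∏ i ∈ S, b i
        = (a j - b j) * ∏ i ∈ S, a i + b j * (∏ i ∈ S, a i - ∏ i ∈ S, b i) := by ring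
    rw [heq]
    calc |(a j - b j) * ∏ i ∈ S, a i + b j * (∏ i ∈ S, a i - ∏ i ∈ S, b i)|
        ≤ |(a j - b j) * ∏ i ∈ S, a i| + |b j * (∏ i ∈ S, a i - ∏ i ∈ S, b i)| := abs_add_le _ _
      _ = |a j - b j| * (∏ i ∈ S, a i) + b j * |∏ i ∈ S, a i - ∏ i ∈ S, b i| := by
          rw [abs_mul, abs_mul, abs_of_nonneg hPa0, abs_of_nonneg hbj.1]
      _ ≤ |a j - b j| * 1 + 1 * ∑ i ∈ S, |a i - b i| := by
          refine add_le_add (mul_le_mul_of_nonneg_left hPa1 (abs_nonneg _)) ?_
          exact mul_le_mul hbj.2 ih' (abs_nonneg _) zero_le_one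
      _ = |a j - b j| + ∑ i ∈ S, |a i - b i| := by ring

/-! ### The extension of `G` to the mixed space -/

variable (K : Type*) [Field K] [NumberField K]

open scoped Classical in
/-- The extension of `G K s` to the mixed space. -/
noncomputable def Gt (s : ℝ) (x : mixedSpace K) : ℝ :=
  if mixedEmbedding.norm x = 0 then 0 else psi K (logMap x) * mixedEmbedding.norm x ^ (-s)

theorem Gt_zero (s : ℝ) : Gt K s 0 = 0 := by
  simp [Gt]

/-- (F1) `Gt` restricts to `G` on the integers. -/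
theorem Gt_mixedEmbedding (s : ℝ) (a : 𝓞 K) : Gt K s (mixedEmbedding K (a : K)) = G K s a := by
  classical
  have hn : mixedEmbedding.norm (mixedEmbedding K (a : K)) = ((Algebra.norm ℤ a).natAbs : ℝ) := by
    rw [norm_eq_norm, ← Algebra.coe_norm_int, Nat.cast_natAbs]
    push_cast
    rfl
  unfold Gt G
  by_cases ha : a = 0
  · subst ha
    simp
  · have hne : mixedEmbedding.norm (mixedEmbedding K (a : K)) ≠ 0 := by
      rw [Ne, norm_eq_zero_iff' ⟨_, rfl⟩, map_eq_zero]
      exact_mod_cast ha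
    rw [if_neg hne, if_neg ha, hn]
    rfl

/-- (F2) homogeneity of `Gt`. -/
theorem Gt_smul (s : ℝ) {t : ℝ} (ht : 0 < t) (x : mixedSpace K) :
    Gt K s (t • x) = t ^ (-((finrank ℚ K : ℝ) * s)) * Gt K s x := by
  classical
  unfold Gt
  have hn : mixedEmbedding.norm (t • x) = t ^ finrank ℚ K * mixedEmbedding.norm x := by
    rw [mixedEmbedding.norm_smul, abs_of_pos ht]
  by_cases hx : mixedEmbedding.norm x = 0
  · have : mixedEmbedding.norm (t • x) = 0 := by rw [hn, hx, mul_zero]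
    rw [if_pos hx, if_pos this, mul_zero]
  · have hne : mixedEmbedding.norm (t • x) ≠ 0 := by
      rw [hn]; exact mul_ne_zero (pow_ne_zero _ ht.ne') hx
    rw [if_neg hx, if_neg hne, logMap_real_smul hx ht.ne', hn,
      Real.mul_rpow (pow_nonneg ht.le _) (mixedEmbedding.norm_nonneg x),
      ← Real.rpow_natCast t, ← Real.rpow_mul ht.le]
    rw [show ((finrank ℚ K : ℕ) : ℝ) * -s = -((finrank ℚ K : ℝ) * s) by ring]
    ring

/-! ### Facts about `tent` and `psi` -/

theorem tent_nonneg' (t : ℝ) : 0 ≤ tent t := le_max_left _ _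

theorem tent_le_one' (t : ℝ) : tent t ≤ 1 :=
  max_le zero_le_one (by linarith [abs_nonneg t])

theorem abs_lt_one_of_tent_ne_zero {t : ℝ} (h : tent t ≠ 0) : |t| < 1 := by
  by_contra hc
  exact h (max_eq_left (by linarith))

theorem abs_tent_sub_tent_le (a b : ℝ) : |tent a - tent b| ≤ |a - b| := by
  unfold tent
  rw [max_comm 0, max_comm 0]
  refine (abs_max_sub_max_le_abs _ _ _).trans ?_
  rw [show 1 - |a| - (1 - |b|) = -(|a| - |b|) by ring, abs_neg]
  exact abs_abs_sub_abs_le_abs_sub a b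

theorem psi_nonneg' (y : logSpace K) : 0 ≤ psi K y :=
  Finset.prod_nonneg fun _ _ => tent_nonneg' _

theorem psi_le_one' (y : logSpace K) : psi K y ≤ 1 :=
  Finset.prod_le_one (fun _ _ => tent_nonneg' _) fun _ _ => tent_le_one' _

theorem norm_le_of_psi_ne_zero {y : logSpace K} (h : psi K y ≠ 0) :
    ‖y‖ ≤ ∑ i, ‖logBasis K i‖ := by
  have hc : ∀ i, |(logBasis K).repr y i| < 1 := fun i =>
    abs_lt_one_of_tent_ne_zero (Finset.prod_ne_zero_iff.mp h i (Finset.mem_univ i))
  calc ‖y‖ = ‖∑ i, (logBasis K).repr y i • logBasis K i‖ := by rw [(logBasis K).sum_repr]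
    _ ≤ ∑ i, ‖(logBasis K).repr y i • logBasis K i‖ := norm_sum_le _ _
    _ ≤ ∑ i, ‖logBasis K i‖ := by
        refine Finset.sum_le_sum fun i _ => ?_
        rw [_root_.norm_smul, Real.norm_eq_abs]
        exact mul_le_of_le_one_left (norm_nonneg _) (hc i).le

theorem exists_psi_lipschitz :
    ∃ L : ℝ, 0 ≤ L ∧ ∀ y y' : logSpace K, |psi K y - psi K y'| ≤ L * ‖y - y'‖ := by
  refine ⟨Fintype.card (Fin (rank K)) * ‖((logBasis K).equivFunL : logSpace K →L[ℝ] (Fin (rank K) → ℝ))‖,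
    by positivity, fun y y' => ?_⟩
  unfold psi
  refine (abs_prod_sub_prod_le _ _ _ (fun i _ => ⟨tent_nonneg' _, tent_le_one' _⟩)
    (fun i _ => ⟨tent_nonneg' _, tent_le_one' _⟩)).trans ?_
  have h1 : ∀ i, |tent ((logBasis K).repr y i) - tent ((logBasis K).repr y' i)|
      ≤ ‖((logBasis K).equivFunL : logSpace K →L[ℝ] (Fin (rank K) → ℝ))‖ * ‖y - y'‖ := by
    intro i
    refine (abs_tent_sub_tent_le _ _).trans ?_
    have h2 : (logBasis K).repr y i - (logBasis K).repr y' i
        = ((logBasis K).equivFunL : logSpace K →L[ℝ] (Fin (rank K) → ℝ)) (y - y') i := by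
      simp
    rw [h2, ← Real.norm_eq_abs]
    exact (norm_le_pi_norm _ i).trans (ContinuousLinearMap.le_opNorm _ _)
  calc ∑ i, |tent ((logBasis K).repr y i) - tent ((logBasis K).repr y' i)|
      ≤ ∑ _i : Fin (rank K), ‖((logBasis K).equivFunL : logSpace K →L[ℝ] (Fin (rank K) → ℝ))‖ * ‖y - y'‖ :=
        Finset.sum_le_sum fun i _ => h1 i
    _ = Fintype.card (Fin (rank K)) * ‖((logBasis K).equivFunL : logSpace K →L[ℝ] (Fin (rank K) → ℝ))‖
          * ‖y - y'‖ := by
        rw [Finset.sum_const, Finset.card_univ, nsmul_eq_mul]; ring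

theorem continuous_psi : Continuous (psi K) := by
  obtain ⟨L, hL0, hL⟩ := exists_psi_lipschitz K
  refine (LipschitzWith.of_dist_le_mul (K := ⟨L, hL0⟩) fun y y' => ?_).continuous
  rw [Real.dist_eq, dist_eq_norm]
  exact hL y y'

/-! ### Logarithmic coordinates -/

variable {K}

theorem normAtPlace_le_norm (w : InfinitePlace K) (x : mixedSpace K) : normAtPlace w x ≤ ‖x‖ := by
  classical
  rw [norm_eq_sup'_normAtPlace]
  exact Finset.le_sup' (fun w => normAtPlace w x) (Finset.mem_univ w)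

theorem abs_normAtPlace_sub_le (w : InfinitePlace K) (x y : mixedSpace K) :
    |normAtPlace w x - normAtPlace w y| ≤ ‖x - y‖ := by
  have h1 : normAtPlace w x ≤ normAtPlace w (x - y) + normAtPlace w y := by
    have := normAtPlace_add_le w (x - y) y
    rwa [sub_add_cancel] at this
  have h2 : normAtPlace w y ≤ normAtPlace w (x - y) + normAtPlace w x := by
    have := normAtPlace_add_le w (y - x) x
    rwa [sub_add_cancel, ← neg_sub x y, normAtPlace_neg] at this
  have h3 := normAtPlace_le_norm w (x - y)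
  rw [abs_le]
  constructor <;> linarith

theorem log_norm_eq_sum {x : mixedSpace K} (hx : mixedEmbedding.norm x ≠ 0) :
    Real.log (mixedEmbedding.norm x) = ∑ w, (mult w : ℝ) * Real.log (normAtPlace w x) := by
  rw [mixedEmbedding.norm_apply, Real.log_prod]
  · exact Finset.sum_congr rfl fun w _ => Real.log_pow _ _
  · intro w _
    exact pow_ne_zero _ (mixedEmbedding.norm_ne_zero_iff.mp hx w)

theorem sum_mult_mul_sub_eq_zero {x : mixedSpace K} (hx : mixedEmbedding.norm x ≠ 0) :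
    ∑ w, (mult w : ℝ) * (Real.log (normAtPlace w x) -
      Real.log (mixedEmbedding.norm x) * (finrank ℚ K : ℝ)⁻¹) = 0 := by
  have hn : (finrank ℚ K : ℝ) ≠ 0 := Nat.cast_ne_zero.mpr finrank_pos.ne'
  have hs : ∑ w : InfinitePlace K, (mult w : ℝ) = (finrank ℚ K : ℝ) := by
    rw [← Nat.cast_sum, sum_mult_eq]
  simp_rw [mul_sub]
  rw [Finset.sum_sub_distrib, ← log_norm_eq_sum hx, ← Finset.sum_mul, hs]
  field_simp
  ring

/-- all the `log normAtPlace w x` are close to `log (norm x) / n`, in terms of `‖logMap x‖`. -/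
theorem abs_log_normAtPlace_sub_le {x : mixedSpace K} (hx : mixedEmbedding.norm x ≠ 0)
    (w : InfinitePlace K) :
    |Real.log (normAtPlace w x) - Real.log (mixedEmbedding.norm x) * (finrank ℚ K : ℝ)⁻¹|
      ≤ Fintype.card (InfinitePlace K) * ‖logMap x‖ := by
  classical
  set d : InfinitePlace K → ℝ := fun w => Real.log (normAtPlace w x) -
      Real.log (mixedEmbedding.norm x) * (finrank ℚ K : ℝ)⁻¹ with hd
  have hmult : ∀ w : InfinitePlace K, |d w| ≤ |(mult w : ℝ) * d w| := by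
    intro w
    rw [abs_mul, abs_of_nonneg (by positivity : (0 : ℝ) ≤ mult w)]
    exact le_mul_of_one_le_left (abs_nonneg _) one_le_mult
  have hne : ∀ w : {w : InfinitePlace K // w ≠ w₀}, |(mult w.1 : ℝ) * d w.1| ≤ ‖logMap x‖ := by
    intro w
    have : (mult w.1 : ℝ) * d w.1 = logMap x w := rfl
    rw [this, ← Real.norm_eq_abs]
    exact norm_le_pi_norm _ w
  have hcard : (1 : ℝ) ≤ Fintype.card (InfinitePlace K) := by
    exact_mod_cast Fintype.card_pos
  have hnn : 0 ≤ ‖logMap x‖ := norm_nonneg _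
  by_cases hw : w = w₀
  · have h0 := sum_mult_mul_sub_eq_zero hx
    rw [Fintype.sum_eq_add_sum_subtype_ne _ (w₀ : InfinitePlace K)] at h0
    have h1 : (mult (w₀ : InfinitePlace K) : ℝ) * d w₀
        = -∑ w : {w : InfinitePlace K // w ≠ w₀}, (mult w.1 : ℝ) * d w.1 := by
      linarith
    have h2 : |(mult (w₀ : InfinitePlace K) : ℝ) * d w₀|
        ≤ ∑ _w : {w : InfinitePlace K // w ≠ w₀}, ‖logMap x‖ := by
      rw [h1, abs_neg]
      exact (Finset.abs_sum_le_sum_abs _ _).trans (Finset.sum_le_sum fun w _ => hne w)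
    rw [Finset.sum_const, Finset.card_univ, nsmul_eq_mul] at h2
    have h3 : (Fintype.card {w : InfinitePlace K // w ≠ w₀} : ℝ)
        ≤ Fintype.card (InfinitePlace K) := by
      exact_mod_cast Fintype.card_subtype_le _
    rw [hw]
    calc |d w₀| ≤ |(mult (w₀ : InfinitePlace K) : ℝ) * d w₀| := hmult _
      _ ≤ Fintype.card {w : InfinitePlace K // w ≠ w₀} * ‖logMap x‖ := h2
      _ ≤ Fintype.card (InfinitePlace K) * ‖logMap x‖ :=
          mul_le_mul_of_nonneg_right h3 hnn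
  · calc |d w| ≤ |(mult w : ℝ) * d w| := hmult _
      _ ≤ ‖logMap x‖ := hne ⟨w, hw⟩
      _ ≤ Fintype.card (InfinitePlace K) * ‖logMap x‖ := le_mul_of_one_le_left hnn hcard

variable (K)

/-- (F0) on the support of `Gt`, all the `normAtPlace` are comparable to the sup norm. -/
theorem exists_delta : ∃ δ : ℝ, 0 < δ ∧ δ ≤ 1 ∧ ∀ x : mixedSpace K,
    mixedEmbedding.norm x ≠ 0 → psi K (logMap x) ≠ 0 → ∀ w, δ * ‖x‖ ≤ normAtPlace w x := by
  classical
  set C : ℝ := Fintype.card (InfinitePlace K) * ∑ i, ‖logBasis K i‖ with hC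
  have hC0 : 0 ≤ C := by positivity
  refine ⟨Real.exp (-(2 * C)), Real.exp_pos _, ?_, fun x hx hpsi w => ?_⟩
  · rw [← Real.exp_zero]; exact Real.exp_le_exp.mpr (by linarith)
  set m : ℝ := Real.log (mixedEmbedding.norm x) * (finrank ℚ K : ℝ)⁻¹ with hm
  have hb : ∀ v, |Real.log (normAtPlace v x) - m| ≤ C := fun v =>
    (abs_log_normAtPlace_sub_le hx v).trans
      (mul_le_mul_of_nonneg_left (norm_le_of_psi_ne_zero K hpsi) (by positivity))
  have hpos : ∀ v, 0 < normAtPlace v x := fun v =>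
    lt_of_le_of_ne (normAtPlace_nonneg v x) (Ne.symm (mixedEmbedding.norm_ne_zero_iff.mp hx v))
  have hup : ∀ v, normAtPlace v x ≤ Real.exp (m + C) := by
    intro v
    rw [← Real.exp_log (hpos v)]
    exact Real.exp_le_exp.mpr (by linarith [(abs_le.mp (hb v)).2])
  have hlo : Real.exp (m - C) ≤ normAtPlace w x := by
    rw [← Real.exp_log (hpos w)]
    exact Real.exp_le_exp.mpr (by linarith [(abs_le.mp (hb w)).1])
  have hnorm : ‖x‖ ≤ Real.exp (m + C) := by
    rw [norm_eq_sup'_normAtPlace]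
    exact Finset.sup'_le _ _ fun v _ => hup v
  calc Real.exp (-(2 * C)) * ‖x‖ ≤ Real.exp (-(2 * C)) * Real.exp (m + C) :=
        mul_le_mul_of_nonneg_left hnorm (Real.exp_pos _).le
    _ = Real.exp (m - C) := by rw [← Real.exp_add]; ring_nf
    _ ≤ normAtPlace w x := hlo

/-! ### Estimates in the region where all `normAtPlace` are `≥ η` -/

variable {K}

theorem pow_le_norm_of_le {η : ℝ} (hη : 0 < η) {x : mixedSpace K}
    (hx : ∀ w, η ≤ normAtPlace w x) : η ^ finrank ℚ K ≤ mixedEmbedding.norm x := by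
  rw [mixedEmbedding.norm_apply, ← sum_mult_eq, ← Finset.prod_pow_eq_pow_sum]
  exact Finset.prod_le_prod (fun w _ => pow_nonneg hη.le _)
    fun w _ => pow_le_pow_left₀ hη.le (hx w) _

theorem norm_ne_zero_of_le {η : ℝ} (hη : 0 < η) {x : mixedSpace K}
    (hx : ∀ w, η ≤ normAtPlace w x) : mixedEmbedding.norm x ≠ 0 :=
  (lt_of_lt_of_le (pow_pos hη _) (pow_le_norm_of_le hη hx)).ne'

theorem abs_log_normAtPlace_sub_log_le {η : ℝ} (hη : 0 < η) {x y : mixedSpace K}
    (hx : ∀ w, η ≤ normAtPlace w x) (hy : ∀ w, η ≤ normAtPlace w y) (w : InfinitePlace K) :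
    |Real.log (normAtPlace w x) - Real.log (normAtPlace w y)| ≤ ‖x - y‖ / η :=
  (abs_log_sub_log_le hη (hx w) (hy w)).trans
    (div_le_div_of_nonneg_right (abs_normAtPlace_sub_le w x y) hη.le)

theorem abs_log_norm_sub_log_norm_le {η : ℝ} (hη : 0 < η) {x y : mixedSpace K}
    (hx : ∀ w, η ≤ normAtPlace w x) (hy : ∀ w, η ≤ normAtPlace w y) :
    |Real.log (mixedEmbedding.norm x) - Real.log (mixedEmbedding.norm y)|
      ≤ (finrank ℚ K : ℝ) * (‖x - y‖ / η) := by
  rw [log_norm_eq_sum (norm_ne_zero_of_le hη hx), log_norm_eq_sum (norm_ne_zero_of_le hη hy),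
    ← Finset.sum_sub_distrib]
  have hs : ∑ w : InfinitePlace K, (mult w : ℝ) = (finrank ℚ K : ℝ) := by
    rw [← Nat.cast_sum, sum_mult_eq]
  calc |∑ w, ((mult w : ℝ) * Real.log (normAtPlace w x)
          - (mult w : ℝ) * Real.log (normAtPlace w y))|
      ≤ ∑ w, |(mult w : ℝ) * Real.log (normAtPlace w x)
          - (mult w : ℝ) * Real.log (normAtPlace w y)| := Finset.abs_sum_le_sum_abs _ _
    _ ≤ ∑ w : InfinitePlace K, (mult w : ℝ) * (‖x - y‖ / η) := by
        refine Finset.sum_le_sum fun w _ => ?_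
        rw [← mul_sub, abs_mul, abs_of_nonneg (by positivity : (0 : ℝ) ≤ mult w)]
        exact mul_le_mul_of_nonneg_left (abs_log_normAtPlace_sub_log_le hη hx hy w)
          (by positivity)
    _ = (finrank ℚ K : ℝ) * (‖x - y‖ / η) := by rw [← Finset.sum_mul, hs]

theorem norm_logMap_sub_le {η : ℝ} (hη : 0 < η) {x y : mixedSpace K}
    (hx : ∀ w, η ≤ normAtPlace w x) (hy : ∀ w, η ≤ normAtPlace w y) :
    ‖logMap x - logMap y‖ ≤ 4 * (‖x - y‖ / η) := by
  have hq : 0 ≤ ‖x - y‖ / η := div_nonneg (norm_nonneg _) hη.le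
  refine (pi_norm_le_iff_of_nonneg (by positivity)).mpr fun w => ?_
  have hn : (0 : ℝ) < finrank ℚ K := Nat.cast_pos.mpr finrank_pos
  have h1 := abs_log_normAtPlace_sub_log_le hη hx hy w.1
  have h2 := abs_log_norm_sub_log_norm_le hη hx hy
  have hm1 : (0 : ℝ) ≤ mult w.1 := by positivity
  have hm2 : (mult w.1 : ℝ) ≤ 2 := by
    unfold mult; split_ifs <;> norm_num
  rw [Pi.sub_apply, logMap_apply, logMap_apply, ← mul_sub, Real.norm_eq_abs, abs_mul,
    abs_of_nonneg hm1]
  have h3 : |Real.log (normAtPlace w.1 x) - Real.log (mixedEmbedding.norm x) * (finrank ℚ K : ℝ)⁻¹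
      - (Real.log (normAtPlace w.1 y) - Real.log (mixedEmbedding.norm y) * (finrank ℚ K : ℝ)⁻¹)|
      ≤ 2 * (‖x - y‖ / η) := by
    have e : Real.log (normAtPlace w.1 x) - Real.log (mixedEmbedding.norm x) * (finrank ℚ K : ℝ)⁻¹
      - (Real.log (normAtPlace w.1 y) - Real.log (mixedEmbedding.norm y) * (finrank ℚ K : ℝ)⁻¹)
      = (Real.log (normAtPlace w.1 x) - Real.log (normAtPlace w.1 y))
        - (Real.log (mixedEmbedding.norm x) - Real.log (mixedEmbedding.norm y))
          * (finrank ℚ K : ℝ)⁻¹ := by ring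
    rw [e]
    refine (abs_sub _ _).trans ?_
    rw [abs_mul, abs_of_pos (inv_pos.mpr hn)]
    have h4 : |Real.log (mixedEmbedding.norm x) - Real.log (mixedEmbedding.norm y)|
        * (finrank ℚ K : ℝ)⁻¹ ≤ ‖x - y‖ / η := by
      rw [← div_eq_mul_inv, div_le_iff₀ hn]
      linarith
    linarith
  calc (mult w.1 : ℝ) * _ ≤ 2 * (2 * (‖x - y‖ / η)) :=
        mul_le_mul hm2 h3 (abs_nonneg _) (by norm_num)
    _ = 4 * (‖x - y‖ / η) := by ring

variable (K)

theorem Gt_of_le {η : ℝ} (hη : 0 < η) (s : ℝ) {x : mixedSpace K}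
    (hx : ∀ w, η ≤ normAtPlace w x) :
    Gt K s x = psi K (logMap x) * Real.exp (Real.log (mixedEmbedding.norm x) * (-s)) := by
  have h0 := norm_ne_zero_of_le hη hx
  have hpos : 0 < mixedEmbedding.norm x := lt_of_le_of_ne (mixedEmbedding.norm_nonneg x) h0.symm
  unfold Gt
  rw [if_neg h0, Real.rpow_def_of_pos hpos]

theorem log_norm_mul_neg_le {η : ℝ} (hη : 0 < η) (hη1 : η ≤ 1) {s : ℝ} (hs0 : 0 ≤ s)
    (hs2 : s ≤ 2) {x : mixedSpace K} (hx : ∀ w, η ≤ normAtPlace w x) :
    Real.log (mixedEmbedding.norm x) * (-s) ≤ -(2 * (finrank ℚ K : ℝ) * Real.log η) := by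
  have h1 : Real.log (η ^ finrank ℚ K) ≤ Real.log (mixedEmbedding.norm x) :=
    Real.log_le_log (pow_pos hη _) (pow_le_norm_of_le hη hx)
  rw [Real.log_pow] at h1
  have hlog : Real.log η ≤ 0 := Real.log_nonpos hη.le hη1
  have hn : (0 : ℝ) ≤ finrank ℚ K := Nat.cast_nonneg _
  have hb : (finrank ℚ K : ℝ) * Real.log η ≤ 0 := mul_nonpos_of_nonneg_of_nonpos hn hlog
  have h2 : s * ((finrank ℚ K : ℝ) * Real.log η) ≤ s * Real.log (mixedEmbedding.norm x) :=
    mul_le_mul_of_nonneg_left h1 hs0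
  have h3 : s * (-((finrank ℚ K : ℝ) * Real.log η)) ≤ 2 * (-((finrank ℚ K : ℝ) * Real.log η)) :=
    mul_le_mul_of_nonneg_right hs2 (by linarith)
  linarith

/-- bound and Lipschitz estimate for `Gt` in the region `∀ w, η ≤ normAtPlace w x`. -/
theorem Gt_region {η : ℝ} (hη : 0 < η) (hη1 : η ≤ 1) (Lψ : ℝ) (hLψ0 : 0 ≤ Lψ)
    (hLψ : ∀ y y' : logSpace K, |psi K y - psi K y'| ≤ Lψ * ‖y - y'‖)
    {s : ℝ} (hs0 : 0 ≤ s) (hs2 : s ≤ 2) {x y : mixedSpace K}
    (hx : ∀ w, η ≤ normAtPlace w x) (hy : ∀ w, η ≤ normAtPlace w y) :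
    |Gt K s x| ≤ Real.exp (-(2 * (finrank ℚ K : ℝ) * Real.log η)) ∧
    |Gt K s x - Gt K s y| ≤ Real.exp (-(2 * (finrank ℚ K : ℝ) * Real.log η)) *
      (Lψ * (4 / η) + 2 * (finrank ℚ K : ℝ) / η) * ‖x - y‖ := by
  set c : ℝ := -(2 * (finrank ℚ K : ℝ) * Real.log η) with hc
  set ax : ℝ := Real.log (mixedEmbedding.norm x) * (-s) with hax
  set ay : ℝ := Real.log (mixedEmbedding.norm y) * (-s) with hay
  have hxc : ax ≤ c := log_norm_mul_neg_le K hη hη1 hs0 hs2 hx
  have hyc : ay ≤ c := log_norm_mul_neg_le K hη hη1 hs0 hs2 hy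
  have hEx : Real.exp ax ≤ Real.exp c := Real.exp_le_exp.mpr hxc
  have hq : 0 ≤ ‖x - y‖ / η := div_nonneg (norm_nonneg _) hη.le
  have hn : (0 : ℝ) ≤ finrank ℚ K := Nat.cast_nonneg _
  rw [Gt_of_le K hη s hx, Gt_of_le K hη s hy]
  constructor
  · rw [abs_mul, abs_of_nonneg (psi_nonneg' K _), abs_of_pos (Real.exp_pos _)]
    calc psi K (logMap x) * Real.exp ax ≤ 1 * Real.exp c :=
          mul_le_mul (psi_le_one' K _) hEx (Real.exp_pos _).le zero_le_one
      _ = Real.exp c := one_mul _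
  · have h1 : |psi K (logMap x) - psi K (logMap y)| ≤ Lψ * (4 * (‖x - y‖ / η)) :=
      (hLψ _ _).trans (mul_le_mul_of_nonneg_left (norm_logMap_sub_le hη hx hy) hLψ0)
    have h2 : |Real.exp ax - Real.exp ay| ≤ Real.exp c * (2 * ((finrank ℚ K : ℝ) * (‖x - y‖ / η))) := by
      refine (abs_exp_sub_exp_le hxc hyc).trans
        (mul_le_mul_of_nonneg_left ?_ (Real.exp_pos _).le)
      rw [hax, hay, ← sub_mul, abs_mul, abs_neg, abs_of_nonneg hs0, mul_comm]
      exact mul_le_mul hs2 (abs_log_norm_sub_log_norm_le hη hx hy) (abs_nonneg _) (by norm_num)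
    have e : psi K (logMap x) * Real.exp ax - psi K (logMap y) * Real.exp ay
        = (psi K (logMap x) - psi K (logMap y)) * Real.exp ax
          + psi K (logMap y) * (Real.exp ax - Real.exp ay) := by ring
    rw [e]
    calc |(psi K (logMap x) - psi K (logMap y)) * Real.exp ax
            + psi K (logMap y) * (Real.exp ax - Real.exp ay)|
        ≤ |(psi K (logMap x) - psi K (logMap y)) * Real.exp ax|
            + |psi K (logMap y) * (Real.exp ax - Real.exp ay)| := abs_add_le _ _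
      _ = |psi K (logMap x) - psi K (logMap y)| * Real.exp ax
            + psi K (logMap y) * |Real.exp ax - Real.exp ay| := by
          rw [abs_mul, abs_mul, abs_of_pos (Real.exp_pos _), abs_of_nonneg (psi_nonneg' K _)]
      _ ≤ Lψ * (4 * (‖x - y‖ / η)) * Real.exp c
            + 1 * (Real.exp c * (2 * ((finrank ℚ K : ℝ) * (‖x - y‖ / η)))) := by
          refine add_le_add (mul_le_mul h1 hEx (Real.exp_pos _).le (by positivity)) ?_
          exact mul_le_mul (psi_le_one' K _) h2 (abs_nonneg _) zero_le_one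
      _ = Real.exp c * (Lψ * (4 / η) + 2 * (finrank ℚ K : ℝ) / η) * ‖x - y‖ := by
          field_simp

/-! ### Bound and Lipschitz estimate away from the origin -/

theorem le_normAtPlace_of_Gt_ne_zero {δ : ℝ}
    (hδ : ∀ x : mixedSpace K, mixedEmbedding.norm x ≠ 0 → psi K (logMap x) ≠ 0 →
      ∀ w, δ * ‖x‖ ≤ normAtPlace w x) (hδ0 : 0 < δ)
    {s : ℝ} {x : mixedSpace K} (hx : 1 / 2 ≤ ‖x‖) (h : Gt K s x ≠ 0) (w : InfinitePlace K) :
    δ / 2 ≤ normAtPlace w x := by
  have h0 : mixedEmbedding.norm x ≠ 0 := by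
    intro h0
    exact h (by unfold Gt; rw [if_pos h0])
  have hpsi : psi K (logMap x) ≠ 0 := by
    intro hpsi
    exact h (by unfold Gt; rw [if_neg h0, hpsi, zero_mul])
  have := hδ x h0 hpsi w
  nlinarith

/-- (F3)+(F4): uniform bound and Lipschitz estimate for `Gt K s`, `0 ≤ s ≤ 2`, on `1/2 ≤ ‖x‖`. -/
theorem exists_annulus_bounds : ∃ Lip M : ℝ, ∀ s : ℝ, 0 ≤ s → s ≤ 2 →
    (∀ x y : mixedSpace K, 1 / 2 ≤ ‖x‖ → 1 / 2 ≤ ‖y‖ →
      |Gt K s x - Gt K s y| ≤ Lip * ‖x - y‖) ∧
    (∀ x : mixedSpace K, 1 / 2 ≤ ‖x‖ → |Gt K s x| ≤ M) := by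
  obtain ⟨δ, hδ0, hδ1, hδ⟩ := exists_delta K
  obtain ⟨Lψ, hLψ0, hLψ⟩ := exists_psi_lipschitz K
  set η : ℝ := δ / 4 with hη
  have hη0 : 0 < η := by positivity
  have hη1 : η ≤ 1 := by rw [hη]; linarith
  set M : ℝ := Real.exp (-(2 * (finrank ℚ K : ℝ) * Real.log η)) with hM
  have hM0 : 0 < M := Real.exp_pos _
  set LU : ℝ := M * (Lψ * (4 / η) + 2 * (finrank ℚ K : ℝ) / η) with hLU
  have hLU0 : 0 ≤ LU := by positivity
  refine ⟨LU + 8 * M / δ, M, fun s hs0 hs2 => ?_⟩
  -- membership in the region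
  have hreg : ∀ x : mixedSpace K, 1 / 2 ≤ ‖x‖ → Gt K s x ≠ 0 → ∀ w, η ≤ normAtPlace w x := by
    intro x hx h w
    have := le_normAtPlace_of_Gt_ne_zero K hδ hδ0 hx h w
    rw [hη]; linarith
  have hbound : ∀ x : mixedSpace K, 1 / 2 ≤ ‖x‖ → |Gt K s x| ≤ M := by
    intro x hx
    by_cases h : Gt K s x = 0
    · rw [h, abs_zero]; exact hM0.le
    · exact (Gt_region K hη0 hη1 Lψ hLψ0 hLψ hs0 hs2 (hreg x hx h) (hreg x hx h)).1
  refine ⟨fun x y hx hy => ?_, hbound⟩
  have hxy0 : 0 ≤ ‖x - y‖ := norm_nonneg _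
  have hLle : LU * ‖x - y‖ ≤ (LU + 8 * M / δ) * ‖x - y‖ :=
    mul_le_mul_of_nonneg_right (le_add_of_nonneg_right (by positivity)) hxy0
  by_cases hclose : ‖x - y‖ ≤ δ / 4
  · by_cases hx0 : Gt K s x = 0
    · by_cases hy0 : Gt K s y = 0
      · rw [hx0, hy0, sub_zero, abs_zero]; positivity
      · -- `y` is in the good region, `x` is close to it
        have hyr : ∀ w, δ / 2 ≤ normAtPlace w y :=
          fun w => le_normAtPlace_of_Gt_ne_zero K hδ hδ0 hy hy0 w
        have hxr : ∀ w, η ≤ normAtPlace w x := by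
          intro w
          have := (abs_le.mp (abs_normAtPlace_sub_le w x y)).1
          rw [hη]; linarith [hyr w]
        exact ((Gt_region K hη0 hη1 Lψ hLψ0 hLψ hs0 hs2 hxr (hreg y hy hy0)).2).trans hLle
    · have hxr' : ∀ w, δ / 2 ≤ normAtPlace w x :=
        fun w => le_normAtPlace_of_Gt_ne_zero K hδ hδ0 hx hx0 w
      have hyr : ∀ w, η ≤ normAtPlace w y := by
        intro w
        have := (abs_le.mp (abs_normAtPlace_sub_le w x y)).2
        rw [hη]; linarith [hxr' w]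
      exact ((Gt_region K hη0 hη1 Lψ hLψ0 hLψ hs0 hs2 (hreg x hx hx0) hyr).2).trans hLle
  · have hfar : δ / 4 < ‖x - y‖ := not_le.mp hclose
    have h1 : |Gt K s x - Gt K s y| ≤ 2 * M := by
      have := abs_sub (Gt K s x) (Gt K s y)
      linarith [hbound x hx, hbound y hy]
    have h2 : 2 * M ≤ 8 * M / δ * ‖x - y‖ := by
      have : 2 * M = 8 * M / δ * (δ / 4) := by field_simp; ring
      rw [this]
      exact mul_le_mul_of_nonneg_left hfar.le (by positivity)
    calc |Gt K s x - Gt K s y| ≤ 2 * M := h1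
      _ ≤ 8 * M / δ * ‖x - y‖ := h2
      _ ≤ (LU + 8 * M / δ) * ‖x - y‖ :=
          mul_le_mul_of_nonneg_right (le_add_of_nonneg_left hLU0) hxy0

/-! ### Measurability -/

theorem measurable_logMap : Measurable (logMap : mixedSpace K → logSpace K) := by
  unfold logMap
  refine measurable_pi_iff.mpr fun w => measurable_const.mul ?_
  exact (continuous_normAtPlace _).measurable.log.sub <|
    (mixedEmbedding.continuous_norm _).measurable.log.mul measurable_const

/-- (F5) `Gt K s` is measurable. -/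
theorem measurable_Gt (s : ℝ) : Measurable (Gt K s) := by
  unfold Gt
  refine Measurable.ite ?_ measurable_const ?_
  · exact measurableSet_eq_fun (mixedEmbedding.continuous_norm K).measurable measurable_const
  · exact ((continuous_psi K).measurable.comp (measurable_logMap K)).mul
      ((mixedEmbedding.continuous_norm K).measurable.pow_const _)

end Fermat.Agent.S14T.An2Annulus
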