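/-
S14 (T1, Thaine route), block [An2]: generic comparison of a lattice sum with an integral,
cell by cell over a fundamental domain.  Mathlib only.
-/
import Mathlib

set_option autoImplicit false

namespace Fermat.Agent.S14T.LatSum

open MeasureTheory Set
open scoped Pointwise ENNReal

variable {E : Type*} [NormedAddCommGroup E] [NormedSpace ℝ E] [FiniteDimensional ℝ E]
  [MeasurableSpace E] [BorelSpace E]
  (L : Submodule ℤ E) [DiscreteTopology L] [IsZLattice ℝ L]
  (μ : Measure E) [Measure.IsAddHaarMeasure μ]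

/-- Cell-by-cell comparison: if `h` is within `ε l` of the constant `c l` on the cell `l +ᵥ P`
(for a measurable fundamental domain `P` of the lattice `L`), then `h` is integrable and
`(∑ c l) · μ(P)` is within `μ(P) · ∑ ε l` of `∫ h`. -/
theorem cell_compare {P : Set E} (hP : IsAddFundamentalDomain L P μ) (hPm : MeasurableSet P)
    (hPfin : μ P ≠ ⊤)
    (h : E → ℝ) (hmeas : AEStronglyMeasurable h μ) (c ε : L → ℝ)
    (hc : Summable fun l => |c l|) (hε : Summable ε)
    (hbound : ∀ l : L, ∀ x ∈ (l +ᵥ P : Set E), |h x - c l| ≤ ε l) :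
    Integrable h μ ∧ |(∑' l, c l) * μ.real P - ∫ x, h x ∂μ| ≤ μ.real P * ∑' l, ε l := by
  have : MeasurableVAdd L E := (inferInstance : MeasurableVAdd L.toAddSubgroup E)
  have : VAddInvariantMeasure L E μ :=
    (inferInstance : VAddInvariantMeasure L.toAddSubgroup E μ)
  have hcell : ∀ l : L, μ (l +ᵥ P) = μ P := fun l => measure_vadd μ l P
  have hcellr : ∀ l : L, μ.real (l +ᵥ P) = μ.real P := fun l => by
    simp only [Measure.real, hcell]
  have hcellm : ∀ l : L, MeasurableSet (l +ᵥ P : Set E) := fun l => hPm.const_vadd l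
  have hcellfin : ∀ l : L, μ (l +ᵥ P) < ⊤ := fun l => by rw [hcell]; exact hPfin.lt_top
  have hnorm : ∀ l : L, ∀ x ∈ (l +ᵥ P : Set E), ‖h x‖ ≤ |c l| + |ε l| := by
    intro l x hx
    have h1 := hbound l x hx
    have h2 : |h x| ≤ |c l| + |h x - c l| := by
      have := abs_add_le (c l) (h x - c l)
      simpa using this
    rw [Real.norm_eq_abs]
    linarith [le_abs_self (ε l)]
  have hsumm : Summable fun l : L => |c l| + |ε l| := hc.add hε.abs
  -- integrability
  have hfin : HasFiniteIntegral h μ := by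
    rw [hasFiniteIntegral_iff_enorm, hP.lintegral_eq_tsum]
    calc ∑' l : L, ∫⁻ x in (l +ᵥ P : Set E), ‖h x‖ₑ ∂μ
        ≤ ∑' l : L, ENNReal.ofReal (|c l| + |ε l|) * μ P := by
          refine ENNReal.tsum_le_tsum fun l => ?_
          calc ∫⁻ x in (l +ᵥ P : Set E), ‖h x‖ₑ ∂μ
              ≤ ∫⁻ _ in (l +ᵥ P : Set E), ENNReal.ofReal (|c l| + |ε l|) ∂μ := by
                refine setLIntegral_mono measurable_const fun x hx => ?_
                rw [← ofReal_norm]
                exact ENNReal.ofReal_le_ofReal (hnorm l x hx)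
            _ = ENNReal.ofReal (|c l| + |ε l|) * μ P := by
                rw [setLIntegral_const, hcell]
      _ = (∑' l : L, ENNReal.ofReal (|c l| + |ε l|)) * μ P := ENNReal.tsum_mul_right
      _ < ⊤ := by
          refine ENNReal.mul_lt_top ?_ hPfin.lt_top
          rw [← ENNReal.ofReal_tsum_of_nonneg (fun l => by positivity) hsumm]
          exact ENNReal.ofReal_lt_top
  have hint : Integrable h μ := ⟨hmeas, hfin⟩
  refine ⟨hint, ?_⟩
  -- the estimate
  have hdecomp := hP.integral_eq_tsum h hint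
  have hcellbd : ∀ l : L, |c l * μ.real P - ∫ x in (l +ᵥ P : Set E), h x ∂μ| ≤ ε l * μ.real P := by
    intro l
    have hc_int : ∫ _ in (l +ᵥ P : Set E), c l ∂μ = c l * μ.real P := by
      rw [setIntegral_const, hcellr, smul_eq_mul, mul_comm]
    have hci : IntegrableOn (fun _ : E => c l) (l +ᵥ P : Set E) μ :=
      integrableOn_const (hcellfin l).ne
    have hhi : IntegrableOn h (l +ᵥ P : Set E) μ := hint.integrableOn
    rw [← hc_int, ← integral_sub hci hhi, ← hcellr l, ← Real.norm_eq_abs]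
    refine norm_setIntegral_le_of_norm_le_const (hcellfin l) fun x hx => ?_
    rw [Real.norm_eq_abs, abs_sub_comm]
    exact hbound l x hx
  have hsum_int : Summable fun l : L => ∫ x in (l +ᵥ P : Set E), h x ∂μ := by
    refine Summable.of_norm_bounded (hsumm.mul_right (μ.real P)) fun l => ?_
    rw [← hcellr l]
    exact norm_setIntegral_le_of_norm_le_const (hcellfin l) (hnorm l)
  have hsum_c : Summable c := hc.of_abs
  have hsum_diff : Summable fun l : L => c l * μ.real P - ∫ x in (l +ᵥ P : Set E), h x ∂μ :=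
    (hsum_c.mul_right _).sub hsum_int
  have heq : (∑' l, c l) * μ.real P - ∫ x, h x ∂μ
      = ∑' l : L, (c l * μ.real P - ∫ x in (l +ᵥ P : Set E), h x ∂μ) := by
    rw [hdecomp, (hsum_c.mul_right _).tsum_sub hsum_int, tsum_mul_right]
  rw [heq]
  have hεP : Summable fun l : L => ε l * μ.real P := hε.mul_right _
  calc |∑' l : L, (c l * μ.real P - ∫ x in (l +ᵥ P : Set E), h x ∂μ)|
      ≤ ∑' l : L, |c l * μ.real P - ∫ x in (l +ᵥ P : Set E), h x ∂μ| := by
        have := norm_tsum_le_tsum_norm (f := fun l : L =>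
          c l * μ.real P - ∫ x in (l +ᵥ P : Set E), h x ∂μ)
          (Summable.of_nonneg_of_le (fun _ => abs_nonneg _) hcellbd hεP)
        simpa [Real.norm_eq_abs] using this
    _ ≤ ∑' l : L, ε l * μ.real P :=
        (Summable.of_nonneg_of_le (fun _ => abs_nonneg _) hcellbd hεP).tsum_le_tsum hcellbd hεP
    _ = μ.real P * ∑' l, ε l := by rw [tsum_mul_right, mul_comm]

end Fermat.Agent.S14T.LatSum

namespace Fermat.Agent.S14T.LatSum

open MeasureTheory Set Module
open scoped Pointwise ENNReal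

variable {E : Type*} [NormedAddCommGroup E] [NormedSpace ℝ E] [FiniteDimensional ℝ E]
  [MeasurableSpace E] [BorelSpace E]
  (L : Submodule ℤ E) [DiscreteTopology L] [IsZLattice ℝ L]
  (μ : Measure E) [Measure.IsAddHaarMeasure μ]

omit [MeasurableSpace E] [BorelSpace E] [IsZLattice ℝ L] in
/-- Lattice points in a ball are finite in number. -/
theorem finite_norm_lt (R : ℝ) : {l : L | ‖(l : E)‖ < R}.Finite := by
  have H : IsClosed (X := E) L := @AddSubgroup.isClosed_of_discrete _ _ _ _ _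
    L.toAddSubgroup (inferInstanceAs (DiscreteTopology L))
  refine ((Metric.finite_isBounded_inter_isClosed DiscreteTopology.isDiscrete
    (Metric.isBounded_closedBall (x := (0 : E)) (r := R)) H).preimage_embedding
    (.subtype _)).subset ?_
  intro l hl
  simp only [Set.mem_ofPred_eq] at hl
  simp [hl.le]

omit [FiniteDimensional ℝ E] [MeasurableSpace E] [BorelSpace E] in
/-- A function homogeneous of degree `-r` and bounded by `M` on the annulus is bounded by
`M * ‖x‖ ^ (-r)`. -/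
theorem abs_le_of_homogeneous {g : E → ℝ} {r M : ℝ}
    (hhom : ∀ t : ℝ, 0 < t → ∀ x, g (t • x) = t ^ (-r) * g x)
    (hM : ∀ x, 1 / 2 ≤ ‖x‖ → ‖x‖ ≤ 2 → |g x| ≤ M) {x : E} (hx : x ≠ 0) :
    |g x| ≤ M * ‖x‖ ^ (-r) := by
  have hpos : 0 < ‖x‖ := norm_pos_iff.mpr hx
  have hx1 : ‖(‖x‖⁻¹ • x)‖ = 1 := by
    rw [norm_smul, norm_inv, norm_norm, inv_mul_cancel₀ hpos.ne']
  have hxeq : x = ‖x‖ • (‖x‖⁻¹ • x) := by
    rw [smul_smul, mul_inv_cancel₀ hpos.ne', one_smul]
  have h1 := hhom ‖x‖ hpos (‖x‖⁻¹ • x)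
  rw [← hxeq] at h1
  rw [h1, abs_mul, abs_of_nonneg (Real.rpow_nonneg hpos.le _), mul_comm]
  exact mul_le_mul_of_nonneg_right (hM _ (by rw [hx1]; norm_num) (by rw [hx1]; norm_num))
    (Real.rpow_nonneg hpos.le _)

/-- **Lattice sum versus integral for homogeneous functions.**  For a lattice `L` in `E` and
constants `Lip`, `M` there is a constant `C` such that for every function `g` homogeneous of degree
`-r` with `n < r ≤ 2n` (`n = dim E`), `Lip`-Lipschitz and bounded by `M` on the annulus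
`1/2 ≤ ‖x‖ ≤ 2`, the lattice sum `covol(L) · ∑_{l ∈ L} g l` differs from `∫_{‖x‖ ≥ 1} g` by at
most `C`.  The constant does not depend on `g` or `r`. -/
theorem homogeneous_compare (Lip M : ℝ) :
    ∃ C : ℝ, ∀ (g : E → ℝ) (r : ℝ), (finrank ℝ E : ℝ) < r → r ≤ 2 * finrank ℝ E → g 0 = 0 →
      (∀ t : ℝ, 0 < t → ∀ x, g (t • x) = t ^ (-r) * g x) →
      (∀ x y, 1 / 2 ≤ ‖x‖ → ‖x‖ ≤ 2 → 1 / 2 ≤ ‖y‖ → ‖y‖ ≤ 2 → |g x - g y| ≤ Lip * ‖x - y‖) →
      (∀ x, 1 / 2 ≤ ‖x‖ → ‖x‖ ≤ 2 → |g x| ≤ M) →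
      AEStronglyMeasurable g μ →
      Summable (fun l : L => g l) ∧ IntegrableOn g {x | 1 ≤ ‖x‖} μ ∧
        |ZLattice.covolume L μ * ∑' l : L, g l - ∫ x in {x | 1 ≤ ‖x‖}, g x ∂μ| ≤ C := by
  classical
  set n : ℕ := finrank ℝ E with hn
  let b := Module.Free.chooseBasis ℤ L
  set P : Set E := ZSpan.fundamentalDomain (b.ofZLatticeBasis ℝ L) with hPdef
  have hP : IsAddFundamentalDomain L P μ := ZLattice.isAddFundamentalDomain b μ
  have hPm : MeasurableSet P := ZSpan.fundamentalDomain_measurableSet _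
  have hPb : Bornology.IsBounded P := ZSpan.fundamentalDomain_isBounded _
  have hPfin : μ P ≠ ⊤ := hPb.measure_lt_top.ne
  have hcov : ZLattice.covolume L μ = μ.real P :=
    ZLattice.covolume_eq_measure_fundamentalDomain L μ hP
  obtain ⟨d₀, hd₀⟩ := isBounded_iff_forall_norm_le.mp hPb
  set d : ℝ := max d₀ 1 with hd
  have hd1 : 1 ≤ d := le_max_right _ _
  have hdP : ∀ p ∈ P, ‖p‖ ≤ d := fun p hp => (hd₀ p hp).trans (le_max_left _ _)
  set R₀ : ℝ := 2 * d with hR₀
  have hS₀ : {l : L | ‖(l : E)‖ < R₀}.Finite := finite_norm_lt L R₀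
  set M' : ℝ := max M 0 with hM'
  set Lip' : ℝ := max Lip 0 with hLip'
  have hM'0 : 0 ≤ M' := le_max_right _ _
  have hLip'0 : 0 ≤ Lip' := le_max_right _ _
  have hrank : finrank ℤ L = n := ZLattice.rank ℝ L
  -- the error function
  let ε₁ : L → ℝ := fun l => if ‖(l : E)‖ < R₀ then M' else 0
  let ε₂ : L → ℝ := fun l => Lip' * d * ‖(l : E)‖ ^ (-((n : ℝ) + 1))
  have hε₁ : Summable ε₁ := by
    refine summable_of_hasFiniteSupport (hS₀.subset fun l hl => ?_)
    simp only [Function.mem_support, ne_eq, ε₁] at hl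
    by_contra hcon
    exact hl (if_neg hcon)
  have hε₂ : Summable ε₂ := by
    have := ZLattice.summable_norm_rpow L (-((n : ℝ) + 1)) (by rw [hrank]; linarith)
    exact this.mul_left _
  have hε₂0 : ∀ l, 0 ≤ ε₂ l := fun l =>
    mul_nonneg (mul_nonneg hLip'0 (by linarith)) (Real.rpow_nonneg (norm_nonneg _) _)
  have hε₁0 : ∀ l, 0 ≤ ε₁ l := fun l => by
    simp only [ε₁]; split_ifs <;> simp [hM'0]
  let B₀ : ℝ := ∑ l ∈ hS₀.toFinset, M' * max 1 (‖(l : E)‖ ^ (-(2 * (n : ℝ))))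
  refine ⟨μ.real P * (∑' l, (ε₁ l + ε₂ l)) + μ.real P * B₀, ?_⟩
  intro g r hr1 hr2 hg0 hhom hLip hM hmeas
  have hr0 : 0 < r := lt_of_le_of_lt (Nat.cast_nonneg n) hr1
  have hMw : ∀ x, 1 / 2 ≤ ‖x‖ → ‖x‖ ≤ 2 → |g x| ≤ M' :=
    fun x h1 h2 => (hM x h1 h2).trans (le_max_left _ _)
  have hLipw : ∀ x y, 1 / 2 ≤ ‖x‖ → ‖x‖ ≤ 2 → 1 / 2 ≤ ‖y‖ → ‖y‖ ≤ 2 →
      |g x - g y| ≤ Lip' * ‖x - y‖ := fun x y h1 h2 h3 h4 =>
    (hLip x y h1 h2 h3 h4).trans (mul_le_mul_of_nonneg_right (le_max_left _ _) (norm_nonneg _))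
  have hgle : ∀ x : E, x ≠ 0 → |g x| ≤ M' * ‖x‖ ^ (-r) := fun x hx =>
    abs_le_of_homogeneous hhom hMw hx
  have hgle1 : ∀ x : E, 1 ≤ ‖x‖ → |g x| ≤ M' := by
    intro x hx
    have hx0 : x ≠ 0 := fun h0 => by rw [h0, norm_zero] at hx; linarith
    refine (hgle x hx0).trans ?_
    have : ‖x‖ ^ (-r) ≤ 1 := Real.rpow_le_one_of_one_le_of_nonpos hx (by linarith)
    nlinarith
  set S : Set E := {x | 1 ≤ ‖x‖} with hS
  have hSm : MeasurableSet S := measurableSet_le measurable_const measurable_norm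
  let h : E → ℝ := S.indicator g
  let c : L → ℝ := fun l => if R₀ ≤ ‖(l : E)‖ then g l else 0
  have hmeas_h : AEStronglyMeasurable h μ := hmeas.indicator hSm
  -- pointwise bound on the cells
  have hbound : ∀ l : L, ∀ x ∈ (l +ᵥ P : Set E), |h x - c l| ≤ ε₁ l + ε₂ l := by
    intro l x hx
    obtain ⟨p, hp, rfl⟩ := Set.mem_vadd_set.mp hx
    have hpd : ‖p‖ ≤ d := hdP p hp
    by_cases hl : R₀ ≤ ‖(l : E)‖
    · -- far cell
      have ht : 0 < ‖(l : E)‖ := by linarith
      have ht1 : 1 ≤ ‖(l : E)‖ := by linarith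
      have hxnorm : ‖(l : E)‖ / 2 ≤ ‖(l : E) + p‖ := by
        have := norm_sub_norm_le (l : E) (-p)
        rw [norm_neg, sub_neg_eq_add] at this
        linarith
      have hxS : (l : E) + p ∈ S := by
        simp only [hS, Set.mem_ofPred_eq]; linarith
      have hhx : h (l +ᵥ p) = g ((l : E) + p) := Set.indicator_of_mem hxS g
      have hcl : c l = g l := if_pos hl
      have hε₁l : ε₁ l = 0 := if_neg (not_lt.mpr hl)
      rw [hhx, hcl, hε₁l, zero_add]
      set t : ℝ := ‖(l : E)‖ with htdef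
      have hx' : (l : E) + p = t • (t⁻¹ • ((l : E) + p)) := by
        rw [smul_smul, mul_inv_cancel₀ ht.ne', one_smul]
      have hl' : (l : E) = t • (t⁻¹ • (l : E)) := by
        rw [smul_smul, mul_inv_cancel₀ ht.ne', one_smul]
      have e1 := hhom t ht (t⁻¹ • ((l : E) + p))
      have e2 := hhom t ht (t⁻¹ • (l : E))
      rw [← hx'] at e1
      rw [← hl'] at e2
      have hnl : ‖t⁻¹ • (l : E)‖ = 1 := by
        rw [norm_smul, norm_inv, Real.norm_eq_abs, abs_of_pos ht, htdef,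
          inv_mul_cancel₀ ht.ne']
      have hdiff : t⁻¹ • ((l : E) + p) - t⁻¹ • (l : E) = t⁻¹ • p := by
        rw [← smul_sub, add_sub_cancel_left]
      have hnd : ‖t⁻¹ • ((l : E) + p) - t⁻¹ • (l : E)‖ ≤ d / t := by
        rw [hdiff, norm_smul, norm_inv, Real.norm_eq_abs, abs_of_pos ht, div_eq_inv_mul]
        exact mul_le_mul_of_nonneg_left hpd (inv_nonneg.mpr ht.le)
      have hdt : d / t ≤ 1 / 2 := by
        rw [div_le_iff₀ ht]; linarith
      have hnx1 : 1 / 2 ≤ ‖t⁻¹ • ((l : E) + p)‖ := by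
        have := norm_sub_norm_le (t⁻¹ • (l : E)) (t⁻¹ • (l : E) - t⁻¹ • ((l : E) + p))
        rw [sub_sub_cancel, norm_sub_rev] at this
        linarith
      have hnx2 : ‖t⁻¹ • ((l : E) + p)‖ ≤ 2 := by
        have := norm_sub_norm_le (t⁻¹ • ((l : E) + p)) (t⁻¹ • (l : E))
        have h3 := norm_add_le (t⁻¹ • ((l : E) + p) - t⁻¹ • (l : E)) (t⁻¹ • (l : E))
        rw [sub_add_cancel] at h3
        linarith
      have hLipapp := hLipw (t⁻¹ • ((l : E) + p)) (t⁻¹ • (l : E)) hnx1 hnx2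
        (by rw [hnl]; norm_num) (by rw [hnl]; norm_num)
      have htr : 0 ≤ t ^ (-r) := Real.rpow_nonneg ht.le _
      show |g (l +ᵥ p) - g (l : E)| ≤ ε₂ l
      have hvadd : (l +ᵥ p : E) = (l : E) + p := rfl
      rw [hvadd, e1, e2, ← mul_sub, abs_mul, abs_of_nonneg htr]
      have h4 : |g (t⁻¹ • ((l : E) + p)) - g (t⁻¹ • (l : E))| ≤ Lip' * (d / t) :=
        hLipapp.trans (mul_le_mul_of_nonneg_left hnd hLip'0)
      have h5 : t ^ (-r) * (Lip' * (d / t)) = Lip' * d * t ^ (-r - 1) := by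
        rw [Real.rpow_sub ht, Real.rpow_one]; field_simp
      have h6 : t ^ (-r - 1) ≤ t ^ (-((n : ℝ) + 1)) :=
        Real.rpow_le_rpow_of_exponent_le ht1 (by linarith)
      calc t ^ (-r) * |g (t⁻¹ • ((l : E) + p)) - g (t⁻¹ • (l : E))|
          ≤ t ^ (-r) * (Lip' * (d / t)) := mul_le_mul_of_nonneg_left h4 htr
        _ = Lip' * d * t ^ (-r - 1) := h5
        _ ≤ Lip' * d * t ^ (-((n : ℝ) + 1)) :=
            mul_le_mul_of_nonneg_left h6 (mul_nonneg hLip'0 (by linarith))
    · -- near cell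
      have hcl : c l = 0 := if_neg hl
      have hε₁l : ε₁ l = M' := if_pos (not_le.mp hl)
      rw [hcl, sub_zero, hε₁l]
      have : |h (l +ᵥ p)| ≤ M' := by
        by_cases hxS : (l +ᵥ p : E) ∈ S
        · rw [show h (l +ᵥ p) = g (l +ᵥ p) from Set.indicator_of_mem hxS g]
          exact hgle1 _ hxS
        · rw [show h (l +ᵥ p) = 0 from Set.indicator_of_notMem hxS g, abs_zero]
          exact hM'0
      linarith [hε₂0 l]
  -- summability of `c`
  have hcle : ∀ l : L, |c l| ≤ M' * ‖(l : E)‖ ^ (-r) := by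
    intro l
    by_cases hl : R₀ ≤ ‖(l : E)‖
    · have hl0 : (l : E) ≠ 0 := fun h0 => by rw [h0, norm_zero] at hl; linarith
      rw [show c l = g l from if_pos hl]
      exact hgle _ hl0
    · rw [show c l = 0 from if_neg hl, abs_zero]
      exact mul_nonneg hM'0 (Real.rpow_nonneg (norm_nonneg _) _)
  have hcsum : Summable fun l : L => |c l| := by
    have := ZLattice.summable_norm_rpow L (-r) (by rw [hrank]; linarith)
    exact Summable.of_nonneg_of_le (fun _ => abs_nonneg _) hcle (this.mul_left M')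
  obtain ⟨hint, hcmp⟩ := cell_compare L μ hP hPm hPfin h hmeas_h c (fun l => ε₁ l + ε₂ l) hcsum
    (hε₁.add hε₂) hbound
  have hintOn : IntegrableOn g S μ := (integrable_indicator_iff hSm).mp hint
  have hinteq : ∫ x, h x ∂μ = ∫ x in S, g x ∂μ := integral_indicator hSm
  -- the finitely many remaining lattice points
  let e : L → ℝ := fun l => if R₀ ≤ ‖(l : E)‖ then 0 else g l
  have hge : ∀ l : L, g l = c l + e l := by
    intro l
    by_cases hl : R₀ ≤ ‖(l : E)‖
    · simp [c, e, hl]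
    · simp [c, e, hl]
  have hesupp : ∀ l ∉ hS₀.toFinset, e l = 0 := by
    intro l hl
    simp only [Set.Finite.mem_toFinset, Set.mem_ofPred_eq, not_lt] at hl
    exact if_pos hl
  have hesum : Summable e := summable_of_ne_finset_zero hesupp
  have hetsum : ∑' l, e l = ∑ l ∈ hS₀.toFinset, e l := tsum_eq_sum hesupp
  have hcs : Summable c := hcsum.of_abs
  have hgsum : Summable fun l : L => g l := by
    have := hcs.add hesum
    exact this.congr fun l => (hge l).symm
  have hgtsum : ∑' l : L, g l = ∑' l, c l + ∑ l ∈ hS₀.toFinset, e l := by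
    rw [← hetsum, ← hcs.tsum_add hesum]
    exact tsum_congr hge
  have hele : ∀ l ∈ hS₀.toFinset, |e l| ≤ M' * max 1 (‖(l : E)‖ ^ (-(2 * (n : ℝ)))) := by
    intro l _
    by_cases hl : R₀ ≤ ‖(l : E)‖
    · rw [show e l = 0 from if_pos hl, abs_zero]
      exact mul_nonneg hM'0 (le_trans zero_le_one (le_max_left _ _))
    · rw [show e l = g l from if_neg hl]
      by_cases hl0 : (l : E) = 0
      · rw [hl0, hg0, abs_zero]
        exact mul_nonneg hM'0 (le_trans zero_le_one (le_max_left _ _))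
      · refine (hgle _ hl0).trans (mul_le_mul_of_nonneg_left ?_ hM'0)
        have hpos : 0 < ‖(l : E)‖ := norm_pos_iff.mpr hl0
        by_cases h1 : 1 ≤ ‖(l : E)‖
        · exact (Real.rpow_le_one_of_one_le_of_nonpos h1 (by linarith)).trans (le_max_left _ _)
        · exact (Real.rpow_le_rpow_of_exponent_ge hpos (not_le.mp h1).le (by linarith)).trans
            (le_max_right _ _)
  have heB : |∑ l ∈ hS₀.toFinset, e l| ≤ B₀ :=
    (Finset.abs_sum_le_sum_abs _ _).trans (Finset.sum_le_sum hele)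
  refine ⟨hgsum, hintOn, ?_⟩
  rw [hcov, hgtsum, ← hinteq]
  have hPr : 0 ≤ μ.real P := measureReal_nonneg
  have key : μ.real P * (∑' l, c l + ∑ l ∈ hS₀.toFinset, e l) - ∫ x, h x ∂μ
      = ((∑' l, c l) * μ.real P - ∫ x, h x ∂μ) + μ.real P * ∑ l ∈ hS₀.toFinset, e l := by ring
  rw [key]
  refine (abs_add_le _ _).trans (add_le_add hcmp ?_)
  rw [abs_mul, abs_of_nonneg hPr]
  exact mul_le_mul_of_nonneg_left heB hPr

end Fermat.Agent.S14T.LatSum

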