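/-
S14 (T1) / S14A, block [An2], B-path (helper81): `S_asymp` via the integral route.
The smoothed sum over an ideal lattice is compared with the integral of the homogeneous
extension `Gt` (file `An2Annulus`) by `LatSum.homogeneous_compare`; the integral is the same
for all ideals, and the covolume of the lattice of `J` is `N(J)` times the one of `𝓞 K`.
-/
import Mathlib
import Fermat.Agent.S14T.An2Defs
import Fermat.Agent.S14T.LatSum
import Fermat.Agent.S14T.An2Annulus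

set_option autoImplicit false

namespace Fermat.Agent.S14T.An2AsympB

open NumberField NumberField.InfinitePlace NumberField.Units
  NumberField.Units.dirichletUnitTheorem NumberField.mixedEmbedding Module MeasureTheory
  nonZeroDivisors
open Fermat.Agent.S14T.An2 Fermat.Agent.S14T.An2Annulus
open scoped Classical

variable (K : Type*) [Field K] [NumberField K]

/-- The unit fractional ideal attached to a nonzero ideal. -/
noncomputable def fracI (J : Ideal (𝓞 K)) (hJ : J ≠ ⊥) : (FractionalIdeal (𝓞 K)⁰ K)ˣ :=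
  FractionalIdeal.mk0 K ⟨J, mem_nonZeroDivisors_of_ne_zero hJ⟩

/-- The lattice of a nonzero ideal in the mixed space. -/
noncomputable abbrev lat (J : Ideal (𝓞 K)) (hJ : J ≠ ⊥) : Submodule ℤ (mixedSpace K) :=
  mixedEmbedding.idealLattice K (fracI K J hJ)

theorem mem_lat_iff (J : Ideal (𝓞 K)) (hJ : J ≠ ⊥) (x : mixedSpace K) :
    x ∈ lat K J hJ ↔ ∃ a ∈ J, mixedEmbedding K ((a : 𝓞 K) : K) = x := by
  rw [mem_idealLattice]
  constructor
  · rintro ⟨y, hy, rfl⟩
    obtain ⟨a, ha, rfl⟩ := (FractionalIdeal.mem_coeIdeal _).mp hy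
    exact ⟨a, ha, rfl⟩
  · rintro ⟨a, ha, rfl⟩
    exact ⟨_, (FractionalIdeal.mem_coeIdeal _).mpr ⟨a, ha, rfl⟩, rfl⟩

/-- The bijection between an ideal and its lattice. -/
noncomputable def latEquiv (J : Ideal (𝓞 K)) (hJ : J ≠ ⊥) : J ≃ lat K J hJ :=
  Equiv.ofBijective
    (fun a => ⟨mixedEmbedding K (((a : 𝓞 K) : K)), (mem_lat_iff K J hJ _).mpr ⟨a, a.2, rfl⟩⟩)
    ⟨fun a b h => by
        have h1 : mixedEmbedding K (((a : 𝓞 K) : K)) = mixedEmbedding K (((b : 𝓞 K) : K)) :=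
          congrArg Subtype.val h
        exact Subtype.ext (RingOfIntegers.coe_injective (mixedEmbedding_injective K h1)),
      fun l => by
        obtain ⟨a, ha, h⟩ := (mem_lat_iff K J hJ _).mp l.2
        exact ⟨⟨a, ha⟩, Subtype.ext h⟩⟩

theorem latEquiv_apply (J : Ideal (𝓞 K)) (hJ : J ≠ ⊥) (a : J) :
    ((latEquiv K J hJ a : lat K J hJ) : mixedSpace K) = mixedEmbedding K (((a : 𝓞 K) : K)) := rfl

theorem S_eq_tsum_lat (J : Ideal (𝓞 K)) (hJ : J ≠ ⊥) (s : ℝ) :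
    S K J s = ∑' l : lat K J hJ, Gt K s (l : mixedSpace K) := by
  unfold S
  rw [← (latEquiv K J hJ).tsum_eq]
  exact tsum_congr fun a => (Gt_mixedEmbedding K s a).symm

theorem summable_lat_iff (J : Ideal (𝓞 K)) (hJ : J ≠ ⊥) (s : ℝ) :
    Summable (fun l : lat K J hJ => Gt K s (l : mixedSpace K)) ↔
      Summable (fun a : J => G K s (a : 𝓞 K)) := by
  rw [← (latEquiv K J hJ).summable_iff]
  exact summable_congr fun a => Gt_mixedEmbedding K s a

/-- The covolume of the lattice of `𝓞 K`. -/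
noncomputable def covol0 : ℝ := (2⁻¹) ^ nrComplexPlaces K * √|(discr K : ℝ)|

theorem covol0_pos : 0 < covol0 K := by
  unfold covol0
  have h : (discr K : ℝ) ≠ 0 := by exact_mod_cast discr_ne_zero K
  have : 0 < √|(discr K : ℝ)| := Real.sqrt_pos.mpr (abs_pos.mpr h)
  positivity

theorem covolume_lat (J : Ideal (𝓞 K)) (hJ : J ≠ ⊥) :
    ZLattice.covolume (lat K J hJ) = (Ideal.absNorm J : ℝ) * covol0 K := by
  rw [covolume_idealLattice, covol0, mul_assoc]
  congr 1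
  have : FractionalIdeal.absNorm ((fracI K J hJ : (FractionalIdeal (𝓞 K)⁰ K)ˣ) :
      FractionalIdeal (𝓞 K)⁰ K) = (Ideal.absNorm J : ℚ) :=
    FractionalIdeal.coeIdeal_absNorm J
  rw [this]
  norm_cast

/-- The common tail integral. -/
noncomputable def tailInt (s : ℝ) : ℝ := ∫ x in {x : mixedSpace K | 1 ≤ ‖x‖}, Gt K s x

/-- the lattice sum over a nonzero ideal, times its covolume, is within `O(1)` of the tail
integral, uniformly for `1 < s ≤ 2`. -/
theorem exists_lat_compare (J : Ideal (𝓞 K)) (hJ : J ≠ ⊥) :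
    ∃ C : ℝ, ∀ s : ℝ, 1 < s → s ≤ 2 →
      Summable (fun a : J => G K s (a : 𝓞 K)) ∧
      |(Ideal.absNorm J : ℝ) * covol0 K * S K J s - tailInt K s| ≤ C := by
  obtain ⟨Lip, M, hLM⟩ := exists_annulus_bounds K
  obtain ⟨C, hC⟩ := LatSum.homogeneous_compare (lat K J hJ)
    (volume : Measure (mixedSpace K)) Lip M
  refine ⟨C, fun s hs1 hs2 => ?_⟩
  have hn : (0 : ℝ) < finrank ℚ K := Nat.cast_pos.mpr finrank_pos
  have hfr : finrank ℝ (mixedSpace K) = finrank ℚ K := mixedEmbedding.finrank K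
  obtain ⟨hLip, hM⟩ := hLM s (by linarith) hs2
  obtain ⟨hsum, -, hcmp⟩ := hC (Gt K s) ((finrank ℚ K : ℝ) * s)
    (by rw [hfr]; nlinarith) (by rw [hfr]; nlinarith) (Gt_zero K s)
    (fun t ht x => Gt_smul K s ht x) (fun x y hx _ hy _ => hLip x y hx hy)
    (fun x hx _ => hM x hx) (measurable_Gt K s).aestronglyMeasurable
  refine ⟨(summable_lat_iff K J hJ s).mp hsum, ?_⟩
  rw [S_eq_tsum_lat K J hJ s, ← covolume_lat K J hJ]
  exact hcmp

theorem G_nonneg' (s : ℝ) (a : 𝓞 K) : 0 ≤ G K s a := by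
  unfold G
  split_ifs
  · exact le_rfl
  · exact mul_nonneg (psi_nonneg' K _) (Real.rpow_nonneg (Nat.cast_nonneg _) _)

theorem S_nonneg' (J : Ideal (𝓞 K)) (s : ℝ) : 0 ≤ S K J s :=
  tsum_nonneg fun a => G_nonneg' K s a

theorem S_top (s : ℝ) : S K ⊤ s = ∑' a : 𝓞 K, G K s a := by
  unfold S
  exact (Submodule.topEquiv (R := 𝓞 K) (M := 𝓞 K)).toEquiv.tsum_eq (G K s)

/-- scaling by `2`. -/
theorem G_two_mul' (s : ℝ) (a : 𝓞 K) :
    G K s (2 * a) = (2 : ℝ) ^ (-((finrank ℚ K : ℝ) * s)) * G K s a := by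
  rw [← Gt_mixedEmbedding, ← Gt_mixedEmbedding, ← Gt_smul K s (by norm_num : (0 : ℝ) < 2)]
  congr 1
  rw [two_smul, two_mul]
  simp

/-- the bijection `𝓞 K ≃ (2)`. -/
noncomputable def twoEquiv : 𝓞 K ≃ (Ideal.span {(2 : 𝓞 K)} : Ideal (𝓞 K)) :=
  Equiv.ofBijective (fun b => ⟨2 * b, Ideal.mem_span_singleton.mpr (dvd_mul_right 2 b)⟩)
    ⟨fun a b h => by
        have h1 : (2 : 𝓞 K) * a = 2 * b := congrArg Subtype.val h
        exact mul_left_cancel₀ two_ne_zero h1,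
      fun l => by
        obtain ⟨b, hb⟩ := Ideal.mem_span_singleton.mp l.2
        exact ⟨b, Subtype.ext hb.symm⟩⟩

theorem S_span_two (s : ℝ) :
    S K (Ideal.span {(2 : 𝓞 K)}) s = (2 : ℝ) ^ (-((finrank ℚ K : ℝ) * s)) * S K ⊤ s := by
  rw [S_top, ← tsum_mul_left]
  unfold S
  rw [← (twoEquiv K).tsum_eq]
  exact tsum_congr fun b => G_two_mul' K s b

theorem absNorm_span_two :
    (Ideal.absNorm (Ideal.span {(2 : 𝓞 K)}) : ℝ) = (2 : ℝ) ^ finrank ℚ K := by
  rw [Ideal.absNorm_span_singleton]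
  have h : Algebra.norm ℤ (2 : 𝓞 K) = 2 ^ finrank ℚ K := by
    have := Algebra.norm_algebraMap_of_basis (RingOfIntegers.basis K) (2 : ℤ)
    rw [← finrank_eq_card_chooseBasisIndex, RingOfIntegers.rank] at this
    simpa using this
  rw [h]
  simp

theorem span_two_ne_bot : (Ideal.span {(2 : 𝓞 K)} : Ideal (𝓞 K)) ≠ ⊥ := by
  rw [Ne, Ideal.span_singleton_eq_bot]
  exact two_ne_zero

/-- (P3')+(P4): summability of `G K s` for `1 < s`. -/
theorem summable_G {s : ℝ} (hs : 1 < s) : Summable (G K s) := by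
  have key : ∀ s : ℝ, 1 < s → s ≤ 2 → Summable (G K s) := by
    intro s hs1 hs2
    obtain ⟨C, hC⟩ := exists_lat_compare K ⊤ top_ne_bot
    have h := (hC s hs1 hs2).1
    exact ((Submodule.topEquiv (R := 𝓞 K) (M := 𝓞 K)).toEquiv.summable_iff (f := G K s)).mp h
  rcases le_or_gt s 2 with h2 | h2
  · exact key s hs h2
  · refine Summable.of_nonneg_of_le (G_nonneg' K s) (fun a => ?_) (key 2 (by norm_num) le_rfl)
    unfold G
    split_ifs with ha
    · exact le_rfl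
    · refine mul_le_mul_of_nonneg_left ?_ (psi_nonneg' K _)
      have h1 : (1 : ℝ) ≤ ((Algebra.norm ℤ a).natAbs : ℝ) := by
        have : (Algebra.norm ℤ a).natAbs ≠ 0 := by
          rw [Ne, Int.natAbs_eq_zero, Algebra.norm_eq_zero_iff]
          exact ha
        exact_mod_cast Nat.one_le_iff_ne_zero.mpr this
      exact Real.rpow_le_rpow_of_exponent_le h1 (by linarith)

/-- pole bound: `(s - 1) * S(⊤, s)` is bounded on `(1, 2]`. -/
theorem exists_pole_bound : ∃ A : ℝ, 0 ≤ A ∧ ∀ s : ℝ, 1 < s → s ≤ 2 → (s - 1) * S K ⊤ s ≤ A := by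
  obtain ⟨C2, hC2⟩ := exists_lat_compare K _ (span_two_ne_bot K)
  obtain ⟨CT, hCT⟩ := exists_lat_compare K ⊤ top_ne_bot
  have hc0 := covol0_pos K
  refine ⟨2 * (|C2| + |CT|) / covol0 K, by positivity, fun s hs1 hs2 => ?_⟩
  have h2 := (hC2 s hs1 hs2).2
  have hT := (hCT s hs1 hs2).2
  rw [Ideal.absNorm_top, Nat.cast_one, one_mul] at hT
  rw [absNorm_span_two, S_span_two] at h2
  set ST := S K ⊤ s with hST
  have hST0 : 0 ≤ ST := S_nonneg' K ⊤ s
  set q : ℝ := (2 : ℝ) ^ finrank ℚ K * (2 : ℝ) ^ (-((finrank ℚ K : ℝ) * s)) with hq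
  have hn1 : (1 : ℝ) ≤ finrank ℚ K := by exact_mod_cast finrank_pos
  have hq_le : q ≤ 1 - (s - 1) / 2 := by
    have e1 : q = (2 : ℝ) ^ (-((finrank ℚ K : ℝ) * (s - 1))) := by
      rw [hq, ← Real.rpow_natCast, ← Real.rpow_add (by norm_num : (0 : ℝ) < 2)]
      congr 1; ring
    have e2 : (2 : ℝ) ^ (-((finrank ℚ K : ℝ) * (s - 1))) ≤ (2 : ℝ) ^ (-(s - 1)) := by
      refine Real.rpow_le_rpow_of_exponent_le (by norm_num) ?_
      nlinarith
    have e3 : (2 : ℝ) ^ (-(s - 1)) = (1 + (-(1 / 2 : ℝ))) ^ (s - 1) := by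
      rw [Real.rpow_neg (by norm_num), ← Real.inv_rpow (by norm_num)]
      norm_num
    have e4 := rpow_one_add_le_one_add_mul_self (s := -(1 / 2 : ℝ)) (by norm_num)
      (p := s - 1) (by linarith) (by linarith)
    rw [e1]
    calc (2 : ℝ) ^ (-((finrank ℚ K : ℝ) * (s - 1))) ≤ (2 : ℝ) ^ (-(s - 1)) := e2
      _ = (1 + (-(1 / 2 : ℝ))) ^ (s - 1) := e3
      _ ≤ 1 + (s - 1) * (-(1 / 2 : ℝ)) := e4
      _ = 1 - (s - 1) / 2 := by ring
  -- `|q * c₀ * ST - c₀ * ST| ≤ |C2| + |CT|`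
  have h3 : |q * covol0 K * ST - covol0 K * ST| ≤ |C2| + |CT| := by
    have e : q * covol0 K * ST - covol0 K * ST
        = ((2 : ℝ) ^ finrank ℚ K * covol0 K * ((2 : ℝ) ^ (-((finrank ℚ K : ℝ) * s)) * ST)
            - tailInt K s) - (covol0 K * ST - tailInt K s) := by
      rw [hq]; ring
    rw [e]
    refine (abs_sub _ _).trans (add_le_add (h2.trans (le_abs_self _)) (hT.trans (le_abs_self _)))
  have h4 : covol0 K * ((s - 1) / 2 * ST) ≤ |C2| + |CT| := by
    have h5 : covol0 K * ST - q * covol0 K * ST ≤ |C2| + |CT| := by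
      have := neg_abs_le (q * covol0 K * ST - covol0 K * ST)
      linarith
    have h6 : q * (covol0 K * ST) ≤ (1 - (s - 1) / 2) * (covol0 K * ST) :=
      mul_le_mul_of_nonneg_right hq_le (by positivity)
    nlinarith
  rw [div_eq_mul_inv, mul_comm _ (covol0 K)⁻¹, ← div_eq_inv_mul, le_div_iff₀ hc0]
  nlinarith

/-- (P4') `S_asymp`, B-path. -/
theorem S_asymp (J : Ideal (𝓞 K)) (hJ : J ≠ ⊥) :
    ∃ B : ℝ, ∀ s : ℝ, 1 < s → s ≤ 2 →
      |(Ideal.absNorm J : ℝ) ^ s * S K J s - S K ⊤ s| ≤ B := by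
  obtain ⟨CJ, hCJ⟩ := exists_lat_compare K J hJ
  obtain ⟨CT, hCT⟩ := exists_lat_compare K ⊤ top_ne_bot
  obtain ⟨A, hA0, hA⟩ := exists_pole_bound K
  have hc0 := covol0_pos K
  have hN1' : (1 : ℝ) ≤ (Ideal.absNorm J : ℝ) := by
    have : Ideal.absNorm J ≠ 0 := by
      rw [Ne, Ideal.absNorm_eq_zero_iff]; exact hJ
    exact_mod_cast Nat.one_le_iff_ne_zero.mpr this
  set N : ℝ := (Ideal.absNorm J : ℝ) with hN
  have hN1 : (1 : ℝ) ≤ N := hN1'
  refine ⟨N * ((|CJ| + |CT|) / covol0 K) + (N - 1) * A, fun s hs1 hs2 => ?_⟩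
  have h1 := (hCJ s hs1 hs2).2
  have hT := (hCT s hs1 hs2).2
  rw [Ideal.absNorm_top, Nat.cast_one, one_mul] at hT
  set SJ := S K J s with hSJ
  set ST := S K ⊤ s with hST
  have hST0 : 0 ≤ ST := S_nonneg' K ⊤ s
  -- `|N * SJ - ST| ≤ (|CJ| + |CT|) / c₀`
  have hD1 : |N * SJ - ST| ≤ (|CJ| + |CT|) / covol0 K := by
    rw [le_div_iff₀ hc0]
    have e : |N * SJ - ST| * covol0 K = |(N * covol0 K * SJ - tailInt K s)
        - (covol0 K * ST - tailInt K s)| := by
      rw [← abs_of_pos hc0, ← abs_mul, abs_of_pos hc0]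
      congr 1; ring
    rw [e]
    exact (abs_sub _ _).trans (add_le_add (h1.trans (le_abs_self _)) (hT.trans (le_abs_self _)))
  -- powers of `N`
  have hNpos : 0 < N := by linarith
  have hp1 : (1 : ℝ) ≤ N ^ (s - 1) := Real.one_le_rpow hN1 (by linarith)
  have hp2 : N ^ (s - 1) ≤ 1 + (s - 1) * (N - 1) := by
    have := rpow_one_add_le_one_add_mul_self (s := N - 1) (by linarith)
      (p := s - 1) (by linarith) (by linarith)
    rwa [show 1 + (N - 1) = N by ring] at this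
  have hp3 : N ^ (s - 1) ≤ N := by nlinarith
  have hNs : N ^ s = N ^ (s - 1) * N := by
    rw [← Real.rpow_add_one hNpos.ne']; congr 1; ring
  have e : N ^ s * SJ - ST = N ^ (s - 1) * (N * SJ - ST) + (N ^ (s - 1) - 1) * ST := by
    rw [hNs]; ring
  rw [e]
  have hpole := hA s hs1 hs2
  calc |N ^ (s - 1) * (N * SJ - ST) + (N ^ (s - 1) - 1) * ST|
      ≤ |N ^ (s - 1) * (N * SJ - ST)| + |(N ^ (s - 1) - 1) * ST| := abs_add_le _ _
    _ = N ^ (s - 1) * |N * SJ - ST| + (N ^ (s - 1) - 1) * ST := by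
        rw [abs_mul, abs_mul, abs_of_nonneg (by linarith : (0 : ℝ) ≤ N ^ (s - 1)),
          abs_of_nonneg (by linarith : (0 : ℝ) ≤ N ^ (s - 1) - 1), abs_of_nonneg hST0]
    _ ≤ N * ((|CJ| + |CT|) / covol0 K) + (N - 1) * A := by
        refine add_le_add (mul_le_mul hp3 hD1 (abs_nonneg _) (by linarith)) ?_
        calc (N ^ (s - 1) - 1) * ST ≤ ((s - 1) * (N - 1)) * ST :=
              mul_le_mul_of_nonneg_right (by linarith) hST0
          _ = (N - 1) * ((s - 1) * ST) := by ring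
          _ ≤ (N - 1) * A := mul_le_mul_of_nonneg_left hpole (by linarith)

end Fermat.Agent.S14T.An2AsympB
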