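import Fermat.Agent.S14T.An2Trans

/-!
# S14T / [An2] (P4) : summability of `G` and the coset comparison (helper3)

* `summable_G` : `G K s` is summable over `𝓞 K` for `s > 1`.
* `coset_bound` : for a nonzero ideal `J`,
  `|∑' a : 𝓞 K, G K s a - N(J) * S K J s| ≤ B` uniformly for `s ∈ (1, 2]`.
-/

set_option autoImplicit false

open NumberField NumberField.InfinitePlace NumberField.Units
  NumberField.Units.dirichletUnitTheorem NumberField.mixedEmbedding Module

namespace Fermat.Agent.S14T.An2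

open scoped Classical

variable (K : Type*) [Field K] [NumberField K]

/-- `a ↦ (Mx a) ^ r` is summable over `𝓞 K` for real `r < -[K : ℚ]`. -/
theorem summable_Mx_rpow {r : ℝ} (hr : r < -(finrank ℚ K : ℝ)) :
    Summable fun a : 𝓞 K => (Mx K a) ^ r := by
  have h := ZLattice.summable_norm_rpow (mixedEmbedding.integerLattice K) r
    (by rw [finrank_integerLattice]; exact hr)
  have hi : Function.Injective (fun a : 𝓞 K =>
      (⟨mixedEmbedding K (a : K), mixedEmbedding_mem_integerLattice a⟩ :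
        mixedEmbedding.integerLattice K)) := by
    intro a b hab
    have h1 : mixedEmbedding K (a : K) = mixedEmbedding K (b : K) := congrArg Subtype.val hab
    exact_mod_cast (mixedEmbedding_injective K) h1
  have h2 := h.comp_injective hi
  refine h2.congr (fun a => ?_)
  rfl

/-- `G_s(a) ≤ (κ * Mx a) ^ (-(n s))`. -/
theorem G_le_rpow : ∃ κ : ℝ, 0 < κ ∧ ∀ s : ℝ, 0 ≤ s → ∀ a : 𝓞 K,
    G K s a ≤ κ ^ (-((finrank ℚ K : ℝ) * s)) * Mx K a ^ (-((finrank ℚ K : ℝ) * s)) := by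
  obtain ⟨κ, hκ, -, hκs⟩ := exists_kappa K
  refine ⟨κ, hκ, fun s hs a => ?_⟩
  have hrhs : 0 ≤ κ ^ (-((finrank ℚ K : ℝ) * s)) * Mx K a ^ (-((finrank ℚ K : ℝ) * s)) :=
    mul_nonneg (Real.rpow_nonneg hκ.le _) (Real.rpow_nonneg (Mx_nonneg a) _)
  by_cases ha : a = 0
  · rw [ha, G_zero]
    rw [ha] at hrhs
    exact hrhs
  by_cases hpsi : psi K (ell K (a : K)) = 0
  · rw [G_of_ne_zero s ha, hpsi, zero_mul]
    exact hrhs
  have hM : 0 < Mx K a := Mx_pos ha
  have hκM : 0 < κ * Mx K a := mul_pos hκ hM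
  have hNm : (κ * Mx K a) ^ (finrank ℚ K) ≤ Nm K a := by
    rw [Nm_eq_prod]
    calc (κ * Mx K a) ^ (finrank ℚ K)
        = ∏ w : InfinitePlace K, (κ * Mx K a) ^ mult w := by
          rw [Finset.prod_pow_eq_pow_sum, sum_mult_eq]
      _ ≤ ∏ w : InfinitePlace K, w (a : K) ^ mult w :=
          Finset.prod_le_prod (fun w _ => pow_nonneg hκM.le _)
            (fun w _ => pow_le_pow_left₀ hκM.le (hκs a ha hpsi w) _)
  have h1 : Nm K a ^ (-s) ≤ ((κ * Mx K a) ^ (finrank ℚ K)) ^ (-s) :=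
    Real.rpow_le_rpow_of_nonpos (pow_pos hκM _) hNm (by linarith)
  have h2 : ((κ * Mx K a) ^ (finrank ℚ K)) ^ (-s)
      = κ ^ (-((finrank ℚ K : ℝ) * s)) * Mx K a ^ (-((finrank ℚ K : ℝ) * s)) := by
    rw [← Real.rpow_natCast, ← Real.rpow_mul hκM.le, Real.mul_rpow hκ.le hM.le]
    congr 2 <;> ring
  rw [G_of_ne_zero s ha]
  calc psi K (ell K (a : K)) * Nm K a ^ (-s) ≤ 1 * Nm K a ^ (-s) :=
        mul_le_mul_of_nonneg_right (psi_le_one K _) (Real.rpow_nonneg (Nm_pos ha).le _)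
    _ = Nm K a ^ (-s) := one_mul _
    _ ≤ _ := h1.trans h2.le

/-- **Summability of `G`** over `𝓞 K` for `s > 1`. -/
theorem summable_G {s : ℝ} (hs : 1 < s) : Summable (G K s) := by
  obtain ⟨κ, hκ, hle⟩ := G_le_rpow K
  have hn : (0 : ℝ) < finrank ℚ K := Nat.cast_pos.mpr finrank_pos
  have hr : -((finrank ℚ K : ℝ) * s) < -(finrank ℚ K : ℝ) := by nlinarith
  exact Summable.of_nonneg_of_le (fun a => G_nonneg s a) (fun a => hle s (by linarith) a)
    ((summable_Mx_rpow K hr).mul_left _)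

variable {K} in
/-- The bijection `(𝓞 K ⧸ J) × J ≃ 𝓞 K`, `(q, x) ↦ out q + x`. -/
noncomputable def cosetEquiv (J : Ideal (𝓞 K)) : ((𝓞 K ⧸ J) × J) ≃ 𝓞 K where
  toFun p := Quotient.out p.1 + (p.2 : 𝓞 K)
  invFun a := (Ideal.Quotient.mk J a, ⟨a - Quotient.out (Ideal.Quotient.mk J a), by
      rw [← Ideal.Quotient.eq, Ideal.Quotient.mk_out]⟩)
  left_inv := by
    rintro ⟨q, x⟩
    have h : Ideal.Quotient.mk J (Quotient.out q + (x : 𝓞 K)) = q := by
      rw [map_add, Ideal.Quotient.mk_out, Ideal.Quotient.eq_zero_iff_mem.mpr x.2, add_zero]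
    refine Prod.ext h (Subtype.ext ?_)
    simp only [h]
    ring
  right_inv := by
    intro a
    simp

omit [NumberField K] in
theorem cosetEquiv_apply (J : Ideal (𝓞 K)) (q : 𝓞 K ⧸ J) (x : J) :
    cosetEquiv J (q, x) = Quotient.out q + (x : 𝓞 K) := rfl

/-- **(P4) Coset comparison.** -/
theorem coset_bound (J : Ideal (𝓞 K)) (hJ : J ≠ ⊥) : ∃ B : ℝ, ∀ s : ℝ, 1 < s → s ≤ 2 →
    |∑' a : 𝓞 K, G K s a - (Ideal.absNorm J : ℝ) * S K J s| ≤ B := by
  have : Finite (𝓞 K ⧸ J) := Ideal.finiteQuotientOfFreeOfNeBot J hJ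
  have : Fintype (𝓞 K ⧸ J) := Fintype.ofFinite _
  choose B hB using fun q : 𝓞 K ⧸ J => translation_bound K (Quotient.out q)
  refine ⟨∑ q, B q, fun s hs1 hs2 => ?_⟩
  have hG := summable_G K hs1
  have hGJ : Summable (fun x : J => G K s (x : 𝓞 K)) := hG.subtype _
  have hshift : ∀ q : 𝓞 K ⧸ J,
      Summable (fun x : J => G K s ((x : 𝓞 K) + Quotient.out q)) := by
    intro q
    have hinj : Function.Injective (fun x : J => (x : 𝓞 K) + Quotient.out q) := by
      intro x y hxy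
      exact Subtype.ext (add_right_cancel hxy)
    exact hG.comp_injective hinj
  have h1 : ∑' a : 𝓞 K, G K s a =
      ∑ q : 𝓞 K ⧸ J, ∑' x : J, G K s ((x : 𝓞 K) + Quotient.out q) := by
    have hsum' : Summable (G K s ∘ cosetEquiv J) :=
      (cosetEquiv J).summable_iff.mpr hG
    have e1 : ∑' a : 𝓞 K, G K s a = ∑' p : (𝓞 K ⧸ J) × J, (G K s ∘ cosetEquiv J) p :=
      ((cosetEquiv J).tsum_eq (G K s)).symm
    rw [e1, hsum'.tsum_prod, tsum_fintype]
    refine Finset.sum_congr rfl fun q _ => tsum_congr fun x => ?_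
    rw [Function.comp_apply, cosetEquiv_apply, add_comm]
  have hcard : (Ideal.absNorm J : ℝ) = Fintype.card (𝓞 K ⧸ J) := by
    rw [Ideal.absNorm_apply, Submodule.cardQuot_apply, Nat.card_eq_fintype_card]
  have h2 : (Ideal.absNorm J : ℝ) * S K J s =
      ∑ _q : 𝓞 K ⧸ J, ∑' x : J, G K s (x : 𝓞 K) := by
    rw [Finset.sum_const, Finset.card_univ, nsmul_eq_mul, hcard]
    rfl
  rw [h1, h2, ← Finset.sum_sub_distrib]
  refine (Finset.abs_sum_le_sum_abs _ _).trans (Finset.sum_le_sum fun q _ => ?_)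
  rw [← Summable.tsum_sub (hshift q) hGJ]
  obtain ⟨hsum, hle⟩ := hB q s hs1 hs2
  have hsumJ : Summable (fun x : J =>
      |G K s ((x : 𝓞 K) + Quotient.out q) - G K s (x : 𝓞 K)|) := hsum.subtype _
  have h3 : |∑' x : J, (G K s ((x : 𝓞 K) + Quotient.out q) - G K s (x : 𝓞 K))| ≤
      ∑' x : J, |G K s ((x : 𝓞 K) + Quotient.out q) - G K s (x : 𝓞 K)| := by
    have := norm_tsum_le_tsum_norm (f := fun x : J =>
      G K s ((x : 𝓞 K) + Quotient.out q) - G K s (x : 𝓞 K)) (by simpa using hsumJ)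
    simpa [Real.norm_eq_abs] using this
  have h4 : ∑' x : J, |G K s ((x : 𝓞 K) + Quotient.out q) - G K s (x : 𝓞 K)| ≤
      ∑' a : 𝓞 K, |G K s (a + Quotient.out q) - G K s a| :=
    Summable.tsum_subtype_le (fun a : 𝓞 K => |G K s (a + Quotient.out q) - G K s a|) _
      (fun a => abs_nonneg _) hsum
  exact h3.trans (h4.trans hle)

end Fermat.Agent.S14T.An2
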