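import Fermat.Agent.S14T.An2Defs

/-!
# S14T / [An2] : elementary properties of `tent` and `psi` (helper3)

* `tent` is `[0,1]`-valued, `1`-Lipschitz, supported in `(-1,1)`, and `∑_{k ∈ ℤ} tent (t + k) = 1`
  (the last one is stated in `An2Unit` by the owner of (P1); here only the analytic facts).
* `psi` is `[0,1]`-valued, Lipschitz and has bounded support.
-/

set_option autoImplicit false

open NumberField NumberField.InfinitePlace NumberField.Units
  NumberField.Units.dirichletUnitTheorem NumberField.mixedEmbedding Module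

namespace Fermat.Agent.S14T.An2

theorem tent_nonneg (t : ℝ) : 0 ≤ tent t := le_max_left _ _

theorem tent_le_one (t : ℝ) : tent t ≤ 1 := by
  unfold tent
  have h : 1 - |t| ≤ 1 := by linarith [abs_nonneg t]
  exact max_le (by norm_num) h

theorem abs_tent_le_one (t : ℝ) : |tent t| ≤ 1 := by
  rw [abs_of_nonneg (tent_nonneg t)]; exact tent_le_one t

theorem tent_lipschitz (t t' : ℝ) : |tent t - tent t'| ≤ |t - t'| := by
  unfold tent
  rw [max_comm 0 (1 - |t|), max_comm 0 (1 - |t'|)]
  refine (abs_max_sub_max_le_abs (1 - |t|) (1 - |t'|) 0).trans ?_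
  have : (1 - |t|) - (1 - |t'|) = -(|t| - |t'|) := by ring
  rw [this, abs_neg]
  exact abs_abs_sub_abs_le t t'

theorem abs_lt_one_of_tent_ne_zero {t : ℝ} (h : tent t ≠ 0) : |t| < 1 := by
  by_contra hcon
  push Not at hcon
  apply h
  unfold tent
  exact max_eq_left (by linarith)

/-- Difference of two finite products of numbers of absolute value `≤ 1`. -/
theorem abs_prod_sub_prod_le {ι : Type*} (s : Finset ι) (f g : ι → ℝ)
    (hf : ∀ i ∈ s, |f i| ≤ 1) (hg : ∀ i ∈ s, |g i| ≤ 1) :
    |∏ i ∈ s, f i - ∏ i ∈ s, g i| ≤ ∑ i ∈ s, |f i - g i| := by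
  classical
  induction s using Finset.induction_on with
  | empty => simp
  | insert a s ha ih =>
    rw [Finset.prod_insert ha, Finset.prod_insert ha, Finset.sum_insert ha]
    have hP : |∏ i ∈ s, f i| ≤ 1 := by
      rw [Finset.abs_prod]
      exact Finset.prod_le_one (fun i _ => abs_nonneg _)
        (fun i hi => hf i (Finset.mem_insert_of_mem hi))
    have hga : |g a| ≤ 1 := hg a (Finset.mem_insert_self a s)
    have ih' := ih (fun i hi => hf i (Finset.mem_insert_of_mem hi))
      (fun i hi => hg i (Finset.mem_insert_of_mem hi))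
    have e : f a * ∏ i ∈ s, f i - g a * ∏ i ∈ s, g i
        = (f a - g a) * ∏ i ∈ s, f i + g a * (∏ i ∈ s, f i - ∏ i ∈ s, g i) := by ring
    rw [e]
    refine (abs_add_le _ _).trans ?_
    rw [abs_mul, abs_mul]
    have h1 : |f a - g a| * |∏ i ∈ s, f i| ≤ |f a - g a| :=
      mul_le_of_le_one_right (abs_nonneg _) hP
    have h2 : |g a| * |∏ i ∈ s, f i - ∏ i ∈ s, g i| ≤ ∑ i ∈ s, |f i - g i| :=
      (mul_le_of_le_one_left (abs_nonneg _) hga).trans ih'
    linarith

variable (K : Type*) [Field K] [NumberField K]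

theorem psi_nonneg (y : logSpace K) : 0 ≤ psi K y :=
  Finset.prod_nonneg fun _ _ => tent_nonneg _

theorem psi_le_one (y : logSpace K) : psi K y ≤ 1 :=
  Finset.prod_le_one (fun _ _ => tent_nonneg _) (fun _ _ => tent_le_one _)

open scoped Classical in
/-- `psi` is Lipschitz. -/
theorem psi_lipschitz : ∃ L : ℝ, 0 ≤ L ∧ ∀ y y' : logSpace K,
    |psi K y - psi K y'| ≤ L * ‖y - y'‖ := by
  let c : Fin (rank K) → (logSpace K →L[ℝ] ℝ) := fun i =>
    LinearMap.toContinuousLinearMap ((logBasis K).coord i)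
  refine ⟨∑ i, ‖c i‖, Finset.sum_nonneg fun _ _ => norm_nonneg _, fun y y' => ?_⟩
  unfold psi
  refine (abs_prod_sub_prod_le _ _ _ (fun i _ => abs_tent_le_one _)
    (fun i _ => abs_tent_le_one _)).trans ?_
  rw [Finset.sum_mul]
  refine Finset.sum_le_sum fun i _ => ?_
  refine (tent_lipschitz _ _).trans ?_
  have h := (c i).le_opNorm (y - y')
  have e : (c i) (y - y') = (logBasis K).repr y i - (logBasis K).repr y' i := by
    simp [c, Basis.coord_apply]
  rw [e, Real.norm_eq_abs] at h
  exact h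

open scoped Classical in
/-- `psi` has bounded support. -/
theorem psi_support : ∃ D : ℝ, 0 ≤ D ∧ ∀ y : logSpace K, psi K y ≠ 0 → ‖y‖ ≤ D := by
  refine ⟨∑ i, ‖logBasis K i‖, Finset.sum_nonneg fun _ _ => norm_nonneg _, fun y hy => ?_⟩
  have hy' : ∀ i, |(logBasis K).repr y i| < 1 := fun i =>
    abs_lt_one_of_tent_ne_zero (Finset.prod_ne_zero_iff.mp hy i (Finset.mem_univ i))
  conv_lhs => rw [← (logBasis K).sum_repr y]
  refine (norm_sum_le _ _).trans (Finset.sum_le_sum fun i _ => ?_)
  rw [_root_.norm_smul, Real.norm_eq_abs]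
  exact mul_le_of_le_one_left (norm_nonneg _) (hy' i).le

end Fermat.Agent.S14T.An2
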