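import Fermat.Agent.S14T.An2Psi

/-!
# S14T / [An2] (P3) : the translation bound (helper3)

`translation_bound` : for every `v : 𝓞 K` there is `B` with
`∑' a : 𝓞 K, |G K s (a + v) - G K s a| ≤ B` for all `s ∈ (1, 2]` (and the series is summable).
-/

set_option autoImplicit false

open NumberField NumberField.InfinitePlace NumberField.Units
  NumberField.Units.dirichletUnitTheorem NumberField.mixedEmbedding Module

namespace Fermat.Agent.S14T.An2

open scoped Classical

variable (K : Type*) [Field K] [NumberField K]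

/-- The sup-norm size of `a` : the maximum of the `w a` over the infinite places. -/
noncomputable def Mx (a : 𝓞 K) : ℝ := ‖mixedEmbedding K (a : K)‖

/-- The absolute norm of `a` as a real number. -/
noncomputable def Nm (a : 𝓞 K) : ℝ := ((Algebra.norm ℤ a).natAbs : ℝ)

variable {K}

theorem Mx_nonneg (a : 𝓞 K) : 0 ≤ Mx K a := norm_nonneg _

theorem place_le_Mx (a : 𝓞 K) (w : InfinitePlace K) : w (a : K) ≤ Mx K a := by
  classical
  unfold Mx
  rw [norm_eq_sup'_normAtPlace]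
  have := Finset.le_sup' (fun w => normAtPlace w (mixedEmbedding K (a : K))) (Finset.mem_univ w)
  rw [normAtPlace_apply] at this
  exact this

theorem exists_place_eq_Mx (a : 𝓞 K) : ∃ w : InfinitePlace K, w (a : K) = Mx K a := by
  classical
  unfold Mx
  rw [norm_eq_sup'_normAtPlace]
  obtain ⟨w, -, hw⟩ := Finset.exists_mem_eq_sup' Finset.univ_nonempty
    (fun w => normAtPlace w (mixedEmbedding K (a : K)))
  exact ⟨w, by rw [hw, normAtPlace_apply]⟩

theorem Mx_pos {a : 𝓞 K} (ha : a ≠ 0) : 0 < Mx K a := by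
  unfold Mx
  rw [norm_pos_iff]
  intro h
  apply ha
  have h0 : (a : K) = 0 := (mixedEmbedding_injective K) (by rw [h, map_zero])
  exact_mod_cast h0

theorem Mx_zero : Mx K (0 : 𝓞 K) = 0 := by
  unfold Mx; simp

theorem Mx_add_le (a v : 𝓞 K) : Mx K (a + v) ≤ Mx K a + Mx K v := by
  unfold Mx
  have : ((a + v : 𝓞 K) : K) = (a : K) + (v : K) := by push_cast; rfl
  rw [this, map_add]
  exact norm_add_le _ _

theorem Mx_sub_le (a v : 𝓞 K) : Mx K a - Mx K v ≤ Mx K (a + v) := by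
  unfold Mx
  have : ((a + v : 𝓞 K) : K) = (a : K) + (v : K) := by push_cast; rfl
  rw [this, map_add]
  have := norm_sub_le (mixedEmbedding K (a : K) + mixedEmbedding K (v : K))
    (mixedEmbedding K (v : K))
  simp only [add_sub_cancel_right] at this
  linarith

omit [NumberField K] in
theorem place_pos {a : 𝓞 K} (ha : a ≠ 0) (w : InfinitePlace K) : 0 < w (a : K) := by
  rw [InfinitePlace.pos_iff]
  exact_mod_cast ha

theorem abs_place_sub_le (a v : 𝓞 K) (w : InfinitePlace K) :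
    |w ((a + v : 𝓞 K) : K) - w (a : K)| ≤ Mx K v := by
  have h1 : ((a + v : 𝓞 K) : K) = (a : K) + (v : K) := by push_cast; rfl
  have h2 := w.1.abs_abv_sub_le_abv_sub ((a : K) + (v : K)) (a : K)
  rw [add_sub_cancel_left] at h2
  rw [h1]
  exact h2.trans (place_le_Mx v w)

theorem Nm_eq_prod (a : 𝓞 K) : Nm K a = ∏ w : InfinitePlace K, w (a : K) ^ mult w := by
  rw [prod_eq_abs_norm, ← Algebra.coe_norm_int]
  unfold Nm
  rw [Nat.cast_natAbs]
  push_cast
  rfl

theorem one_le_Nm {a : 𝓞 K} (ha : a ≠ 0) : 1 ≤ Nm K a := by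
  unfold Nm
  have h : Algebra.norm ℤ a ≠ 0 := by
    rw [Ne, Algebra.norm_eq_zero_iff]
    exact ha
  have : 1 ≤ (Algebra.norm ℤ a).natAbs := Nat.one_le_iff_ne_zero.mpr (Int.natAbs_ne_zero.mpr h)
  exact_mod_cast this

theorem Nm_pos {a : 𝓞 K} (ha : a ≠ 0) : 0 < Nm K a := lt_of_lt_of_le zero_lt_one (one_le_Nm ha)

theorem log_Nm {a : 𝓞 K} (ha : a ≠ 0) :
    Real.log (Nm K a) = ∑ w : InfinitePlace K, (mult w : ℝ) * Real.log (w (a : K)) := by
  rw [Nm_eq_prod, Real.log_prod (fun w _ => pow_ne_zero _ (place_pos ha w).ne')]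
  refine Finset.sum_congr rfl fun w _ => ?_
  rw [Real.log_pow]

theorem ell_apply (a : 𝓞 K) (w : {w : InfinitePlace K // w ≠ w₀}) :
    ell K (a : K) w = mult w.val *
      (Real.log (w.val (a : K)) - Real.log (Nm K a) * (finrank ℚ K : ℝ)⁻¹) := by
  unfold ell
  rw [logMap_apply, normAtPlace_apply, norm_eq_norm, ← Algebra.coe_norm_int]
  unfold Nm
  rw [Nat.cast_natAbs]
  push_cast
  rfl

theorem G_of_ne_zero (s : ℝ) {a : 𝓞 K} (ha : a ≠ 0) :
    G K s a = psi K (ell K (a : K)) * Nm K a ^ (-s) := by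
  unfold G Nm
  rw [if_neg ha]

theorem G_zero (s : ℝ) : G K s (0 : 𝓞 K) = 0 := by
  unfold G
  rw [if_pos rfl]

theorem G_nonneg (s : ℝ) (a : 𝓞 K) : 0 ≤ G K s a := by
  by_cases ha : a = 0
  · rw [ha, G_zero]
  · rw [G_of_ne_zero s ha]
    exact mul_nonneg (psi_nonneg K _) (Real.rpow_nonneg (Nm_pos ha).le _)

theorem Nm_rpow_le_one {s : ℝ} (hs : 0 ≤ s) {a : 𝓞 K} (ha : a ≠ 0) : Nm K a ^ (-s) ≤ 1 :=
  Real.rpow_le_one_of_one_le_of_nonpos (one_le_Nm ha) (by linarith)

theorem G_le_one {s : ℝ} (hs : 0 ≤ s) (a : 𝓞 K) : G K s a ≤ 1 := by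
  by_cases ha : a = 0
  · rw [ha, G_zero]; exact zero_le_one
  · rw [G_of_ne_zero s ha]
    calc psi K (ell K (a : K)) * Nm K a ^ (-s) ≤ 1 * 1 :=
          mul_le_mul (psi_le_one K _) (Nm_rpow_le_one hs ha)
            (Real.rpow_nonneg (Nm_pos ha).le _) zero_le_one
      _ = 1 := one_mul 1

/-! ### Consequence of the bounded support of `psi` : all places are comparable -/

theorem sum_mult_dev {a : 𝓞 K} (ha : a ≠ 0) :
    ∑ w : InfinitePlace K, (mult w : ℝ) *
      (Real.log (w (a : K)) - Real.log (Nm K a) * (finrank ℚ K : ℝ)⁻¹) = 0 := by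
  simp_rw [mul_sub]
  rw [Finset.sum_sub_distrib, ← log_Nm ha, ← Finset.sum_mul]
  have h : (∑ w : InfinitePlace K, (mult w : ℝ)) = (finrank ℚ K : ℝ) := by
    exact_mod_cast congrArg (Nat.cast : ℕ → ℝ) (sum_mult_eq (K := K))
  have hn : (finrank ℚ K : ℝ) ≠ 0 := Nat.cast_ne_zero.mpr (finrank_pos).ne'
  rw [h]
  field_simp
  ring

omit [NumberField K] in
theorem abs_le_abs_mult_mul (w : InfinitePlace K) (x : ℝ) : |x| ≤ |(mult w : ℝ) * x| := by
  rw [abs_mul, abs_of_nonneg (Nat.cast_nonneg (mult w) : (0 : ℝ) ≤ (mult w : ℝ))]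
  exact le_mul_of_one_le_left (abs_nonneg _) one_le_mult

theorem dev_le {D : ℝ} (hD : 0 ≤ D) {a : 𝓞 K} (ha : a ≠ 0) (h : ‖ell K (a : K)‖ ≤ D)
    (w : InfinitePlace K) :
    |Real.log (w (a : K)) - Real.log (Nm K a) * (finrank ℚ K : ℝ)⁻¹|
      ≤ Fintype.card (InfinitePlace K) * D := by
  have hcard : (1 : ℝ) ≤ Fintype.card (InfinitePlace K) := by
    exact_mod_cast Fintype.card_pos
  have hcomp : ∀ w' : {w : InfinitePlace K // w ≠ w₀},
      |(mult w'.val : ℝ) *
        (Real.log (w'.val (a : K)) - Real.log (Nm K a) * (finrank ℚ K : ℝ)⁻¹)| ≤ D := by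
    intro w'
    rw [← ell_apply]
    exact ((Real.norm_eq_abs _).symm.le.trans (norm_le_pi_norm (ell K (a : K)) w')).trans h
  by_cases hw : w = w₀
  · subst hw
    have hsum := sum_mult_dev ha
    rw [Fintype.sum_eq_add_sum_subtype_ne _ (w₀ : InfinitePlace K)] at hsum
    have h0 : (mult (w₀ : InfinitePlace K) : ℝ) *
        (Real.log ((w₀ : InfinitePlace K) (a : K)) - Real.log (Nm K a) * (finrank ℚ K : ℝ)⁻¹)
        = - ∑ w' : {w : InfinitePlace K // w ≠ w₀}, (mult w'.val : ℝ) *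
        (Real.log (w'.val (a : K)) - Real.log (Nm K a) * (finrank ℚ K : ℝ)⁻¹) := by
      linarith
    refine (abs_le_abs_mult_mul (w₀ : InfinitePlace K) _).trans ?_
    rw [h0, abs_neg]
    refine (Finset.abs_sum_le_sum_abs _ _).trans ?_
    refine (Finset.sum_le_card_nsmul _ _ D (fun w' _ => hcomp w')).trans ?_
    rw [nsmul_eq_mul]
    refine mul_le_mul_of_nonneg_right ?_ hD
    rw [Finset.card_univ]
    exact_mod_cast Fintype.card_subtype_le _
  · refine (abs_le_abs_mult_mul w _).trans ((hcomp ⟨w, hw⟩).trans ?_)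
    exact le_mul_of_one_le_left hD hcard

variable (K) in
/-- On the support of `psi ∘ ell`, every place is at least `κ` times the largest one. -/
theorem exists_kappa : ∃ κ : ℝ, 0 < κ ∧ κ ≤ 1 ∧ ∀ a : 𝓞 K, a ≠ 0 → psi K (ell K (a : K)) ≠ 0 →
    ∀ w : InfinitePlace K, κ * Mx K a ≤ w (a : K) := by
  obtain ⟨D, hD, hDs⟩ := psi_support K
  set c : ℝ := Fintype.card (InfinitePlace K) * D with hc
  have hc0 : 0 ≤ c := mul_nonneg (Nat.cast_nonneg _) hD
  refine ⟨Real.exp (-(2 * c)), Real.exp_pos _, ?_, fun a ha hpsi w => ?_⟩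
  · rw [← Real.exp_zero]
    exact Real.exp_le_exp.mpr (by linarith)
  · obtain ⟨w₁, hw₁⟩ := exists_place_eq_Mx a
    have h1 := dev_le hD ha (hDs _ hpsi) w
    have h2 := dev_le hD ha (hDs _ hpsi) w₁
    rw [abs_le] at h1 h2
    have hM : 0 < Mx K a := Mx_pos ha
    have hlog : Real.log (Mx K a) - 2 * c ≤ Real.log (w (a : K)) := by
      rw [← hw₁]; linarith [h1.1, h2.2]
    have := Real.exp_le_exp.mpr hlog
    rw [Real.exp_log (place_pos ha w), sub_eq_add_neg, Real.exp_add, Real.exp_log hM] at this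
    linarith

/-! ### Elementary inequalities -/

theorem abs_log_sub_log_le {m x y : ℝ} (hm : 0 < m) (hx : m ≤ x) (hy : m ≤ y) :
    |Real.log x - Real.log y| ≤ |x - y| / m := by
  have key : ∀ {x y : ℝ}, m ≤ x → x ≤ y → |Real.log x - Real.log y| ≤ |x - y| / m := by
    intro x y hx hxy
    have hx0 : 0 < x := lt_of_lt_of_le hm hx
    have hy0 : 0 < y := lt_of_lt_of_le hx0 hxy
    have h1 : Real.log x ≤ Real.log y := Real.log_le_log hx0 hxy
    rw [abs_of_nonpos (by linarith), abs_of_nonpos (by linarith)]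
    have h2 : Real.log y - Real.log x = Real.log (y / x) := (Real.log_div hy0.ne' hx0.ne').symm
    have h3 : Real.log (y / x) ≤ y / x - 1 := Real.log_le_sub_one_of_pos (div_pos hy0 hx0)
    have h4 : y / x - 1 = (y - x) / x := by field_simp
    have h5 : (y - x) / x ≤ (y - x) / m := div_le_div_of_nonneg_left (by linarith) hm hx
    calc -(Real.log x - Real.log y) = Real.log y - Real.log x := by ring
      _ ≤ (y - x) / m := by rw [h2]; linarith
      _ = -(x - y) / m := by ring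
  rcases le_total x y with h | h
  · exact key hx h
  · rw [abs_sub_comm, abs_sub_comm x y]
    exact key hy h

theorem abs_exp_sub_exp_le (x y : ℝ) :
    |Real.exp x - Real.exp y| ≤ |x - y| * max (Real.exp x) (Real.exp y) := by
  have key : ∀ {x y : ℝ}, x ≤ y →
      |Real.exp x - Real.exp y| ≤ |x - y| * max (Real.exp x) (Real.exp y) := by
    intro x y hxy
    have h1 : Real.exp x ≤ Real.exp y := Real.exp_le_exp.mpr hxy
    rw [abs_of_nonpos (by linarith), abs_of_nonpos (by linarith), max_eq_right h1]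
    have h2 : x - y + 1 ≤ Real.exp (x - y) := Real.add_one_le_exp _
    have h3 : Real.exp x = Real.exp y * Real.exp (x - y) := by
      rw [← Real.exp_add]; congr 1; ring
    have hy : 0 < Real.exp y := Real.exp_pos y
    nlinarith
  rcases le_total x y with h | h
  · exact key h
  · rw [abs_sub_comm, abs_sub_comm x y, max_comm]
    exact key h

/-! ### The key pointwise estimate -/

omit [NumberField K] in
theorem mult_le_two (w : InfinitePlace K) : (mult w : ℝ) ≤ 2 := by
  unfold mult; split_ifs <;> norm_num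

variable (K) in
/-- Two nonzero integers `a`, `b` whose values at all infinite places differ by at most `V`,
with `a` in the support of `psi ∘ ell` and large compared to `V`, have close values of `G`. -/
theorem key_estimate : ∃ C : ℝ, 0 ≤ C ∧ ∃ κ : ℝ, 0 < κ ∧ κ ≤ 1 ∧
    ∀ (s : ℝ), 1 ≤ s → s ≤ 2 → ∀ (a b : 𝓞 K) (V : ℝ), a ≠ 0 → b ≠ 0 →
      (∀ w : InfinitePlace K, |w (b : K) - w (a : K)| ≤ V) →
      psi K (ell K (a : K)) ≠ 0 → 2 * V ≤ κ * Mx K a →
      |G K s b - G K s a| ≤ C * V * (Mx K a)⁻¹ ^ (finrank ℚ K + 1) := by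
  obtain ⟨κ, hκ, hκ1, hκs⟩ := exists_kappa K
  obtain ⟨L, hL, hLip⟩ := psi_lipschitz K
  set n := finrank ℚ K with hn
  have hn0 : (0 : ℝ) < n := Nat.cast_pos.mpr finrank_pos
  have hsum : (∑ w : InfinitePlace K, (mult w : ℝ)) = (n : ℝ) := by
    exact_mod_cast congrArg (Nat.cast : ℕ → ℝ) (sum_mult_eq (K := K))
  refine ⟨(4 * L + 2 * n) * (2 / κ) ^ (n + 1), by positivity, κ, hκ, hκ1, ?_⟩
  intro s hs1 hs2 a b V ha hb hV hpsi hVM
  have hM : 0 < Mx K a := Mx_pos ha
  have hV0 : 0 ≤ V := (abs_nonneg _).trans (hV w₀)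
  set m : ℝ := κ * Mx K a / 2 with hm
  have hm0 : 0 < m := by positivity
  have ha_ge : ∀ w : InfinitePlace K, m ≤ w (a : K) := fun w => by
    have := hκs a ha hpsi w
    have h2 : 0 < κ * Mx K a := by positivity
    linarith
  have hb_ge : ∀ w : InfinitePlace K, m ≤ w (b : K) := fun w => by
    have := hκs a ha hpsi w
    have := (abs_le.mp (hV w)).1
    linarith
  set δ : ℝ := V / m with hδ
  have hδ0 : 0 ≤ δ := div_nonneg hV0 hm0.le
  have hlog : ∀ w : InfinitePlace K,
      |Real.log (w (b : K)) - Real.log (w (a : K))| ≤ δ := fun w =>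
    (abs_log_sub_log_le hm0 (hb_ge w) (ha_ge w)).trans
      (div_le_div_of_nonneg_right (hV w) hm0.le)
  have hmult0 : ∀ w : InfinitePlace K, (0 : ℝ) ≤ (mult w : ℝ) := fun w => Nat.cast_nonneg _
  -- difference of the logarithms of the norms
  have hLd : |Real.log (Nm K b) - Real.log (Nm K a)| ≤ n * δ := by
    rw [log_Nm ha, log_Nm hb, ← Finset.sum_sub_distrib]
    refine (Finset.abs_sum_le_sum_abs _ _).trans ?_
    have : ∀ w ∈ (Finset.univ : Finset (InfinitePlace K)),
        |(mult w : ℝ) * Real.log (w (b : K)) - mult w * Real.log (w (a : K))|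
          ≤ mult w * δ := by
      intro w _
      rw [← mul_sub, abs_mul, abs_of_nonneg (hmult0 w)]
      exact mul_le_mul_of_nonneg_left (hlog w) (hmult0 w)
    refine (Finset.sum_le_sum this).trans ?_
    rw [← Finset.sum_mul, hsum]
  -- difference of the log vectors
  have hell : ‖ell K (b : K) - ell K (a : K)‖ ≤ 4 * δ := by
    rw [pi_norm_le_iff_of_nonneg (by positivity)]
    intro w
    rw [Pi.sub_apply, ell_apply, ell_apply, Real.norm_eq_abs, ← mul_sub, abs_mul,
      abs_of_nonneg (hmult0 w.val)]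
    have e : (Real.log (w.val (b : K)) - Real.log (Nm K b) * (n : ℝ)⁻¹) -
        (Real.log (w.val (a : K)) - Real.log (Nm K a) * (n : ℝ)⁻¹) =
        (Real.log (w.val (b : K)) - Real.log (w.val (a : K))) -
        (Real.log (Nm K b) - Real.log (Nm K a)) * (n : ℝ)⁻¹ := by ring
    rw [e]
    have h1 : |(Real.log (Nm K b) - Real.log (Nm K a)) * (n : ℝ)⁻¹| ≤ δ := by
      rw [abs_mul, abs_of_nonneg (inv_nonneg.mpr hn0.le)]
      calc |Real.log (Nm K b) - Real.log (Nm K a)| * (n : ℝ)⁻¹ ≤ n * δ * (n : ℝ)⁻¹ :=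
            mul_le_mul_of_nonneg_right hLd (inv_nonneg.mpr hn0.le)
        _ = δ := by field_simp
    have h2 := abs_sub (Real.log (w.val (b : K)) - Real.log (w.val (a : K)))
      ((Real.log (Nm K b) - Real.log (Nm K a)) * (n : ℝ)⁻¹)
    calc (mult w.val : ℝ) * |(Real.log (w.val (b : K)) - Real.log (w.val (a : K))) -
        (Real.log (Nm K b) - Real.log (Nm K a)) * (n : ℝ)⁻¹| ≤ 2 * (δ + δ) :=
          mul_le_mul (mult_le_two w.val) (h2.trans (add_le_add (hlog w.val) h1))
            (abs_nonneg _) (by norm_num)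
      _ = 4 * δ := by ring
  have hpsid : |psi K (ell K (b : K)) - psi K (ell K (a : K))| ≤ L * (4 * δ) :=
    (hLip _ _).trans (mul_le_mul_of_nonneg_left hell hL)
  -- lower bound for the norms
  have hNm_ge : ∀ c : 𝓞 K, (∀ w : InfinitePlace K, m ≤ w (c : K)) → m ^ n ≤ Nm K c := by
    intro c hc
    rw [Nm_eq_prod]
    calc m ^ n = ∏ w : InfinitePlace K, m ^ mult w := by
          rw [Finset.prod_pow_eq_pow_sum, sum_mult_eq]
      _ ≤ ∏ w : InfinitePlace K, w (c : K) ^ mult w :=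
          Finset.prod_le_prod (fun w _ => by positivity)
            (fun w _ => pow_le_pow_left₀ hm0.le (hc w) _)
  set E : ℝ := (m ^ n)⁻¹ with hE
  have hE0 : 0 < E := by positivity
  have hrpow : ∀ c : 𝓞 K, c ≠ 0 → (∀ w : InfinitePlace K, m ≤ w (c : K)) →
      Nm K c ^ (-s) ≤ E := by
    intro c hc0 hc
    have h1 : Nm K c ^ (-s) ≤ Nm K c ^ (-1 : ℝ) :=
      Real.rpow_le_rpow_of_exponent_le (one_le_Nm hc0) (by linarith)
    rw [Real.rpow_neg_one] at h1
    exact h1.trans (inv_anti₀ (by positivity) (hNm_ge c hc))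
  have hNd : |Nm K b ^ (-s) - Nm K a ^ (-s)| ≤ 2 * (n * δ) * E := by
    rw [Real.rpow_def_of_pos (Nm_pos hb), Real.rpow_def_of_pos (Nm_pos ha)]
    refine (abs_exp_sub_exp_le _ _).trans ?_
    have h1 : |Real.log (Nm K b) * -s - Real.log (Nm K a) * -s| ≤ 2 * (n * δ) := by
      have : Real.log (Nm K b) * -s - Real.log (Nm K a) * -s =
          -s * (Real.log (Nm K b) - Real.log (Nm K a)) := by ring
      rw [this, abs_mul, abs_neg, abs_of_nonneg (by linarith : (0 : ℝ) ≤ s)]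
      exact mul_le_mul hs2 hLd (abs_nonneg _) (by norm_num)
    have h2 : max (Real.exp (Real.log (Nm K b) * -s)) (Real.exp (Real.log (Nm K a) * -s))
        ≤ E := by
      rw [← Real.rpow_def_of_pos (Nm_pos hb), ← Real.rpow_def_of_pos (Nm_pos ha)]
      exact max_le (hrpow b hb hb_ge) (hrpow a ha ha_ge)
    exact mul_le_mul h1 h2 (le_max_of_le_left (Real.exp_pos _).le) (by positivity)
  -- assembly
  rw [G_of_ne_zero s ha, G_of_ne_zero s hb]
  have e : psi K (ell K (b : K)) * Nm K b ^ (-s) - psi K (ell K (a : K)) * Nm K a ^ (-s) =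
      (psi K (ell K (b : K)) - psi K (ell K (a : K))) * Nm K b ^ (-s) +
      psi K (ell K (a : K)) * (Nm K b ^ (-s) - Nm K a ^ (-s)) := by ring
  rw [e]
  refine (abs_add_le _ _).trans ?_
  rw [abs_mul, abs_mul]
  have t1 : |psi K (ell K (b : K)) - psi K (ell K (a : K))| * |Nm K b ^ (-s)|
      ≤ L * (4 * δ) * E := by
    refine mul_le_mul hpsid ?_ (abs_nonneg _) (by positivity)
    rw [abs_of_nonneg (Real.rpow_nonneg (Nm_pos hb).le _)]
    exact hrpow b hb hb_ge
  have t2 : |psi K (ell K (a : K))| * |Nm K b ^ (-s) - Nm K a ^ (-s)|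
      ≤ 1 * (2 * (n * δ) * E) := by
    refine mul_le_mul ?_ hNd (abs_nonneg _) (by norm_num)
    rw [abs_of_nonneg (psi_nonneg K _)]
    exact psi_le_one K _
  have hδE : δ * E = V * ((2 / κ) ^ (n + 1) * (Mx K a)⁻¹ ^ (n + 1)) := by
    rw [hδ, hE, hm, ← mul_pow]
    have : (2 / κ * (Mx K a)⁻¹) = (κ * Mx K a / 2)⁻¹ := by
      field_simp
    rw [this, pow_succ, inv_pow]
    field_simp
  calc |psi K (ell K (b : K)) - psi K (ell K (a : K))| * |Nm K b ^ (-s)| +
        |psi K (ell K (a : K))| * |Nm K b ^ (-s) - Nm K a ^ (-s)|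
      ≤ L * (4 * δ) * E + 1 * (2 * (n * δ) * E) := add_le_add t1 t2
    _ = (4 * L + 2 * n) * (δ * E) := by ring
    _ = (4 * L + 2 * n) * (2 / κ) ^ (n + 1) * V * (Mx K a)⁻¹ ^ (n + 1) := by
        rw [hδE]; ring

/-! ### The pointwise translation estimate and the translation bound -/

theorem abs_G_sub_le_one {s : ℝ} (hs : 0 ≤ s) (a b : 𝓞 K) : |G K s b - G K s a| ≤ 1 := by
  rw [abs_le]
  constructor <;> linarith [G_nonneg s a, G_nonneg s b, G_le_one hs a, G_le_one hs b]

variable (K) in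
theorem pointwise_translation (v : 𝓞 K) : ∃ C : ℝ, 0 ≤ C ∧
    ∀ (s : ℝ), 1 ≤ s → s ≤ 2 → ∀ a : 𝓞 K,
      |G K s (a + v) - G K s a| ≤
        (if a = 0 then 1 else 0) + C * (Mx K a)⁻¹ ^ (finrank ℚ K + 1) := by
  obtain ⟨C, hC, κ, hκ, hκ1, hkey⟩ := key_estimate K
  obtain ⟨n, hn⟩ : ∃ n : ℕ, n = finrank ℚ K + 1 := ⟨_, rfl⟩
  rw [← hn] at hkey ⊢
  obtain ⟨V, hV⟩ : ∃ V : ℝ, V = Mx K v := ⟨_, rfl⟩
  have hV0 : 0 ≤ V := hV ▸ Mx_nonneg v
  have hplace : ∀ (a : 𝓞 K) (w : InfinitePlace K),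
      |w ((a + v : 𝓞 K) : K) - w (a : K)| ≤ V := fun a w => hV ▸ abs_place_sub_le a v w
  have hsub : ∀ a : 𝓞 K, Mx K a - V ≤ Mx K (a + v) := fun a => hV ▸ Mx_sub_le a v
  clear hV
  obtain ⟨R, hR⟩ : ∃ R : ℝ, R = 4 * V / κ + 1 := ⟨_, rfl⟩
  have hR0 : 0 < R := by
    have : 0 ≤ 4 * V / κ := div_nonneg (by linarith) hκ.le
    linarith
  have h2n : (0 : ℝ) < 2 ^ n := pow_pos (by norm_num) n
  have hCV : 0 ≤ C * V * 2 ^ n := mul_nonneg (mul_nonneg hC hV0) h2n.le
  have hRn : 0 < R ^ n := pow_pos hR0 n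
  refine ⟨C * V * 2 ^ n + R ^ n, by linarith, ?_⟩
  intro s hs1 hs2 a
  have hs0 : (0 : ℝ) ≤ s := by linarith
  have hpow0 : 0 ≤ (Mx K a)⁻¹ ^ n := pow_nonneg (inv_nonneg.mpr (Mx_nonneg a)) _
  by_cases ha : a = 0
  · rw [if_pos ha]
    have := abs_G_sub_le_one hs0 a (a + v)
    have h2 : 0 ≤ (C * V * 2 ^ n + R ^ n) * (Mx K a)⁻¹ ^ n :=
      mul_nonneg (by linarith) hpow0
    linarith
  · rw [if_neg ha, zero_add]
    have hM : 0 < Mx K a := Mx_pos ha
    by_cases hlarge : R ≤ Mx K a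
    · -- the main case
      have h4V : 4 * V ≤ κ * Mx K a := by
        have h1 : 4 * V / κ ≤ Mx K a := by linarith
        rw [div_le_iff₀ hκ] at h1
        linarith
      have hVM : 4 * V ≤ Mx K a := by
        have : κ * Mx K a ≤ 1 * Mx K a := mul_le_mul_of_nonneg_right hκ1 hM.le
        linarith
      have hb_M : Mx K a / 2 ≤ Mx K (a + v) := by
        have := hsub a
        linarith
      have hb : a + v ≠ 0 := by
        intro h0
        rw [h0, Mx_zero] at hb_M
        linarith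
      have hinv : (Mx K (a + v))⁻¹ ^ n ≤ 2 ^ n * (Mx K a)⁻¹ ^ n := by
        rw [← mul_pow]
        refine pow_le_pow_left₀ (inv_nonneg.mpr (Mx_nonneg _)) ?_ _
        rw [← inv_inv (2 : ℝ), ← mul_inv]
        refine inv_anti₀ (mul_pos (by norm_num) hM) ?_
        linarith
      have hfin : C * V * 2 ^ n * (Mx K a)⁻¹ ^ n ≤
          (C * V * 2 ^ n + R ^ n) * (Mx K a)⁻¹ ^ n :=
        mul_le_mul_of_nonneg_right (by linarith) hpow0
      by_cases hpa : psi K (ell K (a : K)) = 0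
      · by_cases hpb : psi K (ell K ((a + v : 𝓞 K) : K)) = 0
        · rw [G_of_ne_zero s ha, G_of_ne_zero s hb, hpa, hpb, zero_mul, zero_mul, sub_zero,
            abs_zero]
          exact mul_nonneg (by linarith) hpow0
        · have h2V : 2 * V ≤ κ * Mx K (a + v) := by
            have : κ * (Mx K a / 2) ≤ κ * Mx K (a + v) := mul_le_mul_of_nonneg_left hb_M hκ.le
            linarith
          have := hkey s hs1 hs2 (a + v) a V hb ha
            (fun w => by rw [abs_sub_comm]; exact hplace a w) hpb h2V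
          rw [abs_sub_comm]
          refine this.trans (le_trans ?_ hfin)
          calc C * V * (Mx K (a + v))⁻¹ ^ n
              ≤ C * V * (2 ^ n * (Mx K a)⁻¹ ^ n) :=
                mul_le_mul_of_nonneg_left hinv (mul_nonneg hC hV0)
            _ = C * V * 2 ^ n * (Mx K a)⁻¹ ^ n := by ring
      · have := hkey s hs1 hs2 a (a + v) V ha hb (fun w => hplace a w) hpa
          (by linarith)
        refine this.trans (le_trans ?_ hfin)
        have h2 : (1 : ℝ) ≤ 2 ^ n := one_le_pow₀ (by norm_num)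
        calc C * V * (Mx K a)⁻¹ ^ n = C * V * 1 * (Mx K a)⁻¹ ^ n := by ring
          _ ≤ C * V * 2 ^ n * (Mx K a)⁻¹ ^ n := by
              refine mul_le_mul_of_nonneg_right ?_ hpow0
              exact mul_le_mul_of_nonneg_left h2 (mul_nonneg hC hV0)
    · -- the finitely many small points
      push Not at hlarge
      refine (abs_G_sub_le_one hs0 a (a + v)).trans ?_
      have h1 : 1 ≤ R ^ n * (Mx K a)⁻¹ ^ n := by
        rw [← mul_pow]
        refine one_le_pow₀ ?_
        rw [← div_eq_mul_inv, le_div_iff₀ hM]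
        linarith
      exact h1.trans (mul_le_mul_of_nonneg_right (by linarith) hpow0)

variable (K) in
theorem finrank_integerLattice :
    finrank ℤ (mixedEmbedding.integerLattice K) = finrank ℚ K := by
  rw [ZLattice.rank ℝ, mixedEmbedding.finrank]

omit [NumberField K] in
theorem mixedEmbedding_mem_integerLattice (a : 𝓞 K) :
    mixedEmbedding K (a : K) ∈ mixedEmbedding.integerLattice K :=
  ⟨a, rfl⟩

/-- `a ↦ (Mx a)⁻¹ ^ k` is summable over `𝓞 K` for `k > [K : ℚ]`. -/
theorem summable_Mx_inv_pow {k : ℕ} (hk : finrank ℚ K < k) :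
    Summable fun a : 𝓞 K => (Mx K a)⁻¹ ^ k := by
  have h := ZLattice.summable_norm_pow_inv (L := mixedEmbedding.integerLattice K) k
    (by rw [finrank_integerLattice]; exact hk)
  have hi : Function.Injective (fun a : 𝓞 K =>
      (⟨mixedEmbedding K (a : K), mixedEmbedding_mem_integerLattice a⟩ :
        mixedEmbedding.integerLattice K)) := by
    intro a b hab
    have h1 : mixedEmbedding K (a : K) = mixedEmbedding K (b : K) := congrArg Subtype.val hab
    exact_mod_cast (mixedEmbedding_injective K) h1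
  have h2 := h.comp_injective hi
  refine h2.congr (fun a => ?_)
  rfl

variable (K) in
/-- **(P3) Translation bound.** -/
theorem translation_bound (v : 𝓞 K) : ∃ B : ℝ, ∀ s : ℝ, 1 < s → s ≤ 2 →
    Summable (fun a : 𝓞 K => |G K s (a + v) - G K s a|) ∧
      ∑' a : 𝓞 K, |G K s (a + v) - G K s a| ≤ B := by
  obtain ⟨C, hC, hpt⟩ := pointwise_translation K v
  have hsum1 : Summable fun a : 𝓞 K => (if a = 0 then (1 : ℝ) else 0) :=
    (hasSum_ite_eq (0 : 𝓞 K) (1 : ℝ)).summable
  have hsum2 : Summable fun a : 𝓞 K => C * (Mx K a)⁻¹ ^ (finrank ℚ K + 1) :=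
    (summable_Mx_inv_pow (Nat.lt_succ_self _)).mul_left C
  have hsum := hsum1.add hsum2
  refine ⟨∑' a : 𝓞 K, ((if a = 0 then (1 : ℝ) else 0) + C * (Mx K a)⁻¹ ^ (finrank ℚ K + 1)),
    fun s hs1 hs2 => ?_⟩
  have hle : ∀ a : 𝓞 K, |G K s (a + v) - G K s a| ≤
      (if a = 0 then (1 : ℝ) else 0) + C * (Mx K a)⁻¹ ^ (finrank ℚ K + 1) :=
    fun a => hpt s hs1.le hs2 a
  have hs' : Summable (fun a : 𝓞 K => |G K s (a + v) - G K s a|) :=
    Summable.of_nonneg_of_le (fun a => abs_nonneg _) hle hsum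
  exact ⟨hs', hs'.tsum_le_tsum hle hsum⟩

end Fermat.Agent.S14T.An2
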