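/-
S14 (Thaine route), sub-leaf of [Fin]: the Galois pushforward on the class group of a number
field, `σ_* : ClassGroup (𝓞 K) →* ClassGroup (𝓞 K)` with `σ_* [I] = [σ • I]`, and the
ideal-to-class translations used by the eigen-descent.  Mathlib only.  Owner: helper69.
-/
import Mathlib

set_option autoImplicit false

namespace Fermat.Agent.S14T.ClassGal

open NumberField
open scoped Pointwise nonZeroDivisors

/-- Lift a monoid homomorphism along a surjective monoid homomorphism. -/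
theorem exists_monoidHom_of_surjective {M G H : Type*} [Monoid M] [Monoid G] [Monoid H]
    (π : M →* G) (hπ : Function.Surjective π) (φ : M →* H)
    (h : ∀ x y, π x = π y → φ x = φ y) : ∃ ψ : G →* H, ∀ x, ψ (π x) = φ x := by
  classical
  have key : ∀ x, φ (Function.surjInv hπ (π x)) = φ x := fun x =>
    h _ _ (Function.surjInv_eq hπ (π x))
  refine ⟨{ toFun := fun g => φ (Function.surjInv hπ g)
            map_one' := ?_
            map_mul' := ?_ }, key⟩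
  · have := key 1
    rwa [map_one, map_one] at this
  · intro a b
    obtain ⟨x, rfl⟩ := hπ a
    obtain ⟨y, rfl⟩ := hπ b
    rw [← map_mul, key, key, key, map_mul]

variable {K : Type*} [Field K] [NumberField K]

theorem smul_span_singleton (σ : K ≃ₐ[ℚ] K) (x : 𝓞 K) :
    σ • Ideal.span {x} = Ideal.span {σ • x} := by
  rw [Ideal.pointwise_smul_def, Ideal.map_span, Set.image_singleton]
  rfl

theorem smul_ne_bot (σ : K ≃ₐ[ℚ] K) {I : Ideal (𝓞 K)} (hI : I ≠ ⊥) : σ • I ≠ ⊥ := by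
  intro h
  apply hI
  rw [eq_bot_iff] at h ⊢
  intro x hx
  have h1 : σ • x ∈ σ • I := Ideal.smul_mem_pointwise_smul σ x I hx
  have h2 : σ • x = 0 := by simpa using h h1
  have h3 : x = 0 := by
    have := congrArg (fun z => σ⁻¹ • z) h2
    simpa using this
  simp [h3]

/-- The action of `σ` on the monoid of nonzero ideals. -/
noncomputable def idealSmul (σ : K ≃ₐ[ℚ] K) : (Ideal (𝓞 K))⁰ →* (Ideal (𝓞 K))⁰ where
  toFun I := ⟨σ • (I : Ideal (𝓞 K)), mem_nonZeroDivisors_of_ne_zero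
    (smul_ne_bot σ (nonZeroDivisors.coe_ne_zero I))⟩
  map_one' := by
    apply Subtype.ext
    show σ • (1 : Ideal (𝓞 K)) = 1
    exact smul_one σ
  map_mul' I J := by
    apply Subtype.ext
    show σ • ((I * J : (Ideal (𝓞 K))⁰) : Ideal (𝓞 K)) = σ • (I : Ideal (𝓞 K)) * σ • (J : Ideal (𝓞 K))
    rw [Submonoid.coe_mul, smul_mul']

@[simp]
theorem coe_idealSmul (σ : K ≃ₐ[ℚ] K) (I : (Ideal (𝓞 K))⁰) :
    ((idealSmul σ I : (Ideal (𝓞 K))⁰) : Ideal (𝓞 K)) = σ • (I : Ideal (𝓞 K)) := rfl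

theorem exists_classGal : ∃ f : (K ≃ₐ[ℚ] K) → ClassGroup (𝓞 K) →* ClassGroup (𝓞 K),
    ∀ σ I, f σ (ClassGroup.mk0 I) = ClassGroup.mk0 (idealSmul σ I) := by
  have h : ∀ σ : K ≃ₐ[ℚ] K, ∃ ψ : ClassGroup (𝓞 K) →* ClassGroup (𝓞 K),
      ∀ I, ψ (ClassGroup.mk0 I) = ClassGroup.mk0 (idealSmul σ I) := by
    intro σ
    refine exists_monoidHom_of_surjective ClassGroup.mk0 ClassGroup.mk0_surjective
      (ClassGroup.mk0.comp (idealSmul σ)) ?_
    intro I J hIJ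
    obtain ⟨x, y, hx, hy, hxy⟩ := ClassGroup.mk0_eq_mk0_iff.mp hIJ
    show ClassGroup.mk0 (idealSmul σ I) = ClassGroup.mk0 (idealSmul σ J)
    refine ClassGroup.mk0_eq_mk0_iff.mpr ⟨σ • x, σ • y, ?_, ?_, ?_⟩
    · exact fun h0 => hx (by simpa using congrArg (fun z => σ⁻¹ • z) h0)
    · exact fun h0 => hy (by simpa using congrArg (fun z => σ⁻¹ • z) h0)
    · rw [coe_idealSmul, coe_idealSmul, ← smul_span_singleton, ← smul_span_singleton,
        ← smul_mul', ← smul_mul', hxy]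
  choose f hf using h
  exact ⟨f, hf⟩

/-- **The Galois pushforward on the class group**: `σ_* [I] = [σ • I]`. -/
noncomputable def classGal (σ : K ≃ₐ[ℚ] K) : ClassGroup (𝓞 K) →* ClassGroup (𝓞 K) :=
  Classical.choose exists_classGal σ

theorem classGal_mk0 (σ : K ≃ₐ[ℚ] K) (I : (Ideal (𝓞 K))⁰) :
    classGal σ (ClassGroup.mk0 I) = ClassGroup.mk0 (idealSmul σ I) :=
  Classical.choose_spec exists_classGal σ I

/-- `n`-th roots of ideals are unique. -/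
theorem pow_left_inj_ideal {n : ℕ} (hn : n ≠ 0) {I J : Ideal (𝓞 K)} (h : I ^ n = J ^ n) :
    I = J := by
  by_cases hI : I = ⊥
  · subst hI
    rw [Ideal.bot_pow hn] at h  -- ⊥ = J ^ n
    exact (pow_eq_zero_iff hn).mp h.symm |>.symm
  by_cases hJ : J = ⊥
  · subst hJ
    rw [Ideal.bot_pow hn] at h
    exact absurd ((pow_eq_zero_iff hn).mp h) hI
  have h1 := congrArg UniqueFactorizationMonoid.normalizedFactors h
  rw [UniqueFactorizationMonoid.normalizedFactors_pow,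
    UniqueFactorizationMonoid.normalizedFactors_pow] at h1
  have h2 : UniqueFactorizationMonoid.normalizedFactors I =
      UniqueFactorizationMonoid.normalizedFactors J := by
    ext a
    have := congrArg (Multiset.count a) h1
    rw [Multiset.count_nsmul, Multiset.count_nsmul] at this
    exact Nat.eq_of_mul_eq_mul_left (Nat.pos_of_ne_zero hn) this
  have h3 := (Ideal.prod_normalizedFactors_eq_self hI).symm
  rw [h2, Ideal.prod_normalizedFactors_eq_self hJ] at h3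
  exact h3

/-- If `(α) = 𝔞 ^ p`, the class of `𝔞` is `p`-torsion. -/
theorem mk0_pow_eq_one {p : ℕ} {α : 𝓞 K} (hα : α ≠ 0) (𝔞 : (Ideal (𝓞 K))⁰)
    (h : Ideal.span {α} = (𝔞 : Ideal (𝓞 K)) ^ p) : ClassGroup.mk0 𝔞 ^ p = 1 := by
  rw [← map_pow]
  have h1 : ((𝔞 ^ p : (Ideal (𝓞 K))⁰) : Ideal (𝓞 K)) = Ideal.span {α} := by
    rw [h, SubmonoidClass.coe_pow]
  have h2 : (𝔞 ^ p : (Ideal (𝓞 K))⁰) = ⟨Ideal.span {α}, mem_nonZeroDivisors_of_ne_zero
      (by simpa using hα)⟩ := Subtype.ext h1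
  rw [h2, ClassGroup.mk0_eq_one_iff]
  exact ⟨⟨α, rfl⟩⟩

/-- **Eigen-classes.**  If `(α) = 𝔞 ^ p` and `σ α = α ^ m * y ^ p`, then `σ_* [𝔞] = [𝔞] ^ m`. -/
theorem classGal_mk0_eq_pow {p : ℕ} (hp : p ≠ 0) (σ : K ≃ₐ[ℚ] K) {α : 𝓞 K} (hα : α ≠ 0)
    (𝔞 : (Ideal (𝓞 K))⁰) (h : Ideal.span {α} = (𝔞 : Ideal (𝓞 K)) ^ p) (m : ℕ) (y : K)
    (hy : σ (α : K) = (α : K) ^ m * y ^ p) :
    classGal σ (ClassGroup.mk0 𝔞) = ClassGroup.mk0 𝔞 ^ m := by
  have hαK : (α : K) ≠ 0 := by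
    simpa using hα
  have hσα : σ (α : K) ≠ 0 := (map_ne_zero σ).mpr hαK
  have hy0 : y ≠ 0 := by
    rintro rfl
    rw [zero_pow hp, mul_zero] at hy
    exact hσα hy
  obtain ⟨y₁, y₂, hy₂, rfl⟩ := IsFractionRing.div_surjective (A := 𝓞 K) y
  have hy₂0 : y₂ ≠ 0 := nonZeroDivisors.ne_zero hy₂
  have hy₂K : (algebraMap (𝓞 K) K y₂) ≠ 0 := by simpa using hy₂0
  have hy₁0 : y₁ ≠ 0 := by
    rintro rfl
    simp at hy0
  -- the identity in `𝓞 K`
  have e1 : (σ • α) * y₂ ^ p = α ^ m * y₁ ^ p := by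
    apply FaithfulSMul.algebraMap_injective (𝓞 K) K
    have e0 : algebraMap (𝓞 K) K (σ • α) = σ (α : K) := rfl
    rw [map_mul, map_mul, map_pow, map_pow, map_pow, e0, hy, div_pow]
    field_simp
  -- the identity of ideals
  have e2 : (σ • (𝔞 : Ideal (𝓞 K)) * Ideal.span {y₂}) ^ p =
      ((𝔞 : Ideal (𝓞 K)) ^ m * Ideal.span {y₁}) ^ p := by
    rw [mul_pow, mul_pow, ← smul_pow', ← h, smul_span_singleton, ← pow_mul, mul_comm m p,
      pow_mul, ← h, Ideal.span_singleton_pow, Ideal.span_singleton_pow, Ideal.span_singleton_pow,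
      Ideal.span_singleton_mul_span_singleton, Ideal.span_singleton_mul_span_singleton, e1]
  have e3 := pow_left_inj_ideal hp e2
  rw [classGal_mk0, ← map_pow]
  refine ClassGroup.mk0_eq_mk0_iff.mpr ⟨y₂, y₁, hy₂0, hy₁0, ?_⟩
  rw [coe_idealSmul, SubmonoidClass.coe_pow, mul_comm, e3, mul_comm]

/-- **Thaine output on classes.**  A relation `(x) ∏_σ (σ Q)^(a σ) = (y) J^p` between ideals
says that `∏_σ σ_*[Q]^(a σ)` is a `p`-th power in the class group. -/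
theorem prod_classGal_pow_eq_pow {p : ℕ} (a : (K ≃ₐ[ℚ] K) → ℕ) (Q : (Ideal (𝓞 K))⁰)
    {x y : 𝓞 K} {J : Ideal (𝓞 K)} (hx : x ≠ 0) (hy : y ≠ 0) (hJ : J ≠ ⊥)
    (h : Ideal.span {x} * ∏ σ : K ≃ₐ[ℚ] K, (σ • (Q : Ideal (𝓞 K))) ^ a σ =
      Ideal.span {y} * J ^ p) :
    ∃ b : ClassGroup (𝓞 K), ∏ σ : K ≃ₐ[ℚ] K, classGal σ (ClassGroup.mk0 Q) ^ a σ = b ^ p := by
  refine ⟨ClassGroup.mk0 ⟨J, mem_nonZeroDivisors_of_ne_zero hJ⟩, ?_⟩
  have e1 : ∏ σ : K ≃ₐ[ℚ] K, classGal σ (ClassGroup.mk0 Q) ^ a σ =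
      ClassGroup.mk0 (∏ σ : K ≃ₐ[ℚ] K, idealSmul σ Q ^ a σ) := by
    rw [map_prod]
    refine Finset.prod_congr rfl fun σ _ => ?_
    rw [classGal_mk0, map_pow]
  rw [e1, ← map_pow]
  refine ClassGroup.mk0_eq_mk0_iff.mpr ⟨x, y, hx, hy, ?_⟩
  rw [SubmonoidClass.coe_pow]
  have e2 : ((∏ σ : K ≃ₐ[ℚ] K, idealSmul σ Q ^ a σ : (Ideal (𝓞 K))⁰) : Ideal (𝓞 K)) =
      ∏ σ : K ≃ₐ[ℚ] K, (σ • (Q : Ideal (𝓞 K))) ^ a σ := by
    rw [Submonoid.coe_finsetProd]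
    refine Finset.prod_congr rfl fun σ _ => ?_
    rw [SubmonoidClass.coe_pow, coe_idealSmul]
  rw [e2]
  exact h

/-- **Principal case.**  If `(α) = 𝔞 ^ p` and `[𝔞] = 1`, then `α = ε b ^ p` with `ε` a unit. -/
theorem exists_unit_mul_pow {p : ℕ} {α : 𝓞 K} (_hα : α ≠ 0) (𝔞 : (Ideal (𝓞 K))⁰)
    (h : Ideal.span {α} = (𝔞 : Ideal (𝓞 K)) ^ p) (h1 : ClassGroup.mk0 𝔞 = 1) :
    ∃ (ε : (𝓞 K)ˣ) (b : 𝓞 K), b ≠ 0 ∧ α = ε * b ^ p := by
  have h2 : (𝔞 : Ideal (𝓞 K)).IsPrincipal := by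
    have := (ClassGroup.mk0_eq_one_iff (I := (𝔞 : Ideal (𝓞 K))) 𝔞.2).mp h1
    exact this
  obtain ⟨⟨b, hb⟩⟩ := h2
  have hb' : (𝔞 : Ideal (𝓞 K)) = Ideal.span {b} := hb
  have hb0 : b ≠ 0 := by
    rintro rfl
    apply nonZeroDivisors.coe_ne_zero 𝔞
    rw [hb']
    simp
  rw [hb', Ideal.span_singleton_pow, Ideal.span_singleton_eq_span_singleton] at h
  obtain ⟨ε, hε⟩ := h.symm
  exact ⟨ε, b, hb0, by rw [← hε, mul_comm]⟩

end Fermat.Agent.S14T.ClassGal
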