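/-
S14 (Thaine route), block [Fin-a]: the abstract eigen-descent on a finite abelian group.
If `e = ∑ n_i f_i` maps a generating set (modulo `p`-th powers, tested by characters) into
the `p`-th powers, and `c` is a `p`-torsion eigen-element with `e c = c⁻¹`, then `c = 1`.
Mathlib only.  Owner: helper69.
-/
import Mathlib

set_option autoImplicit false

namespace Fermat.Agent.S14T.EigenDescent

variable {A : Type*} [CommGroup A] [Finite A]

/-- A `p`-torsion element which is a `p ^ N`-th power for every `N` is trivial. -/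
theorem eq_one_of_forall_pow {p : ℕ} (hp : p.Prime) {c : A} (hc : c ^ p = 1)
    (h : ∀ N : ℕ, ∃ b : A, c = b ^ (p ^ N)) : c = 1 := by
  obtain ⟨k, m, hm, hcard⟩ := Nat.exists_eq_pow_mul_and_not_dvd (Nat.card_pos (α := A)).ne' p
    hp.ne_one
  obtain ⟨b, hb⟩ := h k
  have h1 : c ^ m = 1 := by
    rw [hb, ← pow_mul, ← hcard]
    exact pow_card_eq_one'
  have h2 : orderOf c ∣ Nat.gcd p m := Nat.dvd_gcd (orderOf_dvd_of_pow_eq_one hc)
    (orderOf_dvd_of_pow_eq_one h1)
  rw [(Nat.Prime.coprime_iff_not_dvd hp).mpr hm, Nat.dvd_one] at h2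
  exact orderOf_eq_one_iff.mp h2

/-- **Eigen-descent.**  Let `f i` be endomorphisms of the finite abelian group `A` and
`e a = ∏ i, f i a ^ n i`.  If `e` maps `A` into the `p`-th powers, and `c` is `p`-torsion with
`f i c = c ^ m i`, where `∑ n i * m i ≡ -1 (mod p)`, then `c = 1`. -/
theorem eq_one_of_eigen {ι : Type*} [Fintype ι] {p : ℕ} (hp : p.Prime) (f : ι → A →* A)
    (n m : ι → ℕ) (hsum : p ∣ ∑ i, n i * m i + 1)
    (hA : ∀ a : A, ∃ b : A, ∏ i, f i a ^ n i = b ^ p)
    {c : A} (hc : c ^ p = 1) (hf : ∀ i, f i c = c ^ m i) : c = 1 := by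
  classical
  -- the endomorphism `e`
  let e : A →* A :=
    { toFun := fun a => ∏ i, f i a ^ n i
      map_one' := by simp
      map_mul' := fun a b => by
        simp only [map_mul, mul_pow]
        exact Finset.prod_mul_distrib }
  have he : ∀ a, e a = ∏ i, f i a ^ n i := fun _ => rfl
  -- `e c = c⁻¹`
  have hec : e c = c⁻¹ := by
    rw [he]
    have h1 : ∏ i, f i c ^ n i = c ^ ∑ i, n i * m i := by
      rw [← Finset.prod_pow_eq_pow_sum]
      refine Finset.prod_congr rfl fun i _ => ?_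
      rw [hf, ← pow_mul, mul_comm]
    rw [h1, eq_inv_iff_mul_eq_one, ← pow_succ]
    obtain ⟨t, ht⟩ := hsum
    rw [ht, pow_mul, hc, one_pow]
  refine eq_one_of_forall_pow hp hc fun N => ?_
  induction N with
  | zero => exact ⟨c, by simp⟩
  | succ N ih =>
    obtain ⟨b, hb⟩ := ih
    obtain ⟨d, hd⟩ := hA b
    refine ⟨d⁻¹, ?_⟩
    have h2 : c⁻¹ = d ^ p ^ (N + 1) := by
      rw [← hec, hb, map_pow, he, hd, ← pow_mul, pow_succ, mul_comm]
    rw [inv_pow, ← h2, inv_inv]

/-- If every character of exponent `p` which is trivial on `S` is trivial, then `S` generates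
`A` modulo `p`-th powers. -/
theorem exists_mul_pow_of_char {p : ℕ} (S : Set A)
    (h : ∀ χ : A →* ℂˣ, (∀ a, χ a ^ p = 1) → (∀ s ∈ S, χ s = 1) → χ = 1) (a : A) :
    ∃ g ∈ Subgroup.closure S, ∃ b : A, a = g * b ^ p := by
  classical
  set H : Subgroup A := Subgroup.closure S ⊔ (powMonoidHom p : A →* A).range with hH
  have hmem : a ∈ H := by
    by_contra ha
    have hne : (QuotientGroup.mk a : A ⧸ H) ≠ 1 := by
      rw [Ne, QuotientGroup.eq_one_iff]
      exact ha
    obtain ⟨ψ, hψ⟩ := CommGroup.exists_apply_ne_one_of_hasEnoughRootsOfUnity (A ⧸ H) ℂ hne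
    have hχ := h (ψ.comp (QuotientGroup.mk' H)) (fun x => ?_) (fun s hs => ?_)
    · apply hψ
      have := DFunLike.congr_fun hχ a
      simpa using this
    · have hx : x ^ p ∈ H := Subgroup.mem_sup_right ⟨x, rfl⟩
      rw [← map_pow]
      simp only [MonoidHom.coe_comp, QuotientGroup.coe_mk', Function.comp_apply]
      rw [(QuotientGroup.eq_one_iff (x ^ p)).mpr hx, map_one]
    · have hs' : s ∈ H := Subgroup.mem_sup_left (Subgroup.subset_closure hs)
      simp only [MonoidHom.coe_comp, QuotientGroup.coe_mk', Function.comp_apply]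
      rw [(QuotientGroup.eq_one_iff s).mpr hs', map_one]
  obtain ⟨g, hg, y, ⟨b, rfl⟩, rfl⟩ := Subgroup.mem_sup.mp hmem
  exact ⟨g, hg, b, rfl⟩

/-- **Eigen-descent from a generating set.**  `S` generates `A` modulo `p`-th powers (in the
character form delivered by the analytic block), the operator `e a = ∏ i, f i a ^ n i` maps `S`
into the `p`-th powers, and `c` is a `p`-torsion element with `f i c = c ^ m i`,
`∑ n i * m i ≡ -1 (mod p)`.  Then `c = 1`. -/
theorem eq_one_of_eigen_of_char {ι : Type*} [Fintype ι] {p : ℕ} (hp : p.Prime) (f : ι → A →* A)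
    (n m : ι → ℕ) (hsum : p ∣ ∑ i, n i * m i + 1) (S : Set A)
    (hS : ∀ s ∈ S, ∃ b : A, ∏ i, f i s ^ n i = b ^ p)
    (hgen : ∀ χ : A →* ℂˣ, (∀ a, χ a ^ p = 1) → (∀ s ∈ S, χ s = 1) → χ = 1)
    {c : A} (hc : c ^ p = 1) (hf : ∀ i, f i c = c ^ m i) : c = 1 := by
  classical
  refine eq_one_of_eigen hp f n m hsum (fun a => ?_) hc hf
  -- the set of `a` with `e a` a `p`-th power is a subgroup containing `S` and the `p`-th powers
  let T : Subgroup A :=
    { carrier := {a | ∃ b : A, ∏ i, f i a ^ n i = b ^ p}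
      one_mem' := ⟨1, by simp⟩
      mul_mem' := by
        rintro x y ⟨bx, hx⟩ ⟨by', hy⟩
        refine ⟨bx * by', ?_⟩
        simp only [map_mul, mul_pow]
        rw [Finset.prod_mul_distrib, hx, hy]
      inv_mem' := by
        rintro x ⟨bx, hx⟩
        refine ⟨bx⁻¹, ?_⟩
        simp only [map_inv, inv_pow]
        rw [Finset.prod_inv_distrib, hx] }
  obtain ⟨g, hg, b, rfl⟩ := exists_mul_pow_of_char (p := p) S hgen a
  have hgT : g ∈ T := (Subgroup.closure_le T).mpr (fun s hs => hS s hs) hg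
  have hbT : b ^ p ∈ T := by
    refine ⟨∏ i, f i b ^ n i, ?_⟩
    rw [← Finset.prod_pow]
    refine Finset.prod_congr rfl fun i _ => ?_
    rw [map_pow, ← pow_mul, ← pow_mul, mul_comm]
  exact T.mul_mem hgT hbT

/-- Character form of generation implies the subgroup form (the literal shape of `GStatement`). -/
theorem top_of_char {p : ℕ} (S : Set A)
    (h : ∀ χ : A →* ℂˣ, (∀ a, χ a ^ p = 1) → (∀ s ∈ S, χ s = 1) → χ = 1) :
    Subgroup.closure S ⊔ (powMonoidHom p : A →* A).range = ⊤ := by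
  rw [eq_top_iff]
  intro a _
  obtain ⟨g, hg, b, rfl⟩ := exists_mul_pow_of_char (p := p) S h a
  exact Subgroup.mul_mem _ (Subgroup.mem_sup_left hg) (Subgroup.mem_sup_right ⟨b, rfl⟩)

/-- **Eigen-descent from a generating set**, subgroup form of the generation hypothesis
(`Subgroup.closure S ⊔ (powMonoidHom p).range = ⊤`, the shape of `GStatement`). -/
theorem eq_one_of_eigen_of_sup {ι : Type*} [Fintype ι] {p : ℕ} (hp : p.Prime) (f : ι → A →* A)
    (n m : ι → ℕ) (hsum : p ∣ ∑ i, n i * m i + 1) (S : Set A)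
    (hS : ∀ s ∈ S, ∃ b : A, ∏ i, f i s ^ n i = b ^ p)
    (hgen : Subgroup.closure S ⊔ (powMonoidHom p : A →* A).range = ⊤)
    {c : A} (hc : c ^ p = 1) (hf : ∀ i, f i c = c ^ m i) : c = 1 := by
  classical
  refine eq_one_of_eigen hp f n m hsum (fun a => ?_) hc hf
  let T : Subgroup A :=
    { carrier := {a | ∃ b : A, ∏ i, f i a ^ n i = b ^ p}
      one_mem' := ⟨1, by simp⟩
      mul_mem' := by
        rintro x y ⟨bx, hx⟩ ⟨by', hy⟩
        refine ⟨bx * by', ?_⟩
        simp only [map_mul, mul_pow]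
        rw [Finset.prod_mul_distrib, hx, hy]
      inv_mem' := by
        rintro x ⟨bx, hx⟩
        refine ⟨bx⁻¹, ?_⟩
        simp only [map_inv, inv_pow]
        rw [Finset.prod_inv_distrib, hx] }
  have hle : Subgroup.closure S ⊔ (powMonoidHom p : A →* A).range ≤ T := by
    refine sup_le ((Subgroup.closure_le T).mpr fun s hs => hS s hs) ?_
    rintro _ ⟨b, rfl⟩
    refine ⟨∏ i, f i b ^ n i, ?_⟩
    rw [← Finset.prod_pow]
    refine Finset.prod_congr rfl fun i _ => ?_
    rw [powMonoidHom_apply, map_pow, ← pow_mul, ← pow_mul, mul_comm]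
  exact hle (hgen ▸ Subgroup.mem_top a)

end Fermat.Agent.S14T.EigenDescent
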