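/-
S14T — EtaCube.lean (owner: helper93).  Leaf [Un-L] of `Leaves.lean`:

  theorem Fermat.Agent.S14T.EtaCube.etaCube {p : ℕ} (hp : p.Prime) (h5 : 5 ≤ p) : EtaCube p

i.e. `η_a = ((ζ-1)^k)^p · u` with `u = ∏_σ ξ_{n_σ}^{a σ}` (`ξ_n = 1 + ζ + ⋯ + ζ^(n-1)`,
`σ ζ = ζ^{n_σ}`) a unit in the `ω²`-eigenspace of `E/E^p`, and no power `u^j`, `p ∤ j`, is a
rational integer modulo `λ³`.

Proof of the last part: in `𝓞 K ⧸ λ³` (where `p = 0`, `ϖ³ = 0`, `ϖ` the class of `ζ - 1`)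
  `ξ_n = n · E((n-1)/2, (n-1)(n-5)/24)`,  `E(s,t) = 1 + s ϖ + (t + s²/2) ϖ²`,
and `E` is multiplicative in `(s,t)`.  With `a σ ≡ n_σ⁻²` the power sums over `(ZMod p)ˣ` give
`u = R₀ · E(0, -1/24)`, hence `u^j = R₀^j (1 - (j/24) ϖ²)`, which is an integer mod `λ³` only if
`p ∣ j`.
-/
import Fermat.Agent.S14T.Leaves

set_option autoImplicit false

namespace Fermat.Agent.S14T.EtaCube

open NumberField
open scoped Pointwise nonZeroDivisors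

/-! ## 1. Truncated exponentials modulo `ϖ³` -/

section Abstract

variable {R : Type*} [CommRing R]

/-- `expo ϖ c s t = 1 + s ϖ + (t + 12 c s²) ϖ²`; multiplicative in `(s, t)` when `ϖ³ = 0` and
`24 c = 1`. -/
def expo (ϖ c s t : R) : R := 1 + s * ϖ + (t + s ^ 2 * (12 * c)) * ϖ ^ 2

theorem expo_zero (ϖ c : R) : expo ϖ c 0 0 = 1 := by simp [expo]

theorem expo_mul {ϖ c : R} (h3 : ϖ ^ 3 = 0) (hc : 24 * c = 1) (s t s' t' : R) :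
    expo ϖ c s t * expo ϖ c s' t' = expo ϖ c (s + s') (t + t') := by
  unfold expo
  linear_combination (s * (t' + s' ^ 2 * (12 * c)) + s' * (t + s ^ 2 * (12 * c)) +
    (t + s ^ 2 * (12 * c)) * (t' + s' ^ 2 * (12 * c)) * ϖ) * h3 + (-(s * s' * ϖ ^ 2)) * hc

theorem expo_pow {ϖ c : R} (h3 : ϖ ^ 3 = 0) (hc : 24 * c = 1) (s t : R) (k : ℕ) :
    expo ϖ c s t ^ k = expo ϖ c (k * s) (k * t) := by
  induction k with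
  | zero => simp [expo_zero]
  | succ k ih =>
    rw [pow_succ, ih, expo_mul h3 hc]
    congr 1 <;> push_cast <;> ring

theorem expo_prod {ϖ c : R} (h3 : ϖ ^ 3 = 0) (hc : 24 * c = 1) {ι : Type*} (S : Finset ι)
    (s t : ι → R) :
    ∏ i ∈ S, expo ϖ c (s i) (t i) = expo ϖ c (∑ i ∈ S, s i) (∑ i ∈ S, t i) := by
  classical
  induction S using Finset.induction_on with
  | empty => simp [expo_zero]
  | insert i S hi ih =>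
    rw [Finset.prod_insert hi, Finset.sum_insert hi, Finset.sum_insert hi, ih, expo_mul h3 hc]

/-- The geometric sums `1 + ζ + ⋯ + ζ^(n-1)` with `ζ = 1 + ϖ`, modulo `ϖ³`. -/
theorem geom_eq_expo {ϖ c : R} (h3 : ϖ ^ 3 = 0) (hc : 24 * c = 1) (n : ℕ) :
    ∑ i ∈ Finset.range n, (1 + ϖ) ^ i =
      (n : R) * expo ϖ c (((n : R) - 1) * (12 * c)) (((n : R) - 1) * ((n : R) - 5) * c) := by
  have key : ∑ i ∈ Finset.range n, (1 + ϖ) ^ i =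
      (n : R) + (n : R) * ((n : R) - 1) * (12 * c) * ϖ +
        (n : R) * ((n : R) - 1) * ((n : R) - 2) * (4 * c) * ϖ ^ 2 := by
    induction n with
    | zero => simp
    | succ n ih =>
      rw [geom_sum_succ, ih]
      push_cast
      linear_combination (-(n : R) * ϖ) * hc +
        ((n : R) * ((n : R) - 1) * ((n : R) - 2) * (4 * c)) * h3
  rw [key]
  unfold expo
  linear_combination (-(3 * (n : R) * ((n : R) - 1) ^ 2 * c * ϖ ^ 2 * (24 * c + 1))) * hc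

/-- The `ω²`-combination of the geometric sums modulo `ϖ³`. -/
theorem prod_geom_pow {ϖ c : R} (h3 : ϖ ^ 3 = 0) (hc : 24 * c = 1) {ι : Type*} [Fintype ι]
    (nn a : ι → ℕ) (S0 : ∑ i, (a i : R) = 0) (S1 : ∑ i, (a i : R) * (nn i : R) = 0)
    (S2 : ∑ i, (a i : R) * (nn i : R) ^ 2 = -1) (j : ℕ) :
    (∏ i, (∑ k ∈ Finset.range (nn i), (1 + ϖ) ^ k) ^ a i) ^ j =
      ((∏ i, nn i ^ a i : ℕ) : R) ^ j * (1 - (j : R) * c * ϖ ^ 2) := by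
  have e1 : ∀ i, (∑ k ∈ Finset.range (nn i), (1 + ϖ) ^ k) ^ a i =
      ((nn i ^ a i : ℕ) : R) * expo ϖ c ((a i : R) * (((nn i : R) - 1) * (12 * c)))
        ((a i : R) * (((nn i : R) - 1) * ((nn i : R) - 5) * c)) := by
    intro i
    rw [geom_eq_expo h3 hc, mul_pow, expo_pow h3 hc]
    push_cast
    rfl
  have e2 : ∑ i, (a i : R) * (((nn i : R) - 1) * (12 * c)) = 0 := by
    have : ∑ i, (a i : R) * (((nn i : R) - 1) * (12 * c)) =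
        (12 * c) * (∑ i, (a i : R) * (nn i : R) - ∑ i, (a i : R)) := by
      rw [← Finset.sum_sub_distrib, Finset.mul_sum]
      exact Finset.sum_congr rfl fun i _ => by ring
    rw [this, S0, S1]; ring
  have e3 : ∑ i, (a i : R) * (((nn i : R) - 1) * ((nn i : R) - 5) * c) = -c := by
    have : ∑ i, (a i : R) * (((nn i : R) - 1) * ((nn i : R) - 5) * c) =
        c * (∑ i, (a i : R) * (nn i : R) ^ 2 - 6 * ∑ i, (a i : R) * (nn i : R)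
          + 5 * ∑ i, (a i : R)) := by
      rw [Finset.mul_sum, Finset.mul_sum, ← Finset.sum_sub_distrib, ← Finset.sum_add_distrib,
        Finset.mul_sum]
      exact Finset.sum_congr rfl fun i _ => by ring
    rw [this, S0, S1, S2]; ring
  rw [Finset.prod_congr rfl fun i _ => e1 i, Finset.prod_mul_distrib, expo_prod h3 hc, e2, e3,
    mul_pow, expo_pow h3 hc]
  push_cast
  congr 1
  unfold expo
  ring

end Abstract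

/-! ## 2. Galois group and power sums -/

section Field

variable (p : ℕ) [hp : Fact p.Prime] (K : Type) [Field K] [NumberField K]
  [IsCyclotomicExtension {p} ℚ K]

/-- The exponent `n_σ ∈ [1, p-1]` with `σ ζ = ζ ^ n_σ`. -/
noncomputable def nn (σ : K ≃ₐ[ℚ] K) : ℕ :=
  (IsCyclotomicExtension.Rat.galEquivZMod p K σ).val.val

theorem nn_cast (σ : K ≃ₐ[ℚ] K) :
    (nn p K σ : ZMod p) = ((IsCyclotomicExtension.Rat.galEquivZMod p K σ : (ZMod p)ˣ) : ZMod p) :=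
  ZMod.natCast_zmod_val _

variable {p K}

theorem nn_smul {ζ : 𝓞 K} (hζ : IsPrimitiveRoot ζ p) (σ : K ≃ₐ[ℚ] K) :
    σ • ζ = ζ ^ nn p K σ :=
  IsCyclotomicExtension.Rat.galEquivZMod_smul_of_pow_eq p K σ hζ.pow_eq_one

theorem nn_apply {ζ : 𝓞 K} (hζ : IsPrimitiveRoot ζ p) (σ : K ≃ₐ[ℚ] K) :
    σ (ζ : K) = (ζ : K) ^ nn p K σ := by
  have h := congrArg (algebraMap (𝓞 K) K) (nn_smul hζ σ)
  rwa [map_pow] at h

theorem not_dvd_nn (σ : K ≃ₐ[ℚ] K) : ¬ p ∣ nn p K σ := by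
  rw [← ZMod.natCast_eq_zero_iff, nn_cast]
  exact Units.ne_zero _

theorem coe_isPrimitiveRoot {ζ : 𝓞 K} (hζ : IsPrimitiveRoot ζ p) : IsPrimitiveRoot (ζ : K) p :=
  hζ.map_of_injective RingOfIntegers.coe_injective

/-- If `σ ζ = ζ ^ m` then `m ≡ n_σ (mod p)`. -/
theorem cast_eq_nn {ζ : 𝓞 K} (hζ : IsPrimitiveRoot ζ p) (σ : K ≃ₐ[ℚ] K) (m : ℕ)
    (h : σ (ζ : K) = (ζ : K) ^ m) : (m : ZMod p) = (nn p K σ : ZMod p) := by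
  have hK := coe_isPrimitiveRoot hζ
  rw [nn_apply hζ] at h
  rw [ZMod.natCast_eq_natCast_iff']
  have := (hK.isOfFinOrder hp.out.ne_zero).pow_inj_mod.1 h
  rw [← hK.eq_orderOf] at this
  exact this.symm

theorem ha_nn {ζ : 𝓞 K} (hζ : IsPrimitiveRoot ζ p) {a : (K ≃ₐ[ℚ] K) → ℕ}
    (ha : IsInvSqFamily p K ζ a) (σ : K ≃ₐ[ℚ] K) :
    (a σ : ZMod p) * (nn p K σ : ZMod p) ^ 2 = 1 :=
  ha σ _ (nn_apply hζ σ)

/-- Sums over the Galois group are sums over `(ZMod p)ˣ`. -/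
theorem sum_gal (F : (ZMod p)ˣ → ZMod p) :
    ∑ σ : K ≃ₐ[ℚ] K, F (IsCyclotomicExtension.Rat.galEquivZMod p K σ) = ∑ x : (ZMod p)ˣ, F x :=
  Equiv.sum_comp (IsCyclotomicExtension.Rat.galEquivZMod p K).toEquiv F

theorem sum_units_pow (h5 : 5 ≤ p) (i : ℕ) (hi : i = 1 ∨ i = 2) :
    ∑ x : (ZMod p)ˣ, ((x : ZMod p)) ^ i = 0 := by
  classical
  rw [FiniteField.sum_pow_units, if_neg]
  rw [ZMod.card]
  intro h
  have := Nat.le_of_dvd (by omega) h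
  omega

theorem sum_units_one : ∑ _x : (ZMod p)ˣ, (1 : ZMod p) = -1 := by
  classical
  have := FiniteField.sum_pow_units (ZMod p) 0
  simpa using this

theorem sum_units_inv (F : (ZMod p)ˣ → ZMod p) :
    ∑ x : (ZMod p)ˣ, F x⁻¹ = ∑ x : (ZMod p)ˣ, F x :=
  Equiv.sum_comp (Equiv.inv (ZMod p)ˣ) F

theorem sumZ0 (h5 : 5 ≤ p) {ζ : 𝓞 K} (hζ : IsPrimitiveRoot ζ p) {a : (K ≃ₐ[ℚ] K) → ℕ}
    (ha : IsInvSqFamily p K ζ a) : ∑ σ : K ≃ₐ[ℚ] K, (a σ : ZMod p) = 0 := by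
  let F : (ZMod p)ˣ → ZMod p := fun x => ((x⁻¹ : (ZMod p)ˣ) : ZMod p) ^ 2
  have e : ∀ σ : K ≃ₐ[ℚ] K, (a σ : ZMod p) =
      F (IsCyclotomicExtension.Rat.galEquivZMod p K σ) := by
    intro σ
    have h := ha_nn hζ ha σ
    rw [nn_cast] at h
    simp only [F]
    rw [← Units.val_pow_eq_pow_val, inv_pow, Units.val_inv_eq_inv_val, Units.val_pow_eq_pow_val]
    exact eq_inv_of_mul_eq_one_left h
  calc ∑ σ : K ≃ₐ[ℚ] K, (a σ : ZMod p)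
      = ∑ σ : K ≃ₐ[ℚ] K, F (IsCyclotomicExtension.Rat.galEquivZMod p K σ) :=
        Finset.sum_congr rfl fun σ _ => e σ
    _ = ∑ x : (ZMod p)ˣ, F x := sum_gal F
    _ = ∑ x : (ZMod p)ˣ, (x : ZMod p) ^ 2 :=
        sum_units_inv (fun x : (ZMod p)ˣ => (x : ZMod p) ^ 2)
    _ = 0 := sum_units_pow h5 2 (Or.inr rfl)

theorem sumZ1 (h5 : 5 ≤ p) {ζ : 𝓞 K} (hζ : IsPrimitiveRoot ζ p) {a : (K ≃ₐ[ℚ] K) → ℕ}
    (ha : IsInvSqFamily p K ζ a) :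
    ∑ σ : K ≃ₐ[ℚ] K, (a σ : ZMod p) * (nn p K σ : ZMod p) = 0 := by
  let F : (ZMod p)ˣ → ZMod p := fun x => ((x⁻¹ : (ZMod p)ˣ) : ZMod p)
  have e : ∀ σ : K ≃ₐ[ℚ] K, (a σ : ZMod p) * (nn p K σ : ZMod p) =
      F (IsCyclotomicExtension.Rat.galEquivZMod p K σ) := by
    intro σ
    have h := ha_nn hζ ha σ
    rw [nn_cast] at h ⊢
    simp only [F]
    rw [Units.val_inv_eq_inv_val]
    refine eq_inv_of_mul_eq_one_left ?_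
    rw [← h]; ring
  calc ∑ σ : K ≃ₐ[ℚ] K, (a σ : ZMod p) * (nn p K σ : ZMod p)
      = ∑ σ : K ≃ₐ[ℚ] K, F (IsCyclotomicExtension.Rat.galEquivZMod p K σ) :=
        Finset.sum_congr rfl fun σ _ => e σ
    _ = ∑ x : (ZMod p)ˣ, F x := sum_gal F
    _ = ∑ x : (ZMod p)ˣ, (x : ZMod p) :=
        sum_units_inv (fun x : (ZMod p)ˣ => (x : ZMod p))
    _ = 0 := by simpa using sum_units_pow h5 1 (Or.inl rfl)

theorem sumZ2 {ζ : 𝓞 K} (hζ : IsPrimitiveRoot ζ p) {a : (K ≃ₐ[ℚ] K) → ℕ}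
    (ha : IsInvSqFamily p K ζ a) :
    ∑ σ : K ≃ₐ[ℚ] K, (a σ : ZMod p) * (nn p K σ : ZMod p) ^ 2 = -1 := by
  rw [Finset.sum_congr rfl fun σ _ => ha_nn hζ ha σ]
  have := sum_gal (p := p) (K := K) (fun _ => (1 : ZMod p))
  rw [this, sum_units_one]

/-! ## 3. The cyclotomic units `ξ_n = 1 + ζ + ⋯ + ζ^(n-1)` -/

/-- `ξ_n = 1 + ζ + ⋯ + ζ^(n-1)`. -/
noncomputable def xi (ζ : 𝓞 K) (n : ℕ) : 𝓞 K := ∑ i ∈ Finset.range n, ζ ^ i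

theorem sub_one_mul_xi (ζ : 𝓞 K) (n : ℕ) : (ζ - 1) * xi ζ n = ζ ^ n - 1 :=
  mul_geom_sum ζ n

theorem smul_sub_one {ζ : 𝓞 K} (hζ : IsPrimitiveRoot ζ p) (σ : K ≃ₐ[ℚ] K) :
    σ • (ζ - 1) = (ζ - 1) * xi ζ (nn p K σ) := by
  rw [sub_one_mul_xi, smul_sub, smul_one, nn_smul hζ]

theorem isUnit_xi {ζ : 𝓞 K} (hζ : IsPrimitiveRoot ζ p) {n : ℕ} (hn : ¬ p ∣ n) :
    IsUnit (xi ζ n) :=
  hζ.geom_sum_isUnit hp.out.two_le ((Nat.Prime.coprime_iff_not_dvd hp.out).2 hn).symm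

theorem sub_one_ne_zero {ζ : 𝓞 K} (hζ : IsPrimitiveRoot ζ p) : ζ - 1 ≠ 0 :=
  sub_ne_zero.2 (hζ.ne_one hp.out.one_lt)

theorem xi_congr {ζ : 𝓞 K} (hζ : IsPrimitiveRoot ζ p) {n n' : ℕ}
    (h : (n : ZMod p) = (n' : ZMod p)) : xi ζ n = xi ζ n' := by
  apply mul_left_cancel₀ (sub_one_ne_zero hζ)
  rw [sub_one_mul_xi, sub_one_mul_xi]
  congr 1
  rw [(hζ.isOfFinOrder hp.out.ne_zero).pow_inj_mod, ← hζ.eq_orderOf]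
  exact (ZMod.natCast_eq_natCast_iff' _ _ _).1 h

theorem nn_mul_cast (τ σ : K ≃ₐ[ℚ] K) :
    (nn p K (τ * σ) : ZMod p) = (nn p K τ : ZMod p) * (nn p K σ : ZMod p) := by
  rw [nn_cast, nn_cast, nn_cast, map_mul, Units.val_mul]

/-- `τ(ξ_{n_σ}) · ξ_{n_τ} = ξ_{n_{τσ}}`. -/
theorem smul_xi_mul {ζ : 𝓞 K} (hζ : IsPrimitiveRoot ζ p) (τ σ : K ≃ₐ[ℚ] K) :
    τ • xi ζ (nn p K σ) * xi ζ (nn p K τ) = xi ζ (nn p K (τ * σ)) := by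
  have h1 : xi ζ (nn p K (τ * σ)) = xi ζ (nn p K τ * nn p K σ) :=
    xi_congr hζ (by rw [nn_mul_cast]; push_cast; rfl)
  rw [h1]
  apply mul_left_cancel₀ (sub_one_ne_zero hζ)
  rw [sub_one_mul_xi, mul_comm (τ • xi ζ (nn p K σ)), ← mul_assoc, ← smul_sub_one hζ τ,
    ← smul_mul', sub_one_mul_xi, smul_sub, smul_one, smul_pow', nn_smul hζ, pow_mul]

/-- The unit `ξ_{n_σ}`. -/
noncomputable def xiU {ζ : 𝓞 K} (hζ : IsPrimitiveRoot ζ p) (σ : K ≃ₐ[ℚ] K) : (𝓞 K)ˣ :=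
  (isUnit_xi hζ (not_dvd_nn σ)).unit

theorem coe_xiU {ζ : 𝓞 K} (hζ : IsPrimitiveRoot ζ p) (σ : K ≃ₐ[ℚ] K) :
    ((xiU hζ σ : (𝓞 K)ˣ) : 𝓞 K) = xi ζ (nn p K σ) :=
  IsUnit.unit_spec _

/-- The `ω²`-cyclotomic unit `u = ∏_σ ξ_{n_σ}^{a σ}`. -/
noncomputable def uU {ζ : 𝓞 K} (hζ : IsPrimitiveRoot ζ p) (a : (K ≃ₐ[ℚ] K) → ℕ) : (𝓞 K)ˣ :=
  ∏ σ : K ≃ₐ[ℚ] K, xiU hζ σ ^ a σ

theorem coe_uU {ζ : 𝓞 K} (hζ : IsPrimitiveRoot ζ p) (a : (K ≃ₐ[ℚ] K) → ℕ) :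
    ((uU hζ a : (𝓞 K)ˣ) : 𝓞 K) = ∏ σ : K ≃ₐ[ℚ] K, xi ζ (nn p K σ) ^ a σ := by
  rw [uU, Units.coe_prod]
  exact Finset.prod_congr rfl fun σ _ => by rw [Units.val_pow_eq_pow_val, coe_xiU]

theorem etaElt_eq {ζ : 𝓞 K} (hζ : IsPrimitiveRoot ζ p) (a : (K ≃ₐ[ℚ] K) → ℕ) :
    etaElt K ζ a = (ζ - 1) ^ (∑ σ : K ≃ₐ[ℚ] K, a σ) * (uU hζ a : 𝓞 K) := by
  rw [coe_uU, etaElt, ← Finset.prod_pow_eq_pow_sum, ← Finset.prod_mul_distrib]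
  exact Finset.prod_congr rfl fun σ _ => by rw [smul_sub_one hζ, mul_pow]

theorem dvd_sum_a (h5 : 5 ≤ p) {ζ : 𝓞 K} (hζ : IsPrimitiveRoot ζ p) {a : (K ≃ₐ[ℚ] K) → ℕ}
    (ha : IsInvSqFamily p K ζ a) : p ∣ ∑ σ : K ≃ₐ[ℚ] K, a σ := by
  rw [← ZMod.natCast_eq_zero_iff, Nat.cast_sum]
  exact sumZ0 h5 hζ ha

/-- `a (τ⁻¹ σ) ≡ m² · a σ (mod p)` when `τ ζ = ζ ^ m`. -/
theorem a_inv_mul {ζ : 𝓞 K} (hζ : IsPrimitiveRoot ζ p) {a : (K ≃ₐ[ℚ] K) → ℕ}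
    (ha : IsInvSqFamily p K ζ a) (τ σ : K ≃ₐ[ℚ] K) (m : ℕ) (hm : τ (ζ : K) = (ζ : K) ^ m) :
    ∃ t : ℤ, (a (τ⁻¹ * σ) : ℤ) = (m : ℤ) ^ 2 * (a σ : ℤ) + (p : ℤ) * t := by
  have h1 := ha_nn hζ ha (τ⁻¹ * σ)
  have h2 := ha_nn hζ ha σ
  have h3 : (nn p K σ : ZMod p) = (m : ZMod p) * (nn p K (τ⁻¹ * σ) : ZMod p) := by
    rw [cast_eq_nn hζ τ m hm, ← nn_mul_cast, mul_inv_cancel_left]
  rw [h3] at h2
  have h4 : (((m : ℤ) ^ 2 * (a σ : ℤ) : ℤ) : ZMod p) = ((a (τ⁻¹ * σ) : ℤ) : ZMod p) := by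
    push_cast
    linear_combination (a (τ⁻¹ * σ) : ZMod p) * h2 - ((m : ZMod p) ^ 2 * (a σ : ZMod p)) * h1
  obtain ⟨t, ht⟩ := (ZMod.intCast_eq_intCast_iff_dvd_sub _ _ _).1 h4
  exact ⟨t, by linarith⟩

theorem unitEigen2_uU (h5 : 5 ≤ p) {ζ : 𝓞 K} (hζ : IsPrimitiveRoot ζ p)
    {a : (K ≃ₐ[ℚ] K) → ℕ} (ha : IsInvSqFamily p K ζ a) : UnitEigen2 p K ζ (uU hζ a) := by
  intro τ m hm
  obtain ⟨k, hk⟩ := dvd_sum_a h5 hζ ha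
  choose t ht using fun σ => a_inv_mul hζ ha τ σ m hm
  -- the image of `u` under `τ` as a unit
  have key : τ • ((uU hζ a : (𝓞 K)ˣ) : 𝓞 K) * ((xiU hζ τ ^ (∑ σ : K ≃ₐ[ℚ] K, a σ) : (𝓞 K)ˣ) : 𝓞 K)
      = ((∏ σ : K ≃ₐ[ℚ] K, xiU hζ (τ * σ) ^ a σ : (𝓞 K)ˣ) : 𝓞 K) := by
    rw [coe_uU, Finset.smul_prod', Units.coe_prod, Units.val_pow_eq_pow_val, coe_xiU,
      ← Finset.prod_pow_eq_pow_sum, ← Finset.prod_mul_distrib]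
    refine Finset.prod_congr rfl fun σ _ => ?_
    rw [Units.val_pow_eq_pow_val, coe_xiU, smul_pow', ← mul_pow, smul_xi_mul hζ]
  have e1 : (∏ σ : K ≃ₐ[ℚ] K, xiU hζ (τ * σ) ^ a σ : (𝓞 K)ˣ) =
      ∏ σ : K ≃ₐ[ℚ] K, xiU hζ σ ^ a (τ⁻¹ * σ) := by
    rw [← Equiv.prod_comp (Equiv.mulLeft τ) (fun σ => xiU hζ σ ^ a (τ⁻¹ * σ))]
    exact Finset.prod_congr rfl fun σ _ => by simp
  have e2 : (∏ σ : K ≃ₐ[ℚ] K, xiU hζ σ ^ a (τ⁻¹ * σ) : (𝓞 K)ˣ) =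
      uU hζ a ^ (m ^ 2) * (∏ σ : K ≃ₐ[ℚ] K, xiU hζ σ ^ t σ) ^ p := by
    rw [uU, ← Finset.prod_pow, ← Finset.prod_pow, ← Finset.prod_mul_distrib]
    refine Finset.prod_congr rfl fun σ _ => ?_
    rw [← zpow_natCast (xiU hζ σ) (a (τ⁻¹ * σ)), ht σ, zpow_add, ← zpow_natCast (xiU hζ σ ^ a σ),
      ← zpow_natCast (xiU hζ σ) (a σ), ← zpow_mul, ← zpow_natCast (xiU hζ σ ^ t σ), ← zpow_mul]
    congr 2
    · push_cast; ring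
    · ring
  refine ⟨(∏ σ : K ≃ₐ[ℚ] K, xiU hζ σ ^ t σ) * (xiU hζ τ)⁻¹ ^ k, ?_⟩
  have e3 : τ • ((uU hζ a : (𝓞 K)ˣ) : 𝓞 K) =
      ((uU hζ a ^ (m ^ 2) * ((∏ σ : K ≃ₐ[ℚ] K, xiU hζ σ ^ t σ) * (xiU hζ τ)⁻¹ ^ k) ^ p :
        (𝓞 K)ˣ) : 𝓞 K) := by
    have : uU hζ a ^ (m ^ 2) * ((∏ σ : K ≃ₐ[ℚ] K, xiU hζ σ ^ t σ) * (xiU hζ τ)⁻¹ ^ k) ^ p =
        (∏ σ : K ≃ₐ[ℚ] K, xiU hζ (τ * σ) ^ a σ) * (xiU hζ τ ^ (∑ σ : K ≃ₐ[ℚ] K, a σ))⁻¹ := by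
      rw [e1, e2, hk, mul_pow, ← pow_mul, inv_pow, mul_comm k p, mul_assoc]
    rw [this, Units.val_mul, Units.eq_mul_inv_iff_mul_eq]
    exact key
  have e0 : algebraMap (𝓞 K) K (τ • ((uU hζ a : (𝓞 K)ˣ) : 𝓞 K)) =
      τ (((uU hζ a : (𝓞 K)ˣ) : 𝓞 K) : K) := rfl
  have e4 := congrArg (algebraMap (𝓞 K) K) e3
  rw [e0] at e4
  rw [e4]
  simp

end Field


/-! ## 4. The unit `u` modulo `λ³` -/

section Cube

variable {p : ℕ} [hp : Fact p.Prime] {K : Type} [Field K] [NumberField K]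
  [IsCyclotomicExtension {p} ℚ K]

theorem toInteger_eq {ζ : 𝓞 K} (hζ : IsPrimitiveRoot ζ p) :
    (coe_isPrimitiveRoot hζ).toInteger = ζ :=
  RingOfIntegers.ext rfl

theorem sub_one_dvd_intCast_iff {ζ : 𝓞 K} (hζ : IsPrimitiveRoot ζ p) {n : ℤ} :
    ζ - 1 ∣ (n : 𝓞 K) ↔ (p : ℤ) ∣ n := by
  have := IsCyclotomicExtension.Rat.zeta_sub_one_dvd_intCast_iff' p (coe_isPrimitiveRoot hζ)
    (n := n)
  rwa [toInteger_eq hζ] at this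

theorem sub_one_pow_dvd_prime {ζ : 𝓞 K} (hζ : IsPrimitiveRoot ζ p) :
    (ζ - 1) ^ (p - 1) ∣ (p : 𝓞 K) := by
  have := (IsCyclotomicExtension.Rat.associated_zeta_sub_one_pow_prime p
    (coe_isPrimitiveRoot hζ)).dvd
  rwa [toInteger_eq hζ] at this

theorem sub_one_cube_dvd_prime (h5 : 5 ≤ p) {ζ : 𝓞 K} (hζ : IsPrimitiveRoot ζ p) :
    (ζ - 1) ^ 3 ∣ (p : 𝓞 K) :=
  (pow_dvd_pow _ (by omega)).trans (sub_one_pow_dvd_prime hζ)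

theorem intCast_eq_of_zmod {R : Type*} [CommRing R] {q : ℕ} (hqR : (q : R) = 0) {x y : ℤ}
    (h : (x : ZMod q) = (y : ZMod q)) : (x : R) = (y : R) := by
  obtain ⟨d, hd⟩ := (ZMod.intCast_eq_intCast_iff_dvd_sub x y q).1 h
  have h' : (y : R) - (x : R) = (q : R) * (d : R) := by
    exact_mod_cast congrArg (Int.cast : ℤ → R) hd
  rw [hqR, zero_mul] at h'
  exact (sub_eq_zero.1 h').symm

theorem not_dvd_24 (h5 : 5 ≤ p) : ¬ p ∣ 24 := by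
  intro h
  have h' : p ∣ 2 ^ 3 * 3 := by simpa using h
  rcases (Nat.Prime.dvd_mul hp.out).1 h' with h2 | h3
  · have := Nat.le_of_dvd (by norm_num) (hp.out.dvd_of_dvd_pow h2); omega
  · have := Nat.le_of_dvd (by norm_num) h3; omega

theorem cube_main (h5 : 5 ≤ p) {ζ : 𝓞 K} (hζ : IsPrimitiveRoot ζ p)
    {a : (K ≃ₐ[ℚ] K) → ℕ} (ha : IsInvSqFamily p K ζ a) (j : ℕ) (m : ℤ)
    (h : ((uU hζ a : (𝓞 K)ˣ) : 𝓞 K) ^ j - (m : 𝓞 K) ∈ Ideal.span {ζ - 1} ^ 3) : p ∣ j := by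
  -- an integer inverse of `24` modulo `p`
  obtain ⟨h24, hh24⟩ : ∃ h24 : ℤ, (24 : ZMod p) * (h24 : ZMod p) = 1 := by
    have h24ne : (24 : ZMod p) ≠ 0 := by
      have : ((24 : ℕ) : ZMod p) ≠ 0 := by
        rw [Ne, ZMod.natCast_eq_zero_iff]; exact not_dvd_24 h5
      exact_mod_cast this
    refine ⟨(((24 : ZMod p)⁻¹).val : ℤ), ?_⟩
    rw [Int.cast_natCast, ZMod.natCast_zmod_val, mul_inv_cancel₀ h24ne]
  have hI : Ideal.span {ζ - 1} ^ 3 = Ideal.span {(ζ - 1) ^ 3} := Ideal.span_singleton_pow _ _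
  have hpR : ((p : ℕ) : 𝓞 K ⧸ Ideal.span {ζ - 1} ^ 3) = 0 := by
    have := Ideal.Quotient.eq_zero_iff_mem.2
      (show (p : 𝓞 K) ∈ Ideal.span {ζ - 1} ^ 3 by
        rw [hI, Ideal.mem_span_singleton]; exact sub_one_cube_dvd_prime h5 hζ)
    rwa [map_natCast] at this
  set mk := Ideal.Quotient.mk (Ideal.span {ζ - 1} ^ 3) with hmk
  set ϖ : 𝓞 K ⧸ Ideal.span {ζ - 1} ^ 3 := mk (ζ - 1) with hϖ
  have h3 : ϖ ^ 3 = 0 := by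
    rw [hϖ, ← map_pow]
    exact Ideal.Quotient.eq_zero_iff_mem.2 (by rw [hI]; exact Ideal.mem_span_singleton_self _)
  have hc : (24 : 𝓞 K ⧸ Ideal.span {ζ - 1} ^ 3) * ((h24 : ℤ) : 𝓞 K ⧸ Ideal.span {ζ - 1} ^ 3) = 1 := by
    have := intCast_eq_of_zmod hpR (x := 24 * h24) (y := 1) (by push_cast; exact hh24)
    push_cast at this; exact this
  have S0 : ∑ σ : K ≃ₐ[ℚ] K, ((a σ : ℕ) : 𝓞 K ⧸ Ideal.span {ζ - 1} ^ 3) = 0 := by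
    have := intCast_eq_of_zmod hpR (x := ∑ σ : K ≃ₐ[ℚ] K, (a σ : ℤ)) (y := 0)
      (by push_cast; exact sumZ0 h5 hζ ha)
    push_cast at this; exact this
  have S1 : ∑ σ : K ≃ₐ[ℚ] K, ((a σ : ℕ) : 𝓞 K ⧸ Ideal.span {ζ - 1} ^ 3) *
      ((nn p K σ : ℕ) : 𝓞 K ⧸ Ideal.span {ζ - 1} ^ 3) = 0 := by
    have := intCast_eq_of_zmod hpR (x := ∑ σ : K ≃ₐ[ℚ] K, (a σ : ℤ) * (nn p K σ : ℤ)) (y := 0)
      (by push_cast; exact sumZ1 h5 hζ ha)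
    push_cast at this; exact this
  have S2 : ∑ σ : K ≃ₐ[ℚ] K, ((a σ : ℕ) : 𝓞 K ⧸ Ideal.span {ζ - 1} ^ 3) *
      ((nn p K σ : ℕ) : 𝓞 K ⧸ Ideal.span {ζ - 1} ^ 3) ^ 2 = -1 := by
    have := intCast_eq_of_zmod hpR (x := ∑ σ : K ≃ₐ[ℚ] K, (a σ : ℤ) * (nn p K σ : ℤ) ^ 2)
      (y := -1) (by push_cast; exact sumZ2 hζ ha)
    push_cast at this; exact this
  have hmkζ : mk ζ = 1 + ϖ := by rw [hϖ, map_sub, map_one]; ring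
  have hxi : ∀ n : ℕ, mk (xi ζ n) = ∑ i ∈ Finset.range n, (1 + ϖ) ^ i := by
    intro n
    rw [xi, map_sum]
    exact Finset.sum_congr rfl fun i _ => by rw [map_pow, hmkζ]
  have hu : mk (((uU hζ a : (𝓞 K)ˣ) : 𝓞 K) ^ j) =
      ((∏ σ : K ≃ₐ[ℚ] K, nn p K σ ^ a σ : ℕ) : 𝓞 K ⧸ Ideal.span {ζ - 1} ^ 3) ^ j *
        (1 - (j : 𝓞 K ⧸ Ideal.span {ζ - 1} ^ 3) * ((h24 : ℤ) : 𝓞 K ⧸ Ideal.span {ζ - 1} ^ 3) *
          ϖ ^ 2) := by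
    rw [← prod_geom_pow h3 hc (nn p K) a S0 S1 S2 j, coe_uU, map_pow, map_prod]
    congr 1
    exact Finset.prod_congr rfl fun σ _ => by rw [map_pow, hxi]
  have hm : mk (((uU hζ a : (𝓞 K)ˣ) : 𝓞 K) ^ j) = mk (m : 𝓞 K) := Ideal.Quotient.eq.2 h
  obtain ⟨R0, hR0def⟩ : ∃ R0 : ℕ, R0 = ∏ σ : K ≃ₐ[ℚ] K, nn p K σ ^ a σ := ⟨_, rfl⟩
  rw [← hR0def] at hu
  have hX : (((R0 : ℤ) ^ j - m : ℤ) : 𝓞 K) +
      ((-((R0 : ℤ) ^ j * (j : ℤ) * h24) : ℤ) : 𝓞 K) * (ζ - 1) ^ 2 ∈ Ideal.span {ζ - 1} ^ 3 := by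
    rw [← Ideal.Quotient.eq_zero_iff_mem]
    change mk _ = 0
    have e : mk ((((R0 : ℤ) ^ j - m : ℤ) : 𝓞 K) +
        ((-((R0 : ℤ) ^ j * (j : ℤ) * h24) : ℤ) : 𝓞 K) * (ζ - 1) ^ 2) =
        (R0 : 𝓞 K ⧸ Ideal.span {ζ - 1} ^ 3) ^ j *
        (1 - (j : 𝓞 K ⧸ Ideal.span {ζ - 1} ^ 3) * ((h24 : ℤ) : 𝓞 K ⧸ Ideal.span {ζ - 1} ^ 3) *
          ϖ ^ 2) - mk (m : 𝓞 K) := by
      rw [map_add, map_mul, map_pow, map_intCast, map_intCast, map_intCast, ← hϖ]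
      push_cast
      ring
    rw [e, ← hu, hm, sub_self]
  rw [hI, Ideal.mem_span_singleton] at hX
  obtain ⟨w, hw⟩ := hX
  have d0 : ζ - 1 ∣ ((((R0 : ℤ) ^ j - m : ℤ)) : 𝓞 K) :=
    ⟨(ζ - 1) ^ 2 * w - ((-((R0 : ℤ) ^ j * (j : ℤ) * h24) : ℤ) : 𝓞 K) * (ζ - 1), by
      linear_combination hw⟩
  obtain ⟨d, hd⟩ := (sub_one_dvd_intCast_iff hζ).1 d0
  obtain ⟨w', hw'⟩ := sub_one_cube_dvd_prime h5 hζ
  have d2 : ζ - 1 ∣ (((-((R0 : ℤ) ^ j * (j : ℤ) * h24) : ℤ)) : 𝓞 K) := by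
    refine ⟨w - w' * (d : 𝓞 K), ?_⟩
    apply mul_left_cancel₀ (pow_ne_zero 2 (sub_one_ne_zero hζ))
    have e : ((((R0 : ℤ) ^ j - m : ℤ)) : 𝓞 K) = (ζ - 1) ^ 3 * w' * (d : 𝓞 K) := by
      rw [hd, Int.cast_mul, Int.cast_natCast, hw']
    linear_combination hw - e
  have p2 := (sub_one_dvd_intCast_iff hζ).1 d2
  have z2 := (ZMod.intCast_zmod_eq_zero_iff_dvd _ _).2 p2
  push_cast at z2
  have hR0 : (R0 : ZMod p) ≠ 0 := by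
    rw [hR0def, Nat.cast_prod]
    refine Finset.prod_ne_zero_iff.2 fun σ _ => ?_
    rw [Nat.cast_pow, nn_cast]
    exact pow_ne_zero _ (Units.ne_zero _)
  have hh : ((h24 : ℤ) : ZMod p) ≠ 0 := by
    intro h0
    rw [h0, mul_zero] at hh24
    exact zero_ne_one hh24
  have hj : (j : ZMod p) = 0 := by
    rcases mul_eq_zero.1 (neg_eq_zero.1 z2) with h1 | h1
    · rcases mul_eq_zero.1 h1 with h1 | h1
      · exact absurd (eq_zero_of_pow_eq_zero h1) hR0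
      · exact h1
    · exact absurd h1 hh
  exact (ZMod.natCast_eq_zero_iff _ _).1 hj

end Cube

/-- **[Un-L]** the `ω²`-cyclotomic unit modulo `λ³`. -/
theorem etaCube {p : ℕ} (hp : p.Prime) (h5 : 5 ≤ p) : EtaCube p := by
  intro K _ _ _ ζ hζ a ha
  have : Fact p.Prime := ⟨hp⟩
  obtain ⟨k, hk⟩ := dvd_sum_a h5 hζ ha
  refine ⟨k, uU hζ a, ?_, unitEigen2_uU h5 hζ ha, fun j m h => cube_main h5 hζ ha j m h⟩
  rw [etaElt_eq hζ a, hk, ← pow_mul, mul_comm k p]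

end Fermat.Agent.S14T.EtaCube
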