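/-
S14T — PowInt.lean (helper90).  Leaf [Un-P]: `p`-th powers of integers of `ℚ(ζ_p)` are rational
integers modulo `λ³` (indeed modulo `λ^p`), `λ = ζ - 1`.
-/
import Fermat.Agent.S14T.Leaves

set_option autoImplicit false

namespace Fermat.Agent.S14T.PowInt

open NumberField Polynomial
open scoped Pointwise nonZeroDivisors

variable {p : ℕ} {K : Type} [Field K] [NumberField K] [IsCyclotomicExtension {p} ℚ K]

/-- Every integer of `ℚ(ζ_p)` is congruent to a rational integer modulo `λ = ζ - 1`. -/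
theorem exists_int_sub_mem (hp : p.Prime) (ζ : 𝓞 K) (hζ : IsPrimitiveRoot ζ p) (w : 𝓞 K) :
    ∃ a : ℤ, ζ - 1 ∣ w - (a : 𝓞 K) := by
  have : Fact p.Prime := ⟨hp⟩
  have hζK : IsPrimitiveRoot (ζ : K) p :=
    hζ.map_of_injective (FaithfulSMul.algebraMap_injective (𝓞 K) K)
  have hint : hζK.toInteger = ζ := by ext; rfl
  obtain ⟨f, hf⟩ := hζK.integralPowerBasis.exists_eq_aeval' w
  rw [IsPrimitiveRoot.integralPowerBasis_gen, hint] at hf
  refine ⟨f.eval 1, ?_⟩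
  have h1 : ((f.eval 1 : ℤ) : 𝓞 K) = aeval (1 : 𝓞 K) f := by
    rw [Polynomial.aeval_def, Polynomial.eval₂_at_one]
    simp
  rw [hf, h1]
  simp only [Polynomial.aeval_def, Polynomial.eval₂_eq_eval_map]
  exact Polynomial.sub_dvd_eval_sub ζ 1 (f.map (algebraMap ℤ (𝓞 K)))

omit [NumberField K] [IsCyclotomicExtension {p} ℚ K] in
/-- `p ∈ (λ)^(p-1)`. -/
theorem zeta_sub_one_pow_dvd_prime (hp : p.Prime) (ζ : 𝓞 K) (hζ : IsPrimitiveRoot ζ p) :
    (ζ - 1) ^ (p - 1) ∣ (p : 𝓞 K) := by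
  have : Fact p.Prime := ⟨hp⟩
  have hζK : IsPrimitiveRoot (ζ : K) p :=
    hζ.map_of_injective (FaithfulSMul.algebraMap_injective (𝓞 K) K)
  have hint : hζK.toInteger = ζ := by ext; rfl
  have h := IsCyclotomicExtension.Rat.associated_zeta_sub_one_pow_prime p hζK
  rw [hint] at h
  exact h.dvd

/-- `w^p` is a rational integer modulo `λ^p`. -/
theorem exists_int_pow_sub_mem (hp : p.Prime) (ζ : 𝓞 K) (hζ : IsPrimitiveRoot ζ p) (w : 𝓞 K) :
    ∃ m : ℤ, (ζ - 1) ^ p ∣ w ^ p - (m : 𝓞 K) := by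
  obtain ⟨a, t, ht⟩ := exists_int_sub_mem hp ζ hζ w
  obtain ⟨c, hc⟩ := zeta_sub_one_pow_dvd_prime hp ζ hζ
  have hw : w = (a : 𝓞 K) + (ζ - 1) * t := by rw [← ht]; ring
  obtain ⟨r, hr⟩ := exists_add_pow_prime_eq hp (a : 𝓞 K) ((ζ - 1) * t)
  refine ⟨a ^ p, ?_⟩
  have hp1 : p = (p - 1) + 1 := (Nat.succ_pred_eq_of_pos hp.pos).symm
  have hpow : (ζ - 1) ^ p = (ζ - 1) ^ (p - 1) * (ζ - 1) := by
    conv_lhs => rw [hp1, pow_succ]
  refine ⟨t ^ p + c * (a : 𝓞 K) * t * r, ?_⟩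
  rw [hw, hr, Int.cast_pow, mul_pow, mul_add, hc, hpow]
  ring

theorem powInt {p : ℕ} (hp : p.Prime) (h3 : 3 ≤ p) : PowInt p := by
  intro K _ _ _ ζ hζ w
  obtain ⟨m, hm⟩ := exists_int_pow_sub_mem hp ζ hζ w
  refine ⟨m, ?_⟩
  rw [Ideal.span_singleton_pow, Ideal.mem_span_singleton]
  exact (pow_dvd_pow (ζ - 1) h3).trans hm

end Fermat.Agent.S14T.PowInt
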