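/-
S14T [Th], consumer part (I), B-proof (helper33):
`ThaineCoreV` for all `q ≡ 1 mod p`  ⟹  `ThaineCore p`.

For a degree-one prime `Q` of `K = ℚ(ζ_p)` with `q = N Q ≠ p` we have `q ≡ 1 mod p`, the primes
of `K` above `q` are the `ρ • Q` (`ρ ∈ Gal(K/ℚ)`), pairwise distinct, and the valuations of the
Thaine element `x` at the primes not above `q` are divisible by `q - 1`, hence by `p`.
-/
import Fermat.Agent.S14T.ThCore
import Fermat.Agent.S14T.ThCoreDef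

set_option autoImplicit false

namespace Fermat.Agent.S14T.ThFactB

open NumberField UniqueFactorizationMonoid
open scoped Pointwise

variable {K : Type} [Field K] [NumberField K]

theorem smul_intCast (σ : K ≃ₐ[ℚ] K) (n : ℤ) : σ • (n : 𝓞 K) = (n : 𝓞 K) :=
  map_intCast (MulSemiringAction.toRingHom (K ≃ₐ[ℚ] K) (𝓞 K) σ) n

theorem smul_natCast (σ : K ≃ₐ[ℚ] K) (n : ℕ) : σ • (n : 𝓞 K) = (n : 𝓞 K) :=
  map_natCast (MulSemiringAction.toRingHom (K ≃ₐ[ℚ] K) (𝓞 K) σ) n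

/-- A prime `p` different from the (prime) norm of `Q` does not lie in `Q`. -/
theorem natCast_not_mem {p : ℕ} (hp : p.Prime) (Q : Ideal (𝓞 K)) [Q.IsPrime]
    (hq : (Ideal.absNorm Q).Prime) (hne : Ideal.absNorm Q ≠ p) : (p : 𝓞 K) ∉ Q := by
  intro hmem
  have hqQ : ((Ideal.absNorm Q : ℕ) : 𝓞 K) ∈ Q := Ideal.absNorm_mem Q
  have hcop : IsCoprime (p : ℤ) (Ideal.absNorm Q : ℤ) :=
    Nat.isCoprime_iff_coprime.mpr ((Nat.coprime_primes hp hq).mpr (Ne.symm hne))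
  obtain ⟨a, b, hab⟩ := hcop
  have h1 : (1 : 𝓞 K) ∈ Q := by
    have h2 : ((a * p + b * Ideal.absNorm Q : ℤ) : 𝓞 K) ∈ Q := by
      push_cast
      exact Q.add_mem (Q.mul_mem_left _ hmem) (Q.mul_mem_left _ hqQ)
    rw [hab] at h2
    simpa using h2
  exact (Ideal.IsPrime.ne_top inferInstance) ((Ideal.eq_top_iff_one Q).mpr h1)

omit [NumberField K] in
/-- `ζ ≢ 1` modulo a prime not containing `p`. -/
theorem zeta_sub_one_not_mem {p : ℕ} (hp : p.Prime) {ζ : 𝓞 K} (hζ : IsPrimitiveRoot ζ p)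
    (Q : Ideal (𝓞 K)) (hpQ : (p : 𝓞 K) ∉ Q) : ζ - 1 ∉ Q := by
  intro h
  apply hpQ
  have hsum := hζ.geom_sum_eq_zero hp.one_lt
  have h2 : ∑ i ∈ Finset.range p, (ζ ^ i - 1) ∈ Q := by
    refine Q.sum_mem fun i _ => ?_
    exact Ideal.mem_of_dvd Q (by simpa using sub_dvd_pow_sub_pow ζ 1 i) h
  rw [Finset.sum_sub_distrib, hsum] at h2
  simpa using h2

omit [NumberField K] in
/-- `ζ mod Q` is a primitive `p`-th root of unity when `p ∉ Q`. -/
theorem isPrimitiveRoot_mk {p : ℕ} (hp : p.Prime) {ζ : 𝓞 K} (hζ : IsPrimitiveRoot ζ p)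
    (Q : Ideal (𝓞 K)) (hpQ : (p : 𝓞 K) ∉ Q) : IsPrimitiveRoot (Ideal.Quotient.mk Q ζ) p := by
  have h1 : (Ideal.Quotient.mk Q ζ) ^ p = 1 := by rw [← map_pow, hζ.pow_eq_one, map_one]
  have h2 : Ideal.Quotient.mk Q ζ ≠ 1 := by
    intro h
    apply zeta_sub_one_not_mem hp hζ Q hpQ
    rw [← Ideal.Quotient.eq_zero_iff_mem, map_sub, h, map_one, sub_self]
  have : Fact p.Prime := ⟨hp⟩
  have h3 := orderOf_eq_prime h1 h2
  rw [← h3]
  exact IsPrimitiveRoot.orderOf _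

theorem card_quot (Q : Ideal (𝓞 K)) : Nat.card (𝓞 K ⧸ Q) = Ideal.absNorm Q := by
  rw [Ideal.absNorm_apply, Submodule.cardQuot_apply]

/-- `p ∣ N Q - 1` for a degree-one prime `Q` not above `p`. -/
theorem dvd_absNorm_sub_one {p : ℕ} (hp : p.Prime) {ζ : 𝓞 K} (hζ : IsPrimitiveRoot ζ p)
    (Q : Ideal (𝓞 K)) [Q.IsPrime] (hq : (Ideal.absNorm Q).Prime) (hne : Ideal.absNorm Q ≠ p) :
    p ∣ Ideal.absNorm Q - 1 := by
  have hQ0 : Q ≠ ⊥ := by
    rintro rfl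
    rw [Ideal.absNorm_bot] at hq
    exact Nat.not_prime_zero hq
  have : Q.IsMaximal := Ideal.IsPrime.isMaximal inferInstance hQ0
  let : Field (𝓞 K ⧸ Q) := Ideal.Quotient.field Q
  have hprim := isPrimitiveRoot_mk hp hζ Q (natCast_not_mem hp Q hq hne)
  have : Finite (𝓞 K ⧸ Q) :=
    Nat.finite_of_card_ne_zero (by rw [card_quot]; exact hq.ne_zero)
  have := Fintype.ofFinite (𝓞 K ⧸ Q)
  have h1 : (Ideal.Quotient.mk Q ζ) ^ (Fintype.card (𝓞 K ⧸ Q) - 1) = 1 :=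
    FiniteField.pow_card_sub_one_eq_one _ (hprim.ne_zero hp.ne_zero)
  rw [← Nat.card_eq_fintype_card, card_quot] at h1
  exact hprim.dvd_of_pow_eq_one _ h1

/-- Degree one: every integer of `K` is congruent to a rational integer modulo `Q`. -/
theorem exists_int_sub_mem (Q : Ideal (𝓞 K)) [Q.IsPrime] (hq : (Ideal.absNorm Q).Prime)
    (a : 𝓞 K) : ∃ n : ℤ, a - (n : 𝓞 K) ∈ Q := by
  have : Fact (Ideal.absNorm Q).Prime := ⟨hq⟩
  have h1 : (1 : 𝓞 K ⧸ Q) ≠ 0 := by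
    intro h
    exact (Ideal.Quotient.zero_ne_one_iff.mpr (Ideal.IsPrime.ne_top inferInstance)) h.symm
  have htop : AddSubgroup.zmultiples (1 : 𝓞 K ⧸ Q) = ⊤ :=
    zmultiples_eq_top_of_prime_card (card_quot Q) h1
  have hmem : Ideal.Quotient.mk Q a ∈ AddSubgroup.zmultiples (1 : 𝓞 K ⧸ Q) := by
    rw [htop]; trivial
  obtain ⟨n, hn⟩ := AddSubgroup.mem_zmultiples_iff.mp hmem
  refine ⟨n, ?_⟩
  rw [← Ideal.Quotient.eq_zero_iff_mem, map_sub, ← hn]
  simp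

/-- The stabiliser of a degree-one prime not above `p` in `Gal(ℚ(ζ_p)/ℚ)` is trivial. -/
theorem eq_one_of_smul_eq {p : ℕ} (hp : p.Prime) [IsCyclotomicExtension {p} ℚ K] {ζ : 𝓞 K}
    (hζ : IsPrimitiveRoot ζ p) (Q : Ideal (𝓞 K)) [Q.IsPrime] (hq : (Ideal.absNorm Q).Prime)
    (hne : Ideal.absNorm Q ≠ p) (σ : K ≃ₐ[ℚ] K) (hσ : σ • Q = Q) : σ = 1 := by
  have : NeZero p := ⟨hp.ne_zero⟩
  have hpQ := natCast_not_mem hp Q hq hne
  obtain ⟨n, hn⟩ := exists_int_sub_mem Q hq ζ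
  have h1 : σ • (ζ - (n : 𝓞 K)) ∈ Q := by
    have := Ideal.smul_mem_pointwise_smul σ _ Q hn
    rwa [hσ] at this
  have h2 : σ • ζ - ζ ∈ Q := by
    have : σ • ζ - ζ = σ • (ζ - (n : 𝓞 K)) - (ζ - (n : 𝓞 K)) := by
      rw [smul_sub, smul_intCast]; ring
    rw [this]; exact Q.sub_mem h1 hn
  have hpow : (σ • ζ) ^ p = 1 := by rw [← smul_pow', hζ.pow_eq_one, smul_one]
  obtain ⟨i, hi, hiζ⟩ := hζ.eq_pow_of_pow_eq_one hpow
  have hprim := isPrimitiveRoot_mk hp hζ Q hpQ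
  have h3 : (Ideal.Quotient.mk Q ζ) ^ i = (Ideal.Quotient.mk Q ζ) ^ 1 := by
    rw [pow_one, ← map_pow, hiζ]
    exact Ideal.Quotient.eq.mpr h2
  have hi1 : i = 1 := hprim.pow_inj hi hp.one_lt h3
  have h4 : σ • ζ = ζ := by rw [← hiζ, hi1, pow_one]
  have hζK : IsPrimitiveRoot (ζ : K) p :=
    hζ.map_of_injective (FaithfulSMul.algebraMap_injective (𝓞 K) K)
  have h5 : σ (ζ : K) = (ζ : K) := congrArg (fun x : 𝓞 K => (x : K)) h4
  have h6 : (σ : K →ₐ[ℚ] K) = AlgHom.id ℚ K := by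
    apply (hζK.powerBasis ℚ).algHom_ext
    rw [IsPrimitiveRoot.powerBasis_gen]
    exact h5
  ext x
  exact DFunLike.congr_fun h6 x

omit [NumberField K] in
/-- A prime of `𝓞 K` containing the rational prime `q` lies over `(q)`. -/
theorem under_eq_span {q : ℕ} (hq : q.Prime) (v : Ideal (𝓞 K)) [v.IsPrime]
    (hqv : (q : 𝓞 K) ∈ v) : v.under ℤ = Ideal.span {(q : ℤ)} := by
  have hmax : (Ideal.span {(q : ℤ)}).IsMaximal :=
    PrincipalIdealRing.isMaximal_of_irreducible (Nat.prime_iff_prime_int.mp hq).irreducible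
  symm
  apply hmax.eq_of_le (Ideal.IsPrime.ne_top inferInstance)
  rw [Ideal.span_singleton_le_iff_mem, Ideal.under_def, Ideal.mem_comap]
  simpa using hqv

theorem thaineCore_of_coreV {p : ℕ} (hp : p.Prime)
    (h : ∀ (K : Type) [Field K] [NumberField K] [IsCyclotomicExtension {p} ℚ K] (ζ : 𝓞 K),
      IsPrimitiveRoot ζ p → ∀ q : ℕ, q.Prime → q % p = 1 → ThaineCoreV K ζ q) :
    ThaineCore p := by
  intro K _ _ _ ζ hζ Q hQ hq hne
  classical
  have := hQ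
  have : NeZero p := ⟨hp.ne_zero⟩
  have : IsGalois ℚ K := IsCyclotomicExtension.isGalois {p} ℚ K
  set q := Ideal.absNorm Q with hqdef
  have hpq : p ∣ q - 1 := dvd_absNorm_sub_one hp hζ Q hq hne
  have hqp : q % p = 1 := by
    obtain ⟨k, hk⟩ := hpq
    have h1 : q = 1 + p * k := by have := hq.one_lt; omega
    rw [h1, Nat.add_mul_mod_self_left, Nat.mod_eq_of_lt hp.one_lt]
  obtain ⟨g, x, hx0, hx⟩ := h K ζ hζ q hq hqp
  set I : Ideal (𝓞 K) := Ideal.span {x} with hI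
  have hI0 : I ≠ ⊥ := by rwa [hI, Ne, Ideal.span_singleton_eq_bot]
  set s := normalizedFactors I with hs
  have hcount : ∀ v : Ideal (𝓞 K), v.IsPrime → v ≠ ⊥ →
      (((q : 𝓞 K) ∉ v → (q - 1) ∣ s.count v) ∧
        ((q : 𝓞 K) ∈ v → (ζ - 1) * (g : 𝓞 K) ^ s.count v - 1 ∈ v)) := by
    intro v hv hv0
    obtain ⟨r, hr1, hr2, hr3, hr4⟩ := hx v hv hv0
    have := hv
    have hc : s.count v = r := Ideal.count_normalizedFactors_eq
      ((Ideal.span_singleton_le_iff_mem _).mpr hr1)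
      (fun hle => hr2 ((Ideal.span_singleton_le_iff_mem _).mp hle))
    rw [hc]; exact ⟨hr3, hr4⟩
  have hqQ : (q : 𝓞 K) ∈ Q := Ideal.absNorm_mem Q
  have hq0 : (q : 𝓞 K) ≠ 0 := by
    exact_mod_cast hq.ne_zero
  have hsmul_q : ∀ ρ : K ≃ₐ[ℚ] K, (q : 𝓞 K) ∈ ρ • Q := by
    intro ρ
    have := Ideal.smul_mem_pointwise_smul ρ _ Q hqQ
    rwa [smul_natCast] at this
  have hsmul_ne : ∀ ρ : K ≃ₐ[ℚ] K, ρ • Q ≠ ⊥ := by
    intro ρ hbot
    have := hsmul_q ρ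
    rw [hbot] at this
    exact hq0 (by simpa using this)
  have hinj : Function.Injective (fun ρ : K ≃ₐ[ℚ] K => ρ • Q) := by
    intro ρ₁ ρ₂ h12
    have h12' : ρ₁ • Q = ρ₂ • Q := h12
    have h3 : (ρ₂⁻¹ * ρ₁) • Q = Q := by
      rw [mul_smul, h12', inv_smul_smul]
    have h4 := eq_one_of_smul_eq hp hζ Q hq hne _ h3
    exact (inv_mul_eq_one.mp h4).symm
  refine ⟨(g : 𝓞 K), x, ∏ v ∈ s.toFinset.filter (fun v => ¬ (q : 𝓞 K) ∈ v), v ^ (s.count v / p),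
    fun ρ => s.count (ρ • Q), hx0, ?_, ?_, ?_⟩
  · rw [← Ideal.zero_eq_bot, Finset.prod_ne_zero_iff]
    intro v hv
    have hvs : v ∈ s := Multiset.mem_toFinset.mp (Finset.mem_filter.mp hv).1
    exact pow_ne_zero _ (prime_of_normalized_factor v hvs).ne_zero
  · have hprod : I = ∏ v ∈ s.toFinset, v ^ s.count v := by
      rw [← Finset.prod_multiset_count]
      exact (associated_iff_eq.mp (prod_normalizedFactors hI0)).symm
    show I = (∏ v ∈ s.toFinset.filter (fun v => ¬ (q : 𝓞 K) ∈ v), v ^ (s.count v / p)) ^ p *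
      ∏ ρ : K ≃ₐ[ℚ] K, (ρ • Q) ^ s.count (ρ • Q)
    rw [hprod, ← Finset.prod_filter_mul_prod_filter_not s.toFinset (fun v => (q : 𝓞 K) ∈ v),
      mul_comm]
    congr 1
    · rw [← Finset.prod_pow]
      refine Finset.prod_congr rfl fun v hv => ?_
      rw [← pow_mul]
      have hvs : v ∈ s := Multiset.mem_toFinset.mp (Finset.mem_filter.mp hv).1
      have hvprime := prime_of_normalized_factor v hvs
      have hdvd : p ∣ s.count v :=
        hpq.trans ((hcount v (Ideal.isPrime_of_prime hvprime) hvprime.ne_zero).1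
          (Finset.mem_filter.mp hv).2)
      rw [Nat.div_mul_cancel hdvd]
    · have himg : ∏ ρ : K ≃ₐ[ℚ] K, (ρ • Q) ^ s.count (ρ • Q)
          = ∏ v ∈ Finset.univ.image (fun ρ : K ≃ₐ[ℚ] K => ρ • Q), v ^ s.count v := by
        rw [Finset.prod_image (fun a _ b _ hab => hinj hab)]
      rw [himg]
      apply Finset.prod_subset
      · intro v hv
        rw [Finset.mem_filter] at hv
        have hvs : v ∈ s := Multiset.mem_toFinset.mp hv.1
        have hvprime := prime_of_normalized_factor v hvs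
        have : v.IsPrime := Ideal.isPrime_of_prime hvprime
        have hunder : Q.under ℤ = v.under ℤ := by
          rw [under_eq_span hq Q hqQ, under_eq_span hq v hv.2]
        obtain ⟨σ, hσ⟩ := Algebra.IsInvariant.exists_smul_of_under_eq ℤ (𝓞 K) (K ≃ₐ[ℚ] K)
          Q v hunder
        exact Finset.mem_image.mpr ⟨σ, Finset.mem_univ _, hσ.symm⟩
      · intro v hv hv'
        obtain ⟨ρ, -, rfl⟩ := Finset.mem_image.mp hv
        have hnot : ρ • Q ∉ s.toFinset := fun hmem =>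
          hv' (Finset.mem_filter.mpr ⟨hmem, hsmul_q ρ⟩)
        rw [Multiset.mem_toFinset] at hnot
        rw [Multiset.count_eq_zero_of_notMem hnot, pow_zero]
  · intro ρ
    have h1 := (hcount (ρ • Q) inferInstance (hsmul_ne ρ)).2 (hsmul_q ρ)
    rw [Ideal.mem_pointwise_smul_iff_inv_smul_mem] at h1
    have h2 : ρ⁻¹ • ((ζ - 1) * (g : 𝓞 K) ^ s.count (ρ • Q) - 1)
        = (ρ⁻¹ • (ζ - 1)) * (g : 𝓞 K) ^ s.count (ρ • Q) - 1 := by
      rw [smul_sub, smul_mul', smul_pow', smul_intCast, smul_one]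
    rw [h2] at h1
    exact h1

end Fermat.Agent.S14T.ThFactB
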