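/-
S14T — ThRamB.lean (helper15, B-owner of the [Th] ramification leaf; A = helper57's
ThRamification.lean, same signatures).
Ramification table of `F = ℚ(ζ_{pq})` over `K = ℚ(ζ_p)` for the Thaine relation.
-/
import Mathlib

set_option autoImplicit false
set_option linter.unusedSectionVars false
set_option linter.unusedVariables false

namespace Fermat.Agent.S14T.ThRamB

open NumberField Ideal

section table

variable {p q : ℕ} [hpF : Fact p.Prime] [hqF : Fact q.Prime]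
variable (K F : Type*) [Field K] [NumberField K] [Field F] [NumberField F] [Algebra K F]
  [hK : IsCyclotomicExtension {p} ℚ K] [hF : IsCyclotomicExtension {p * q} ℚ F]
  (v : Ideal (𝓞 K)) [v.IsPrime] (P : Ideal (𝓞 F)) [P.IsPrime] [hPv : P.LiesOver v]

omit hpF hqF in
theorem ne_of_mod (hpq : q % p = 1) : p ≠ q := by
  rintro rfl
  rw [Nat.mod_self] at hpq
  exact absurd hpq (by norm_num)

omit hpF hqF hK hF [NumberField F] [NumberField K] [v.IsPrime] [P.IsPrime] in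
/-- a natural number lies in `v` iff it lies in `P`. -/
theorem natCast_mem_iff (d : ℕ) : (d : 𝓞 K) ∈ v ↔ (d : 𝓞 F) ∈ P := by
  rw [hPv.over, Ideal.mem_comap, map_natCast]

omit hpF hqF hK hF [NumberField F] [NumberField K] [v.IsPrime] [P.IsPrime] hPv in
theorem natCast_mem_iff_dvd (d : ℕ) : (d : 𝓞 F) ∈ P ↔ absNorm (under ℤ P) ∣ d := by
  rw [← Int.cast_natCast, Int.cast_mem_ideal_iff, Int.natCast_dvd_natCast]

omit hpF hqF hK hF [NumberField K] [v.IsPrime] in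
theorem ne_bot_of_liesOver (hv : v ≠ ⊥) : P ≠ ⊥ := by
  rintro rfl
  apply hv
  rw [hPv.over]
  exact Ideal.under_bot (𝓞 K) (𝓞 F)

/-- the rational prime below `P`, with the `LiesOver` instances. -/
theorem exists_prime_below (hv : v ≠ ⊥) :
    ∃ ℓ : ℕ, ℓ.Prime ∧ P.LiesOver (span {(ℓ : ℤ)}) ∧ v.LiesOver (span {(ℓ : ℤ)}) ∧
      ∀ d : ℕ, (d : 𝓞 K) ∈ v ↔ ℓ ∣ d := by
  have hP : P ≠ ⊥ := ne_bot_of_liesOver K F v P hv
  have : NeZero P := ⟨hP⟩
  refine ⟨absNorm (under ℤ P), Nat.absNorm_under_prime P, Int.liesOver_span_absNorm P, ?_, ?_⟩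
  · have := Int.liesOver_span_absNorm P
    exact LiesOver.tower_bot P v _
  · intro d
    rw [natCast_mem_iff K F v P, natCast_mem_iff_dvd]

/-- (c1) primes of `F` not above `q` are unramified over `K`. -/
theorem ram_eq_one (hpq : q % p = 1) (hv : v ≠ ⊥) (hq : (q : 𝓞 K) ∉ v) :
    P.ramificationIdx (𝓞 K) = 1 := by
  obtain ⟨ℓ, hℓp, hPℓ, hvℓ, hmem⟩ := exists_prime_below K F v P hv
  have : Fact ℓ.Prime := ⟨hℓp⟩
  have htower := ramificationIdx_tower (R := ℤ) v P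
  have hℓq : ℓ ≠ q := by
    rintro rfl
    exact hq ((hmem ℓ).mpr dvd_rfl)
  by_cases hℓp' : ℓ = p
  · have h1 : P.ramificationIdx ℤ = ℓ ^ 0 * (ℓ - 1) :=
      IsCyclotomicExtension.Rat.ramificationIdx_eq (p * q) F P (m := q) (p := ℓ) (k := 0)
        (by rw [hℓp']; ring)
        (by rw [Nat.prime_dvd_prime_iff_eq hℓp hqF.out]; exact hℓq)
    have h2 : v.ramificationIdx ℤ = ℓ - 1 := by
      subst hℓp'
      exact IsCyclotomicExtension.Rat.ramificationIdx_eq_of_prime ℓ K v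
    rw [h1, h2, pow_zero, one_mul] at htower
    have hpos : 0 < ℓ - 1 := by have := hℓp.two_le; omega
    exact (Nat.eq_of_mul_eq_mul_left hpos (by rw [← htower, mul_one])).symm
  · have : NeZero (p * q) := ⟨Nat.mul_ne_zero hpF.out.ne_zero hqF.out.ne_zero⟩
    have h1 : P.ramificationIdx ℤ = 1 :=
      IsCyclotomicExtension.Rat.ramificationIdx_eq_of_not_dvd ℓ F P (m := p * q)
        (by
          rw [hℓp.dvd_mul, Nat.prime_dvd_prime_iff_eq hℓp hpF.out,
            Nat.prime_dvd_prime_iff_eq hℓp hqF.out]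
          tauto)
    rw [h1] at htower
    exact Nat.eq_one_of_mul_eq_one_left htower.symm

/-- the prime below is `q` when `q ∈ v`. -/
theorem liesOver_q (hv : v ≠ ⊥) (hq : (q : 𝓞 K) ∈ v) :
    P.LiesOver (span {(q : ℤ)}) ∧ v.LiesOver (span {(q : ℤ)}) := by
  obtain ⟨ℓ, hℓp, hPℓ, hvℓ, hmem⟩ := exists_prime_below K F v P hv
  have : ℓ = q := (Nat.prime_dvd_prime_iff_eq hℓp hqF.out).mp ((hmem q).mp hq)
  subst this
  exact ⟨hPℓ, hvℓ⟩

/-- (c2) primes of `F` above `q` are totally ramified over `K`. -/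
theorem ram_eq (hpq : q % p = 1) (hv : v ≠ ⊥) (hq : (q : 𝓞 K) ∈ v) :
    P.ramificationIdx (𝓞 K) = q - 1 := by
  obtain ⟨hPq, hvq⟩ := liesOver_q K F v P hv hq
  have hne : p ≠ q := ne_of_mod hpq
  have htower := ramificationIdx_tower (R := ℤ) v P
  have hqp : ¬ q ∣ p := by
    rw [Nat.prime_dvd_prime_iff_eq hqF.out hpF.out]; exact fun h => hne h.symm
  have h1 : P.ramificationIdx ℤ = q ^ 0 * (q - 1) :=
    IsCyclotomicExtension.Rat.ramificationIdx_eq (p * q) F P (m := p) (p := q) (k := 0)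
      (by ring) hqp
  have : NeZero p := ⟨hpF.out.ne_zero⟩
  have h2 : v.ramificationIdx ℤ = 1 :=
    IsCyclotomicExtension.Rat.ramificationIdx_eq_of_not_dvd q K v (m := p) hqp
  rw [h1, h2, pow_zero, one_mul, one_mul] at htower
  exact htower.symm

omit hpF hqF hK hF in
/-- generic valuation transfer: `ord_P(x) = e(P|v) · ord_v(x)` in membership form. -/
theorem mem_pow_of_algebraMap_mem_pow_ram {x : 𝓞 K} {n : ℕ} (hv : v ≠ ⊥)
    (h : algebraMap (𝓞 K) (𝓞 F) x ∈ P ^ (P.ramificationIdx (𝓞 K) * n)) : x ∈ v ^ n := by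
  rcases eq_or_ne x 0 with rfl | hx
  · exact zero_mem _
  have hP : P ≠ ⊥ := ne_bot_of_liesOver K F v P hv
  have hI : span {x} ≠ ⊥ := by simpa using hx
  have hvirr : Irreducible v := (Ideal.prime_of_isPrime hv inferInstance).irreducible
  have hPirr : Irreducible P := (Ideal.prime_of_isPrime hP inferInstance).irreducible
  have hmul := Ideal.IsDedekindDomain.emultiplicity_map_eq_ramificationIdx'_mul hI hvirr hPirr hP
  rw [Ideal.ramificationIdx'_eq_ramificationIdx v P hv, Ideal.map_span,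
    Set.image_singleton] at hmul
  have h1 : P ^ (P.ramificationIdx (𝓞 K) * n) ∣ span {algebraMap (𝓞 K) (𝓞 F) x} := by
    rw [Ideal.dvd_iff_le, Ideal.span_singleton_le_iff_mem]
    exact h
  have h2 := le_emultiplicity_of_pow_dvd h1
  rw [hmul, Nat.cast_mul] at h2
  have he : (P.ramificationIdx (𝓞 K) : ℕ∞) ≠ 0 := by
    have := Ideal.ramificationIdx_pos P (𝓞 K)
    exact_mod_cast this.ne'
  rw [ENat.mul_le_mul_left_iff he (ENat.natCast_ne_top _)] at h2
  have h3 := pow_dvd_of_le_emultiplicity h2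
  rw [Ideal.dvd_iff_le, Ideal.span_singleton_le_iff_mem] at h3
  exact h3

/-- (c4) valuation transfer at primes not above `q`. -/
theorem mem_pow_of_algebraMap_mem_pow (hpq : q % p = 1) (hv : v ≠ ⊥) (hq : (q : 𝓞 K) ∉ v)
    {x : 𝓞 K} {r : ℕ} (h : algebraMap (𝓞 K) (𝓞 F) x ∈ P ^ r) : x ∈ v ^ r := by
  apply mem_pow_of_algebraMap_mem_pow_ram K F v P hv
  rwa [ram_eq_one K F v P hpq hv hq, one_mul]

/-- (c4) valuation transfer at primes above `q`. -/
theorem mem_pow_of_algebraMap_mem_pow_mul (hpq : q % p = 1) (hv : v ≠ ⊥) (hq : (q : 𝓞 K) ∈ v)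
    {x : 𝓞 K} {r : ℕ} (h : algebraMap (𝓞 K) (𝓞 F) x ∈ P ^ ((q - 1) * r)) : x ∈ v ^ r := by
  apply mem_pow_of_algebraMap_mem_pow_ram K F v P hv
  rwa [ram_eq K F v P hpq hv hq]

/-- (c2') residue degree one: every integer of `F` is congruent to a rational integer mod `P`. -/
theorem exists_int_sub_mem (hpq : q % p = 1) (hv : v ≠ ⊥) (hq : (q : 𝓞 K) ∈ v) (a : 𝓞 F) :
    ∃ b : ℤ, a - (b : 𝓞 F) ∈ P := by
  obtain ⟨hPq, hvq⟩ := liesOver_q K F v P hv hq
  have hne : p ≠ q := ne_of_mod hpq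
  have hqp : ¬ q ∣ p := by
    rw [Nat.prime_dvd_prime_iff_eq hqF.out hpF.out]; exact fun h => hne h.symm
  have h1 : P.inertiaDeg ℤ = orderOf (q : ZMod p) :=
    IsCyclotomicExtension.Rat.inertiaDeg_eq (p * q) F P (m := p) (p := q) (k := 0)
      (by ring) hqp
  have h2 : orderOf (q : ZMod p) = 1 := by
    rw [orderOf_eq_one_iff, ← ZMod.natCast_mod, hpq, Nat.cast_one]
  have hP : P ≠ ⊥ := ne_bot_of_liesOver K F v P hv
  have hmax : P.IsMaximal := Ring.DimensionLEOne.maximalOfPrime hP inferInstance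
  rw [h2, Ideal.inertiaDeg_eq_of_isMaximal (span {(q : ℤ)}) P] at h1
  let : Field (ℤ ⧸ span {(q : ℤ)}) := Ideal.Quotient.field _
  have h3 : (⊥ : Subalgebra (ℤ ⧸ span {(q : ℤ)}) (𝓞 F ⧸ P)) = ⊤ :=
    Subalgebra.bot_eq_top_of_finrank_eq_one h1
  have h4 : Function.Surjective (algebraMap (ℤ ⧸ span {(q : ℤ)}) (𝓞 F ⧸ P)) :=
    Algebra.surjective_algebraMap_iff.mpr h3.symm
  obtain ⟨c, hc⟩ := h4 (Ideal.Quotient.mk P a)
  obtain ⟨b, rfl⟩ := Ideal.Quotient.mk_surjective c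
  refine ⟨b, ?_⟩
  rw [Ideal.Quotient.algebraMap_mk_of_liesOver] at hc
  rw [← Ideal.Quotient.eq, ← hc]
  simp

/-- (c2') residue degree one over `K`. -/
theorem exists_sub_mem (hpq : q % p = 1) (hv : v ≠ ⊥) (hq : (q : 𝓞 K) ∈ v) (a : 𝓞 F) :
    ∃ b : 𝓞 K, a - algebraMap (𝓞 K) (𝓞 F) b ∈ P := by
  obtain ⟨b, hb⟩ := exists_int_sub_mem K F v P hpq hv hq a
  exact ⟨(b : 𝓞 K), by rwa [map_intCast]⟩

omit [v.IsPrime] [P.IsPrime] hPv in
/-- `[F : K] = q - 1`. -/
theorem finrank_eq (hpq : q % p = 1) : Module.finrank K F = q - 1 := by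
  have hne : p ≠ q := ne_of_mod hpq
  have : NeZero p := ⟨hpF.out.ne_zero⟩
  have : NeZero (p * q) := ⟨Nat.mul_ne_zero hpF.out.ne_zero hqF.out.ne_zero⟩
  have h1 : Module.finrank ℚ K = p.totient := IsCyclotomicExtension.Rat.finrank p K
  have h2 : Module.finrank ℚ F = (p * q).totient := IsCyclotomicExtension.Rat.finrank (p * q) F
  have h3 := Module.finrank_mul_finrank ℚ K F
  rw [h1, h2, Nat.totient_mul ((Nat.coprime_primes hpF.out hqF.out).mpr hne),
    Nat.totient_prime hpF.out, Nat.totient_prime hqF.out] at h3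
  exact Nat.eq_of_mul_eq_mul_left (by have := hpF.out.two_le; omega) h3

/-- (c3) the prime of `F` above a prime `v ∣ q` of `K` is unique. -/
theorem eq_of_liesOver (hpq : q % p = 1) (hv : v ≠ ⊥) (hq : (q : 𝓞 K) ∈ v)
    (P' : Ideal (𝓞 F)) [P'.IsPrime] [P'.LiesOver v] : P' = P := by
  have : IsGalois ℚ F := IsCyclotomicExtension.isGalois {p * q} ℚ F
  have : IsGalois K F := IsGalois.tower_top_of_isGalois ℚ K F
  have hcount := ncard_primesOver_mul_ramificationIdxIn_mul_inertiaDegIn v (𝓞 F) Gal(F/K)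
  rw [ramificationIdxIn_eq_ramificationIdx v P Gal(F/K), ram_eq K F v P hpq hv hq,
    IsGalois.card_aut_eq_finrank, finrank_eq K F hpq] at hcount
  have hq1 : 0 < q - 1 := by have := hqF.out.two_le; omega
  have h1 : (primesOver v (𝓞 F)).ncard * v.inertiaDegIn (𝓞 F) = 1 := by
    apply Nat.eq_of_mul_eq_mul_left hq1
    calc (q - 1) * ((primesOver v (𝓞 F)).ncard * v.inertiaDegIn (𝓞 F))
        = (primesOver v (𝓞 F)).ncard * ((q - 1) * v.inertiaDegIn (𝓞 F)) := by ring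
      _ = q - 1 := hcount
      _ = (q - 1) * 1 := (mul_one _).symm
  have h2 : (primesOver v (𝓞 F)).ncard = 1 := Nat.eq_one_of_mul_eq_one_right h1
  obtain ⟨Q, hQ⟩ := Set.ncard_eq_one.mp h2
  have h3 : P ∈ primesOver v (𝓞 F) := ⟨inferInstance, inferInstance⟩
  have h4 : P' ∈ primesOver v (𝓞 F) := ⟨inferInstance, inferInstance⟩
  rw [hQ, Set.mem_singleton_iff] at h3 h4
  rw [h3, h4]

omit hpF hK hF [NumberField K] [NumberField F] [Algebra K F] in
/-- `(ζ_q - 1)^(q-1)` is associated to `q` in `𝓞 F`. -/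
theorem associated_pow_natCast {ζq : 𝓞 F} (hζq : IsPrimitiveRoot ζq q) :
    Associated ((ζq - 1) ^ (q - 1)) (q : 𝓞 F) := by
  have hζ' : IsPrimitiveRoot (ζq : F) q :=
    hζq.map_of_injective RingOfIntegers.coe_injective
  have := IsCyclotomicExtension.Rat.associated_zeta_sub_one_pow_prime q hζ'
  have he : hζ'.toInteger = ζq := RingOfIntegers.ext rfl
  rwa [he] at this

/-- (c3) `1 - ζ_q ∈ P` for `P ∣ q`. -/
theorem one_sub_zeta_mem (hpq : q % p = 1) (hv : v ≠ ⊥) (hq : (q : 𝓞 K) ∈ v) {ζq : 𝓞 F}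
    (hζq : IsPrimitiveRoot ζq q) : 1 - ζq ∈ P := by
  have hqP : (q : 𝓞 F) ∈ P := (natCast_mem_iff K F v P q).mp hq
  obtain ⟨u, hu⟩ := (associated_pow_natCast F hζq).symm
  have h1 : (ζq - 1) ^ (q - 1) ∈ P := by
    rw [← hu]
    exact P.mul_mem_right _ hqP
  have h2 : ζq - 1 ∈ P := Ideal.IsPrime.mem_of_pow_mem inferInstance _ h1
  have h3 := P.neg_mem h2
  rwa [neg_sub] at h3

/-- (c3) `1 - ζ_q ∉ P^2` for `P ∣ q`: `1 - ζ_q` is a uniformiser. -/
theorem one_sub_zeta_notMem_sq (hpq : q % p = 1) (hv : v ≠ ⊥) (hq : (q : 𝓞 K) ∈ v)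
    {ζq : 𝓞 F} (hζq : IsPrimitiveRoot ζq q) : 1 - ζq ∉ P ^ 2 := by
  intro hmem
  have hqP : (q : 𝓞 F) ∈ P := (natCast_mem_iff K F v P q).mp hq
  obtain ⟨hPq, hvq⟩ := liesOver_q K F v P hv hq
  have hne : p ≠ q := ne_of_mod hpq
  have hqp : ¬ q ∣ p := by
    rw [Nat.prime_dvd_prime_iff_eq hqF.out hpF.out]; exact fun h => hne h.symm
  have hq1 : 0 < q - 1 := by have := hqF.out.two_le; omega
  obtain ⟨u, hu⟩ := associated_pow_natCast F hζq
  -- `q ∈ P ^ (2 (q-1))`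
  have h1 : ζq - 1 ∈ P ^ 2 := by
    have := (P ^ 2).neg_mem hmem
    rwa [neg_sub] at this
  have h2 : (q : 𝓞 F) ∈ P ^ ((q - 1) * 2) := by
    rw [← hu, mul_comm (q - 1) 2, pow_mul]
    exact Ideal.mul_mem_right _ _ (Ideal.pow_mem_pow h1 _)
  -- ramification over `ℤ`
  have hram : P.ramificationIdx ℤ = q - 1 := by
    have h := IsCyclotomicExtension.Rat.ramificationIdx_eq (p * q) F P (m := p) (p := q) (k := 0)
      (by ring) hqp
    rwa [pow_zero, one_mul] at h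
  have hP : P ≠ ⊥ := ne_bot_of_liesOver K F v P hv
  -- multiplicity of `P` in `q 𝓞 F`
  have hq0 : (span {(q : ℤ)} : Ideal ℤ) ≠ ⊥ := by
    simp [hqF.out.ne_zero]
  have hmap : (span {(q : ℤ)} : Ideal ℤ).map (algebraMap ℤ (𝓞 F)) ≠ ⊥ :=
    Ideal.map_ne_bot_of_ne_bot hq0
  have hmult := Ideal.IsDedekindDomain.ramificationIdx_eq_multiplicity (span {(q : ℤ)}) P hmap
  have h3 : P ^ ((q - 1) * 2) ∣ (span {(q : ℤ)} : Ideal ℤ).map (algebraMap ℤ (𝓞 F)) := by
    rw [Ideal.dvd_iff_le, Ideal.map_span, Set.image_singleton, Ideal.span_singleton_le_iff_mem]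
    simpa using h2
  have hfin : FiniteMultiplicity P ((span {(q : ℤ)} : Ideal ℤ).map (algebraMap ℤ (𝓞 F))) :=
    FiniteMultiplicity.of_prime_left (Ideal.prime_of_isPrime hP inferInstance) hmap
  have h4 := hfin.le_multiplicity_of_pow_dvd h3
  rw [← hmult, hram] at h4
  omega

end table

end Fermat.Agent.S14T.ThRamB
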