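/-
S14T — ThaineB.lean (owner: helper30).  Independent (B) proof of the K-only Thaine relation
`ThaineCoreV K ζ q` of `ThCore.lean`, self-contained up to the landed leaves
`ThSetup` (helper39), `ThResidue`, `ThNorm` (helper18).

Setting: `p ≠ q` primes, `q ≡ 1 mod p`, `K = ℚ(ζ_p)`, `F = K(ζ_q) = ℚ(ζ_{pq})`, `τ` a generator of
`Gal(F/K)`, `τ ζ_q = ζ_q ^ g`, `u = ζ_p - ζ_q` (a unit of norm `1`).

* `exists_hilbert90`      : integral Hilbert 90: `γ ≠ 0` with `u · τγ = γ`, and `x = N_{F/K} γ`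
                            satisfies `x 𝓞_F = (γ)^(q-1)`.
* `emultiplicity_span_algebraMap` : `ord_P(x) = ord_v(x) · e(P|v)` (generic Dedekind extension).
* `thaineCoreV_of_ram`    : the relation from the ramification table of `F/K`.
* `ramificationIdx_table` : `e(P|v) = q - 1` if `P ∣ q`, `= 1` otherwise (Mathlib's cyclotomic
                            ramification indices over `ℤ` for `F` and `K` + the tower formula).
* `zeta_sub_one_notMem_sq`: `ζ_q - 1 ∈ P \ P²` for `P ∣ q`.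
* `smul_sub_mem`          : `Gal(F/K)` acts trivially on `𝓞_F / P` for `P ∣ q` (`𝓞_F = ℤ[ζ_{pq}]`).
* `thaineCoreV_B`         : the K-only Thaine relation.
-/
import Fermat.Agent.S14T.ThCore
import Fermat.Agent.S14T.ThSetup
import Fermat.Agent.S14T.ThResidue
import Fermat.Agent.S14T.ThNorm

open NumberField

set_option autoImplicit false

namespace Fermat.Agent.S14T.ThaineB

/-! ## Generic lemmas -/

section RootsOfUnity

/-- In a commutative ring, if the odd prime number `q` lies in the prime ideal `P`, then every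
`q`-th root of unity is congruent to `1` modulo `P`. -/
theorem sub_one_mem_of_pow_eq_one {R : Type*} [CommRing R] {q : ℕ} (hq : q.Prime) (hq2 : q ≠ 2)
    (P : Ideal R) [hP : P.IsPrime] (hqP : (q : R) ∈ P) {w : R} (hw : w ^ q = 1) : w - 1 ∈ P := by
  obtain ⟨r, hr⟩ := exists_add_pow_prime_eq hq w (-1)
  have hodd : Odd q := hq.odd_of_ne_two hq2
  rw [hodd.neg_one_pow, hw] at hr
  have h1 : (w - 1) ^ q = (q : R) * (w * -1 * r) := by
    rw [sub_eq_add_neg, hr]; ring
  have h2 : (w - 1) ^ q ∈ P := by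
    rw [h1]; exact P.mul_mem_right _ hqP
  exact hP.mem_of_pow_mem q h2

/-- `(ζ - 1) ^ (q - 1)` divides `q` for a primitive `q`-th root of unity `ζ` in a domain. -/
theorem sub_one_pow_dvd_prime {R : Type*} [CommRing R] [IsDomain R] {q : ℕ} [hq : Fact q.Prime]
    {ζ : R} (hζ : IsPrimitiveRoot ζ q) : (ζ - 1) ^ (q - 1) ∣ (q : R) := by
  have hcyc := Polynomial.cyclotomic_eq_prod_X_sub_primitiveRoots hζ
  have heval : (q : R) = ∏ μ ∈ primitiveRoots q R, (1 - μ) := by
    have h1 := Polynomial.eval_one_cyclotomic_prime (R := R) (p := q)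
    rw [hcyc, Polynomial.eval_prod] at h1
    rw [← h1]
    refine Finset.prod_congr rfl fun μ _ => ?_
    simp
  have hcard : (primitiveRoots q R).card = q - 1 := by
    rw [hζ.card_primitiveRoots, Nat.totient_prime hq.out]
  rw [heval, ← hcard, ← Finset.prod_const]
  refine Finset.prod_dvd_prod_of_dvd _ _ fun μ hμ => ?_
  rw [mem_primitiveRoots hq.out.pos] at hμ
  obtain ⟨i, -, rfl⟩ := hζ.eq_pow_of_pow_eq_one hμ.pow_eq_one
  have := sub_dvd_pow_sub_pow ζ 1 i
  rw [one_pow] at this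
  have e : (1 : R) - ζ ^ i = -(ζ ^ i - 1) := by ring
  rw [e]
  exact (dvd_neg).mpr this

end RootsOfUnity


/-! ## Hilbert 90, valuation transfer and the relation from the ramification table -/

section Generic

open UniqueFactorizationMonoid

/-- `a ≡ 1 mod P` implies `a ^ g - 1 ≡ g (a - 1) mod P²`. -/
theorem pow_sub_one_sub_mem_sq {R : Type*} [CommRing R] (P : Ideal R) {a : R} (ha : a - 1 ∈ P)
    (g : ℕ) : a ^ g - 1 - (g : R) * (a - 1) ∈ P ^ 2 := by
  induction g with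
  | zero => simp
  | succ g ih =>
    have e : a ^ (g + 1) - 1 - ((g + 1 : ℕ) : R) * (a - 1)
        = a * (a ^ g - 1 - (g : R) * (a - 1)) + (g : R) * ((a - 1) * (a - 1)) := by
      push_cast; ring
    rw [e]
    refine Ideal.add_mem _ (Ideal.mul_mem_left _ _ ih) (Ideal.mul_mem_left _ _ ?_)
    rw [pow_two]
    exact Ideal.mul_mem_mul ha ha

variable {R S : Type*} [CommRing R] [IsDedekindDomain R] [CommRing S] [IsDedekindDomain S]
  [Algebra R S] [FaithfulSMul R S]

/-- Transfer of valuations along an extension of Dedekind domains: if `P` lies over `v` and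
`x ∈ v ^ r \ v ^ (r + 1)`, then `ord_P (x) = r * e(P | v)`. -/
theorem emultiplicity_span_algebraMap (v : Ideal R) [hv : v.IsPrime] (hv0 : v ≠ ⊥)
    (P : Ideal S) [hP : P.IsPrime] (hP0 : P ≠ ⊥) [hPv : P.LiesOver v] {x : R} {r : ℕ}
    (hx : x ∈ v ^ r) (hx' : x ∉ v ^ (r + 1)) :
    emultiplicity P (Ideal.span {algebraMap R S x}) = ((r * P.ramificationIdx R : ℕ) : ℕ∞) := by
  have hvmax : v.IsMaximal := hv.isMaximal hv0
  have hPprime : Prime P := Ideal.prime_of_isPrime hP0 hP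
  have hx0 : x ≠ 0 := by
    rintro rfl
    exact hx' (Ideal.zero_mem _)
  have hI : Ideal.span {x} ≠ ⊥ := by simpa using hx0
  obtain ⟨Q, hQ, hIQ⟩ := Ideal.eq_prime_pow_mul_coprime hI v
  have hcount : Multiset.count v (normalizedFactors (Ideal.span {x})) = r :=
    Ideal.count_normalizedFactors_eq (by rwa [Ideal.span_singleton_le_iff_mem])
      (by rwa [Ideal.span_singleton_le_iff_mem])
  rw [hcount] at hIQ
  have hmap : Ideal.span {algebraMap R S x}
      = (Ideal.map (algebraMap R S) v) ^ r * Ideal.map (algebraMap R S) Q := by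
    rw [← Ideal.map_pow, ← Ideal.map_mul, ← hIQ, Ideal.map_span, Set.image_singleton]
  have hmapv : Ideal.map (algebraMap R S) v ≠ ⊥ :=
    Ideal.map_ne_bot_of_ne_bot hv0
  have hfin : FiniteMultiplicity P (Ideal.map (algebraMap R S) v) :=
    FiniteMultiplicity.of_not_isUnit hPprime.not_isUnit hmapv
  have he : emultiplicity P (Ideal.map (algebraMap R S) v) = (P.ramificationIdx R : ℕ∞) := by
    rw [Ideal.IsDedekindDomain.ramificationIdx_eq_multiplicity v P hmapv,
      hfin.emultiplicity_eq_multiplicity]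
  have hQ0 : emultiplicity P (Ideal.map (algebraMap R S) Q) = 0 := by
    rw [emultiplicity_eq_zero, Ideal.dvd_iff_le, Ideal.map_le_iff_le_comap,
      ← Ideal.under_def, ← hPv.over]
    intro hle
    rw [sup_of_le_left hle] at hQ
    exact hvmax.ne_top hQ
  rw [hmap, emultiplicity_mul hPprime, emultiplicity_pow hPprime, he, hQ0, add_zero]
  push_cast
  rfl

end Generic


section Core

variable {p q : ℕ} [hp : Fact p.Prime] [hq : Fact q.Prime]
variable (K : Type) [Field K] [NumberField K] [IsCyclotomicExtension {p} ℚ K]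
variable (F : Type) [Field F] [NumberField F] [Algebra K F] [IsCyclotomicExtension {q} K F]

/-- Hilbert 90 for `u = ζ_p - ζ_q` and the norm of the solution. -/
theorem exists_hilbert90 (hpq : q % p = 1) (ζ : 𝓞 K) (hζ : IsPrimitiveRoot ζ p) (ζq : 𝓞 F)
    (hζq : IsPrimitiveRoot ζq q) :
    ∃ (τ : F ≃ₐ[K] F) (g : ℕ) (γ : 𝓞 F) (x : 𝓞 K), γ ≠ 0 ∧ x ≠ 0 ∧
      τ • ζq = ζq ^ g ∧
      (algebraMap (𝓞 K) (𝓞 F) ζ - ζq) * τ • γ = γ ∧
      Ideal.span {algebraMap (𝓞 K) (𝓞 F) x} = Ideal.span {γ} ^ (q - 1) := by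
  have hne : p ≠ q := by
    rintro rfl
    rw [Nat.mod_self] at hpq
    exact zero_ne_one hpq
  have hζK : IsPrimitiveRoot (ζ : K) p :=
    hζ.map_of_injective (FaithfulSMul.algebraMap_injective (𝓞 K) K)
  have hζqF : IsPrimitiveRoot (ζq : F) q :=
    hζq.map_of_injective (FaithfulSMul.algebraMap_injective (𝓞 F) F)
  have := IsCyclotomicExtension.finiteDimensional {q} K F
  have := IsCyclotomicExtension.isGalois {q} K F
  have := ThSetup.isCyclic_gal (p := p) K F hne
  obtain ⟨τ, g, hτ, hτg⟩ := ThSetup.exists_generator (p := p) K F hne (ζq : F) hζqF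
  have hnorm := ThSetup.norm_sub_eq_one K F (ζ : K) hζK (ζq : F) hζqF hpq
  set u : 𝓞 F := algebraMap (𝓞 K) (𝓞 F) ζ - ζq with hu
  have hucoe : algebraMap (𝓞 F) F u = algebraMap K F (ζ : K) - (ζq : F) := by
    rw [hu, map_sub]
    rfl
  rw [← hucoe] at hnorm
  obtain ⟨γ, hγ0, hγ⟩ := groupCohomology.exists_mul_galRestrict_of_norm_eq_one
    (A := 𝓞 K) (B := 𝓞 F) hτ hnorm
  have hτγ : galRestrict (𝓞 K) K F (𝓞 F) τ γ = τ • γ := by
    apply FaithfulSMul.algebraMap_injective (𝓞 F) F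
    rw [algebraMap_galRestrict_apply]
    rfl
  rw [hτγ] at hγ
  -- `u` is a unit
  have huunit : IsUnit u := by
    rw [← RingOfIntegers.isUnit_norm_of_isGalois K]
    have : RingOfIntegers.norm K u = 1 := by
      apply FaithfulSMul.algebraMap_injective (𝓞 K) K
      rw [map_one]
      exact hnorm
    rw [this]
    exact isUnit_one
  have hspan := ThNorm.span_prod_smul_eq_span_pow_card hτ huunit hγ
  rw [IsGalois.card_aut_eq_finrank, ThSetup.finrank_eq (p := p) K F hne] at hspan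
  have hx : algebraMap (𝓞 K) (𝓞 F) (RingOfIntegers.norm K γ) = ∏ σ : F ≃ₐ[K] F, σ • γ := by
    apply FaithfulSMul.algebraMap_injective (𝓞 F) F
    change ((algebraMap (𝓞 K) (𝓞 F) (RingOfIntegers.norm K γ) : 𝓞 F) : F) = _
    rw [RingOfIntegers.coe_algebraMap_norm K γ, Algebra.norm_eq_prod_automorphisms, map_prod]
    rfl
  refine ⟨τ, g, γ, RingOfIntegers.norm K γ, hγ0, ?_, ?_, hγ, ?_⟩
  · intro h0
    have : (RingOfIntegers.norm K γ : K) = 0 := by rw [h0]; rfl
    rw [RingOfIntegers.coe_norm, Algebra.norm_eq_zero_iff] at this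
    exact hγ0 (FaithfulSMul.algebraMap_injective (𝓞 F) F (by simpa using this))
  · apply FaithfulSMul.algebraMap_injective (𝓞 F) F
    change τ (ζq : F) = _
    rw [hτg]; simp
  · rw [hx]; exact hspan


/-- The K-only Thaine relation from the ramification data of `F = K(ζ_q)` over `K` (hypotheses
`hR1`, `hR2`, `hR4`, `hR5`). -/
theorem thaineCoreV_of_ram (hpq : q % p = 1) (ζ : 𝓞 K) (hζ : IsPrimitiveRoot ζ p) (ζq : 𝓞 F)
    (hζq : IsPrimitiveRoot ζq q)
    (hR1 : ∀ P : Ideal (𝓞 F), P.IsPrime → P ≠ ⊥ → (q : 𝓞 F) ∉ P → P.ramificationIdx (𝓞 K) = 1)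
    (hR2 : ∀ P : Ideal (𝓞 F), P.IsPrime → P ≠ ⊥ → (q : 𝓞 F) ∈ P →
      P.ramificationIdx (𝓞 K) = q - 1)
    (hR4 : ∀ P : Ideal (𝓞 F), P.IsPrime → P ≠ ⊥ → (q : 𝓞 F) ∈ P →
      ∀ (σ : F ≃ₐ[K] F) (y : 𝓞 F), σ • y - y ∈ P)
    (hR5 : ∀ P : Ideal (𝓞 F), P.IsPrime → P ≠ ⊥ → (q : 𝓞 F) ∈ P →
      ζq - 1 ∈ P ∧ ζq - 1 ∉ P ^ 2) :
    ThaineCoreV K ζ q := by
  obtain ⟨τ, g, γ, x, hγ0, hx0, hτζ, hγ, hspan⟩ := exists_hilbert90 K F hpq ζ hζ ζq hζq
  refine ⟨(g : ℤ), x, hx0, ?_⟩
  intro v hv hv0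
  have hvmax : v.IsMaximal := hv.isMaximal hv0
  have hvprime : Prime v := Ideal.prime_of_isPrime hv0 hv
  -- the valuation of `x` at `v`
  have hfinx : FiniteMultiplicity v (Ideal.span {x}) :=
    FiniteMultiplicity.of_not_isUnit hvprime.not_isUnit (by simpa using hx0)
  obtain ⟨r, hr⟩ : ∃ r : ℕ, emultiplicity v (Ideal.span {x}) = r :=
    ⟨_, hfinx.emultiplicity_eq_multiplicity⟩
  rw [emultiplicity_eq_coe, Ideal.dvd_span_singleton, Ideal.dvd_span_singleton] at hr
  obtain ⟨hxr, hxr'⟩ := hr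
  -- a prime of `F` above `v`
  obtain ⟨P, hPmax, hPv⟩ := Ideal.exists_maximal_ideal_liesOver_of_isIntegral (S := 𝓞 F) v
  have hP : P.IsPrime := hPmax.isPrime
  have hP0 : P ≠ ⊥ := by
    rintro rfl
    apply hv0
    rw [hPv.over, Ideal.under_def]
    exact (Ideal.comap_bot_of_injective _ (FaithfulSMul.algebraMap_injective (𝓞 K) (𝓞 F)))
  have hPprime : Prime P := Ideal.prime_of_isPrime hP0 hP
  have hqmem : (q : 𝓞 K) ∈ v ↔ (q : 𝓞 F) ∈ P := by
    rw [hPv.over, Ideal.under_def, Ideal.mem_comap, map_natCast]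
  -- the valuation of `γ` at `P`
  have hfinγ : FiniteMultiplicity P (Ideal.span {γ}) :=
    FiniteMultiplicity.of_not_isUnit hPprime.not_isUnit (by simpa using hγ0)
  obtain ⟨s, hs⟩ : ∃ s : ℕ, emultiplicity P (Ideal.span {γ}) = s :=
    ⟨_, hfinγ.emultiplicity_eq_multiplicity⟩
  have hval := emultiplicity_span_algebraMap v hv0 P hP0 hxr hxr'
  rw [hspan, emultiplicity_pow hPprime, hs] at hval
  have hval' : (q - 1) * s = r * P.ramificationIdx (𝓞 K) := by exact_mod_cast hval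
  rw [emultiplicity_eq_coe, Ideal.dvd_span_singleton, Ideal.dvd_span_singleton] at hs
  obtain ⟨hγs, hγs'⟩ := hs
  refine ⟨r, hxr, hxr', ?_, ?_⟩
  · intro hq'
    rw [hR1 P hP hP0 (fun h => hq' (hqmem.mpr h)), mul_one] at hval'
    exact ⟨s, hval'.symm⟩
  · intro hq'
    have hqP : (q : 𝓞 F) ∈ P := hqmem.mp hq'
    have hq1 : 0 < q - 1 := Nat.sub_pos_of_lt hq.out.one_lt
    rw [hR2 P hP hP0 hqP, mul_comm r] at hval'
    have hsr : s = r := Nat.eq_of_mul_eq_mul_left hq1 hval'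
    subst hsr
    obtain ⟨hπ, hπ2⟩ := hR5 P hP hP0 hqP
    have hg : MulSemiringAction.toRingHom (F ≃ₐ[K] F) (𝓞 F) τ (ζq - 1) - (g : 𝓞 F) * (ζq - 1)
        ∈ P ^ 2 := by
      have := pow_sub_one_sub_mem_sq P hπ g
      rw [MulSemiringAction.toRingHom_apply, smul_sub, smul_one, hτζ]
      exact this
    have key := ThResidue.mul_pow_sub_one_mem hP0
      (MulSemiringAction.toRingHom (F ≃ₐ[K] F) (𝓞 F) τ) (fun y => hR4 P hP hP0 hqP τ y)
      hπ hπ2 hg s hγs hγs' hγ
    -- `key : (ζ - ζ_q) * g ^ s - 1 ∈ P`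
    have key2 : algebraMap (𝓞 K) (𝓞 F) ((ζ - 1) * ((g : ℤ) : 𝓞 K) ^ s - 1) ∈ P := by
      have e : algebraMap (𝓞 K) (𝓞 F) ((ζ - 1) * ((g : ℤ) : 𝓞 K) ^ s - 1)
          = ((algebraMap (𝓞 K) (𝓞 F) ζ - ζq) * (g : 𝓞 F) ^ s - 1) + (ζq - 1) * (g : 𝓞 F) ^ s := by
        simp only [map_sub, map_mul, map_pow, map_one, Int.cast_natCast, map_natCast]
        ring
      rw [e]
      exact P.add_mem key (P.mul_mem_right _ hπ)
    rw [hPv.over, Ideal.under_def, Ideal.mem_comap]
    exact key2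


end Core

/-! ## The ramification table of `F = K(ζ_q)` over `K = ℚ(ζ_p)` -/

section Ram

variable {p q : ℕ} [hp : Fact p.Prime] [hq : Fact q.Prime]
variable (K : Type) [Field K] [NumberField K] [IsCyclotomicExtension {p} ℚ K]
variable (F : Type) [Field F] [NumberField F] [Algebra K F] [IsCyclotomicExtension {q} K F]

/-- Ramification index of `F = K(ζ_q)` over `K` at a prime `P` of `F`, in terms of the rational
prime `ℓ` below `P`: it is `q - 1` if `ℓ = q` and `1` otherwise. -/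
theorem ramificationIdx_table (hne : p ≠ q) (P : Ideal (𝓞 F)) [hP : P.IsPrime] (hP0 : P ≠ ⊥) :
    ((q : 𝓞 F) ∈ P → P.ramificationIdx (𝓞 K) = q - 1) ∧
      ((q : 𝓞 F) ∉ P → P.ramificationIdx (𝓞 K) = 1) := by
  have : NeZero P := ⟨hP0⟩
  have hcyc : IsCyclotomicExtension {p * q} ℚ F :=
    ThSetup.isCyclotomicExtension_mul (p := p) (q := q) K F hne
  set ℓ := Ideal.absNorm (Ideal.under ℤ P) with hℓ
  have hℓp : ℓ.Prime := Nat.absNorm_under_prime P
  have : Fact ℓ.Prime := ⟨hℓp⟩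
  have hPℓ : P.LiesOver (Ideal.span {(ℓ : ℤ)}) := Int.liesOver_span_absNorm P
  have hvℓ : (P.under (𝓞 K)).LiesOver (Ideal.span {(ℓ : ℤ)}) :=
    Ideal.LiesOver.tower_bot P (P.under (𝓞 K)) (Ideal.span {(ℓ : ℤ)})
  have htower := Ideal.ramificationIdx_tower (R := ℤ) (P.under (𝓞 K)) P
  have hqmem : (q : 𝓞 F) ∈ P ↔ ℓ = q := by
    have := Int.cast_mem_ideal_iff (I := P) (d := (q : ℤ))
    rw [Int.cast_natCast] at this
    rw [this, Int.natCast_dvd_natCast, Nat.prime_dvd_prime_iff_eq hℓp hq.out]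
  have hp1 : 0 < p - 1 := Nat.sub_pos_of_lt hp.out.one_lt
  by_cases hℓq : ℓ = q
  · refine ⟨fun _ => ?_, fun h => absurd (hqmem.mpr hℓq) h⟩
    have hqp : ¬ ℓ ∣ p := by
      rw [Nat.prime_dvd_prime_iff_eq hℓp hp.out, hℓq]; exact fun h => hne h.symm
    have hF : P.ramificationIdx ℤ = ℓ ^ 0 * (ℓ - 1) :=
      IsCyclotomicExtension.Rat.ramificationIdx_eq (p * q) F P (m := p) (p := ℓ) (k := 0)
        (by rw [hℓq]; ring) hqp
    have : NeZero p := ⟨hp.out.ne_zero⟩
    have hK : (P.under (𝓞 K)).ramificationIdx ℤ = 1 :=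
      IsCyclotomicExtension.Rat.ramificationIdx_eq_of_not_dvd (m := p) ℓ K (P.under (𝓞 K)) hqp
    rw [hF, hK, one_mul, pow_zero, one_mul, hℓq] at htower
    exact htower.symm
  · refine ⟨fun h => absurd (hqmem.mp h) hℓq, fun _ => ?_⟩
    by_cases hℓp' : ℓ = p
    · have hpq : ¬ ℓ ∣ q := by
        rw [Nat.prime_dvd_prime_iff_eq hℓp hq.out]; exact hℓq
      have hF : P.ramificationIdx ℤ = ℓ ^ 0 * (ℓ - 1) :=
        IsCyclotomicExtension.Rat.ramificationIdx_eq (p * q) F P (m := q) (p := ℓ) (k := 0)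
          (by rw [hℓp']; ring) hpq
      have hK : (P.under (𝓞 K)).ramificationIdx ℤ = ℓ ^ 0 * (ℓ - 1) :=
        IsCyclotomicExtension.Rat.ramificationIdx_eq p K (P.under (𝓞 K)) (m := 1) (p := ℓ) (k := 0)
          (by rw [hℓp']; ring) (by simpa using hℓp.one_lt.ne')
      rw [hF, hK, pow_zero, one_mul, hℓp'] at htower
      exact (Nat.eq_of_mul_eq_mul_left hp1 (by rw [← htower, mul_one])).symm
    · have hnd : ¬ ℓ ∣ p * q := by
        rw [hℓp.dvd_mul, Nat.prime_dvd_prime_iff_eq hℓp hp.out,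
          Nat.prime_dvd_prime_iff_eq hℓp hq.out]
        tauto
      have : NeZero (p * q) := ⟨mul_ne_zero hp.out.ne_zero hq.out.ne_zero⟩
      have hF : P.ramificationIdx ℤ = 1 :=
        IsCyclotomicExtension.Rat.ramificationIdx_eq_of_not_dvd (m := p * q) ℓ F P hnd
      rw [hF] at htower
      exact Nat.eq_one_of_mul_eq_one_left htower.symm


omit [IsCyclotomicExtension {p} ℚ K] [NumberField K] [Algebra K F] [IsCyclotomicExtension {q} K F] in
/-- The multiplicity of a prime `P ∣ q` of `F = ℚ(ζ_{pq})` in `(q)` is `q - 1`. -/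
theorem emultiplicity_span_natCast [hcyc : IsCyclotomicExtension {p * q} ℚ F] (hne : p ≠ q)
    (P : Ideal (𝓞 F)) [hP : P.IsPrime] (hP0 : P ≠ ⊥) (hqP : (q : 𝓞 F) ∈ P) :
    emultiplicity P (Ideal.span {(q : 𝓞 F)}) = ((q - 1 : ℕ) : ℕ∞) := by
  have : NeZero P := ⟨hP0⟩
  have hPq : P.LiesOver (Ideal.span {(q : ℤ)}) := by
    have h1 : P.LiesOver (Ideal.span {((Ideal.absNorm (Ideal.under ℤ P) : ℕ) : ℤ)}) :=
      Int.liesOver_span_absNorm P
    have h2 : Ideal.absNorm (Ideal.under ℤ P) = q := by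
      have := Int.cast_mem_ideal_iff (I := P) (d := (q : ℤ))
      rw [Int.cast_natCast, Int.natCast_dvd_natCast,
        Nat.prime_dvd_prime_iff_eq (Nat.absNorm_under_prime P) hq.out] at this
      exact this.mp hqP
    rwa [h2] at h1
  have hqp : ¬ q ∣ p := by
    rw [Nat.prime_dvd_prime_iff_eq hq.out hp.out]; exact fun h => hne h.symm
  have hF : P.ramificationIdx ℤ = q ^ 0 * (q - 1) :=
    IsCyclotomicExtension.Rat.ramificationIdx_eq (p * q) F P (m := p) (p := q) (k := 0)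
      (by ring) hqp
  have hmap : Ideal.map (algebraMap ℤ (𝓞 F)) (Ideal.span {(q : ℤ)}) = Ideal.span {(q : 𝓞 F)} := by
    rw [Ideal.map_span, Set.image_singleton, map_natCast]
  have hq0 : Ideal.span {(q : 𝓞 F)} ≠ ⊥ := by
    simpa using hq.out.ne_zero
  have hmult := Ideal.IsDedekindDomain.ramificationIdx_eq_multiplicity (Ideal.span {(q : ℤ)}) P
    (by rw [hmap]; exact hq0)
  rw [hmap, hF, pow_zero, one_mul] at hmult
  have hfin : FiniteMultiplicity P (Ideal.span {(q : 𝓞 F)}) :=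
    FiniteMultiplicity.of_not_isUnit (Ideal.prime_of_isPrime hP0 hP).not_isUnit hq0
  rw [hfin.emultiplicity_eq_multiplicity, ← hmult]

omit [IsCyclotomicExtension {p} ℚ K] [NumberField K] [Algebra K F] [IsCyclotomicExtension {q} K F] in
/-- `ζ_q - 1` is a uniformizer at the primes of `F` above `q`. -/
theorem zeta_sub_one_notMem_sq [hcyc : IsCyclotomicExtension {p * q} ℚ F] (hne : p ≠ q)
    (P : Ideal (𝓞 F)) [hP : P.IsPrime] (hP0 : P ≠ ⊥)
    (hqP : (q : 𝓞 F) ∈ P) (ζq : 𝓞 F) (hζq : IsPrimitiveRoot ζq q) : ζq - 1 ∉ P ^ 2 := by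
  intro hmem
  have hq1 : 0 < q - 1 := Nat.sub_pos_of_lt hq.out.one_lt
  have h1 : P ^ (2 * (q - 1)) ∣ Ideal.span {(q : 𝓞 F)} := by
    rw [Ideal.dvd_span_singleton]
    obtain ⟨c, hc⟩ := sub_one_pow_dvd_prime hζq
    rw [hc, pow_mul]
    exact Ideal.mul_mem_right _ _ (Ideal.pow_mem_pow hmem _)
  rw [pow_dvd_iff_le_emultiplicity, emultiplicity_span_natCast (p := p) F hne P hP0 hqP] at h1
  have : 2 * (q - 1) ≤ q - 1 := by exact_mod_cast h1
  omega

/-- `Gal(F/K)` acts trivially modulo the primes of `F` above `q`. -/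
theorem smul_sub_mem (hne : p ≠ q) (hq2 : q ≠ 2) (P : Ideal (𝓞 F)) [hP : P.IsPrime]
    (hqP : (q : 𝓞 F) ∈ P) (σ : F ≃ₐ[K] F) (y : 𝓞 F) : σ • y - y ∈ P := by
  have hcyc : IsCyclotomicExtension {p * q} ℚ F :=
    ThSetup.isCyclotomicExtension_mul (p := p) (q := q) K F hne
  have : NeZero (p * q) := ⟨mul_ne_zero hp.out.ne_zero hq.out.ne_zero⟩
  have : NeZero p := ⟨hp.out.ne_zero⟩
  have hZ := IsCyclotomicExtension.zeta_spec (p * q) ℚ F
  set Z : F := IsCyclotomicExtension.zeta (p * q) ℚ F with hZdef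
  have htop := IsCyclotomicExtension.Rat.adjoin_singleton_eq_top hZ
  -- the subalgebra of elements on which `σ` acts trivially modulo `P`
  let S : Subalgebra ℤ (𝓞 F) :=
    { carrier := {x | σ • x - x ∈ P}
      mul_mem' := by
        intro a b ha hb
        have e : σ • (a * b) - a * b = σ • a * (σ • b - b) + (σ • a - a) * b := by
          rw [smul_mul']; ring
        change σ • (a * b) - a * b ∈ P
        rw [e]
        exact P.add_mem (P.mul_mem_left _ hb) (P.mul_mem_right _ ha)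
      add_mem' := by
        intro a b ha hb
        have e : σ • (a + b) - (a + b) = (σ • a - a) + (σ • b - b) := by
          rw [smul_add]; ring
        change σ • (a + b) - (a + b) ∈ P
        rw [e]
        exact P.add_mem ha hb
      algebraMap_mem' := by
        intro n
        change σ • (algebraMap ℤ (𝓞 F) n) - algebraMap ℤ (𝓞 F) n ∈ P
        have : MulSemiringAction.toRingHom (F ≃ₐ[K] F) (𝓞 F) σ (algebraMap ℤ (𝓞 F) n)
            = algebraMap ℤ (𝓞 F) n := by
          rw [eq_intCast, map_intCast]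
        rw [MulSemiringAction.toRingHom_apply] at this
        rw [this, sub_self]
        exact P.zero_mem }
  have hZS : hZ.toInteger ∈ S := by
    change σ • hZ.toInteger - hZ.toInteger ∈ P
    set Z' : 𝓞 F := hZ.toInteger with hZ'
    have hZ'pow : Z' ^ (p * q) = 1 := hZ.toInteger_isPrimitiveRoot.pow_eq_one
    -- `σ` fixes the `p`-th root of unity `Z' ^ q`
    have hfix : σ • (Z' ^ q) = Z' ^ q := by
      apply FaithfulSMul.algebraMap_injective (𝓞 F) F
      change σ ((Z' ^ q : 𝓞 F) : F) = ((Z' ^ q : 𝓞 F) : F)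
      have hζK := IsCyclotomicExtension.zeta_spec p ℚ K
      have hζF : IsPrimitiveRoot (algebraMap K F (IsCyclotomicExtension.zeta p ℚ K)) p :=
        hζK.map_of_injective (algebraMap K F).injective
      have hpow : (((Z' ^ q : 𝓞 F) : F)) ^ p = 1 := by
        have := congrArg (fun t : 𝓞 F => (t : F)) hZ'pow
        simp only [map_pow, map_one] at this ⊢
        rw [← pow_mul, mul_comm q p]
        exact this
      obtain ⟨i, -, hi⟩ := hζF.eq_pow_of_pow_eq_one hpow
      rw [← hi, ← map_pow, AlgEquiv.commutes]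
    set w : 𝓞 F := σ • Z' * Z' ^ (p * q - 1) with hw
    have hpq1 : p * q - 1 + 1 = p * q := Nat.sub_add_cancel (NeZero.pos (p * q))
    have hwZ : σ • Z' = w * Z' := by
      rw [hw, mul_assoc, ← pow_succ, hpq1, hZ'pow, mul_one]
    have hwq : w ^ q = 1 := by
      have hexp : q + (p * q - 1) * q = (p * q) * q := by
        conv_rhs => rw [← hpq1]
        ring
      rw [hw, mul_pow, ← smul_pow', hfix, ← pow_mul, ← pow_add, hexp, pow_mul, hZ'pow, one_pow]
    have hw1 : w - 1 ∈ P := sub_one_mem_of_pow_eq_one hq.out hq2 P hqP hwq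
    have e : σ • Z' - Z' = (w - 1) * Z' := by rw [hwZ]; ring
    rw [e]
    exact P.mul_mem_right _ hw1
  have hle : Algebra.adjoin ℤ {hZ.toInteger} ≤ S :=
    Algebra.adjoin_le (by simpa using hZS)
  rw [htop] at hle
  exact hle (Algebra.mem_top (x := y))

end Ram


/-! ## The K-only Thaine relation -/

/-- **K-only Thaine relation** (B proof): for primes `p`, `q` with `q ≡ 1 mod p` and
`K = ℚ(ζ_p)`. -/
theorem thaineCoreV_B {p : ℕ} (hp : p.Prime) (K : Type) [Field K] [NumberField K]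
    [IsCyclotomicExtension {p} ℚ K] (ζ : 𝓞 K) (hζ : IsPrimitiveRoot ζ p) (q : ℕ) (hq : q.Prime)
    (hpq : q % p = 1) : ThaineCoreV K ζ q := by
  have : Fact p.Prime := ⟨hp⟩
  have : Fact q.Prime := ⟨hq⟩
  have : NeZero q := ⟨hq.ne_zero⟩
  have hne : p ≠ q := by
    rintro rfl
    rw [Nat.mod_self] at hpq
    exact zero_ne_one hpq
  have hq2 : q ≠ 2 := by
    rintro rfl
    rcases Nat.lt_or_ge 2 p with h | h
    · rw [Nat.mod_eq_of_lt h] at hpq
      exact absurd hpq (by decide)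
    · have hp2 : p = 2 := le_antisymm h hp.two_le
      rw [hp2] at hpq
      exact absurd hpq (by decide)
  have hζqF := IsCyclotomicExtension.zeta_spec q K (CyclotomicField q K)
  have hcyc : IsCyclotomicExtension {p * q} ℚ (CyclotomicField q K) :=
    ThSetup.isCyclotomicExtension_mul (p := p) (q := q) K (CyclotomicField q K) hne
  have hζq' : IsPrimitiveRoot hζqF.toInteger q := hζqF.toInteger_isPrimitiveRoot
  refine thaineCoreV_of_ram K (CyclotomicField q K) hpq ζ hζ hζqF.toInteger hζq' ?_ ?_ ?_ ?_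
  · intro P hP hP0 hqP
    exact (ramificationIdx_table K (CyclotomicField q K) hne P hP0).2 hqP
  · intro P hP hP0 hqP
    exact (ramificationIdx_table K (CyclotomicField q K) hne P hP0).1 hqP
  · intro P hP hP0 hqP σ y
    exact smul_sub_mem K (CyclotomicField q K) hne hq2 P hqP σ y
  · intro P hP hP0 hqP
    exact ⟨sub_one_mem_of_pow_eq_one hq hq2 P hqP hζq'.pow_eq_one,
      zeta_sub_one_notMem_sq (p := p) (CyclotomicField q K) hne P hP0 hqP _ hζq'⟩

/-- The same statement in the binder shape consumed by `thaineCore_of_coreV`. -/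
theorem thaineCoreV_B' {p : ℕ} (hp : p.Prime) :
    ∀ (K : Type) [Field K] [NumberField K] [IsCyclotomicExtension {p} ℚ K] (ζ : 𝓞 K),
      IsPrimitiveRoot ζ p → ∀ q : ℕ, q.Prime → q % p = 1 → ThaineCoreV K ζ q :=
  fun K _ _ _ ζ hζ q hq hpq => thaineCoreV_B hp K ζ hζ q hq hpq

end Fermat.Agent.S14T.ThaineB
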