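/-
S14T — UnitAsm.lean (owner: helper27).

Block [Un-b] of `Plan.lean`: `UnitStatement p` for `5 ≤ p`, from
* `UnitRel p` (helper6, `UnitEigen.unitRel`: `dim (E/E^p)(ω²) ≤ 1`), and
* the mod-`λ³` computation of `EtaCore.lean` (`dvd_of_rel`).
-/
import Fermat.Agent.S14T.EtaCore
import Fermat.Agent.S14T.UnitRel

set_option autoImplicit false

namespace Fermat.Agent.S14T.UnitAsm

open NumberField Finset
open scoped Pointwise nonZeroDivisors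
open Fermat.Agent.S14T.EtaCore

section

variable {p : ℕ} [Fact p.Prime] {K : Type} [Field K] [NumberField K]
  [IsCyclotomicExtension {p} ℚ K] {ζ : 𝓞 K}

/-- The canonical family `a σ ≡ n_σ⁻² (mod p)`. -/
noncomputable def aFam (hζ : IsPrimitiveRoot ζ p) (σ : K ≃ₐ[ℚ] K) : ℕ :=
  (((nOf hζ σ : ZMod p)⁻¹) ^ 2).val

theorem aFam_isInvSq (hζ : IsPrimitiveRoot ζ p) : IsInvSqFamily p K ζ (aFam hζ) := by
  intro σ n hσ
  have hn : (n : ZMod p) = (nOf hζ σ : ZMod p) :=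
    natCast_eq_of_pow_eq (coe_primitive hζ) (by rw [← hσ, nOf_spec hζ σ])
  show ((((nOf hζ σ : ZMod p)⁻¹) ^ 2).val : ZMod p) * (n : ZMod p) ^ 2 = 1
  rw [ZMod.natCast_zmod_val, hn, inv_pow, inv_mul_cancel₀ (pow_ne_zero 2 (nOf_ne_zero hζ σ))]

/-- The unit part of `η_a` is an `ω²`-eigen unit. -/
theorem etaU_unitEigen2 (hζ : IsPrimitiveRoot ζ p) (h5 : 5 ≤ p) {a : (K ≃ₐ[ℚ] K) → ℕ}
    (ha : IsInvSqFamily p K ζ a) : UnitEigen2 p K ζ (etaU_isUnit hζ a).unit := by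
  intro σ n hσ
  obtain ⟨δ, hδ⟩ := etaU_eigen hζ h5 ha σ n hσ
  refine ⟨δ, ?_⟩
  have e : ((σ • etaU hζ a : 𝓞 K) : K) = σ ((etaU hζ a : 𝓞 K) : K) := rfl
  show σ ((etaU hζ a : 𝓞 K) : K) = _
  rw [← e, hδ]
  push_cast
  rfl

/-- A unit satisfying the eigen-hypothesis of `KVHyp` with `y ∈ K` satisfies it with a unit. -/
theorem unitEigen2_of_eigen (ε : (𝓞 K)ˣ)
    (h : ∀ (σ : K ≃ₐ[ℚ] K) (n : ℕ), σ (ζ : K) = (ζ : K) ^ n →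
      ∃ y : K, σ (((ε : 𝓞 K)) : K) = (((ε : 𝓞 K)) : K) ^ (n ^ 2) * y ^ p) :
    UnitEigen2 p K ζ ε := by
  have hp : p.Prime := Fact.out
  intro σ n hσ
  obtain ⟨y, hy⟩ := h σ n hσ
  -- `v = σ(ε)·ε^(-n²)` is a unit of `𝓞 K` with `y ^ p = v`
  set v : 𝓞 K := σ • (ε : 𝓞 K) * ((ε⁻¹ : (𝓞 K)ˣ) : 𝓞 K) ^ (n ^ 2) with hv
  have hvunit : IsUnit v := by
    refine IsUnit.of_mul_eq_one (σ • ((ε⁻¹ : (𝓞 K)ˣ) : 𝓞 K) * (ε : 𝓞 K) ^ (n ^ 2)) ?_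
    calc σ • (ε : 𝓞 K) * ((ε⁻¹ : (𝓞 K)ˣ) : 𝓞 K) ^ (n ^ 2)
          * (σ • ((ε⁻¹ : (𝓞 K)ˣ) : 𝓞 K) * (ε : 𝓞 K) ^ (n ^ 2))
        = σ • ((ε : 𝓞 K) * ((ε⁻¹ : (𝓞 K)ˣ) : 𝓞 K))
          * (((ε⁻¹ : (𝓞 K)ˣ) : 𝓞 K) * (ε : 𝓞 K)) ^ (n ^ 2) := by
          rw [MulDistribMulAction.smul_mul, mul_pow]; ring
      _ = 1 := by rw [Units.mul_inv, Units.inv_mul, smul_one, one_pow, one_mul]
  have hyv : y ^ p = (v : K) := by
    have e : ((σ • (ε : 𝓞 K) : 𝓞 K) : K) = σ (((ε : 𝓞 K)) : K) := rfl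
    have hε0 : (((ε : 𝓞 K)) : K) * ((((ε⁻¹ : (𝓞 K)ˣ) : 𝓞 K)) : K) = 1 := by
      rw [← map_mul, Units.mul_inv, map_one]
    rw [hv]
    push_cast
    rw [AlgEquiv.smul_def, hy]
    calc y ^ p = ((((ε : 𝓞 K)) : K) * ((((ε⁻¹ : (𝓞 K)ˣ) : 𝓞 K)) : K)) ^ (n ^ 2) * y ^ p := by
          rw [hε0, one_pow, one_mul]
      _ = _ := by rw [mul_pow]; ring
  obtain ⟨w, hwy, hwv⟩ := exists_int_of_pow_eq hp.pos y v hyv
  have hwunit : IsUnit w := (isUnit_pow_iff hp.ne_zero).mp (hwv ▸ hvunit)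
  refine ⟨hwunit.unit, ?_⟩
  rw [hy, IsUnit.unit_spec, hwy]

end

theorem unitStatement_of_rel {p : ℕ} (hp : p.Prime) (h5 : 5 ≤ p) (hrel : UnitRel p) :
    UnitStatement p := by
  intro K _ _ _ ζ hζ ε hKV
  have : Fact p.Prime := ⟨hp⟩
  have hp0 : (p : ℤ) ≠ 0 := by exact_mod_cast hp.ne_zero
  have ha := aFam_isInvSq hζ
  set u : (𝓞 K)ˣ := (etaU_isUnit hζ (aFam hζ)).unit with hu
  have hucoe : (u : 𝓞 K) = etaU hζ (aFam hζ) := IsUnit.unit_spec _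
  have hu_eig : UnitEigen2 p K ζ u := etaU_unitEigen2 hζ h5 ha
  have hε : UnitEigen2 p K ζ ε := unitEigen2_of_eigen ε hKV.eigen
  obtain ⟨A, B, δ, hAB, hrelAB⟩ := hrel K ζ hζ ε u hε hu_eig
  obtain ⟨c, hc⟩ := hKV.loc (ε : 𝓞 K) ⟨1, one_ne_zero, by simp⟩ 3
  -- reduce the exponents modulo `p`
  have key : (p : ℤ) ∣ B := by
    have hrA : (((A % p).toNat : ℕ) : ℤ) = A % p :=
      Int.toNat_of_nonneg (Int.emod_nonneg _ hp0)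
    have hrB : (((B % p).toNat : ℕ) : ℤ) = B % p :=
      Int.toNat_of_nonneg (Int.emod_nonneg _ hp0)
    have eA : ε ^ A = ε ^ (A % p).toNat * (ε ^ (A / p)) ^ p := by
      rw [← zpow_natCast ε (A % p).toNat, hrA, ← zpow_natCast _ p, ← zpow_mul, ← zpow_add,
        mul_comm, Int.emod_add_mul_ediv]
    have eB : u ^ B = u ^ (B % p).toNat * (u ^ (B / p)) ^ p := by
      rw [← zpow_natCast u (B % p).toNat, hrB, ← zpow_natCast _ p, ← zpow_mul, ← zpow_add,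
        mul_comm, Int.emod_add_mul_ediv]
    have h' : ε ^ (A % p).toNat * u ^ (B % p).toNat
        = (δ * (ε ^ (A / p) * u ^ (B / p))⁻¹) ^ p := by
      rw [mul_pow, inv_pow, mul_pow, ← hrelAB, eA, eB, eq_mul_inv_iff_mul_eq]
      exact (mul_mul_mul_comm _ _ _ _).symm
    have h'' : (ε : 𝓞 K) ^ (A % p).toNat * etaU hζ (aFam hζ) ^ (B % p).toNat
        = ((δ * (ε ^ (A / p) * u ^ (B / p))⁻¹ : (𝓞 K)ˣ) : 𝓞 K) ^ p := by
      have := congrArg (fun x : (𝓞 K)ˣ => (x : 𝓞 K)) h'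
      simp only [Units.val_mul, Units.val_pow_eq_pow_val] at this
      rw [hucoe] at this
      exact this
    have hdvd := dvd_of_rel h5 hζ ha ε _ c hc _ _ h''
    have h1 : (p : ℤ) ∣ B % p := by
      rw [← hrB]
      exact_mod_cast hdvd
    exact Int.dvd_of_emod_eq_zero (by
      obtain ⟨t, ht⟩ := h1
      have := Int.emod_emod_of_dvd B (dvd_refl (p : ℤ))
      rw [← this, ht]
      simp)
  have hA : ¬ (p : ℤ) ∣ A := fun h => hAB ⟨h, key⟩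
  obtain ⟨b, rfl⟩ := key
  have hεA : ε ^ A = (δ * (u ^ b)⁻¹) ^ p := by
    rw [mul_pow, inv_pow, ← hrelAB, ← zpow_natCast (u ^ b) p, ← zpow_mul, mul_comm b (p : ℤ),
      mul_inv_cancel_right]
  have hcop : IsCoprime A (p : ℤ) :=
    ((Nat.prime_iff_prime_int.mp hp).coprime_iff_not_dvd.mpr hA).symm
  obtain ⟨x, y, hxy⟩ := hcop
  have hfin : ε = ((δ * (u ^ b)⁻¹) ^ x * ε ^ y) ^ p := by
    calc ε = ε ^ (x * A + y * p) := by rw [hxy, zpow_one]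
      _ = (ε ^ A) ^ x * (ε ^ y) ^ (p : ℤ) := by
          rw [zpow_add, mul_comm x A, zpow_mul, zpow_mul]
      _ = (((δ * (u ^ b)⁻¹) ^ (p : ℤ)) ^ x) * (ε ^ y) ^ (p : ℤ) := by
          rw [hεA, ← zpow_natCast (δ * (u ^ b)⁻¹) p]
      _ = ((δ * (u ^ b)⁻¹) ^ x * ε ^ y) ^ (p : ℤ) := by
          rw [mul_zpow ((δ * (u ^ b)⁻¹) ^ x) (ε ^ y), ← zpow_mul (δ * (u ^ b)⁻¹) (p : ℤ) x,
            ← zpow_mul (δ * (u ^ b)⁻¹) x (p : ℤ), mul_comm (p : ℤ) x]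
      _ = _ := zpow_natCast _ _
  refine ⟨((((δ * (u ^ b)⁻¹) ^ x * ε ^ y : (𝓞 K)ˣ) : 𝓞 K) : K), ?_⟩
  have := congrArg (fun z : (𝓞 K)ˣ => (((z : 𝓞 K)) : K)) hfin
  simp only [Units.val_pow_eq_pow_val, map_pow] at this
  exact this

/-- Block [Un-b] of `Plan.lean`. -/
theorem unitStatement {p : ℕ} (hp : p.Prime) (h5 : 5 ≤ p) : UnitStatement p :=
  unitStatement_of_rel hp h5 (Fermat.Agent.S14T.UnitEigen.unitRel hp h5)

end Fermat.Agent.S14T.UnitAsm
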