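/-
S14T — UnitMainB.lean (helper90).  Block [Un] of `Plan.lean`, unconditional (B-chain):
`etaNotPow : EtaNotPow p` ([Un-a]) and `unitStatement : UnitStatement p` ([Un-b]) for `5 ≤ p`,
from `UnitAsmB` (assembly), `UnitEigen.unitRel` ([Un-D], helper6), `EtaCube.etaCube`
([Un-L], helper93) and `PowInt.powInt` ([Un-P]).
-/
import Fermat.Agent.S14T.UnitAsmB
import Fermat.Agent.S14T.UnitRel
import Fermat.Agent.S14T.EtaCube

set_option autoImplicit false

namespace Fermat.Agent.S14T.UnitMainB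

/-- **[Un-a]**: `η_a` is not a `p`-th power in `K` (`5 ≤ p`). -/
theorem etaNotPow {p : ℕ} (hp : p.Prime) (h5 : 5 ≤ p) : EtaNotPow p :=
  UnitAsmB.etaNotPow_of_etaCube hp h5 (EtaCube.etaCube hp h5)

/-- **[Un-b]**: the unit case of `NFCore` (`5 ≤ p`). -/
theorem unitStatement {p : ℕ} (hp : p.Prime) (h5 : 5 ≤ p) : UnitStatement p :=
  UnitAsmB.unitStatement_of_unitRel_etaCube hp h5 (UnitEigen.unitRel hp h5)
    (EtaCube.etaCube hp h5)

end Fermat.Agent.S14T.UnitMainB
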